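/-
W2-C (S55) block A, helper20: finite-group cohomology toolkit — INTERFACE.
Definitions and slice statements (as `Prop`s).  Nothing here is proved by a placeholder.
Namespace `H20A`.
-/
import Mathlib

set_option autoImplicit false

noncomputable section

open CategoryTheory groupCohomology

namespace H20A

/-! ## AH : Herbrand quotient of a pair of endomorphisms

DONE by helper25: `Fermat/Agent/CFT2/A/H25Herbrand.lean` (namespace `H25Herb`): `h0 f g = [ker f : im g]`,
`h1 f g = [ker g : im f]`, `h25herb_mul`, `h25herb_finite`, `h25herb_finiteIndex`, `h25herb_int`. -/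

/-! ## Tate cohomology with the `Fintype` instance fixed; subgroups, vanishing

All statements are for `[Finite G]`; the `Fintype` instance used by Mathlib's `tateCohomology` and
`Representation.norm` is always `Fintype.ofFinite`. -/

variable {G : Type} [Group G] [Finite G]

/-- Tate cohomology `Ĥⁿ(G, A)` (with `Fintype.ofFinite G`) -/
def tate (A : Rep ℤ G) (n : ℤ) : ModuleCat ℤ :=
  letI : Fintype G := Fintype.ofFinite G
  tateCohomology A n

/-- the map induced on Tate cohomology by a morphism -/
def tateMap {A B : Rep ℤ G} (f : A ⟶ B) (n : ℤ) : tate A n →+ tate B n :=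
  letI : Fintype G := Fintype.ofFinite G
  ((tateCohomologyFunctor n).map f).hom.toAddMonoidHom

/-- the norm `N = ∑ g` (with `Fintype.ofFinite G`) -/
def normOf {V : Type} [AddCommGroup V] (ρ : Representation ℤ G V) : V →+ V :=
  letI : Fintype G := Fintype.ofFinite G
  (ρ.norm : V →ₗ[ℤ] V).toAddMonoidHom

/-- restriction of a representation to a subgroup -/
abbrev resSub (A : Rep ℤ G) (H : Subgroup G) : Rep ℤ H := Rep.res H.subtype A

/-- the Tate cohomology of `A` vanishes in degree `n` for all subgroups -/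
def TateVanishes (A : Rep ℤ G) (n : ℤ) : Prop :=
  ∀ H : Subgroup G, Limits.IsZero (tate (resSub A H) n)

/-- the group cohomology of `A` vanishes in degree `n` for all subgroups -/
def CohVanishes (A : Rep ℤ G) (n : ℕ) : Prop :=
  ∀ H : Subgroup G, Limits.IsZero (groupCohomology (resSub A H) n)

/-- `A` is cohomologically trivial -/
def CohTrivial (A : Rep ℤ G) : Prop := ∀ n : ℤ, TateVanishes A n

/-! ## AT0 : Tate cohomology in degrees `0` and `-1`

To avoid the `ℤ`-module diamond of `Rep ℤ G`, explicit statements are about representations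
`ρ : Representation ℤ G V` on an abelian group `V` with its canonical `ℤ`-module structure. -/

/-- an equivariant additive map as a morphism of `Rep` -/
def repHom {V W : Type} [AddCommGroup V] [AddCommGroup W] (ρ : Representation ℤ G V)
    (τ : Representation ℤ G W) (f : V →+ W) (hf : ∀ g v, f (ρ g v) = τ g (f v)) :
    Rep.of ρ ⟶ Rep.of τ :=
  Rep.ofHom ⟨f.toIntLinearMap, fun g => by ext v; exact hf g v⟩

/-- AT0 (degree 0): `Ĥ⁰(G, V) = V^G / N V`, naturally in `V`. -/
def TateZeroStatement (G : Type) [Group G] [Finite G] : Prop :=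
  ∃ π : ∀ (V : Type) [AddCommGroup V] (ρ : Representation ℤ G V),
      ρ.invariants →+ tate (Rep.of ρ) 0,
    (∀ (V : Type) [AddCommGroup V] (ρ : Representation ℤ G V), Function.Surjective (π V ρ)) ∧
    (∀ (V : Type) [AddCommGroup V] (ρ : Representation ℤ G V) (x : ρ.invariants),
      π V ρ x = 0 ↔ ∃ y : V, normOf ρ y = (x : V)) ∧
    (∀ (V W : Type) [AddCommGroup V] [AddCommGroup W] (ρ : Representation ℤ G V)
      (τ : Representation ℤ G W) (f : V →+ W) (hf : ∀ g v, f (ρ g v) = τ g (f v))
      (x : ρ.invariants) (y : τ.invariants), f (x : V) = (y : W) →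
        tateMap (repHom ρ τ f hf) 0 (π V ρ x) = π W τ y)

/-- AT0 (degree -1): `Ĥ⁻¹(G, V) = ker N / I_G V`, naturally in `V`. -/
def TateNegOneStatement (G : Type) [Group G] [Finite G] : Prop :=
  ∃ π : ∀ (V : Type) [AddCommGroup V] (ρ : Representation ℤ G V),
      (normOf ρ).ker →+ tate (Rep.of ρ) (-1),
    (∀ (V : Type) [AddCommGroup V] (ρ : Representation ℤ G V), Function.Surjective (π V ρ)) ∧
    (∀ (V : Type) [AddCommGroup V] (ρ : Representation ℤ G V) (x : (normOf ρ).ker),
      π V ρ x = 0 ↔ (x : V) ∈ Representation.Coinvariants.ker ρ) ∧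
    (∀ (V W : Type) [AddCommGroup V] [AddCommGroup W] (ρ : Representation ℤ G V)
      (τ : Representation ℤ G W) (f : V →+ W) (hf : ∀ g v, f (ρ g v) = τ g (f v))
      (x : (normOf ρ).ker) (y : (normOf τ).ker), f (x : V) = (y : W) →
        tateMap (repHom ρ τ f hf) (-1) (π V ρ x) = π W τ y)

/-! ## AI : induced modules and dimension shifting -/

/-- the coinduced module `Map(G, V)` with `(g • φ)(x) = φ(x g)` -/
def coindOne (G : Type) [Group G] (V : Type) [AddCommGroup V] : Rep ℤ G :=
  Rep.of (k := ℤ) (G := G) (X := G → V)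
    { toFun := fun g => { toFun := fun φ x => φ (x * g), map_add' := fun _ _ => rfl,
                          map_smul' := fun _ _ => rfl }
      map_one' := by ext φ x; simp
      map_mul' := fun g h => by ext φ x; simp [mul_assoc] }

/-- AI1: coinduced modules are cohomologically trivial. -/
def CoindTrivialStatement (G : Type) [Group G] [Finite G] : Prop :=
  ∀ (V : Type) [AddCommGroup V], CohTrivial (coindOne G V)

/-- AI2: dimension shifting (up). -/
def DimShiftUpStatement (G : Type) [Group G] [Finite G] : Prop :=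
  ∀ A : Rep ℤ G, ∃ A' : Rep ℤ G, ∀ (H : Subgroup G) (n : ℤ),
    Nonempty (tate (resSub A' H) n ≅ tate (resSub A H) (n + 1))

/-- AI3: dimension shifting (down). -/
def DimShiftDownStatement (G : Type) [Group G] [Finite G] : Prop :=
  ∀ A : Rep ℤ G, ∃ A' : Rep ℤ G, ∀ (H : Subgroup G) (n : ℤ),
    Nonempty (tate (resSub A' H) n ≅ tate (resSub A H) (n - 1))

/-! ## AR : restriction and corestriction -/

/-- restriction `Hⁿ(G, A) → Hⁿ(H, A)` -/
def resCoh (A : Rep ℤ G) (H : Subgroup G) (n : ℕ) :
    groupCohomology A n →+ groupCohomology (resSub A H) n :=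
  (groupCohomology.map H.subtype (𝟙 (resSub A H)) n).hom.toAddMonoidHom

/-- AR1: `cor ∘ res = [G : H]` in the form: the kernel of `res` is killed by the index. -/
def IndexKillsCohStatement (G : Type) [Group G] [Finite G] : Prop :=
  ∀ (A : Rep ℤ G) (H : Subgroup G) (n : ℕ) (x : groupCohomology A n),
    resCoh A H n x = 0 → H.index • x = 0

/-- AR2: the same for Tate cohomology (all degrees), in the vanishing form. -/
def IndexKillsTateStatement (G : Type) [Group G] [Finite G] : Prop :=
  ∀ (A : Rep ℤ G) (H : Subgroup G) (n : ℤ),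
    Limits.IsZero (tate (resSub A H) n) →
      ∀ x : tate A n, H.index • x = 0

/-- AR3: Sylow reduction. -/
def SylowStatement (G : Type) [Group G] [Finite G] : Prop :=
  ∀ (A : Rep ℤ G) (n : ℤ),
    (∀ (p : ℕ) [Fact p.Prime] (P : Sylow p G),
      Limits.IsZero (tate (resSub A (P : Subgroup G)) n)) →
    Limits.IsZero (tate A n)

/-! ## AF : inflation-restriction -/

/-- inflation `Hⁿ(G/S, A^S) → Hⁿ(G, A)` -/
def infCoh (A : Rep ℤ G) (S : Subgroup G) [S.Normal] (n : ℕ) :
    groupCohomology (A.quotientToInvariants S) n →+ groupCohomology A n :=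
  ((groupCohomology.infNatTrans ℤ S n).app A).hom.toAddMonoidHom

/-- AF: if `Hⁱ(S, A) = 0` for `0 < i < n` then
`0 → Hⁿ(G/S, A^S) → Hⁿ(G, A) → Hⁿ(S, A)` is exact. -/
def InfResStatement (G : Type) [Group G] [Finite G] (n : ℕ) : Prop :=
  0 < n → ∀ (A : Rep ℤ G) (S : Subgroup G) [S.Normal],
    (∀ i : ℕ, 0 < i → i < n → Limits.IsZero (groupCohomology (resSub A S) i)) →
    Function.Injective (infCoh A S n) ∧
    ∀ x : groupCohomology A n, resCoh A S n x = 0 ↔ ∃ y, infCoh A S n y = x

/-! ## AC : cyclic groups -/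

/-- AC: periodicity of Tate cohomology for cyclic groups. -/
def CyclicPeriodStatement (G : Type) [Group G] [Finite G] : Prop :=
  IsCyclic G → ∀ (A : Rep ℤ G) (n : ℤ), Nonempty (tate A n ≅ tate A (n + 2))

/-- `σ - 1` as an additive endomorphism -/
def subOne {V : Type} [AddCommGroup V] (ρ : Representation ℤ G V) (σ : G) : V →+ V :=
  (ρ σ - 1 : V →ₗ[ℤ] V).toAddMonoidHom

/-- AC2: for a cyclic group with generator `σ`, `|H²| = [ker(σ-1) : im N]` and
`|H¹| = [ker N : im(σ-1)]` (these are `H25Herb.h0 (σ-1) N` and `H25Herb.h1 (σ-1) N`). -/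
def CyclicCardStatement (G : Type) [Group G] [Finite G] : Prop :=
  ∀ (V : Type) [AddCommGroup V] (ρ : Representation ℤ G V) (σ : G),
    (∀ x : G, x ∈ Subgroup.zpowers σ) →
    Nat.card (groupCohomology (Rep.of ρ) 2) = (normOf ρ).range.relIndex (subOne ρ σ).ker ∧
    Nat.card (groupCohomology (Rep.of ρ) 1) = (subOne ρ σ).range.relIndex (normOf ρ).ker

/-! ## AV : cohomological triviality -/

/-- AV: if `H¹(H, A) = H²(H, A) = 0` for all subgroups `H`, then `A` is cohomologically
trivial. -/
def CohTrivStatement (G : Type) [Group G] [Finite G] : Prop :=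
  ∀ A : Rep ℤ G, CohVanishes A 1 → CohVanishes A 2 → CohTrivial A

/-! ## ATate : class modules and Tate's theorem -/

/-- `(C, γ)` is a class module: for every subgroup `H`, `H¹(H, C) = 0` and `H²(H, C)` is
cyclic of order `|H|`, generated by the restriction of `γ`. -/
structure IsClassModule (C : Rep ℤ G) (γ : groupCohomology C 2) : Prop where
  h1 : CohVanishes C 1
  card : ∀ H : Subgroup G, Nat.card (groupCohomology (resSub C H) 2) = Nat.card H
  gen : ∀ (H : Subgroup G) (x : groupCohomology (resSub C H) 2),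
    ∃ k : ℤ, x = k • resCoh C H 2 γ

/-- ATate: Tate's theorem. -/
def TateTheoremStatement (G : Type) [Group G] [Finite G] : Prop :=
  ∀ (C : Rep ℤ G) (γ : groupCohomology C 2), IsClassModule C γ → ∀ n : ℤ,
    Nonempty (tate (Rep.trivial ℤ G ℤ) n ≅ tate C (n + 2))

end H20A

end
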