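import Mathlib

/-!
# W2-C (S55), block A (helper25): the abstract Herbrand quotient

For an abelian group `B` with two endomorphisms `f g` (`f ∘ g = 0 = g ∘ f`) put
`h0 = [ker f : im g]`, `h1 = [ker g : im f]` (as `AddSubgroup.relIndex`, so `0` means infinite).

* `H25Herb.h25herb_internal`: for an `(f, g)`-stable subgroup `A ≤ B`, six numbers
  `a0 b0 c0 a1 b1 c1` with `h0(A) = a0 b0`, `h1(A) = a1 b1`, `h0(B) = b0 c0`, `h1(B) = b1 c1`,
  `h0(B/A) = a1 c0`, `h1(B/A) = a0 c1` (everything computed inside `B`).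
* `H25Herb.h25herb_mul`: for a short exact sequence `0 → A →i B →π C → 0` compatible with the
  endomorphism pairs: `h0 B * h1 A * h1 C = h1 B * h0 A * h0 C` (in `ℕ`, unconditionally), and
  if two of the three Herbrand quotients are defined (`h0, h1 ≠ 0`) so is the third.
* `H25Herb.h25herb_finite`: for finite `A`, `h0 = h1` (and both are nonzero).
-/

set_option autoImplicit false

namespace H25Herb

variable {B : Type*} [AddCommGroup B]

/-- `h0 = [ker f : im g]` -/
noncomputable def h0 (f g : B →+ B) : ℕ := g.range.relIndex f.ker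

/-- `h1 = [ker g : im f]` -/
noncomputable def h1 (f g : B →+ B) : ℕ := f.range.relIndex g.ker

theorem h1_eq_h0_swap (f g : B →+ B) : h1 f g = h0 g f := rfl

section internal

variable (f g : B →+ B) (hfg : ∀ x, f (g x) = 0) (A : AddSubgroup B)

/-- `[A ∩ im g : g A]` -/
noncomputable def idxA : ℕ := (A.map g).relIndex (A ⊓ g.range)

/-- `[A ∩ ker f : A ∩ im g]` -/
noncomputable def idxB : ℕ := (A ⊓ g.range).relIndex (A ⊓ f.ker)

/-- `[ker f : im g + (A ∩ ker f)]` -/
noncomputable def idxC : ℕ := (g.range ⊔ (A ⊓ f.ker)).relIndex f.ker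

include hfg in
theorem range_le_ker : g.range ≤ f.ker := by
  rintro _ ⟨x, rfl⟩
  exact hfg x

include hfg in
/-- `[A ∩ ker f : g A] = idxA * idxB` -/
theorem h0_sub (hgA : ∀ x ∈ A, g x ∈ A) :
    (A.map g).relIndex (A ⊓ f.ker) = idxA g A * idxB f g A := by
  unfold idxA idxB
  have h1 : A.map g ≤ A ⊓ g.range := by
    rintro _ ⟨x, hx, rfl⟩
    exact ⟨hgA x hx, ⟨x, rfl⟩⟩
  have h2 : A ⊓ g.range ≤ A ⊓ f.ker := inf_le_inf_left A (range_le_ker f g hfg)
  exact (AddSubgroup.relIndex_mul_relIndex _ _ _ h1 h2).symm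

include hfg in
/-- `[ker f : im g] = idxB * idxC` -/
theorem h0_total : h0 f g = idxB f g A * idxC f g A := by
  unfold h0 idxB idxC
  have hle := range_le_ker f g hfg
  have h1 : g.range ≤ g.range ⊔ (A ⊓ f.ker) := le_sup_left
  have h2 : g.range ⊔ (A ⊓ f.ker) ≤ f.ker := sup_le hle inf_le_right
  rw [← AddSubgroup.relIndex_mul_relIndex _ _ _ h1 h2]
  congr 1
  rw [AddSubgroup.relIndex_sup_left, ← AddSubgroup.inf_relIndex_right]
  congr 1
  -- g.range ⊓ (A ⊓ f.ker) = A ⊓ g.range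
  apply le_antisymm
  · exact le_inf (inf_le_right.trans inf_le_left) inf_le_left
  · exact le_inf inf_le_right (le_inf inf_le_left (inf_le_right.trans hle))

include hfg in
/-- `[f⁻¹ A : im g + A] = idxA(swap) * idxC`, the `h0` of the quotient `B / A`. -/
theorem h0_quot (hfA : ∀ x ∈ A, f x ∈ A) :
    (g.range ⊔ A).relIndex (A.comap f) = idxA f A * idxC f g A := by
  unfold idxA idxC
  have hle := range_le_ker f g hfg
  have hAc : A ≤ A.comap f := fun x hx => hfA x hx
  have hkc : f.ker ≤ A.comap f := by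
    intro x hx
    show f x ∈ A
    rw [AddMonoidHom.mem_ker.mp hx]
    exact A.zero_mem
  have h1 : g.range ⊔ A ≤ f.ker ⊔ A := sup_le_sup_right hle A
  have h2 : f.ker ⊔ A ≤ A.comap f := sup_le hkc hAc
  rw [← AddSubgroup.relIndex_mul_relIndex _ _ _ h1 h2, mul_comm]
  congr 1
  · -- [f⁻¹A : ker f + A] = [A ∩ im f : f A]
    have e : f.ker ⊔ A = (A.map f).comap f := by
      rw [AddSubgroup.comap_map_eq, sup_comm]
    rw [e, AddSubgroup.relIndex_comap, AddSubgroup.map_comap_eq, inf_comm]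
  · -- [ker f + A : im g + A] = [ker f : im g + (A ∩ ker f)]
    have e1 : f.ker ⊔ A = (g.range ⊔ A) ⊔ f.ker := by
      apply le_antisymm
      · exact sup_le le_sup_right (le_sup_right.trans le_sup_left)
      · exact sup_le (sup_le (hle.trans le_sup_left) le_sup_right) le_sup_left
    have e2 : (g.range ⊔ A) ⊓ f.ker = g.range ⊔ (A ⊓ f.ker) := sup_inf_assoc_of_le A hle
    rw [e1, AddSubgroup.relIndex_sup_left, ← AddSubgroup.inf_relIndex_right, e2]

end internal

/-- the Herbrand quotient is defined: both indices are finite -/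
def Defined (f g : B →+ B) : Prop := h0 f g ≠ 0 ∧ h1 f g ≠ 0

section external

variable {A C : Type*} [AddCommGroup A] [AddCommGroup C]
  (fA gA : A →+ A) (fB gB : B →+ B) (fC gC : C →+ C) (i : A →+ B) (π : B →+ C)

theorem h0_eq_sub (hi : Function.Injective i) (hfi : ∀ a, i (fA a) = fB (i a))
    (hgi : ∀ a, i (gA a) = gB (i a)) :
    h0 fA gA = (i.range.map gB).relIndex (i.range ⊓ fB.ker) := by
  unfold h0
  rw [← AddSubgroup.relIndex_map_map_of_injective gA.range fA.ker hi]
  congr 1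
  · ext x
    constructor
    · rintro ⟨_, ⟨a, rfl⟩, rfl⟩
      exact ⟨i a, ⟨a, rfl⟩, (hgi a).symm⟩
    · rintro ⟨_, ⟨a, rfl⟩, rfl⟩
      exact ⟨gA a, ⟨a, rfl⟩, hgi a⟩
  · ext x
    constructor
    · rintro ⟨a, ha, rfl⟩
      have ha' : fA a = 0 := ha
      refine ⟨⟨a, rfl⟩, ?_⟩
      show fB (i a) = 0
      rw [← hfi, ha', map_zero]
    · rintro ⟨⟨a, rfl⟩, hx⟩
      have hx' : fB (i a) = 0 := hx
      refine ⟨a, ?_, rfl⟩
      show fA a = 0
      apply hi
      rw [hfi, map_zero]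
      exact hx'

theorem h0_eq_quot (hπ : Function.Surjective π) (hex : π.ker = i.range)
    (hfπ : ∀ b, π (fB b) = fC (π b)) (hgπ : ∀ b, π (gB b) = gC (π b)) :
    h0 fC gC = (gB.range ⊔ i.range).relIndex (i.range.comap fB) := by
  unfold h0
  have e1 : gC.range.comap π = gB.range ⊔ i.range := by
    have : gC.range = gB.range.map π := by
      ext x
      constructor
      · rintro ⟨c, rfl⟩
        obtain ⟨b, rfl⟩ := hπ c
        exact ⟨gB b, ⟨b, rfl⟩, hgπ b⟩
      · rintro ⟨_, ⟨b, rfl⟩, rfl⟩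
        exact ⟨π b, (hgπ b).symm⟩
    rw [this, AddSubgroup.comap_map_eq, hex]
  have e2 : fC.ker.comap π = i.range.comap fB := by
    ext x
    show fC (π x) = 0 ↔ fB x ∈ i.range
    rw [← hfπ, ← hex, AddMonoidHom.mem_ker]
  rw [← e1, ← e2, AddSubgroup.relIndex_comap, AddSubgroup.map_comap_eq_self_of_surjective hπ]

variable (hfg : ∀ x, fB (gB x) = 0) (hgf : ∀ x, gB (fB x) = 0)
  (hi : Function.Injective i) (hπ : Function.Surjective π) (hex : π.ker = i.range)
  (hfi : ∀ a, i (fA a) = fB (i a)) (hgi : ∀ a, i (gA a) = gB (i a))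
  (hfπ : ∀ b, π (fB b) = fC (π b)) (hgπ : ∀ b, π (gB b) = gC (π b))

include hfg hgf hi hπ hex hfi hgi hfπ hgπ

/-- The six-index factorisation for a short exact sequence. -/
theorem h25herb_factor :
    ∃ a0 b0 c0 a1 b1 c1 : ℕ,
      h0 fA gA = a0 * b0 ∧ h1 fA gA = a1 * b1 ∧ h0 fB gB = b0 * c0 ∧ h1 fB gB = b1 * c1 ∧
      h0 fC gC = a1 * c0 ∧ h1 fC gC = a0 * c1 := by
  have hfS : ∀ x ∈ i.range, fB x ∈ i.range := by
    rintro _ ⟨a, rfl⟩
    exact ⟨fA a, hfi a⟩
  have hgS : ∀ x ∈ i.range, gB x ∈ i.range := by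
    rintro _ ⟨a, rfl⟩
    exact ⟨gA a, hgi a⟩
  refine ⟨idxA gB i.range, idxB fB gB i.range, idxC fB gB i.range,
    idxA fB i.range, idxB gB fB i.range, idxC gB fB i.range, ?_, ?_, ?_, ?_, ?_, ?_⟩
  · rw [h0_eq_sub fA gA fB gB i hi hfi hgi]
    exact h0_sub fB gB hfg i.range hgS
  · rw [h1_eq_h0_swap, h0_eq_sub gA fA gB fB i hi hgi hfi]
    exact h0_sub gB fB hgf i.range hfS
  · exact h0_total fB gB hfg i.range
  · rw [h1_eq_h0_swap]
    exact h0_total gB fB hgf i.range
  · rw [h0_eq_quot fB gB fC gC i π hπ hex hfπ hgπ]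
    exact h0_quot fB gB hfg i.range hfS
  · rw [h1_eq_h0_swap, h0_eq_quot gB fB gC fC i π hπ hex hgπ hfπ]
    exact h0_quot gB fB hgf i.range hgS

/-- **Multiplicativity of the Herbrand quotient** (in `ℕ`, unconditional). -/
theorem h25herb_mul :
    h0 fB gB * h1 fA gA * h1 fC gC = h1 fB gB * h0 fA gA * h0 fC gC := by
  obtain ⟨a0, b0, c0, a1, b1, c1, e1, e2, e3, e4, e5, e6⟩ :=
    h25herb_factor fA gA fB gB fC gC i π hfg hgf hi hπ hex hfi hgi hfπ hgπ
  rw [e1, e2, e3, e4, e5, e6]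
  ring

theorem h25herb_defined_mid (hA : Defined fA gA) (hC : Defined fC gC) : Defined fB gB := by
  obtain ⟨a0, b0, c0, a1, b1, c1, e1, e2, e3, e4, e5, e6⟩ :=
    h25herb_factor fA gA fB gB fC gC i π hfg hgf hi hπ hex hfi hgi hfπ hgπ
  unfold Defined at *
  rw [e1, e2] at hA
  rw [e5, e6] at hC
  rw [e3, e4]
  simp only [ne_eq, mul_eq_zero, not_or] at *
  tauto

theorem h25herb_defined_left (hB : Defined fB gB) (hC : Defined fC gC) : Defined fA gA := by
  obtain ⟨a0, b0, c0, a1, b1, c1, e1, e2, e3, e4, e5, e6⟩ :=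
    h25herb_factor fA gA fB gB fC gC i π hfg hgf hi hπ hex hfi hgi hfπ hgπ
  unfold Defined at *
  rw [e3, e4] at hB
  rw [e5, e6] at hC
  rw [e1, e2]
  simp only [ne_eq, mul_eq_zero, not_or] at *
  tauto

theorem h25herb_defined_right (hA : Defined fA gA) (hB : Defined fB gB) : Defined fC gC := by
  obtain ⟨a0, b0, c0, a1, b1, c1, e1, e2, e3, e4, e5, e6⟩ :=
    h25herb_factor fA gA fB gB fC gC i π hfg hgf hi hπ hex hfi hgi hfπ hgπ
  unfold Defined at *
  rw [e1, e2] at hA
  rw [e3, e4] at hB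
  rw [e5, e6]
  simp only [ne_eq, mul_eq_zero, not_or] at *
  tauto

end external

section finite

variable (f g : B →+ B)

/-- `|im g| * [ker f : im g] = |ker f|` -/
theorem card_range_mul_h0 (hfg : ∀ x, f (g x) = 0) :
    Nat.card g.range * h0 f g = Nat.card f.ker := by
  unfold h0
  rw [← AddSubgroup.relIndex_bot_left, ← AddSubgroup.relIndex_bot_left]
  exact AddSubgroup.relIndex_mul_relIndex ⊥ g.range f.ker bot_le (range_le_ker f g hfg)

theorem card_ker_mul_card_range : Nat.card f.ker * Nat.card f.range = Nat.card B := by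
  rw [← AddSubgroup.index_ker]
  exact AddSubgroup.card_mul_index f.ker

/-- **The Herbrand quotient of a finite group is `1`.** -/
theorem h25herb_finite [Finite B] (hfg : ∀ x, f (g x) = 0) (hgf : ∀ x, g (f x) = 0) :
    h0 f g = h1 f g ∧ Defined f g := by
  have hB : Nat.card B ≠ 0 := Nat.card_pos.ne'
  have e0 := card_range_mul_h0 f g hfg
  have e1 := card_range_mul_h0 g f hgf
  have k0 := card_ker_mul_card_range f
  have k1 := card_ker_mul_card_range g
  rw [← h1_eq_h0_swap] at e1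
  have hrf : Nat.card f.range ≠ 0 := Nat.card_pos.ne'
  have hrg : Nat.card g.range ≠ 0 := Nat.card_pos.ne'
  have key : Nat.card g.range * Nat.card f.range * h0 f g =
      Nat.card g.range * Nat.card f.range * h1 f g := by
    calc Nat.card g.range * Nat.card f.range * h0 f g
        = (Nat.card g.range * h0 f g) * Nat.card f.range := by ring
      _ = Nat.card B := by rw [e0, k0]
      _ = (Nat.card f.range * h1 f g) * Nat.card g.range := by rw [e1, k1]
      _ = Nat.card g.range * Nat.card f.range * h1 f g := by ring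
  have heq : h0 f g = h1 f g := Nat.eq_of_mul_eq_mul_left (Nat.pos_of_ne_zero (mul_ne_zero hrg hrf)) key
  refine ⟨heq, ?_, ?_⟩
  · intro h
    rw [h, mul_zero] at e0
    have : Nat.card f.ker ≠ 0 := Nat.card_pos.ne'
    exact this e0.symm
  · intro h
    rw [h, mul_zero] at e1
    have : Nat.card g.ker ≠ 0 := Nat.card_pos.ne'
    exact this e1.symm

end finite

section finiteIndex

variable {A : Type*} [AddCommGroup A]
  (fA gA : A →+ A) (fB gB : B →+ B) (i : A →+ B)

/-- **Finite-index invariance**: a stable subgroup of finite index has the same Herbrand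
quotient. -/
theorem h25herb_finiteIndex (hfg : ∀ x, fB (gB x) = 0) (hgf : ∀ x, gB (fB x) = 0)
    (hi : Function.Injective i) (hfi : ∀ a, i (fA a) = fB (i a))
    (hgi : ∀ a, i (gA a) = gB (i a)) (hfin : i.range.index ≠ 0) :
    h0 fB gB * h1 fA gA = h1 fB gB * h0 fA gA ∧ (Defined fA gA ↔ Defined fB gB) := by
  have hfS : i.range ≤ i.range.comap fB := by
    rintro _ ⟨a, rfl⟩
    exact ⟨fA a, hfi a⟩
  have hgS : i.range ≤ i.range.comap gB := by
    rintro _ ⟨a, rfl⟩
    exact ⟨gA a, hgi a⟩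
  let fC : B ⧸ i.range →+ B ⧸ i.range := QuotientAddGroup.map i.range i.range fB hfS
  let gC : B ⧸ i.range →+ B ⧸ i.range := QuotientAddGroup.map i.range i.range gB hgS
  let π : B →+ B ⧸ i.range := QuotientAddGroup.mk' i.range
  have hπ : Function.Surjective π := QuotientAddGroup.mk'_surjective _
  have hex : π.ker = i.range := QuotientAddGroup.ker_mk' _
  have hfπ : ∀ b, π (fB b) = fC (π b) := fun b => rfl
  have hgπ : ∀ b, π (gB b) = gC (π b) := fun b => rfl
  have hfgC : ∀ x, fC (gC x) = 0 := by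
    intro x
    obtain ⟨b, rfl⟩ := hπ x
    rw [← hgπ, ← hfπ, hfg, map_zero]
  have hgfC : ∀ x, gC (fC x) = 0 := by
    intro x
    obtain ⟨b, rfl⟩ := hπ x
    rw [← hfπ, ← hgπ, hgf, map_zero]
  have hCfin : Finite (B ⧸ i.range) := by
    have : i.range.FiniteIndex := ⟨hfin⟩
    exact AddSubgroup.finite_quotient_of_finiteIndex
  obtain ⟨heq, hd0, hd1⟩ := h25herb_finite fC gC hfgC hgfC
  have hmul := h25herb_mul fA gA fB gB fC gC i π hfg hgf hi hπ hex hfi hgi hfπ hgπ
  refine ⟨?_, ?_, ?_⟩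
  · rw [← heq] at hmul
    have h1C : h0 fC gC ≠ 0 := hd0
    exact Nat.eq_of_mul_eq_mul_right (Nat.pos_of_ne_zero h1C) hmul
  · intro hA
    exact h25herb_defined_mid fA gA fB gB fC gC i π hfg hgf hi hπ hex hfi hgi hfπ hgπ hA
      ⟨hd0, hd1⟩
  · intro hB
    exact h25herb_defined_left fA gA fB gB fC gC i π hfg hgf hi hπ hex hfi hgi hfπ hgπ hB
      ⟨hd0, hd1⟩

end finiteIndex

section examples

/-- `ℤ` with trivial action of a cyclic group of order `n`: `f = g - 1 = 0`, `N = n`: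
`h0 = n`, `h1 = 1`. -/
theorem h25herb_int (n : ℕ) (hn : n ≠ 0) :
    h0 (0 : ℤ →+ ℤ) (n • AddMonoidHom.id ℤ) = n ∧ h1 (0 : ℤ →+ ℤ) (n • AddMonoidHom.id ℤ) = 1 := by
  constructor
  · unfold h0
    have hk : (0 : ℤ →+ ℤ).ker = ⊤ := by
      ext x
      simp
    rw [hk, AddSubgroup.relIndex_top_right]
    have hr : (n • AddMonoidHom.id ℤ).range = AddSubgroup.zmultiples (n : ℤ) := by
      ext x
      constructor
      · rintro ⟨y, rfl⟩
        rw [AddSubgroup.mem_zmultiples_iff]
        exact ⟨y, by simp [mul_comm]⟩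
      · intro hx
        rw [AddSubgroup.mem_zmultiples_iff] at hx
        obtain ⟨k, rfl⟩ := hx
        exact ⟨k, by simp [mul_comm]⟩
    rw [hr, Int.index_zmultiples]
    simp
  · unfold h1
    have hk : (n • AddMonoidHom.id ℤ).ker = ⊥ := by
      ext x
      simp [AddMonoidHom.mem_ker, hn]
    rw [hk]
    have hr : (0 : ℤ →+ ℤ).range = ⊥ := by
      ext x
      simp
    rw [hr]
    exact AddSubgroup.relIndex_self ⊥

end examples

end H25Herb
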