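import Mathlib
import Fermat.Agent.CFT2.A.H25Herbrand

/-!
# W2-C (S55), block A, slice AH (helper25): Herbrand quotient and cohomology of cyclic groups

For a finite cyclic group `G = ⟨g⟩` and `A : Rep k G`, with `D = ρ(g) - 1` and `N` the norm:
`|Hⁱ(G, A)| = [ker D : im N] = h0 D N` for even `i > 0` and `|Hⁱ(G, A)| = [ker N : im D] = h1 D N`
for odd `i`.
-/

set_option autoImplicit false

universe u

open CategoryTheory

namespace H25Herb

/-- cardinality of the image of a surjection from a subgroup, with prescribed kernel -/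
theorem card_eq_relIndex {B H : Type*} [AddCommGroup B] [AddCommGroup H]
    (K R : AddSubgroup B) (φ : K →+ H) (hφ : Function.Surjective φ)
    (hker : ∀ x : K, φ x = 0 ↔ x.1 ∈ R) : Nat.card H = R.relIndex K := by
  have h1 : φ.ker = R.addSubgroupOf K := by
    ext x
    rw [AddMonoidHom.mem_ker, hker, AddSubgroup.mem_addSubgroupOf]
  have h2 : φ.range = ⊤ := AddMonoidHom.range_eq_top.mpr hφ
  unfold AddSubgroup.relIndex
  rw [← h1, AddSubgroup.index_ker, h2]
  exact (Nat.card_congr (AddSubgroup.topEquiv (G := H)).toEquiv).symm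

variable {k G : Type u} [CommRing k] [CommGroup G] [Fintype G] (A : Rep k G) (g : G)
  (hg : ∀ x, x ∈ Subgroup.zpowers g)

/-- `D = ρ(g) - 1` as an additive endomorphism -/
noncomputable def cycD : A.V →+ A.V :=
  ((Rep.applyAsHom A g - 𝟙 A).hom.toLinearMap).toAddMonoidHom

/-- the norm `N = Σ_{h ∈ G} ρ(h)` as an additive endomorphism -/
noncomputable def cycN : A.V →+ A.V :=
  (A.norm.hom.toLinearMap).toAddMonoidHom

theorem cycD_ker :
    (cycD A g).ker = (LinearMap.ker (Rep.applyAsHom A g - 𝟙 A).hom.toLinearMap).toAddSubgroup := by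
  ext x
  rfl

theorem cycD_range :
    (cycD A g).range =
      (LinearMap.range (Rep.applyAsHom A g - 𝟙 A).hom.toLinearMap).toAddSubgroup := by
  ext x
  rfl

theorem cycN_ker :
    (cycN A).ker = (LinearMap.ker A.norm.hom.toLinearMap).toAddSubgroup := by
  ext x
  rfl

theorem cycN_range :
    (cycN A).range = (LinearMap.range A.norm.hom.toLinearMap).toAddSubgroup := by
  ext x
  rfl

/-- cardinality of the image of a linear surjection from a submodule, with prescribed kernel -/
theorem card_eq_relIndex_submodule {B H : Type*} [AddCommGroup B] [AddCommGroup H]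
    [Module k B] [Module k H] (K R : Submodule k B) (φ : K →ₗ[k] H)
    (hφ : Function.Surjective φ) (hker : ∀ x : K, φ x = 0 ↔ x.1 ∈ R) :
    Nat.card H = R.toAddSubgroup.relIndex K.toAddSubgroup :=
  card_eq_relIndex K.toAddSubgroup R.toAddSubgroup φ.toAddMonoidHom hφ hker

include hg in
/-- `|Hⁱ(G, A)| = [ker (ρ(g) - 1) : im N]` for even `i > 0`. -/
theorem card_groupCohomology_even (i : ℕ) [NeZero i] (hi : Even i) :
    Nat.card (groupCohomology A i) = h0 (cycD A g) (cycN A) := by
  unfold h0
  rw [cycD_ker, cycN_range]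
  refine card_eq_relIndex_submodule _ _
    (Rep.FiniteCyclicGroup.groupCohomologyπEven A g hg i hi).hom ?_ ?_
  · have hepi : Epi (Rep.FiniteCyclicGroup.groupCohomologyπEven A g hg i hi) := by
      delta Rep.FiniteCyclicGroup.groupCohomologyπEven
      have e2 : Epi ((Rep.FiniteCyclicGroup.normHomCompSub A g).homologyπ ≫
          (Rep.FiniteCyclicGroup.groupCohomologyIsoEven A g hg i hi).inv) := epi_comp _ _
      have e1 : IsIso (Rep.FiniteCyclicGroup.normHomCompSub A g).moduleCatCyclesIso.inv :=
        Iso.isIso_inv _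
      have e3 : Epi (Rep.FiniteCyclicGroup.normHomCompSub A g).moduleCatCyclesIso.inv :=
        IsIso.epi_of_iso _
      exact @epi_comp _ _ _ _ _ _ e3 _ e2
    exact (ModuleCat.epi_iff_surjective _).1 hepi
  · intro x
    exact Rep.FiniteCyclicGroup.groupCohomologyπEven_eq_zero_iff A g hg i hi x

include hg in
/-- `|Hⁱ(G, A)| = [ker N : im (ρ(g) - 1)]` for odd `i`. -/
theorem card_groupCohomology_odd (i : ℕ) (hi : Odd i) :
    Nat.card (groupCohomology A i) = h1 (cycD A g) (cycN A) := by
  unfold h1
  rw [cycN_ker, cycD_range]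
  refine card_eq_relIndex_submodule _ _
    (Rep.FiniteCyclicGroup.groupCohomologyπOdd A g hg i hi).hom ?_ ?_
  · have hepi : Epi (Rep.FiniteCyclicGroup.groupCohomologyπOdd A g hg i hi) := by
      delta Rep.FiniteCyclicGroup.groupCohomologyπOdd
      have e2 : Epi ((Rep.FiniteCyclicGroup.subCompNormHom A g).homologyπ ≫
          (Rep.FiniteCyclicGroup.groupCohomologyIsoOdd A g hg i hi).inv) := epi_comp _ _
      have e1 : IsIso (Rep.FiniteCyclicGroup.subCompNormHom A g).moduleCatCyclesIso.inv :=
        Iso.isIso_inv _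
      have e3 : Epi (Rep.FiniteCyclicGroup.subCompNormHom A g).moduleCatCyclesIso.inv :=
        IsIso.epi_of_iso _
      exact @epi_comp _ _ _ _ _ _ e3 _ e2
    exact (ModuleCat.epi_iff_surjective _).1 hepi
  · intro x
    exact Rep.FiniteCyclicGroup.groupCohomologyπOdd_eq_zero_iff A g hg i hi x

/-- `D ∘ N = 0` -/
theorem cycD_cycN (x : A.V) : cycD A g (cycN A x) = 0 := by
  have h := (Rep.FiniteCyclicGroup.normHomCompSub A g).zero
  have h2 := congrArg (fun f => f.hom x) h
  exact h2

/-- `N ∘ D = 0` -/
theorem cycN_cycD (x : A.V) : cycN A (cycD A g x) = 0 := by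
  have h := (Rep.FiniteCyclicGroup.subCompNormHom A g).zero
  have h2 := congrArg (fun f => f.hom x) h
  exact h2

theorem cycD_apply (x : A.V) : cycD A g x = A.ρ g x - x := by
  change (Rep.applyAsHom A g - 𝟙 A).hom x = _
  simp [Rep.sub_hom, Rep.applyAsHom]

theorem cycN_apply (x : A.V) : cycN A x = A.ρ.norm x := rfl

section ses

variable {A} {B C : Rep k G} (i : A ⟶ B) (π : B ⟶ C)

/-- the underlying additive map of a morphism of representations -/
noncomputable def repAddHom : A.V →+ B.V := i.hom.toLinearMap.toAddMonoidHom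

theorem repAddHom_apply (x : A.V) : repAddHom i x = i.hom x := rfl

theorem repAddHom_cycD (x : A.V) : repAddHom i (cycD A g x) = cycD B g (repAddHom i x) := by
  rw [cycD_apply, cycD_apply, map_sub, repAddHom_apply, repAddHom_apply, Rep.hom_comm_apply]

theorem repAddHom_cycN (x : A.V) : repAddHom i (cycN A x) = cycN B (repAddHom i x) := by
  rw [cycN_apply, cycN_apply, repAddHom_apply, repAddHom_apply]
  exact (Rep.norm_comm_apply i x).symm

include hg in
/-- **Multiplicativity of the Herbrand quotient on short exact sequences of representations of a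
finite cyclic group**, in cross-multiplied form (unconditional: `Nat.card = 0` for infinite
groups).  For `0 → A → B → C → 0`, `m > 0` even and `n` odd:
`|Hᵐ(B)|·|Hⁿ(A)|·|Hⁿ(C)| = |Hⁿ(B)|·|Hᵐ(A)|·|Hᵐ(C)|`. -/
theorem h25herb_rep_mul (hi : Function.Injective (repAddHom i))
    (hπ : Function.Surjective (repAddHom π)) (hex : (repAddHom π).ker = (repAddHom i).range)
    (m n : ℕ) [NeZero m] (hm : Even m) (hn : Odd n) :
    Nat.card (groupCohomology B m) * Nat.card (groupCohomology A n) *
        Nat.card (groupCohomology C n) =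
      Nat.card (groupCohomology B n) * Nat.card (groupCohomology A m) *
        Nat.card (groupCohomology C m) := by
  rw [card_groupCohomology_even A g hg m hm, card_groupCohomology_even B g hg m hm,
    card_groupCohomology_even C g hg m hm, card_groupCohomology_odd A g hg n hn,
    card_groupCohomology_odd B g hg n hn, card_groupCohomology_odd C g hg n hn]
  exact h25herb_mul (cycD A g) (cycN A) (cycD B g) (cycN B) (cycD C g) (cycN C)
    (repAddHom i) (repAddHom π) (cycD_cycN B g) (cycN_cycD B g) hi hπ hex
    (repAddHom_cycD g i) (repAddHom_cycN i) (repAddHom_cycD g π) (repAddHom_cycN π)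

include hg in
/-- if `Hᵐ` and `Hⁿ` (`m > 0` even, `n` odd) of `A` and `C` are finite, so are those of `B`. -/
theorem h25herb_rep_finite_mid (hi : Function.Injective (repAddHom i))
    (hπ : Function.Surjective (repAddHom π)) (hex : (repAddHom π).ker = (repAddHom i).range)
    (m n : ℕ) [NeZero m] (hm : Even m) (hn : Odd n)
    (hA : Nat.card (groupCohomology A m) ≠ 0 ∧ Nat.card (groupCohomology A n) ≠ 0)
    (hC : Nat.card (groupCohomology C m) ≠ 0 ∧ Nat.card (groupCohomology C n) ≠ 0) :
    Nat.card (groupCohomology B m) ≠ 0 ∧ Nat.card (groupCohomology B n) ≠ 0 := by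
  rw [card_groupCohomology_even A g hg m hm, card_groupCohomology_odd A g hg n hn] at hA
  rw [card_groupCohomology_even C g hg m hm, card_groupCohomology_odd C g hg n hn] at hC
  rw [card_groupCohomology_even B g hg m hm, card_groupCohomology_odd B g hg n hn]
  exact h25herb_defined_mid (cycD A g) (cycN A) (cycD B g) (cycN B) (cycD C g) (cycN C)
    (repAddHom i) (repAddHom π) (cycD_cycN B g) (cycN_cycD B g) hi hπ hex
    (repAddHom_cycD g i) (repAddHom_cycN i) (repAddHom_cycD g π) (repAddHom_cycN π) hA hC

end ses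

include hg in
/-- For a finite module over a finite cyclic group, `|Hᵐ| = |Hⁿ|` (`m > 0` even, `n` odd):
the Herbrand quotient of a finite module is `1`. -/
theorem h25herb_rep_finite [Finite A.V] (m n : ℕ) [NeZero m] (hm : Even m) (hn : Odd n) :
    Nat.card (groupCohomology A m) = Nat.card (groupCohomology A n) := by
  rw [card_groupCohomology_even A g hg m hm, card_groupCohomology_odd A g hg n hn]
  exact (h25herb_finite (cycD A g) (cycN A) (cycD_cycN A g) (cycN_cycD A g)).1

section trivialInt

variable {G₀ : Type} [CommGroup G₀] [Fintype G₀] (g₀ : G₀)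

theorem cycD_trivial_int : cycD (Rep.trivial ℤ G₀ ℤ) g₀ = 0 := by
  ext x
  rw [cycD_apply]
  simp

theorem cycN_trivial_int :
    cycN (Rep.trivial ℤ G₀ ℤ) = Fintype.card G₀ • AddMonoidHom.id ℤ := by
  ext x
  rw [cycN_apply]
  simp [Representation.norm]

variable (hg₀ : ∀ x, x ∈ Subgroup.zpowers g₀)

include hg₀ in
/-- `|Hᵐ(G, ℤ)| = |G|` for `G` finite cyclic, `m > 0` even. -/
theorem card_groupCohomology_trivial_int_even (m : ℕ) [NeZero m] (hm : Even m) :
    Nat.card (groupCohomology (Rep.trivial ℤ G₀ ℤ) m) = Fintype.card G₀ := by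
  rw [card_groupCohomology_even _ g₀ hg₀ m hm, cycD_trivial_int, cycN_trivial_int]
  exact (h25herb_int _ Fintype.card_ne_zero).1

include hg₀ in
/-- `|Hⁿ(G, ℤ)| = 1` for `G` finite cyclic, `n` odd. -/
theorem card_groupCohomology_trivial_int_odd (n : ℕ) (hn : Odd n) :
    Nat.card (groupCohomology (Rep.trivial ℤ G₀ ℤ) n) = 1 := by
  rw [card_groupCohomology_odd _ g₀ hg₀ n hn, cycD_trivial_int, cycN_trivial_int]
  exact (h25herb_int _ Fintype.card_ne_zero).2

end trivialInt

end H25Herb
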