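import Mathlib
import Fermat.Agent.CFT2.A.Defs
import Fermat.Agent.CFT2.A.H25HerbrandCyclic

/-!
# W2-C (S55), block A, slice AC2 (helper25): `H20A.CyclicCardStatement`

For a finite cyclic group `G = ⟨σ⟩` and a representation `ρ` on an abelian group `V`:
`|H²(G, V)| = [ker (σ - 1) : im N]` and `|H¹(G, V)| = [ker N : im (σ - 1)]`.
-/

set_option autoImplicit false

open CategoryTheory

namespace H25Herb

section

variable {G : Type} [CommGroup G] [Fintype G] {V : Type} [AddCommGroup V]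
  (ρ : Representation ℤ G V) (σ : G)

theorem h25ac2_cycD_eq : cycD (Rep.of ρ) σ = H20A.subOne ρ σ := by
  ext x
  rw [cycD_apply]
  rfl

theorem h25ac2_cycN_eq :
    cycN (Rep.of ρ) = (ρ.norm : V →ₗ[ℤ] V).toAddMonoidHom := by
  ext x
  rfl

theorem h25ac2_aux (hσ : ∀ x, x ∈ Subgroup.zpowers σ) :
    Nat.card (groupCohomology (Rep.of ρ) 2) =
        ((ρ.norm : V →ₗ[ℤ] V).toAddMonoidHom).range.relIndex (H20A.subOne ρ σ).ker ∧
      Nat.card (groupCohomology (Rep.of ρ) 1) =
        (H20A.subOne ρ σ).range.relIndex ((ρ.norm : V →ₗ[ℤ] V).toAddMonoidHom).ker := by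
  constructor
  · have h := card_groupCohomology_even (Rep.of ρ) σ hσ 2 (by decide)
    rw [h, h25ac2_cycD_eq, h25ac2_cycN_eq]
    rfl
  · have h := card_groupCohomology_odd (Rep.of ρ) σ hσ 1 (by decide)
    rw [h, h25ac2_cycD_eq, h25ac2_cycN_eq]
    rfl

end

/-- **AC2**: `H20A.CyclicCardStatement`. -/
theorem helper25_cyclicCard (G : Type) [hG : Group G] [Finite G] : H20A.CyclicCardStatement G := by
  intro V _ ρ σ hσ
  letI : Fintype G := Fintype.ofFinite G
  letI hc : CommGroup G :=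
    { hG with
      mul_comm := fun a b => by
        obtain ⟨m, rfl⟩ := Subgroup.mem_zpowers_iff.1 (hσ a)
        obtain ⟨n, rfl⟩ := Subgroup.mem_zpowers_iff.1 (hσ b)
        rw [← zpow_add, ← zpow_add, add_comm] }
  exact h25ac2_aux ρ σ hσ

end H25Herb
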