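import Mathlib
import Fermat.Agent.CFT2.A.Defs

/-!
# W2-C (S55), block A, slice AC (helper16): `H20A.CyclicPeriodStatement`

Tate cohomology of a finite cyclic group `G = ⟨σ⟩` is periodic of period `2`:
`Ĥⁿ(G, A) ≅ Ĥⁿ⁺²(G, A)` for all `n : ℤ`.

Route: every `Ĥⁿ` with `n` even is a quotient of `ker(σ - 1)` with kernel `im N`, every `Ĥⁿ` with
`n` odd is a quotient of `ker N` with kernel `im(σ - 1)`:
* `n ≥ 1`: Mathlib (`TateCohomology.isoGroupCohomology` + `groupCohomologyπEven/Odd`);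
* `n ≤ -2`: Mathlib (`TateCohomology.isoGroupHomology` + `groupHomologyπEven/Odd`);
* `n = 0, -1`: slice AT0 (`H20A.TateZeroStatement`, `H20A.TateNegOneStatement`), taken as
  hypotheses here.

Also of general use: `H16AC.h16ac_canonical_ind` (every `A : Rep ℤ G` is `Rep.of ρ` for a
representation on an abelian group with its canonical `ℤ`-module structure).
-/

set_option autoImplicit false

open CategoryTheory

namespace H16AC

/-- To prove a statement for all `A : Rep ℤ G` it suffices to prove it for `Rep.of ρ`,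
`ρ : Representation ℤ G V` with the canonical `ℤ`-module structure on `V`. -/
theorem h16ac_canonical_ind {G : Type} [Group G] (P : Rep ℤ G → Prop)
    (h : ∀ (V : Type) [AddCommGroup V] (ρ : Representation ℤ G V), P (Rep.of ρ))
    (A : Rep ℤ G) : P A := by
  cases A
  rename_i V hV1 hV2 ρ
  have e : hV2 = AddCommGroup.toIntModule V := Subsingleton.elim _ _
  subst e
  exact h V ρ

section types

variable {V : Type} [AddCommGroup V]

/-- `X` is a quotient of `K` by `R` (as abstract additive groups) -/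
def QuotType (K R : AddSubgroup V) (X : ModuleCat ℤ) : Prop :=
  ∃ f : K →+ X, Function.Surjective f ∧ ∀ x, f x = 0 ↔ (x : V) ∈ R

/-- two surjections with the same kernel have isomorphic targets -/
theorem h16ac_equiv_of_surj {P X Y : Type*} [AddCommGroup P] [AddCommGroup X] [AddCommGroup Y]
    (f : P →+ X) (g : P →+ Y) (hf : Function.Surjective f) (hg : Function.Surjective g)
    (h : ∀ p, f p = 0 ↔ g p = 0) : Nonempty (X ≃+ Y) := by
  have hk : f.ker = g.ker := by ext p; simp [AddMonoidHom.mem_ker, h]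
  exact ⟨(QuotientAddGroup.quotientKerEquivOfSurjective f hf).symm.trans
    ((QuotientAddGroup.quotientAddEquivOfEq hk).trans
      (QuotientAddGroup.quotientKerEquivOfSurjective g hg))⟩

theorem QuotType.iso {K R : AddSubgroup V} {X Y : ModuleCat ℤ}
    (hX : QuotType K R X) (hY : QuotType K R Y) : Nonempty (X ≅ Y) := by
  obtain ⟨f, hf, hfk⟩ := hX
  obtain ⟨g, hg, hgk⟩ := hY
  obtain ⟨e⟩ := h16ac_equiv_of_surj f g hf hg (fun p => (hfk p).trans (hgk p).symm)
  exact ⟨(e.toIntLinearEquiv).toModuleIso⟩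

theorem QuotType.of_iso {K R : AddSubgroup V} {X Y : ModuleCat ℤ}
    (hX : QuotType K R X) (e : X ≅ Y) : QuotType K R Y := by
  obtain ⟨f, hf, hfk⟩ := hX
  refine ⟨(e.hom.hom.toAddMonoidHom).comp f, ?_, ?_⟩
  · intro y
    obtain ⟨x, hx⟩ := hf (e.inv.hom y)
    refine ⟨x, ?_⟩
    show e.hom.hom (f x) = y
    rw [hx]
    exact congrArg (fun t => t.hom y) e.inv_hom_id
  · intro x
    rw [← hfk x]
    constructor
    · intro h
      have h1 : e.inv.hom (e.hom.hom (f x)) = f x :=
        congrArg (fun t => t.hom (f x)) e.hom_inv_id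
      have h2 : e.hom.hom (f x) = 0 := h
      rw [h2, map_zero] at h1
      exact h1.symm
    · intro h
      show e.hom.hom (f x) = 0
      rw [h, map_zero]

theorem QuotType.of_addHom {K R : AddSubgroup V} {X : ModuleCat ℤ} (K' : AddSubgroup V)
    (φ : K' →+ X) (hφ : Function.Surjective φ) (hK : ∀ x, x ∈ K' ↔ x ∈ K)
    (hker : ∀ x : K', φ x = 0 ↔ x.1 ∈ R) : QuotType K R X := by
  refine ⟨φ.comp
    (AddMonoidHom.codRestrict K.subtype K' (fun x => (hK x.1).2 x.2)), ?_, ?_⟩
  · intro y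
    obtain ⟨x, hx⟩ := hφ y
    exact ⟨⟨x.1, (hK x.1).1 x.2⟩, hx⟩
  · intro x
    exact hker ⟨x.1, (hK x.1).2 x.2⟩

theorem QuotType.of_linear {K R : AddSubgroup V} {X : ModuleCat ℤ} (K' : Submodule ℤ V)
    (φ : K' →ₗ[ℤ] X) (hφ : Function.Surjective φ) (hK : ∀ x, x ∈ K' ↔ x ∈ K)
    (hker : ∀ x : K', φ x = 0 ↔ x.1 ∈ R) : QuotType K R X :=
  QuotType.of_addHom K'.toAddSubgroup φ.toAddMonoidHom hφ hK hker

end types

section cyc

variable {G : Type} [CommGroup G] [Fintype G] {V : Type} [AddCommGroup V]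
  (ρ : Representation ℤ G V) (σ : G) (hσ : ∀ x, x ∈ Subgroup.zpowers σ)

/-- the norm with the ambient `Fintype` instance -/
noncomputable def nrm : V →+ V := (ρ.norm : V →ₗ[ℤ] V).toAddMonoidHom

omit [Fintype G] in
theorem h16ac_mem_kerD (x : V) :
    x ∈ LinearMap.ker (Rep.applyAsHom (Rep.of ρ) σ - 𝟙 (Rep.of ρ)).hom.toLinearMap ↔
      x ∈ (H20A.subOne ρ σ).ker := by
  rw [LinearMap.mem_ker, AddMonoidHom.mem_ker]
  rfl

omit [Fintype G] in
theorem h16ac_mem_rangeD (x : V) :
    x ∈ LinearMap.range (Rep.applyAsHom (Rep.of ρ) σ - 𝟙 (Rep.of ρ)).hom.toLinearMap ↔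
      x ∈ (H20A.subOne ρ σ).range := by
  rw [LinearMap.mem_range, AddMonoidHom.mem_range]
  rfl

theorem h16ac_mem_kerN (x : V) :
    x ∈ LinearMap.ker (Rep.of ρ).norm.hom.toLinearMap ↔ x ∈ (nrm ρ).ker := by
  rw [LinearMap.mem_ker, AddMonoidHom.mem_ker]
  rfl

theorem h16ac_mem_rangeN (x : V) :
    x ∈ LinearMap.range (Rep.of ρ).norm.hom.toLinearMap ↔ x ∈ (nrm ρ).range := by
  rw [LinearMap.mem_range, AddMonoidHom.mem_range]
  rfl

theorem h16ac_mem_kerN' (x : V) :
    x ∈ LinearMap.ker (Rep.of ρ).ρ.norm ↔ x ∈ (nrm ρ).ker := by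
  rw [LinearMap.mem_ker, AddMonoidHom.mem_ker]
  rfl

theorem h16ac_mem_rangeN' (x : V) :
    x ∈ LinearMap.range (Rep.of ρ).ρ.norm ↔ x ∈ (nrm ρ).range := by
  rw [LinearMap.mem_range, AddMonoidHom.mem_range]
  rfl

theorem h16ac_surj_pi (S : ShortComplex (ModuleCat ℤ)) {Y : ModuleCat ℤ} (e : Y ≅ S.homology) :
    Function.Surjective (S.moduleCatCyclesIso.inv ≫ S.homologyπ ≫ e.inv).hom := by
  have e2 : Epi (S.homologyπ ≫ e.inv) := epi_comp _ _
  have e3 : Epi S.moduleCatCyclesIso.inv := IsIso.epi_of_iso _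
  have e4 : Epi (S.moduleCatCyclesIso.inv ≫ S.homologyπ ≫ e.inv) :=
    @epi_comp _ _ _ _ _ _ e3 _ e2
  exact (ModuleCat.epi_iff_surjective _).1 e4

include hσ in
theorem h16ac_coh_even (i : ℕ) [NeZero i] (hi : Even i) :
    QuotType (H20A.subOne ρ σ).ker (nrm ρ).range (groupCohomology (Rep.of ρ) i) := by
  refine QuotType.of_linear _
    (Rep.FiniteCyclicGroup.groupCohomologyπEven (Rep.of ρ) σ hσ i hi).hom ?_
    (h16ac_mem_kerD ρ σ) ?_
  · exact h16ac_surj_pi _ (Rep.FiniteCyclicGroup.groupCohomologyIsoEven (Rep.of ρ) σ hσ i hi)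
  · intro x
    rw [← h16ac_mem_rangeN]
    exact Rep.FiniteCyclicGroup.groupCohomologyπEven_eq_zero_iff (Rep.of ρ) σ hσ i hi x

include hσ in
theorem h16ac_coh_odd (i : ℕ) (hi : Odd i) :
    QuotType (nrm ρ).ker (H20A.subOne ρ σ).range (groupCohomology (Rep.of ρ) i) := by
  refine QuotType.of_linear _
    (Rep.FiniteCyclicGroup.groupCohomologyπOdd (Rep.of ρ) σ hσ i hi).hom ?_
    (h16ac_mem_kerN ρ) ?_
  · exact h16ac_surj_pi _ (Rep.FiniteCyclicGroup.groupCohomologyIsoOdd (Rep.of ρ) σ hσ i hi)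
  · intro x
    rw [← h16ac_mem_rangeD]
    exact Rep.FiniteCyclicGroup.groupCohomologyπOdd_eq_zero_iff (Rep.of ρ) σ hσ i hi x

include hσ in
theorem h16ac_hom_even (i : ℕ) [NeZero i] (hi : Even i) :
    QuotType (nrm ρ).ker (H20A.subOne ρ σ).range (groupHomology (Rep.of ρ) i) := by
  classical
  refine QuotType.of_linear _
    (Rep.FiniteCyclicGroup.groupHomologyπEven (Rep.of ρ) σ hσ i hi).hom ?_
    (h16ac_mem_kerN' ρ) ?_
  · exact h16ac_surj_pi _ (Rep.FiniteCyclicGroup.groupHomologyIsoEven (Rep.of ρ) σ hσ i hi)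
  · intro x
    rw [← h16ac_mem_rangeD]
    exact Rep.FiniteCyclicGroup.groupHomologyπEven_eq_zero_iff (Rep.of ρ) σ hσ i hi x

include hσ in
theorem h16ac_hom_odd (i : ℕ) (hi : Odd i) :
    QuotType (H20A.subOne ρ σ).ker (nrm ρ).range (groupHomology (Rep.of ρ) i) := by
  classical
  refine QuotType.of_linear _
    (Rep.FiniteCyclicGroup.groupHomologyπOdd (Rep.of ρ) σ hσ i hi).hom ?_
    (h16ac_mem_kerD ρ σ) ?_
  · exact h16ac_surj_pi _ (Rep.FiniteCyclicGroup.groupHomologyIsoOdd (Rep.of ρ) σ hσ i hi)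
  · intro x
    rw [← h16ac_mem_rangeN']
    exact Rep.FiniteCyclicGroup.groupHomologyπOdd_eq_zero_iff (Rep.of ρ) σ hσ i hi x

include hσ in
/-- Tate cohomology in positive even degree -/
theorem h16ac_tate_pos_even (i : ℕ) [NeZero i] (hi : Even i) :
    QuotType (H20A.subOne ρ σ).ker (nrm ρ).range (tateCohomology (Rep.of ρ) (i : ℤ)) :=
  (h16ac_coh_even ρ σ hσ i hi).of_iso ((TateCohomology.isoGroupCohomology i).app (Rep.of ρ)).symm

include hσ in
/-- Tate cohomology in positive odd degree -/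
theorem h16ac_tate_pos_odd (i : ℕ) (hi : Odd i) :
    QuotType (nrm ρ).ker (H20A.subOne ρ σ).range (tateCohomology (Rep.of ρ) (i : ℤ)) := by
  have : NeZero i := ⟨fun h => by rw [h] at hi; exact absurd hi (by decide)⟩
  exact (h16ac_coh_odd ρ σ hσ i hi).of_iso
    ((TateCohomology.isoGroupCohomology i).app (Rep.of ρ)).symm

include hσ in
/-- Tate cohomology in degree `-(i+1)`, `i > 0` even -/
theorem h16ac_tate_neg_even (m : ℤ) (i : ℕ) (hm : m = -(i + 1)) [NeZero i] (hi : Even i) :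
    QuotType (nrm ρ).ker (H20A.subOne ρ σ).range (tateCohomology (Rep.of ρ) m) :=
  (h16ac_hom_even ρ σ hσ i hi).of_iso
    ((TateCohomology.isoGroupHomology m i hm).app (Rep.of ρ)).symm

include hσ in
/-- Tate cohomology in degree `-(i+1)`, `i` odd -/
theorem h16ac_tate_neg_odd (m : ℤ) (i : ℕ) (hm : m = -(i + 1)) (hi : Odd i) :
    QuotType (H20A.subOne ρ σ).ker (nrm ρ).range (tateCohomology (Rep.of ρ) m) := by
  have : NeZero i := ⟨fun h => by rw [h] at hi; exact absurd hi (by decide)⟩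
  exact (h16ac_hom_odd ρ σ hσ i hi).of_iso
    ((TateCohomology.isoGroupHomology m i hm).app (Rep.of ρ)).symm

end cyc

section tate

variable {G : Type} [Group G] [Finite G] {V : Type} [AddCommGroup V]
  (ρ : Representation ℤ G V) (σ : G) (hσ : ∀ x, x ∈ Subgroup.zpowers σ)

include hσ in
theorem h16ac_tate_zero (h0 : H20A.TateZeroStatement G) :
    QuotType (H20A.subOne ρ σ).ker (H20A.normOf ρ).range (H20A.tate (Rep.of ρ) 0) := by
  obtain ⟨π, hsurj, hker, -⟩ := h0
  refine QuotType.of_addHom ρ.invariants.toAddSubgroup (π V ρ) (hsurj V ρ) ?_ ?_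
  · intro x
    rw [Submodule.mem_toAddSubgroup,
      Representation.mem_invariants_iff_of_forall_mem_zpowers ρ σ hσ, AddMonoidHom.mem_ker]
    show ρ σ x = x ↔ ρ σ x - x = 0
    rw [sub_eq_zero]
  · intro x
    rw [AddMonoidHom.mem_range]
    exact hker V ρ x

include hσ in
theorem h16ac_tate_negOne (h1 : H20A.TateNegOneStatement G) :
    QuotType (H20A.normOf ρ).ker (H20A.subOne ρ σ).range (H20A.tate (Rep.of ρ) (-1)) := by
  obtain ⟨π, hsurj, hker, -⟩ := h1
  refine ⟨π V ρ, hsurj V ρ, fun x => ?_⟩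
  rw [hker V ρ x, Representation.FiniteCyclicGroup.coinvariantsKer_eq_range ρ σ hσ,
    LinearMap.mem_range, AddMonoidHom.mem_range]
  rfl

include hσ in
/-- all even degrees -/
theorem h16ac_tate_even (h0 : H20A.TateZeroStatement G) (n : ℤ) (hn : Even n) :
    QuotType (H20A.subOne ρ σ).ker (H20A.normOf ρ).range (H20A.tate (Rep.of ρ) n) := by
  let _ : Fintype G := Fintype.ofFinite G
  let hc : CommGroup G :=
    { ‹Group G› with
      mul_comm := fun a b => by
        obtain ⟨m, rfl⟩ := Subgroup.mem_zpowers_iff.1 (hσ a)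
        obtain ⟨n, rfl⟩ := Subgroup.mem_zpowers_iff.1 (hσ b)
        rw [← zpow_add, ← zpow_add, add_comm] }
  rcases n with m | m
  · rcases Nat.eq_zero_or_pos m with h | h
    · subst h
      exact h16ac_tate_zero ρ σ hσ h0
    · have : NeZero m := ⟨h.ne'⟩
      have hm : Even m := (Int.even_coe_nat m).1 hn
      exact h16ac_tate_pos_even ρ σ hσ m hm
  · have hm : Odd m := by
      rw [Int.negSucc_eq] at hn
      have h2 : Even ((m : ℤ) + 1) := even_neg.1 hn
      have h3 : Even (m + 1) := by exact_mod_cast h2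
      rcases Nat.even_or_odd m with h4 | h4
      · exact absurd h3 (Nat.not_even_iff_odd.2 (h4.add_one))
      · exact h4
    exact h16ac_tate_neg_odd ρ σ hσ (Int.negSucc m) m (by rw [Int.negSucc_eq]) hm

include hσ in
/-- all odd degrees -/
theorem h16ac_tate_odd (h1 : H20A.TateNegOneStatement G) (n : ℤ) (hn : Odd n) :
    QuotType (H20A.normOf ρ).ker (H20A.subOne ρ σ).range (H20A.tate (Rep.of ρ) n) := by
  let _ : Fintype G := Fintype.ofFinite G
  let hc : CommGroup G :=
    { ‹Group G› with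
      mul_comm := fun a b => by
        obtain ⟨m, rfl⟩ := Subgroup.mem_zpowers_iff.1 (hσ a)
        obtain ⟨n, rfl⟩ := Subgroup.mem_zpowers_iff.1 (hσ b)
        rw [← zpow_add, ← zpow_add, add_comm] }
  rcases n with m | m
  · have hm : Odd m := (Int.odd_coe_nat m).1 hn
    exact h16ac_tate_pos_odd ρ σ hσ m hm
  · rcases Nat.eq_zero_or_pos m with h | h
    · subst h
      exact h16ac_tate_negOne ρ σ hσ h1
    · have : NeZero m := ⟨h.ne'⟩
      have hm : Even m := by
        rw [Int.negSucc_eq] at hn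
        have h2 : Odd ((m : ℤ) + 1) := odd_neg.1 hn
        have h3 : Odd (m + 1) := by exact_mod_cast h2
        rcases Nat.even_or_odd m with h4 | h4
        · exact h4
        · exact absurd h3 (Nat.not_odd_iff_even.2 (h4.add_one))
      exact h16ac_tate_neg_even ρ σ hσ (Int.negSucc m) m (by rw [Int.negSucc_eq]) hm

end tate

/-- **AC** from AT0: periodicity of Tate cohomology for finite cyclic groups. -/
theorem h16ac_cyclicPeriod_of_AT0 (G : Type) [Group G] [Finite G]
    (h0 : H20A.TateZeroStatement G) (h1 : H20A.TateNegOneStatement G) :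
    H20A.CyclicPeriodStatement G := by
  intro hc A n
  obtain ⟨σ, hσ⟩ := hc.exists_generator
  revert A
  refine h16ac_canonical_ind _ ?_
  intro V _ ρ
  rcases Int.even_or_odd n with hn | hn
  · exact (h16ac_tate_even ρ σ hσ h0 n hn).iso
      (h16ac_tate_even ρ σ hσ h0 (n + 2) (hn.add (by decide)))
  · exact (h16ac_tate_odd ρ σ hσ h1 n hn).iso
      (h16ac_tate_odd ρ σ hσ h1 (n + 2) (hn.add_even (by decide)))

end H16AC
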