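import Mathlib
import Fermat.Agent.CFT2.A.Defs
import Fermat.Agent.CFT2.A.H25HerbrandCyclic

/-!
# W2-C (S55), block A, slice AC (helper25): Tate cohomology of cyclic groups

For `G` finite cyclic with generator `σ`, `D = σ - 1` and `N` the norm:
`Ĥⁿ(G, A) = ker D / im N` for even `n : ℤ` and `Ĥⁿ(G, A) = ker N / im D` for odd `n : ℤ`
(`H25AC.isQuot_tate_even`, `H25AC.isQuot_tate_odd`), hence periodicity
`H20A.CyclicPeriodStatement G`: `Ĥⁿ(G, A) ≅ Ĥⁿ⁺²(G, A)` for all `n : ℤ`.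

Degrees `n ≥ 1` and `n ≤ -2` are Mathlib's computation of group (co)homology of finite cyclic
groups; the degrees `-1, 0` use the explicit description of `Ĥ⁰` and `Ĥ⁻¹` (slice AT0:
`H20A.TateZeroStatement`, `H20A.TateNegOneStatement`), which are taken as hypotheses.
-/

set_option autoImplicit false

universe u

open CategoryTheory

namespace H25AC

/-- an additive equivalence between `ℤ`-modules is an isomorphism in `ModuleCat ℤ` -/
noncomputable def isoOfAddEquiv (H₁ H₂ : ModuleCat ℤ) (e : H₁ ≃+ H₂) : H₁ ≅ H₂ :=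
  LinearEquiv.toModuleIso
    { e with map_smul' := fun n x => by simpa using map_intCast_smul e ℤ ℤ n x }

/-- `H` is a quotient of `K` with kernel `R ∩ K` -/
def IsQuot {V : Type u} [AddCommGroup V] (K R : AddSubgroup V) (H : Type u) [AddCommGroup H] :
    Prop :=
  ∃ π : K →+ H, Function.Surjective π ∧ ∀ x, π x = 0 ↔ x.1 ∈ R

section general

variable {V : Type u} [AddCommGroup V] {K R K' R' : AddSubgroup V} {H₁ H₂ : Type u}
  [AddCommGroup H₁] [AddCommGroup H₂]

theorem IsQuot.addEquiv (h₁ : IsQuot K R H₁) (h₂ : IsQuot K R H₂) : Nonempty (H₁ ≃+ H₂) := by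
  obtain ⟨π₁, s₁, k₁⟩ := h₁
  obtain ⟨π₂, s₂, k₂⟩ := h₂
  have hker : π₁.ker = π₂.ker := by
    ext x
    rw [AddMonoidHom.mem_ker, AddMonoidHom.mem_ker, k₁, k₂]
  exact ⟨((QuotientAddGroup.quotientKerEquivOfSurjective π₁ s₁).symm.trans
      (QuotientAddGroup.quotientAddEquivOfEq hker)).trans
      (QuotientAddGroup.quotientKerEquivOfSurjective π₂ s₂)⟩

theorem IsQuot.of_addEquiv (h₁ : IsQuot K R H₁) (e : H₁ ≃+ H₂) : IsQuot K R H₂ := by
  obtain ⟨π₁, s₁, k₁⟩ := h₁
  refine ⟨e.toAddMonoidHom.comp π₁, e.surjective.comp s₁, ?_⟩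
  intro x
  rw [← k₁]
  exact e.map_eq_zero_iff

theorem IsQuot.congr (h : IsQuot K R H₁) (hK : K = K') (hR : ∀ x ∈ K, x ∈ R ↔ x ∈ R') :
    IsQuot K' R' H₁ := by
  subst hK
  obtain ⟨π₁, s₁, k₁⟩ := h
  exact ⟨π₁, s₁, fun x => (k₁ x).trans (hR x.1 x.2)⟩

/-- the cardinality of a quotient is the relative index -/
theorem IsQuot.card (h : IsQuot K R H₁) : Nat.card H₁ = R.relIndex K := by
  obtain ⟨π₁, s₁, k₁⟩ := h
  exact H25Herb.card_eq_relIndex K R π₁ s₁ k₁

end general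

theorem IsQuot.iso {V : Type} [AddCommGroup V] {K R : AddSubgroup V} {H₁ H₂ : ModuleCat ℤ}
    (h₁ : IsQuot K R H₁) (h₂ : IsQuot K R H₂) : Nonempty (H₁ ≅ H₂) := by
  obtain ⟨e⟩ := h₁.addEquiv h₂
  exact ⟨isoOfAddEquiv _ _ e⟩

section cyclic

open H25Herb

variable {k G : Type u} [CommRing k] [CommGroup G] [Fintype G] (A : Rep k G) (σ : G)
  (hσ : ∀ x, x ∈ Subgroup.zpowers σ)

/-- from a surjective linear map out of a submodule -/
theorem isQuot_of_linear {B H : Type u} [AddCommGroup B] [AddCommGroup H]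
    [Module k B] [Module k H] (K R : Submodule k B) (φ : K →ₗ[k] H)
    (hφ : Function.Surjective φ) (hker : ∀ x : K, φ x = 0 ↔ x.1 ∈ R) :
    IsQuot K.toAddSubgroup R.toAddSubgroup H :=
  ⟨φ.toAddMonoidHom, hφ, hker⟩

include hσ in
theorem isQuot_coh_even (m : ℕ) (hm0 : m ≠ 0) (hm : Even m) :
    IsQuot (cycD A σ).ker (cycN A).range (groupCohomology A m) := by
  haveI : NeZero m := ⟨hm0⟩
  rw [cycD_ker, cycN_range]
  refine isQuot_of_linear _ _
    (Rep.FiniteCyclicGroup.groupCohomologyπEven A σ hσ m hm).hom ?_ ?_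
  · have hepi : Epi (Rep.FiniteCyclicGroup.groupCohomologyπEven A σ hσ m hm) := by
      delta Rep.FiniteCyclicGroup.groupCohomologyπEven
      have e2 : Epi ((Rep.FiniteCyclicGroup.normHomCompSub A σ).homologyπ ≫
          (Rep.FiniteCyclicGroup.groupCohomologyIsoEven A σ hσ m hm).inv) := epi_comp _ _
      have e1 : IsIso (Rep.FiniteCyclicGroup.normHomCompSub A σ).moduleCatCyclesIso.inv :=
        Iso.isIso_inv _
      have e3 : Epi (Rep.FiniteCyclicGroup.normHomCompSub A σ).moduleCatCyclesIso.inv :=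
        IsIso.epi_of_iso _
      exact @epi_comp _ _ _ _ _ _ e3 _ e2
    exact (ModuleCat.epi_iff_surjective _).1 hepi
  · intro x
    exact Rep.FiniteCyclicGroup.groupCohomologyπEven_eq_zero_iff A σ hσ m hm x

include hσ in
theorem isQuot_coh_odd (m : ℕ) (hm : Odd m) :
    IsQuot (cycN A).ker (cycD A σ).range (groupCohomology A m) := by
  rw [cycN_ker, cycD_range]
  refine isQuot_of_linear _ _
    (Rep.FiniteCyclicGroup.groupCohomologyπOdd A σ hσ m hm).hom ?_ ?_
  · have hepi : Epi (Rep.FiniteCyclicGroup.groupCohomologyπOdd A σ hσ m hm) := by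
      delta Rep.FiniteCyclicGroup.groupCohomologyπOdd
      have e2 : Epi ((Rep.FiniteCyclicGroup.subCompNormHom A σ).homologyπ ≫
          (Rep.FiniteCyclicGroup.groupCohomologyIsoOdd A σ hσ m hm).inv) := epi_comp _ _
      have e1 : IsIso (Rep.FiniteCyclicGroup.subCompNormHom A σ).moduleCatCyclesIso.inv :=
        Iso.isIso_inv _
      have e3 : Epi (Rep.FiniteCyclicGroup.subCompNormHom A σ).moduleCatCyclesIso.inv :=
        IsIso.epi_of_iso _
      exact @epi_comp _ _ _ _ _ _ e3 _ e2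
    exact (ModuleCat.epi_iff_surjective _).1 hepi
  · intro x
    exact Rep.FiniteCyclicGroup.groupCohomologyπOdd_eq_zero_iff A σ hσ m hm x

include hσ in
theorem isQuot_hom_odd (m : ℕ) (hm : Odd m) :
    IsQuot (cycD A σ).ker (cycN A).range (groupHomology A m) := by
  classical
  rw [cycD_ker, cycN_range]
  refine isQuot_of_linear _ _
    (Rep.FiniteCyclicGroup.groupHomologyπOdd A σ hσ m hm).hom ?_ ?_
  · have hepi : Epi (Rep.FiniteCyclicGroup.groupHomologyπOdd A σ hσ m hm) := by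
      delta Rep.FiniteCyclicGroup.groupHomologyπOdd
      have e2 : Epi ((Rep.FiniteCyclicGroup.normHomCompSub A σ).homologyπ ≫
          (Rep.FiniteCyclicGroup.groupHomologyIsoOdd A σ hσ m hm).inv) := epi_comp _ _
      have e1 : IsIso (Rep.FiniteCyclicGroup.normHomCompSub A σ).moduleCatCyclesIso.inv :=
        Iso.isIso_inv _
      have e3 : Epi (Rep.FiniteCyclicGroup.normHomCompSub A σ).moduleCatCyclesIso.inv :=
        IsIso.epi_of_iso _
      exact @epi_comp _ _ _ _ _ _ e3 _ e2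
    exact (ModuleCat.epi_iff_surjective _).1 hepi
  · intro x
    exact Rep.FiniteCyclicGroup.groupHomologyπOdd_eq_zero_iff A σ hσ m hm x

include hσ in
theorem isQuot_hom_even (m : ℕ) (hm0 : m ≠ 0) (hm : Even m) :
    IsQuot (cycN A).ker (cycD A σ).range (groupHomology A m) := by
  classical
  haveI : NeZero m := ⟨hm0⟩
  rw [cycN_ker, cycD_range]
  refine isQuot_of_linear _ _
    (Rep.FiniteCyclicGroup.groupHomologyπEven A σ hσ m hm).hom ?_ ?_
  · have hepi : Epi (Rep.FiniteCyclicGroup.groupHomologyπEven A σ hσ m hm) := by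
      delta Rep.FiniteCyclicGroup.groupHomologyπEven
      have e2 : Epi ((Rep.FiniteCyclicGroup.subCompNormHom A σ).homologyπ ≫
          (Rep.FiniteCyclicGroup.groupHomologyIsoEven A σ hσ m hm).inv) := epi_comp _ _
      have e1 : IsIso (Rep.FiniteCyclicGroup.subCompNormHom A σ).moduleCatCyclesIso.inv :=
        Iso.isIso_inv _
      have e3 : Epi (Rep.FiniteCyclicGroup.subCompNormHom A σ).moduleCatCyclesIso.inv :=
        IsIso.epi_of_iso _
      exact @epi_comp _ _ _ _ _ _ e3 _ e2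
    exact (ModuleCat.epi_iff_surjective _).1 hepi
  · intro x
    exact Rep.FiniteCyclicGroup.groupHomologyπEven_eq_zero_iff A σ hσ m hm x

include hσ in
theorem isQuot_tate_pos_even (m : ℕ) (hm0 : m ≠ 0) (hm : Even m) :
    IsQuot (cycD A σ).ker (cycN A).range (tateCohomology A (m : ℤ)) := by
  haveI : NeZero m := ⟨hm0⟩
  exact (isQuot_coh_even A σ hσ m hm0 hm).of_addEquiv
    ((TateCohomology.isoGroupCohomology m).app A).symm.toLinearEquiv.toAddEquiv

include hσ in
theorem isQuot_tate_pos_odd (m : ℕ) (hm : Odd m) :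
    IsQuot (cycN A).ker (cycD A σ).range (tateCohomology A (m : ℤ)) := by
  haveI : NeZero m := ⟨fun h => by subst h; simp at hm⟩
  exact (isQuot_coh_odd A σ hσ m hm).of_addEquiv
    ((TateCohomology.isoGroupCohomology m).app A).symm.toLinearEquiv.toAddEquiv

include hσ in
theorem isQuot_tate_neg_odd (n : ℤ) (m : ℕ) (hnm : n = -(m + 1)) (hm : Odd m) :
    IsQuot (cycD A σ).ker (cycN A).range (tateCohomology A n) := by
  haveI : NeZero m := ⟨fun h => by subst h; simp at hm⟩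
  exact (isQuot_hom_odd A σ hσ m hm).of_addEquiv
    ((TateCohomology.isoGroupHomology n m hnm).app A).symm.toLinearEquiv.toAddEquiv

include hσ in
theorem isQuot_tate_neg_even (n : ℤ) (m : ℕ) (hnm : n = -(m + 1)) (hm0 : m ≠ 0) (hm : Even m) :
    IsQuot (cycN A).ker (cycD A σ).range (tateCohomology A n) := by
  haveI : NeZero m := ⟨hm0⟩
  exact (isQuot_hom_even A σ hσ m hm0 hm).of_addEquiv
    ((TateCohomology.isoGroupHomology n m hnm).app A).symm.toLinearEquiv.toAddEquiv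

include hσ in
/-- **Even Tate cohomology of a finite cyclic group** is `ker (σ - 1) / im N`
(given this in degree `0`). -/
theorem isQuot_tate_even
    (h0 : IsQuot (cycD A σ).ker (cycN A).range (tateCohomology A 0)) (n : ℤ) (hn : Even n) :
    IsQuot (cycD A σ).ker (cycN A).range (tateCohomology A n) := by
  rcases lt_trichotomy n 0 with h | h | h
  · obtain ⟨m, hm⟩ : ∃ m : ℕ, n = -(m + 1) := ⟨(-n - 1).toNat, by omega⟩
    refine isQuot_tate_neg_odd A σ hσ n m hm ?_
    rw [← Int.odd_coe_nat]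
    have : (m : ℤ) = -n - 1 := by omega
    rw [this]
    exact (hn.neg).sub_odd odd_one
  · subst h
    exact h0
  · obtain ⟨m, hm⟩ : ∃ m : ℕ, n = m := ⟨n.toNat, by omega⟩
    subst hm
    exact isQuot_tate_pos_even A σ hσ m (by omega) ((Int.even_coe_nat m).1 hn)

include hσ in
/-- **Odd Tate cohomology of a finite cyclic group** is `ker N / im (σ - 1)`
(given this in degree `-1`). -/
theorem isQuot_tate_odd
    (h1 : IsQuot (cycN A).ker (cycD A σ).range (tateCohomology A (-1))) (n : ℤ) (hn : Odd n) :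
    IsQuot (cycN A).ker (cycD A σ).range (tateCohomology A n) := by
  rcases lt_trichotomy n (-1) with h | h | h
  · obtain ⟨m, hm⟩ : ∃ m : ℕ, n = -(m + 1) := ⟨(-n - 1).toNat, by omega⟩
    refine isQuot_tate_neg_even A σ hσ n m hm (by omega) ?_
    rw [← Int.even_coe_nat]
    have : (m : ℤ) = -n - 1 := by omega
    rw [this]
    exact (hn.neg).sub_odd odd_one
  · subst h
    exact h1
  · obtain ⟨m, hm⟩ : ∃ m : ℕ, n = m := ⟨n.toNat, by omega⟩
    subst hm
    exact isQuot_tate_pos_odd A σ hσ m ((Int.odd_coe_nat m).1 hn)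

include hσ in
/-- `|Ĥⁿ| = [ker (σ - 1) : im N]` for even `n : ℤ` -/
theorem card_tate_even
    (h0 : IsQuot (cycD A σ).ker (cycN A).range (tateCohomology A 0)) (n : ℤ) (hn : Even n) :
    Nat.card (tateCohomology A n) = H25Herb.h0 (cycD A σ) (cycN A) :=
  (isQuot_tate_even A σ hσ h0 n hn).card

include hσ in
/-- `|Ĥⁿ| = [ker N : im (σ - 1)]` for odd `n : ℤ` -/
theorem card_tate_odd
    (h1 : IsQuot (cycN A).ker (cycD A σ).range (tateCohomology A (-1))) (n : ℤ) (hn : Odd n) :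
    Nat.card (tateCohomology A n) = H25Herb.h1 (cycD A σ) (cycN A) :=
  (isQuot_tate_odd A σ hσ h1 n hn).card

end cyclic

section int

open H25Herb

variable {G : Type} [CommGroup G] [Fintype G] {V : Type} [AddCommGroup V]
  (ρ : Representation ℤ G V) (σ : G) (hσ : ∀ x, x ∈ Subgroup.zpowers σ)

include hσ in
theorem mem_cycD_ker_iff (x : V) : x ∈ (cycD (Rep.of ρ) σ).ker ↔ x ∈ ρ.invariants := by
  rw [Representation.mem_invariants_iff_of_forall_mem_zpowers ρ σ hσ, AddMonoidHom.mem_ker,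
    cycD_apply, sub_eq_zero]

theorem mem_cycN_range_iff (x : V) :
    x ∈ (cycN (Rep.of ρ)).range ↔ ∃ y : V, (ρ.norm : V →ₗ[ℤ] V).toAddMonoidHom y = x :=
  Iff.rfl

theorem mem_cycN_ker_iff (x : V) :
    x ∈ (cycN (Rep.of ρ)).ker ↔ x ∈ ((ρ.norm : V →ₗ[ℤ] V).toAddMonoidHom).ker :=
  Iff.rfl

include hσ in
theorem mem_cycD_range_iff (x : V) :
    x ∈ (cycD (Rep.of ρ) σ).range ↔ x ∈ Representation.Coinvariants.ker ρ := by
  rw [Representation.FiniteCyclicGroup.coinvariantsKer_eq_range ρ σ hσ]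
  constructor
  · rintro ⟨y, rfl⟩
    exact ⟨y, (cycD_apply (Rep.of ρ) σ y).symm⟩
  · rintro ⟨y, rfl⟩
    exact ⟨y, cycD_apply (Rep.of ρ) σ y⟩

include hσ in
/-- AT0 in degree `0` gives `Ĥ⁰ = ker (σ - 1) / im N`. -/
theorem isQuot_tate_zero_of (π : ρ.invariants →+ tateCohomology (Rep.of ρ) 0)
    (hs : Function.Surjective π)
    (hk : ∀ x : ρ.invariants,
      π x = 0 ↔ ∃ y : V, (ρ.norm : V →ₗ[ℤ] V).toAddMonoidHom y = (x : V)) :
    IsQuot (cycD (Rep.of ρ) σ).ker (cycN (Rep.of ρ)).range (tateCohomology (Rep.of ρ) 0) := by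
  refine ⟨π.comp
    { toFun := fun x => ⟨x.1, (mem_cycD_ker_iff ρ σ hσ x.1).1 x.2⟩
      map_zero' := rfl
      map_add' := fun _ _ => rfl }, ?_, ?_⟩
  · intro y
    obtain ⟨x, rfl⟩ := hs y
    exact ⟨⟨x.1, (mem_cycD_ker_iff ρ σ hσ x.1).2 x.2⟩, rfl⟩
  · intro x
    exact (hk _).trans (mem_cycN_range_iff ρ x.1).symm

include hσ in
/-- AT0 in degree `-1` gives `Ĥ⁻¹ = ker N / im (σ - 1)`. -/
theorem isQuot_tate_negOne_of
    (π : ((ρ.norm : V →ₗ[ℤ] V).toAddMonoidHom).ker →+ tateCohomology (Rep.of ρ) (-1))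
    (hs : Function.Surjective π)
    (hk : ∀ x : ((ρ.norm : V →ₗ[ℤ] V).toAddMonoidHom).ker,
      π x = 0 ↔ (x : V) ∈ Representation.Coinvariants.ker ρ) :
    IsQuot (cycN (Rep.of ρ)).ker (cycD (Rep.of ρ) σ).range
      (tateCohomology (Rep.of ρ) (-1)) := by
  refine ⟨π.comp
    { toFun := fun x => ⟨x.1, (mem_cycN_ker_iff ρ x.1).1 x.2⟩
      map_zero' := rfl
      map_add' := fun _ _ => rfl }, ?_, ?_⟩
  · intro y
    obtain ⟨x, rfl⟩ := hs y
    exact ⟨⟨x.1, (mem_cycN_ker_iff ρ x.1).2 x.2⟩, rfl⟩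
  · intro x
    exact (hk _).trans (mem_cycD_range_iff ρ σ hσ x.1).symm

include hσ in
/-- periodicity for `Rep.of ρ` over a finite cyclic group, given AT0-type descriptions of
`Ĥ⁰` and `Ĥ⁻¹` -/
theorem period_of
    (h0 : IsQuot (cycD (Rep.of ρ) σ).ker (cycN (Rep.of ρ)).range (tateCohomology (Rep.of ρ) 0))
    (h1 : IsQuot (cycN (Rep.of ρ)).ker (cycD (Rep.of ρ) σ).range
      (tateCohomology (Rep.of ρ) (-1))) (n : ℤ) :
    Nonempty (tateCohomology (Rep.of ρ) n ≅ tateCohomology (Rep.of ρ) (n + 2)) := by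
  rcases Int.even_or_odd n with hn | hn
  · exact (isQuot_tate_even (Rep.of ρ) σ hσ h0 n hn).iso
      (isQuot_tate_even (Rep.of ρ) σ hσ h0 (n + 2) (hn.add even_two))
  · exact (isQuot_tate_odd (Rep.of ρ) σ hσ h1 n hn).iso
      (isQuot_tate_odd (Rep.of ρ) σ hσ h1 (n + 2) (hn.add_even even_two))

end int

/-- **AC**: `H20A.CyclicPeriodStatement`, given AT0 (`H20A.TateZeroStatement`,
`H20A.TateNegOneStatement`). -/
theorem helper25_cyclicPeriod (G : Type) [hG : Group G] [Finite G]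
    (h0 : H20A.TateZeroStatement G) (h1 : H20A.TateNegOneStatement G) :
    H20A.CyclicPeriodStatement G := by
  intro hcyc A n
  obtain ⟨σ, hσ⟩ := hcyc.exists_generator
  cases A
  rename_i V i1 i2 ρ
  have hi2 : i2 = AddCommGroup.toIntModule V := Subsingleton.elim _ _
  subst hi2
  obtain ⟨π0, hs0, hk0, -⟩ := h0
  obtain ⟨π1, hs1, hk1, -⟩ := h1
  letI : Fintype G := Fintype.ofFinite G
  letI hc : CommGroup G :=
    { hG with
      mul_comm := fun a b => by
        obtain ⟨m, rfl⟩ := Subgroup.mem_zpowers_iff.1 (hσ a)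
        obtain ⟨n, rfl⟩ := Subgroup.mem_zpowers_iff.1 (hσ b)
        rw [← zpow_add, ← zpow_add, add_comm] }
  exact H25AC.period_of ρ σ hσ
    (H25AC.isQuot_tate_zero_of ρ σ hσ (π0 V ρ) (hs0 V ρ) (hk0 V ρ))
    (H25AC.isQuot_tate_negOne_of ρ σ hσ (π1 V ρ) (hs1 V ρ) (hk1 V ρ)) n

end H25AC
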