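/-
W2-C (S55) block A, slice AF (helper5), part 1:
* the connecting homomorphism of group cohomology commutes with change of groups;
* the module `Map(G, W)` (right translation) has vanishing cohomology in positive degrees;
* the dimension shifting sequence `0 → A → Map(G, A) → A' → 0`.
-/
import Mathlib

set_option autoImplicit false

noncomputable section

open CategoryTheory groupCohomology Rep

namespace H5AF

universe u

section Naturality

variable {k G H : Type u} [CommRing k] [Group G] [Group H]

/-- the morphism of short complexes of cochain complexes induced by a group homomorphism and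
compatible morphisms of representations -/
def h5af_cochainsHom (f : G →* H) {X : ShortComplex (Rep.{u} k H)} {Y : ShortComplex (Rep.{u} k G)}
    (φ₁ : res f X.X₁ ⟶ Y.X₁) (φ₂ : res f X.X₂ ⟶ Y.X₂) (φ₃ : res f X.X₃ ⟶ Y.X₃)
    (h₁ : ∀ x : X.X₁, φ₂.hom (X.f.hom x) = Y.f.hom (φ₁.hom x))
    (h₂ : ∀ x : X.X₂, φ₃.hom (X.g.hom x) = Y.g.hom (φ₂.hom x)) :
    X.map (cochainsFunctor k H) ⟶ Y.map (cochainsFunctor k G) :=
  ShortComplex.homMk (cochainsMap f φ₁) (cochainsMap f φ₂) (cochainsMap f φ₃)
    (by
      ext n x
      funext g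
      exact (h₁ _).symm)
    (by
      ext n x
      funext g
      exact (h₂ _).symm)

/-- **The connecting homomorphism commutes with change of groups.** -/
theorem h5af_δ_map (f : G →* H) {X : ShortComplex (Rep.{u} k H)} {Y : ShortComplex (Rep.{u} k G)}
    (hX : X.ShortExact) (hY : Y.ShortExact)
    (φ₁ : res f X.X₁ ⟶ Y.X₁) (φ₂ : res f X.X₂ ⟶ Y.X₂) (φ₃ : res f X.X₃ ⟶ Y.X₃)
    (h₁ : ∀ x : X.X₁, φ₂.hom (X.f.hom x) = Y.f.hom (φ₁.hom x))
    (h₂ : ∀ x : X.X₂, φ₃.hom (X.g.hom x) = Y.g.hom (φ₂.hom x)) (i j : ℕ) (hij : i + 1 = j) :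
    groupCohomology.δ hX i j hij ≫ groupCohomology.map f φ₁ j
      = groupCohomology.map f φ₃ i ≫ groupCohomology.δ hY i j hij :=
  HomologicalComplex.HomologySequence.δ_naturality (h5af_cochainsHom f φ₁ φ₂ φ₃ h₁ h₂)
    (map_cochainsFunctor_shortExact hX) (map_cochainsFunctor_shortExact hY) i j hij

end Naturality

section MapRep

variable (k : Type u) (G : Type u) [CommRing k] [Group G]

/-- `Map(G, W)` with `G` acting by right translation, `(g • φ)(x) = φ(x g)` -/
def h5af_mapRepr (W : Type u) [AddCommGroup W] [Module k W] : Representation k G (G → W) where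
  toFun g := LinearMap.funLeft k W (· * g)
  map_one' := by ext φ x; simp
  map_mul' g h := by ext φ x; simp [mul_assoc]

@[simp]
theorem h5af_mapRepr_apply (W : Type u) [AddCommGroup W] [Module k W] (g : G) (φ : G → W) (x : G) :
    h5af_mapRepr k G W g φ x = φ (x * g) := rfl

/-- the representation `Map(G, W)` -/
abbrev h5af_mapRep (W : Type u) [AddCommGroup W] [Module k W] : Rep.{u} k G :=
  Rep.of (h5af_mapRepr k G W)

/-- `Map(G, W)` is coinduced from the trivial subgroup -/
def h5af_mapRepIso (W : Type u) [AddCommGroup W] [Module k W] :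
    h5af_mapRep k G W ≅ Rep.coind (⊥ : Subgroup G).subtype (Rep.trivial k (⊥ : Subgroup G) W) :=
  Rep.mkIso (Representation.Equiv.mk
    (LinearEquiv.ofBijective
      (LinearMap.codRestrict _ LinearMap.id (fun φ => by
        intro g h
        have hg : (g : G) = 1 := by
          have := g.2
          rwa [Subgroup.mem_bot] at this
        simp [hg]))
      ⟨fun φ ψ h => congrArg Subtype.val h,
       fun φ => ⟨φ.1, Subtype.ext rfl⟩⟩)
    (fun g => by
      ext φ x
      rfl))

/-- **`Map(G, W)` has no cohomology in positive degrees.** -/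
theorem h5af_isZero_mapRep (W : Type u) [AddCommGroup W] [Module k W] (n : ℕ) :
    Limits.IsZero (groupCohomology (h5af_mapRep k G W) (n + 1)) := by
  have h1 : Limits.IsZero (groupCohomology (Rep.trivial k (⊥ : Subgroup G) W) (n + 1)) :=
    isZero_groupCohomology_succ_of_subsingleton _ n
  have e1 := groupCohomology.coindIso (Rep.trivial k (⊥ : Subgroup G) W) (n + 1)
  have e2 := (groupCohomology.functor k G (n + 1)).mapIso (h5af_mapRepIso k G W)
  exact (h1.of_iso e1).of_iso e2

/-- cohomology in positive degrees vanishes for every representation isomorphic to a `Map(G, W)` -/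
theorem h5af_isZero_of_iso {A : Rep.{u} k G} (W : Type u) [AddCommGroup W] [Module k W]
    (e : A ≅ h5af_mapRep k G W) (n : ℕ) : Limits.IsZero (groupCohomology A (n + 1)) :=
  (h5af_isZero_mapRep k G W n).of_iso ((groupCohomology.functor k G (n + 1)).mapIso e)

end MapRep

section Shift

variable {k : Type u} {G : Type u} [CommRing k] [Group G] (A : Rep.{u} k G)

/-- the coinduced module `I(A) = Map(G, A)` -/
abbrev h5af_I : Rep.{u} k G := h5af_mapRep k G A.V

/-- the embedding `A → Map(G, A)`, `a ↦ (x ↦ x a)` -/
def h5af_ι : A ⟶ h5af_I A :=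
  Rep.ofHom (ρ := A.ρ) (σ := h5af_mapRepr k G A.V)
    ⟨{ toFun := fun a x => A.ρ x a
       map_add' := fun a b => by funext x; simp
       map_smul' := fun c a => by funext x; simp },
     fun g => by
      ext a x
      simp⟩

@[simp]
theorem h5af_ι_apply (a : A.V) (x : G) : (h5af_ι A).hom a x = A.ρ x a := rfl

theorem h5af_ι_injective : Function.Injective (h5af_ι A).hom := by
  intro a b h
  have h1 : A.ρ 1 a = A.ρ 1 b := congrFun h 1
  simpa using h1

instance h5af_mono_ι : Mono (h5af_ι A) := (Rep.mono_iff_injective _).2 (h5af_ι_injective A)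

/-- the dimension shifting sequence `0 → A → Map(G, A) → A' → 0` -/
def h5af_X : ShortComplex (Rep.{u} k G) :=
  ShortComplex.mk (h5af_ι A) (Limits.cokernel.π (h5af_ι A)) (Limits.cokernel.condition _)

theorem h5af_X_shortExact : (h5af_X A).ShortExact :=
  ShortComplex.ShortExact.mk' (ShortComplex.exact_cokernel (h5af_ι A))
    (h5af_mono_ι A) (by dsimp [h5af_X]; infer_instance)

/-- the shifted module `A' = Map(G, A) / A` -/
abbrev h5af_A' : Rep.{u} k G := (h5af_X A).X₃

end Shift

end H5AF

end
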