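/-
W2-C (S55) block A, slice AF (helper5), part 2:
* restriction of `Map(G, W)` to a subgroup and its invariants under a normal subgroup are again
  of the form `Map(Γ, W')`, hence acyclic;
* the sequence of `S`-invariants of a short exact sequence is short exact if `H¹(S, X₁) = 0`.
-/
import Mathlib
import Fermat.Agent.CFT2.A.AF1_helper5

set_option autoImplicit false

noncomputable section

open CategoryTheory groupCohomology Rep

namespace H5AF

universe u

section Res

variable (k : Type u) {G : Type u} [CommRing k] [Group G] (S : Subgroup G)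

/-- the element `(out x̄)⁻¹ x ∈ S` -/
def h5af_sPart (x : G) : S :=
  ⟨(Quotient.out (x : G ⧸ S))⁻¹ * x, by
    rw [← QuotientGroup.eq]
    exact QuotientGroup.out_eq' _⟩

theorem h5af_out_mul_sPart (x : G) : (Quotient.out (x : G ⧸ S)) * (h5af_sPart S x : G) = x := by
  simp [h5af_sPart]

theorem h5af_mk_out_mul (t : G ⧸ S) (s : S) : ((Quotient.out t * (s : G) : G) : G ⧸ S) = t := by
  rw [QuotientGroup.mk_mul_of_mem _ s.2]
  exact QuotientGroup.out_eq' _

theorem h5af_sPart_out_mul (t : G ⧸ S) (s : S) : h5af_sPart S (Quotient.out t * (s : G)) = s := by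
  apply Subtype.ext
  simp only [h5af_sPart]
  rw [h5af_mk_out_mul]
  simp

/-- `Map(G, W) ≃ Map(S, Map(G/S, W))` -/
def h5af_resEquiv (W : Type u) [AddCommGroup W] [Module k W] :
    (G → W) ≃ₗ[k] (S → (G ⧸ S → W)) where
  toFun φ := fun s t => φ (Quotient.out t * (s : G))
  invFun ψ := fun x => ψ (h5af_sPart S x) (x : G ⧸ S)
  map_add' φ ψ := rfl
  map_smul' c φ := rfl
  left_inv φ := by
    funext x
    simp only
    rw [h5af_out_mul_sPart]
  right_inv ψ := by
    funext s t
    simp only
    rw [h5af_sPart_out_mul, h5af_mk_out_mul]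

/-- the restriction of `Map(G, W)` to `S` is `Map(S, Map(G/S, W))` -/
def h5af_resIso (W : Type u) [AddCommGroup W] [Module k W] :
    Rep.res S.subtype (h5af_mapRep k G W) ≅ h5af_mapRep k S (G ⧸ S → W) :=
  Rep.mkIso (Representation.Equiv.mk (h5af_resEquiv k S W) (fun s => by
    ext φ s' t
    simp [h5af_resEquiv, mul_assoc]))

/-- the restriction of `Map(G, W)` to a subgroup is acyclic -/
theorem h5af_isZero_res (W : Type u) [AddCommGroup W] [Module k W] (n : ℕ) :
    Limits.IsZero (groupCohomology (Rep.res S.subtype (h5af_mapRep k G W)) (n + 1)) :=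
  h5af_isZero_of_iso k S (G ⧸ S → W) (h5af_resIso k S W) n

end Res

section Inv

variable (k : Type u) {G : Type u} [CommRing k] [Group G] (S : Subgroup G)

/-- `Map(G/S, W) → Map(G, W)^S` -/
def h5af_invMap (W : Type u) [AddCommGroup W] [Module k W] :
    (G ⧸ S → W) →ₗ[k] Representation.invariants ((h5af_mapRepr k G W).comp S.subtype) where
  toFun ψ := ⟨fun x => ψ (x : G ⧸ S), fun s => by
    funext x
    show ψ ((x * (s : G) : G) : G ⧸ S) = ψ (x : G ⧸ S)
    rw [QuotientGroup.mk_mul_of_mem _ s.2]⟩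
  map_add' φ ψ := rfl
  map_smul' c φ := rfl

theorem h5af_invMap_bijective (W : Type u) [AddCommGroup W] [Module k W] :
    Function.Bijective (h5af_invMap k S W) := by
  constructor
  · intro φ ψ h
    funext t
    induction t using QuotientGroup.induction_on with | H x =>
    exact congrFun (congrArg Subtype.val h) x
  · rintro ⟨φ, hφ⟩
    refine ⟨fun t => Quotient.liftOn' t φ ?_, ?_⟩
    · intro a b hab
      have hab' : a⁻¹ * b ∈ S := QuotientGroup.leftRel_apply.1 hab
      have := congrFun (hφ ⟨a⁻¹ * b, hab'⟩) a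
      simp only [MonoidHom.comp_apply, Subgroup.subtype_apply, h5af_mapRepr_apply,
        mul_inv_cancel_left] at this
      exact this.symm
    · apply Subtype.ext
      funext x
      rfl

variable [S.Normal]

/-- the `S`-invariants of `Map(G, W)` are `Map(G/S, W)` -/
def h5af_invIso (W : Type u) [AddCommGroup W] [Module k W] :
    h5af_mapRep k (G ⧸ S) W ≅ (h5af_mapRep k G W).quotientToInvariants S :=
  Rep.mkIso (Representation.Equiv.mk
    (LinearEquiv.ofBijective (h5af_invMap k S W) (h5af_invMap_bijective k S W)) (fun q => by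
      induction q using QuotientGroup.induction_on with | H g =>
      ext ψ x
      rfl))

/-- the invariants of `Map(G, W)` under a normal subgroup are acyclic -/
theorem h5af_isZero_inv (W : Type u) [AddCommGroup W] [Module k W] (n : ℕ) :
    Limits.IsZero (groupCohomology ((h5af_mapRep k G W).quotientToInvariants S) (n + 1)) :=
  h5af_isZero_of_iso k (G ⧸ S) W (h5af_invIso k S W).symm n

end Inv

section Exactness

variable {k : Type u} {G : Type u} [CommRing k] [Group G]

theorem h5af_exact_iff (X : ShortComplex (Rep.{u} k G)) :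
    X.Exact ↔ ∀ x₂ : X.X₂, X.g.hom x₂ = 0 → ∃ x₁ : X.X₁, X.f.hom x₁ = x₂ := by
  rw [← ShortComplex.exact_map_iff_of_faithful X (forget₂ (Rep.{u} k G) (ModuleCat.{u} k)),
    ShortComplex.moduleCat_exact_iff]
  rfl

/-- `H⁰(G, X₂) → H⁰(G, X₃)` is surjective if `H¹(G, X₁) = 0` -/
theorem h5af_epi_map_zero {X : ShortComplex (Rep.{u} k G)} (hX : X.ShortExact)
    (h1 : Limits.IsZero (groupCohomology X.X₁ 1)) :
    Epi (groupCohomology.map (MonoidHom.id G) X.g 0) := by
  have hex := mapShortComplex₃_exact hX (i := 0) (j := 1) rfl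
  exact hex.epi_f (h1.eq_of_tgt _ _)

theorem h5af_invariants_surjective {X : ShortComplex (Rep.{u} k G)} (hX : X.ShortExact)
    (h1 : Limits.IsZero (groupCohomology X.X₁ 1)) (y : X.X₃) (hy : ∀ g, X.X₃.ρ g y = y) :
    ∃ x : X.X₂, (∀ g, X.X₂.ρ g x = x) ∧ X.g.hom x = y := by
  have hepi := h5af_epi_map_zero hX h1
  have h2 : Epi ((invariantsFunctor k G).map X.g) := by
    have e := map_id_comp_H0Iso_hom X.g
    have h3 : (invariantsFunctor k G).map X.g
        = (H0Iso X.X₂).inv ≫ groupCohomology.map (MonoidHom.id G) X.g 0 ≫ (H0Iso X.X₃).hom := by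
      rw [e, Iso.inv_hom_id_assoc]
    rw [h3]
    infer_instance
  rw [ModuleCat.epi_iff_surjective] at h2
  obtain ⟨x, hx⟩ := h2 ⟨y, hy⟩
  exact ⟨x.1, x.2, congrArg Subtype.val hx⟩

variable (S : Subgroup G) [S.Normal]

instance h5af_qinv_preservesZero :
    (quotientToInvariantsFunctor k S (G := G)).PreservesZeroMorphisms where
  map_zero A B := by
    apply Rep.hom_ext
    ext x
    rfl

/-- the sequence of `S`-invariants is short exact if `H¹(S, X₁) = 0` -/
theorem h5af_shortExact_inv {X : ShortComplex (Rep.{u} k G)} (hX : X.ShortExact)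
    (h1 : Limits.IsZero (groupCohomology (Rep.res S.subtype X.X₁) 1)) :
    (X.map (quotientToInvariantsFunctor k S)).ShortExact := by
  have hinj : Function.Injective X.f.hom := (Rep.mono_iff_injective _).1 hX.mono_f
  have hex := (h5af_exact_iff X).1 hX.exact
  have hXS : (X.map (resFunctor S.subtype)).ShortExact := (shortExact_res S.subtype).2 hX
  refine ShortComplex.ShortExact.mk' ?_ ?_ ?_
  · rw [h5af_exact_iff]
    intro x₂ hx₂
    have h0 : X.g.hom (Subtype.val x₂ : X.X₂.V) = 0 := congrArg Subtype.val hx₂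
    obtain ⟨x₁, hx₁⟩ := hex _ h0
    refine ⟨⟨x₁, fun s => ?_⟩, Subtype.ext hx₁⟩
    apply hinj
    have h2 := x₂.2 s
    have h3 : X.f.hom (X.X₁.ρ (s : G) x₁) = X.X₂.ρ (s : G) (X.f.hom x₁) :=
      hom_comm_apply X.f (s : G) x₁
    rw [hx₁] at h3
    rw [hx₁]
    exact h3.trans h2
  · rw [Rep.mono_iff_injective]
    intro a b hab
    apply Subtype.ext
    apply hinj
    exact congrArg Subtype.val hab
  · rw [Rep.epi_iff_surjective]
    intro y
    obtain ⟨x, hx, hxy⟩ := h5af_invariants_surjective hXS h1 (Subtype.val y : X.X₃.V)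
      (fun s => y.2 s)
    exact ⟨⟨x, hx⟩, Subtype.ext hxy⟩

end Exactness

end H5AF

end
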