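/-
W2-C (S55) block A, slice AF (helper5): **inflation-restriction in degree `n`**.
If `Hⁱ(S, A) = 0` for `0 < i < n` (`S` normal in `G`), then
`0 → Hⁿ(G/S, A^S) → Hⁿ(G, A) → Hⁿ(S, A)` is exact.
Proof: dimension shifting with `0 → A → Map(G, A) → A' → 0` from Mathlib's degree-one case.
Main results: `H5AF.h5af_infRes` (any commutative ring `k`, any group `G`), and
`H5AF.h5af_infResStatement : H20A.InfResStatement G n`.
-/
import Mathlib
import Fermat.Agent.CFT2.A.Defs
import Fermat.Agent.CFT2.A.AF2_helper5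

set_option autoImplicit false

noncomputable section

open CategoryTheory groupCohomology Rep

namespace H5AF

universe u

variable {k : Type u} {G : Type u} [CommRing k] [Group G] (S : Subgroup G) [S.Normal]

/-- inflation -/
abbrev h5af_inf (A : Rep.{u} k G) (n : ℕ) :
    groupCohomology (A.quotientToInvariants S) n ⟶ groupCohomology A n :=
  groupCohomology.map (QuotientGroup.mk' S) (ofHom <| A.ρ.quotientToInvariants_lift S) n

/-- restriction -/
abbrev h5af_res (A : Rep.{u} k G) (n : ℕ) :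
    groupCohomology A n ⟶ groupCohomology (Rep.res S.subtype A) n :=
  groupCohomology.map S.subtype (𝟙 (Rep.res S.subtype A)) n

/-- the inflation-restriction statement in degree `n` for `A` -/
def h5af_InfRes (A : Rep.{u} k G) (n : ℕ) : Prop :=
  Function.Injective (h5af_inf S A n).hom ∧
    ∀ x : groupCohomology A n, (h5af_res S A n).hom x = 0 ↔ ∃ y, (h5af_inf S A n).hom y = x

/-- the vanishing hypothesis -/
def h5af_Hyp (A : Rep.{u} k G) (n : ℕ) : Prop :=
  ∀ i : ℕ, 0 < i → i < n → Limits.IsZero (groupCohomology (Rep.res S.subtype A) i)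

theorem h5af_infRes_one (A : Rep.{u} k G) : h5af_InfRes S A 1 := by
  refine ⟨?_, fun x => ⟨fun hx => ?_, ?_⟩⟩
  · have : Mono (H1InfRes A S).f := inferInstance
    exact (ModuleCat.mono_iff_injective _).1 this
  · have hex := H1InfRes_exact A S
    rw [ShortComplex.moduleCat_exact_iff] at hex
    exact hex x hx
  · rintro ⟨y, rfl⟩
    have h0 : h5af_inf S A 1 ≫ h5af_res S A 1 = 0 := (H1InfRes A S).zero
    have h1 : (h5af_inf S A 1 ≫ h5af_res S A 1).hom y = 0 := by rw [h0]; rfl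
    exact h1

/-- the square `δ ∘ inf = inf ∘ δ` -/
theorem h5af_sq_inf {X : ShortComplex (Rep.{u} k G)} (hX : X.ShortExact)
    (hXQ : (X.map (quotientToInvariantsFunctor k S)).ShortExact) (n : ℕ) :
    groupCohomology.δ hXQ n (n + 1) rfl ≫ h5af_inf S X.X₁ (n + 1)
      = h5af_inf S X.X₃ n ≫ groupCohomology.δ hX n (n + 1) rfl :=
  h5af_δ_map (QuotientGroup.mk' S) hXQ hX
    (ofHom <| X.X₁.ρ.quotientToInvariants_lift S) (ofHom <| X.X₂.ρ.quotientToInvariants_lift S)
    (ofHom <| X.X₃.ρ.quotientToInvariants_lift S) (fun _ => rfl) (fun _ => rfl) n (n + 1) rfl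

omit [S.Normal] in
/-- the square `δ ∘ res = res ∘ δ` -/
theorem h5af_sq_res {X : ShortComplex (Rep.{u} k G)} (hX : X.ShortExact)
    (hXS : (X.map (resFunctor S.subtype)).ShortExact) (n : ℕ) :
    groupCohomology.δ hX n (n + 1) rfl ≫ h5af_res S X.X₁ (n + 1)
      = h5af_res S X.X₃ n ≫ groupCohomology.δ hXS n (n + 1) rfl :=
  h5af_δ_map S.subtype hX hXS (𝟙 _) (𝟙 _) (𝟙 _) (fun _ => rfl) (fun _ => rfl) n (n + 1) rfl

/-- the diagram chase -/
theorem h5af_chase {M₁ M₂ M₃ N₁ N₂ N₃ : Type*} [Zero M₃] [Zero N₃]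
    (a' : M₁ → M₂) (b' : M₂ → M₃) (a : N₁ → N₂) (b : N₂ → N₃)
    (dQ : M₁ → N₁) (dG : M₂ → N₂) (dS : M₃ → N₃)
    (hQ : Function.Surjective dQ) (hG : Function.Bijective dG)
    (hS : Function.Injective dS) (hS0 : dS 0 = 0)
    (sq1 : ∀ y, a (dQ y) = dG (a' y)) (sq2 : ∀ x, b (dG x) = dS (b' x))
    (ha' : Function.Injective a') (hb' : ∀ x, b' x = 0 ↔ ∃ y, a' y = x) :
    Function.Injective a ∧ ∀ x, b x = 0 ↔ ∃ y, a y = x := by
  constructor
  · intro y z hyz
    obtain ⟨y₀, rfl⟩ := hQ y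
    obtain ⟨z₀, rfl⟩ := hQ z
    rw [sq1, sq1] at hyz
    rw [ha' (hG.1 hyz)]
  · intro x
    obtain ⟨x₀, rfl⟩ := hG.2 x
    rw [sq2]
    constructor
    · intro h
      have h1 : b' x₀ = 0 := hS (by rw [h, hS0])
      obtain ⟨y₀, hy₀⟩ := (hb' x₀).1 h1
      exact ⟨dQ y₀, by rw [sq1, hy₀]⟩
    · rintro ⟨y, hy⟩
      obtain ⟨y₀, rfl⟩ := hQ y
      rw [sq1] at hy
      have h1 : b' x₀ = 0 := (hb' x₀).2 ⟨y₀, hG.1 hy⟩
      rw [h1, hS0]

theorem h5af_bijective_of_isIso {M N : ModuleCat.{u} k} (f : M ⟶ N) [IsIso f] :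
    Function.Bijective f.hom :=
  ConcreteCategory.bijective_of_isIso f

/-- the inductive step -/
theorem h5af_infRes_succ (n : ℕ) (hn : 0 < n)
    (ih : ∀ A : Rep.{u} k G, h5af_Hyp S A n → h5af_InfRes S A n)
    (A : Rep.{u} k G) (hA : h5af_Hyp S A (n + 1)) : h5af_InfRes S A (n + 1) := by
  obtain ⟨m, rfl⟩ : ∃ m, n = m + 1 := ⟨n - 1, by omega⟩
  have hX := h5af_X_shortExact A
  have hXS : ((h5af_X A).map (resFunctor S.subtype)).ShortExact :=
    (shortExact_res S.subtype).2 hX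
  have hXQ : ((h5af_X A).map (quotientToInvariantsFunctor k S)).ShortExact :=
    h5af_shortExact_inv S hX (hA 1 one_pos (by omega))
  -- the connecting maps are isomorphisms
  have iG : IsIso (groupCohomology.δ hX (m + 1) (m + 1 + 1) rfl) :=
    isIso_δ_of_isZero hX (m + 1) (h5af_isZero_mapRep k G A.V m) (h5af_isZero_mapRep k G A.V (m + 1))
  have iQ : IsIso (groupCohomology.δ hXQ (m + 1) (m + 1 + 1) rfl) :=
    isIso_δ_of_isZero hXQ (m + 1) (h5af_isZero_inv k S A.V m) (h5af_isZero_inv k S A.V (m + 1))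
  have iS : ∀ i : ℕ, IsIso (groupCohomology.δ hXS (i + 1) (i + 1 + 1) rfl) := fun i =>
    isIso_δ_of_isZero hXS (i + 1) (h5af_isZero_res k S A.V i) (h5af_isZero_res k S A.V (i + 1))
  -- the hypothesis for `A'`
  have hA' : h5af_Hyp S (h5af_X A).X₃ (m + 1) := by
    intro i hi0 hi
    obtain ⟨j, rfl⟩ : ∃ j, i = j + 1 := ⟨i - 1, by omega⟩
    exact (hA (j + 1 + 1) (by omega) (by omega)).of_iso
      (@asIso _ _ _ _ (groupCohomology.δ hXS (j + 1) (j + 1 + 1) rfl) (iS j))
  obtain ⟨ha', hb'⟩ := ih _ hA'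
  have sq1 := h5af_sq_inf S hX hXQ (m + 1)
  have sq2 := h5af_sq_res S hX hXS (m + 1)
  have := iS m
  refine h5af_chase (h5af_inf S (h5af_X A).X₃ (m + 1)).hom (h5af_res S (h5af_X A).X₃ (m + 1)).hom
    (h5af_inf S A (m + 1 + 1)).hom (h5af_res S A (m + 1 + 1)).hom
    (groupCohomology.δ hXQ (m + 1) (m + 1 + 1) rfl).hom
    (groupCohomology.δ hX (m + 1) (m + 1 + 1) rfl).hom
    (groupCohomology.δ hXS (m + 1) (m + 1 + 1) rfl).hom
    (h5af_bijective_of_isIso _).2 (h5af_bijective_of_isIso _) (h5af_bijective_of_isIso _).1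
    (map_zero _) ?_ ?_ ha' hb'
  · intro y
    have := congrArg (fun f => f.hom y) sq1
    exact this
  · intro x
    have := congrArg (fun f => f.hom x) sq2
    exact this

theorem h5af_infRes (n : ℕ) (hn : 0 < n) :
    ∀ A : Rep.{u} k G, h5af_Hyp S A n → h5af_InfRes S A n := by
  induction n with
  | zero => omega
  | succ m ih =>
    rcases Nat.eq_zero_or_pos m with rfl | hm
    · intro A _
      exact h5af_infRes_one S A
    · exact h5af_infRes_succ S m hm (ih hm)

/-- **AF**: inflation-restriction, in the form of the interface `H20A.InfResStatement`. -/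
theorem h5af_infResStatement (G : Type) [Group G] [Finite G] (n : ℕ) :
    H20A.InfResStatement G n := by
  intro hn A S _ hyp
  exact h5af_infRes S n hn A hyp

end H5AF

end
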