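/-
W2-C (S55) block A, slice AI1 (helper22): coinduced modules `Map(G, V)` are cohomologically
trivial: `H20A.CoindTrivialStatement G` for every finite group `G`.

Route: Shapiro's lemma (Mathlib, cohomology and homology) in degrees `n ≥ 1` and `n ≤ -2`,
explicit computation in degrees `0` and `-1`; restriction to a subgroup `H` of `Map(G, V)` is
`Map(H, Map(G ⧸ H, V))`.
-/
import Fermat.Agent.CFT2.A.Defs

set_option autoImplicit false

noncomputable section

open CategoryTheory groupCohomology groupHomology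

namespace H22AI

open H20A

variable {G : Type} [Group G]

/-! ## Generic vanishing criteria in degrees `0` and `-1` -/

theorem h22ai_norm_hom_apply [Fintype G] (M : Rep ℤ G) (m : M.V) :
    (Rep.norm M).hom m = ∑ g : G, M.ρ g m := by
  simp [Rep.norm, Representation.norm]

/-- `Ĥ⁰(G, M) = 0` as soon as every invariant is a norm. -/
theorem h22ai_tate_zero_isZero [Fintype G] (M : Rep ℤ G)
    (h : ∀ m : M.V, (∀ g, M.ρ g m = m) → ∃ m' : M.V, ∑ g : G, M.ρ g m' = m) :
    Limits.IsZero (tateCohomology M 0) := by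
  show Limits.IsZero ((tateComplex M).homology 0)
  rw [← HomologicalComplex.exactAt_iff_isZero_homology]
  rw [HomologicalComplex.exactAt_iff' _ (-1) 0 1 (by simp) (by simp)]
  rw [ShortComplex.moduleCat_exact_iff]
  intro x hx
  change (inhomogeneousCochains M).X 0 at x
  have hx' : (inhomogeneousCochains M).d 0 1 x = 0 := hx
  obtain ⟨m, rfl⟩ : ∃ m, (cochainsIso₀ M).inv m = x := ⟨(cochainsIso₀ M).hom x, by simp⟩
  have h1 : (d₀₁ M ≫ (cochainsIso₁ M).inv) m = 0 := by
    rw [← eq_d₀₁_comp_inv]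
    exact hx'
  have h2 : d₀₁ M m = 0 := by
    have := congrArg (cochainsIso₁ M).hom h1
    simpa using this
  have h3 : ∀ g, M.ρ g m = m := by
    intro g
    have := congrFun h2 g
    rw [d₀₁_hom_apply] at this
    exact sub_eq_zero.1 this
  obtain ⟨m', hm'⟩ := h m h3
  refine ⟨(chainsIso₀ M).inv m', ?_⟩
  show M.tateNorm ((chainsIso₀ M).inv m') = _
  have hn : (Rep.norm M).hom m' = m := by rw [h22ai_norm_hom_apply, hm']
  simp only [Rep.tateNorm]
  simp
  exact congrArg _ hn

/-- `Ĥ⁻¹(G, M) = 0` as soon as every element of norm `0` is a boundary. -/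
theorem h22ai_tate_negOne_isZero [Fintype G] (M : Rep ℤ G)
    (h : ∀ m : M.V, ∑ g : G, M.ρ g m = 0 → ∃ b : G →₀ M.V, d₁₀ M b = m) :
    Limits.IsZero (tateCohomology M (-1)) := by
  show Limits.IsZero ((tateComplex M).homology (-1))
  rw [← HomologicalComplex.exactAt_iff_isZero_homology]
  rw [HomologicalComplex.exactAt_iff' _ (-2) (-1) 0 (by simp) (by simp)]
  rw [ShortComplex.moduleCat_exact_iff]
  intro x hx
  change (inhomogeneousChains M).X 0 at x
  have hx' : M.tateNorm x = 0 := hx
  obtain ⟨m, rfl⟩ : ∃ m, (chainsIso₀ M).inv m = x := ⟨(chainsIso₀ M).hom x, by simp⟩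
  have h1 : ∑ g : G, M.ρ g m = 0 := by
    have := congrArg (cochainsIso₀ M).hom hx'
    simp [Rep.tateNorm] at this
    rw [← h22ai_norm_hom_apply]
    exact this
  obtain ⟨b, hb⟩ := h m h1
  refine ⟨(chainsIso₁ M).inv b, ?_⟩
  show (inhomogeneousChains M).d 1 0 ((chainsIso₁ M).inv b) = _
  have h2 := congrArg (fun f => (ConcreteCategory.hom f) b) (eq_d₁₀_comp_inv M)
  rw [← hb]
  exact h2

/-! ## The module `Map(G, V)` -/

/-- the representation underlying `coindOne G V` -/
def h22ai_rho (G : Type) [Group G] (V : Type) [AddCommGroup V] : Representation ℤ G (G → V) :=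
  (coindOne G V).ρ

theorem h22ai_coindOne_eq (V : Type) [AddCommGroup V] :
    coindOne G V = Rep.of (h22ai_rho G V) := rfl

theorem h22ai_rho_apply (V : Type) [AddCommGroup V] (g : G) (φ : G → V) (x : G) :
    h22ai_rho G V g φ x = φ (x * g) := rfl

theorem h22ai_rho_inv [Fintype G] (V : Type) [AddCommGroup V]
    (m : G → V) (hm : ∀ g, h22ai_rho G V g m = m) :
    ∃ m' : G → V, ∑ g : G, h22ai_rho G V g m' = m := by
  classical
  refine ⟨Pi.single (1 : G) (m 1), ?_⟩
  funext x
  have h1 : m x = m 1 := by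
    have := congrFun (hm x) 1
    rw [h22ai_rho_apply, one_mul] at this
    exact this
  rw [h1, Finset.sum_apply]
  simp only [h22ai_rho_apply]
  rw [Finset.sum_eq_single x⁻¹]
  · simp
  · intro g _ hg
    have : x * g ≠ 1 := fun h => hg (eq_inv_of_mul_eq_one_right h)
    simp [this]
  · intro h; exact absurd (Finset.mem_univ _) h

theorem h22ai_rho_ker [Fintype G] (V : Type) [AddCommGroup V]
    (m : G → V) (hm : ∑ g : G, h22ai_rho G V g m = 0) :
    ∃ b : G →₀ (G → V), d₁₀ (Rep.of (h22ai_rho G V)) b = m := by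
  classical
  have hsum : ∑ y : G, m y = 0 := by
    have h1 := congrFun hm 1
    rw [Finset.sum_apply] at h1
    simpa [h22ai_rho_apply] using h1
  refine ⟨∑ y : G, Finsupp.single y (Pi.single (1 : G) (m y)), ?_⟩
  rw [map_sum]
  have hd : ∀ y : G, (d₁₀ (Rep.of (h22ai_rho G V))) (Finsupp.single y (Pi.single (1 : G) (m y)))
      = h22ai_rho G V y⁻¹ (Pi.single (1 : G) (m y)) - Pi.single (1 : G) (m y) := fun y =>
    d₁₀_single (Rep.of (h22ai_rho G V)) y _
  simp only [hd]
  funext x
  rw [Finset.sum_apply]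
  simp only [Pi.sub_apply]
  rw [Finset.sum_sub_distrib]
  have h3 : ∑ y : G, (Pi.single (1 : G) (m y) : G → V) x = 0 := by
    by_cases hx : x = 1
    · subst hx; simpa using hsum
    · simp [hx]
  rw [h3, sub_zero]
  show ∑ y : G, h22ai_rho G V y⁻¹ (Pi.single (1 : G) (m y)) x = m x
  simp only [h22ai_rho_apply]
  rw [Finset.sum_eq_single x]
  · simp
  · intro y _ hy
    have : x * y⁻¹ ≠ 1 := fun h => hy (by
      have := mul_inv_eq_one.1 h
      exact this.symm)
    simp [this]
  · intro h; exact absurd (Finset.mem_univ _) h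

/-! ## Shapiro: degrees `n ≥ 1` and `n ≤ -2` -/

/-- `coindOne G V` is Mathlib's coinduction from the trivial subgroup. -/
def h22ai_coindOneEquiv (V : Type) [AddCommGroup V] :
    (coindOne G V).ρ.Equiv
      (Representation.coind (⊥ : Subgroup G).subtype
        (Representation.trivial ℤ (⊥ : Subgroup G) V)) :=
  Representation.Equiv.mk
    { toFun := fun φ => ⟨φ, fun g h => by
        have h1 : ((⊥ : Subgroup G).subtype g) = 1 := Subgroup.mem_bot.1 g.2
        simp [h1]⟩
      map_add' := fun _ _ => rfl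
      map_smul' := fun _ _ => rfl
      invFun := fun φ => φ.1
      left_inv := fun _ => rfl
      right_inv := fun _ => rfl }
    (fun g => by
      ext φ x
      rfl)

/-- `coindOne G V` is Mathlib's coinduction from the trivial subgroup. -/
def h22ai_coindOneIso (V : Type) [AddCommGroup V] :
    coindOne G V ≅ Rep.coind (⊥ : Subgroup G).subtype (Rep.trivial ℤ (⊥ : Subgroup G) V) :=
  Rep.mkIso (h22ai_coindOneEquiv V)

/-- `Hⁿ⁺¹(G, Map(G, V)) = 0` -/
theorem h22ai_coh_isZero (V : Type) [AddCommGroup V] (n : ℕ) :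
    Limits.IsZero (groupCohomology (coindOne G V) (n + 1)) := by
  have e1 : groupCohomology (coindOne G V) (n + 1) ≅
      groupCohomology (Rep.coind (⊥ : Subgroup G).subtype (Rep.trivial ℤ (⊥ : Subgroup G) V))
        (n + 1) :=
    (groupCohomology.functor ℤ G (n + 1)).mapIso (h22ai_coindOneIso V)
  have e2 := groupCohomology.coindIso (Rep.trivial ℤ (⊥ : Subgroup G) V) (n + 1)
  exact (isZero_groupCohomology_succ_of_subsingleton _ n).of_iso (e1 ≪≫ e2)

/-- `Hₙ₊₁(G, Map(G, V)) = 0` -/
theorem h22ai_hom_isZero [Finite G] (V : Type) [AddCommGroup V] (n : ℕ) :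
    Limits.IsZero (groupHomology (coindOne G V) (n + 1)) := by
  classical
  have e0 : coindOne G V ≅ Rep.ind (⊥ : Subgroup G).subtype (Rep.trivial ℤ (⊥ : Subgroup G) V) :=
    h22ai_coindOneIso V ≪≫ (Rep.indCoindIso _).symm
  have e1 : groupHomology (coindOne G V) (n + 1) ≅
      groupHomology (Rep.ind (⊥ : Subgroup G).subtype (Rep.trivial ℤ (⊥ : Subgroup G) V))
        (n + 1) :=
    (groupHomology.functor ℤ G (n + 1)).mapIso e0
  have e2 := groupHomology.indIso (⊥ : Subgroup G) (Rep.trivial ℤ (⊥ : Subgroup G) V) (n + 1)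
  exact (isZero_groupHomology_succ_of_subsingleton _ n).of_iso (e1 ≪≫ e2)

theorem h22ai_tate_pos [Finite G] (V : Type) [AddCommGroup V] (n : ℕ) :
    Limits.IsZero (tate (coindOne G V) ((n : ℤ) + 1)) := by
  let _ : Fintype G := Fintype.ofFinite G
  have e := (TateCohomology.isoGroupCohomology (R := ℤ) (G := G) (n + 1)).app (coindOne G V)
  exact (h22ai_coh_isZero V n).of_iso e

theorem h22ai_tate_neg [Finite G] (V : Type) [AddCommGroup V] (n : ℕ) :
    Limits.IsZero (tate (coindOne G V) (-((n : ℤ) + 2))) := by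
  let _ : Fintype G := Fintype.ofFinite G
  have e := (TateCohomology.isoGroupHomology (R := ℤ) (G := G) (-((n : ℤ) + 2)) (n + 1)
    (by push_cast; ring)).app (coindOne G V)
  exact (h22ai_hom_isZero V n).of_iso e

theorem h22ai_tate_zero [Finite G] (V : Type) [AddCommGroup V] :
    Limits.IsZero (tate (coindOne G V) 0) := by
  let _ : Fintype G := Fintype.ofFinite G
  exact h22ai_tate_zero_isZero (Rep.of (h22ai_rho G V)) (h22ai_rho_inv V)

theorem h22ai_tate_negOne [Finite G] (V : Type) [AddCommGroup V] :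
    Limits.IsZero (tate (coindOne G V) (-1)) := by
  let _ : Fintype G := Fintype.ofFinite G
  exact h22ai_tate_negOne_isZero (Rep.of (h22ai_rho G V)) (h22ai_rho_ker V)

/-- all Tate cohomology groups of `Map(G, V)` vanish -/
theorem h22ai_tate_isZero [Finite G] (V : Type) [AddCommGroup V] (n : ℤ) :
    Limits.IsZero (tate (coindOne G V) n) := by
  rcases lt_trichotomy n 0 with h | h | h
  · rcases eq_or_lt_of_le (show n ≤ -1 by omega) with h1 | h1
    · subst h1; exact h22ai_tate_negOne V
    · obtain ⟨k, hk⟩ : ∃ k : ℕ, n = -((k : ℤ) + 2) := ⟨(-n - 2).toNat, by omega⟩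
      subst hk; exact h22ai_tate_neg V k
  · subst h; exact h22ai_tate_zero V
  · obtain ⟨k, hk⟩ : ∃ k : ℕ, n = (k : ℤ) + 1 := ⟨(n - 1).toNat, by omega⟩
    subst hk; exact h22ai_tate_pos V k

/-! ## Restriction to subgroups -/

/-- the chosen representative of the left coset of `x` -/
def h22ai_rep (H : Subgroup G) (x : G) : G := (QuotientGroup.mk x : G ⧸ H).out

theorem h22ai_rep_inv_mul_mem (H : Subgroup G) (x : G) : (h22ai_rep H x)⁻¹ * x ∈ H := by
  have h : (QuotientGroup.mk (h22ai_rep H x) : G ⧸ H) = QuotientGroup.mk x :=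
    Quotient.out_eq' _
  exact QuotientGroup.eq.1 h

/-- the `H`-component of `x = rep(x) * h` -/
def h22ai_cmp (H : Subgroup G) (x : G) : H := ⟨(h22ai_rep H x)⁻¹ * x, h22ai_rep_inv_mul_mem H x⟩

theorem h22ai_rep_mul_cmp (H : Subgroup G) (x : G) :
    h22ai_rep H x * (h22ai_cmp H x : G) = x := by
  simp [h22ai_cmp]

theorem h22ai_mk_out_mul (H : Subgroup G) (q : G ⧸ H) (h : H) :
    (QuotientGroup.mk (q.out * (h : G)) : G ⧸ H) = q := by
  rw [QuotientGroup.mk_mul_of_mem _ h.2]
  exact Quotient.out_eq' q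

theorem h22ai_rep_out_mul (H : Subgroup G) (q : G ⧸ H) (h : H) :
    h22ai_rep H (q.out * (h : G)) = q.out := by
  unfold h22ai_rep
  rw [h22ai_mk_out_mul]

theorem h22ai_cmp_out_mul (H : Subgroup G) (q : G ⧸ H) (h : H) :
    h22ai_cmp H (q.out * (h : G)) = h := by
  apply Subtype.ext
  show (h22ai_rep H (q.out * (h : G)))⁻¹ * (q.out * (h : G)) = h
  rw [h22ai_rep_out_mul]
  simp

theorem h22ai_mk_mul_coe (H : Subgroup G) (x : G) (h : H) :
    (QuotientGroup.mk (x * (h : G)) : G ⧸ H) = QuotientGroup.mk x :=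
  QuotientGroup.mk_mul_of_mem _ h.2

/-- `Map(G, V)` restricted to `H` is `Map(H, Map(G ⧸ H, V))`. -/
def h22ai_resEquiv (H : Subgroup G) (V : Type) [AddCommGroup V] :
    Representation.Equiv (ρ := ((h22ai_rho G V).comp H.subtype : Representation ℤ H (G → V)))
      (σ := h22ai_rho H (G ⧸ H → V)) :=
  Representation.Equiv.mk
    { toFun := fun (φ : G → V) (h : H) (q : G ⧸ H) => φ (q.out * (h : G))
      map_add' := fun _ _ => rfl
      map_smul' := fun _ _ => rfl
      invFun := fun (ψ : H → (G ⧸ H → V)) (x : G) => ψ (h22ai_cmp H x) (QuotientGroup.mk x)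
      left_inv := fun φ => by
        funext x
        show φ ((QuotientGroup.mk x : G ⧸ H).out * (h22ai_cmp H x : G)) = φ x
        exact congrArg φ (h22ai_rep_mul_cmp H x)
      right_inv := fun ψ => by
        funext h q
        show ψ (h22ai_cmp H (q.out * (h : G))) (QuotientGroup.mk (q.out * (h : G))) = ψ h q
        rw [h22ai_cmp_out_mul, h22ai_mk_out_mul] }
    (fun h => by
      ext φ h' q
      show φ (q.out * (h' : G) * (h : G)) = φ (q.out * ((h' * h : H) : G))
      rw [Subgroup.coe_mul, mul_assoc])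

/-- `Map(G, V)` restricted to `H` is `Map(H, Map(G ⧸ H, V))`. -/
def h22ai_resIso (H : Subgroup G) (V : Type) [AddCommGroup V] :
    resSub (coindOne G V) H ≅ coindOne H (G ⧸ H → V) :=
  Rep.mkIso (h22ai_resEquiv H V)

/-- **AI1**: coinduced modules are cohomologically trivial. -/
theorem h22ai_coindTrivial (G : Type) [Group G] [Finite G] : CoindTrivialStatement G := by
  intro V _ n H
  let _ : Fintype H := Fintype.ofFinite H
  have e : tate (resSub (coindOne G V) H) n ≅ tate (coindOne H (G ⧸ H → V)) n :=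
    (tateCohomologyFunctor n).mapIso (h22ai_resIso H V)
  exact (h22ai_tate_isZero (G ⧸ H → V) n).of_iso e

end H22AI
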