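/-
W2-C (S55) block A, slice AI2 (helper22): dimension shifting for Tate cohomology,
`H20A.DimShiftUpStatement G` and `H20A.DimShiftDownStatement G` for every finite group `G`.

`0 → A → Map(G, A) → A⁺ → 0` (`a ↦ (x ↦ x a)`) and `0 → A⁻ → Map(G, A) → A → 0`
(`φ ↦ ∑ x⁻¹ φ(x)`); the middle term is cohomologically trivial (AI1), so the connecting maps of
the Tate long exact sequence are isomorphisms, for every subgroup.
-/
import Fermat.Agent.CFT2.A.AI1_helper22

set_option autoImplicit false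

noncomputable section

open CategoryTheory groupCohomology groupHomology Limits

namespace H22AI

open H20A

variable {G : Type} [Group G]

/-- In a short exact sequence whose middle term has vanishing Tate cohomology in degrees `n`
and `n + 1`, the connecting map `Ĥⁿ(X₃) → Ĥⁿ⁺¹(X₁)` is an isomorphism. -/
theorem h22ai_isIso_δ [Fintype G] {S : ShortComplex (Rep ℤ G)} (hS : S.ShortExact) (n : ℤ)
    (h0 : IsZero (tateCohomology S.X₂ n)) (h1 : IsZero (tateCohomology S.X₂ (n + 1))) :
    IsIso (TateCohomology.δ hS n) := by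
  have hm : Mono (TateCohomology.δ hS n) :=
    (TateCohomology.exact₃ hS n).mono_g (h0.eq_of_src _ _)
  have he : Epi (TateCohomology.δ hS n) :=
    (TateCohomology.exact₁ hS n).epi_f (h1.eq_of_tgt _ _)
  exact isIso_of_mono_of_epi _

/-- an equivariant additive map is an intertwining map (arbitrary `ℤ`-module instances) -/
def h22ai_mkInt {V W : Type} [AddCommGroup V] [AddCommGroup W] [Module ℤ V] [Module ℤ W]
    (ρ : Representation ℤ G V) (σ : Representation ℤ G W) (f : V →+ W)
    (hf : ∀ g a, f (ρ g a) = σ g (f a)) : ρ.IntertwiningMap σ :=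
  ⟨{ toFun := f
     map_add' := f.map_add
     map_smul' := fun n a => by simpa using map_intCast_smul f ℤ ℤ n a },
    fun g => by ext a; exact hf g a⟩

/-- build a morphism of `Rep ℤ G` from an equivariant additive map -/
def h22ai_mkHom (A B : Rep ℤ G) (f : A.V →+ B.V) (hf : ∀ g a, f (A.ρ g a) = B.ρ g (f a)) :
    A ⟶ B :=
  @Rep.ofHom ℤ G _ _ A.V B.V _ _ A.hV2 B.hV2 A.ρ B.ρ
    (@h22ai_mkInt G _ A.V B.V _ _ A.hV2 B.hV2 A.ρ B.ρ f hf)

theorem h22ai_mkHom_apply (A B : Rep ℤ G) (f : A.V →+ B.V)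
    (hf : ∀ g a, f (A.ρ g a) = B.ρ g (f a)) (a : A.V) :
    (h22ai_mkHom A B f hf).hom a = f a := rfl

/-! ## Shifting up -/

/-- `a ↦ (x ↦ x a)` as an additive map -/
def h22ai_upAdd (A : Rep ℤ G) : A.V →+ (G → A.V) where
  toFun a x := A.ρ x a
  map_zero' := by funext x; simp
  map_add' a b := by funext x; simp

/-- the embedding `A → Map(G, A)` -/
def h22ai_up (A : Rep ℤ G) : A ⟶ coindOne G A.V :=
  h22ai_mkHom A (coindOne G A.V) (h22ai_upAdd A) (fun g a => by
    funext x
    show A.ρ x (A.ρ g a) = A.ρ (x * g) a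
    rw [map_mul]; rfl)

theorem h22ai_up_apply (A : Rep ℤ G) (a : A.V) (x : G) :
    ((h22ai_up A).hom a : G → A.V) x = A.ρ x a := rfl

instance h22ai_up_mono (A : Rep ℤ G) : Mono (h22ai_up A) := by
  rw [Rep.mono_iff_injective]
  intro a b h
  have := congrFun h 1
  rw [h22ai_up_apply, h22ai_up_apply] at this
  simpa using this

/-- the short exact sequence `0 → A → Map(G, A) → A⁺ → 0` -/
def h22ai_upSeq (A : Rep ℤ G) : ShortComplex (Rep ℤ G) :=
  ShortComplex.mk (h22ai_up A) (cokernel.π (h22ai_up A)) (by simp)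

theorem h22ai_upSeq_shortExact (A : Rep ℤ G) : (h22ai_upSeq A).ShortExact where
  exact := ShortComplex.exact_cokernel (h22ai_up A)
  mono_f := h22ai_up_mono A
  epi_g := inferInstanceAs (Epi (cokernel.π (h22ai_up A)))

/-- **AI2** (up): dimension shifting. -/
theorem h22ai_dimShiftUp (G : Type) [Group G] [Finite G] : DimShiftUpStatement G := by
  intro A
  refine ⟨cokernel (h22ai_up A), fun H n => ?_⟩
  let _ : Fintype H := Fintype.ofFinite H
  have hS : ((h22ai_upSeq A).map (Rep.resFunctor H.subtype)).ShortExact :=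
    (Rep.shortExact_res H.subtype).2 (h22ai_upSeq_shortExact A)
  have h0 : ∀ m : ℤ,
      IsZero (tateCohomology ((h22ai_upSeq A).map (Rep.resFunctor H.subtype)).X₂ m) :=
    fun m => h22ai_coindTrivial G A.V m H
  have hiso := h22ai_isIso_δ hS n (h0 n) (h0 (n + 1))
  exact ⟨@asIso _ _ _ _ (TateCohomology.δ hS n) hiso⟩

/-! ## Shifting down -/

/-- `φ ↦ ∑ x⁻¹ φ(x)` as an additive map -/
def h22ai_downAdd [Fintype G] (A : Rep ℤ G) : (G → A.V) →+ A.V where
  toFun φ := ∑ x : G, A.ρ x⁻¹ (φ x)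
  map_zero' := by simp
  map_add' a b := by simp [Finset.sum_add_distrib]

theorem h22ai_down_equivariant {V : Type} [AddCommGroup V] [Module ℤ V] [Fintype G]
    (ρ : Representation ℤ G V) (g : G) (φ : G → V) :
    ∑ x : G, ρ x⁻¹ (φ (x * g)) = ρ g (∑ x : G, ρ x⁻¹ (φ x)) := by
  rw [map_sum]
  refine (Fintype.sum_equiv (Equiv.mulRight g) _ _ (fun x => ?_)).symm.symm
  show ρ x⁻¹ (φ (x * g)) = ρ g (ρ (x * g)⁻¹ (φ (x * g)))
  rw [← Module.End.mul_apply, ← map_mul]
  congr 2
  group

/-- the projection `Map(G, A) → A` -/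
def h22ai_down [Fintype G] (A : Rep ℤ G) : coindOne G A.V ⟶ A :=
  h22ai_mkHom (coindOne G A.V) A (h22ai_downAdd A) (fun g φ =>
    @h22ai_down_equivariant G _ A.V _ A.hV2 _ A.ρ g φ)

theorem h22ai_down_apply [Fintype G] (A : Rep ℤ G) (φ : G → A.V) :
    (h22ai_down A).hom φ = ∑ x : G, A.ρ x⁻¹ (φ x) := rfl

instance h22ai_down_epi [Fintype G] (A : Rep ℤ G) : Epi (h22ai_down A) := by
  classical
  rw [Rep.epi_iff_surjective]
  intro a
  refine ⟨(Pi.single (1 : G) a : G → A.V), ?_⟩
  rw [h22ai_down_apply, Finset.sum_eq_single (1 : G)]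
  · simp
  · intro x _ hx
    simp [hx]
  · intro h; exact absurd (Finset.mem_univ _) h

/-- the short exact sequence `0 → A⁻ → Map(G, A) → A → 0` -/
def h22ai_downSeq [Fintype G] (A : Rep ℤ G) : ShortComplex (Rep ℤ G) :=
  ShortComplex.mk (kernel.ι (h22ai_down A)) (h22ai_down A) (by simp)

theorem h22ai_downSeq_shortExact [Fintype G] (A : Rep ℤ G) : (h22ai_downSeq A).ShortExact where
  exact := ShortComplex.exact_kernel (h22ai_down A)
  mono_f := inferInstanceAs (Mono (kernel.ι (h22ai_down A)))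
  epi_g := h22ai_down_epi A

/-- **AI2** (down): dimension shifting. -/
theorem h22ai_dimShiftDown (G : Type) [Group G] [Finite G] : DimShiftDownStatement G := by
  intro A
  let _ : Fintype G := Fintype.ofFinite G
  refine ⟨kernel (h22ai_down A), fun H n => ?_⟩
  let _ : Fintype H := Fintype.ofFinite H
  have hS : ((h22ai_downSeq A).map (Rep.resFunctor H.subtype)).ShortExact :=
    (Rep.shortExact_res H.subtype).2 (h22ai_downSeq_shortExact A)
  have h0 : ∀ m : ℤ,
      IsZero (tateCohomology ((h22ai_downSeq A).map (Rep.resFunctor H.subtype)).X₂ m) :=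
    fun m => h22ai_coindTrivial G A.V m H
  have hiso := h22ai_isIso_δ hS (n - 1) (h0 (n - 1)) (h0 (n - 1 + 1))
  have e : tate (resSub A H) (n - 1) ≅ tate (resSub (kernel (h22ai_down A)) H) (n - 1 + 1) :=
    @asIso _ _ _ _ (TateCohomology.δ hS (n - 1)) hiso
  have hn : n - 1 + 1 = n := by ring
  rw [hn] at e
  exact ⟨e.symm⟩

end H22AI
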