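/-
W2-C (S55) block A, slice AR (helper26), part 1: the unit `ι : A ⟶ Coind_H^G Res_H A` and the
trace `τ : Coind_H^G Res_H A ⟶ A` with `ι ≫ τ = [G : H]`; consequence for additive functors.
(Everything is for a general commutative ring `k`: this avoids the `ℤ`-module diamond.)
-/
import Mathlib
import Fermat.Agent.CFT2.A.Defs

set_option autoImplicit false
set_option linter.style.haveILetI false
set_option linter.unusedSectionVars false
noncomputable section
namespace H26AR
open CategoryTheory Rep groupCohomology

variable {k : Type} [CommRing k] {G : Type} [Group G] [Finite G]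

theorem rho_mul (A : Rep.{0} k G) (u v : G) (x : A.V) : A.ρ u (A.ρ v x) = A.ρ (u * v) x := by
  rw [map_mul]; rfl

theorem rho_one (A : Rep.{0} k G) (x : A.V) : A.ρ 1 x = x := by
  rw [map_one]; rfl

/-- `Coind_H^G Res_H A` -/
abbrev coindRes (A : Rep.{0} k G) (H : Subgroup G) : Rep k G :=
  Rep.coind H.subtype (Rep.res H.subtype A)

/-- the unit `A ⟶ Coind_H^G Res_H A`, `a ↦ (g ↦ g a)` -/
def iota (A : Rep.{0} k G) (H : Subgroup G) : A ⟶ coindRes A H :=
  Rep.resCoindToHom H.subtype A (Rep.res H.subtype A) (𝟙 _)

theorem iota_apply (A : Rep.{0} k G) (H : Subgroup G) (a : A.V) (g : G) :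
    ((iota A H).hom a).1 g = A.ρ g a := rfl

theorem coind_prop (A : Rep.{0} k G) (H : Subgroup G) (f : (coindRes A H).V) (h : G) (hh : h ∈ H)
    (g : G) : f.1 (h * g) = A.ρ h (f.1 g) := f.2 ⟨h, hh⟩ g

/-- the summand of the trace on a left coset `uH`: `u • f(u⁻¹)` -/
def tauSummand (A : Rep.{0} k G) (H : Subgroup G) (f : (coindRes A H).V) : G ⧸ H → A.V :=
  fun c => Quotient.liftOn' c (fun u => A.ρ u (f.1 u⁻¹)) (by
    intro u v huv
    rw [QuotientGroup.leftRel_apply] at huv
    simp only
    have h1 := coind_prop A H f (u⁻¹ * v) huv v⁻¹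
    simp only [mul_assoc, mul_inv_cancel, mul_one] at h1
    rw [h1, rho_mul]
    simp)

theorem tauSummand_mk (A : Rep.{0} k G) (H : Subgroup G) (f : (coindRes A H).V) (u : G) :
    tauSummand A H f (QuotientGroup.mk u) = A.ρ u (f.1 u⁻¹) := rfl

theorem tauSummand_add (A : Rep.{0} k G) (H : Subgroup G) (f g : (coindRes A H).V) (c : G ⧸ H) :
    tauSummand A H (f + g) c = tauSummand A H f c + tauSummand A H g c := by
  induction c using QuotientGroup.induction_on with
  | H u => simp only [tauSummand_mk]; exact map_add _ _ _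

theorem tauSummand_smul' (A : Rep.{0} k G) (H : Subgroup G) (m : k) (f : (coindRes A H).V)
    (c : G ⧸ H) :
    tauSummand A H (m • f) c = m • tauSummand A H f c := by
  induction c using QuotientGroup.induction_on with
  | H u => simp only [tauSummand_mk]; exact map_smul _ _ _

theorem tauSummand_smul (A : Rep.{0} k G) (H : Subgroup G) (x : G) (f : (coindRes A H).V)
    (c : G ⧸ H) :
    tauSummand A H ((coindRes A H).ρ x f) c = A.ρ x (tauSummand A H f (x⁻¹ • c)) := by
  induction c using QuotientGroup.induction_on with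
  | H u =>
    rw [tauSummand_mk]
    change _ = A.ρ x (tauSummand A H f (QuotientGroup.mk (x⁻¹ * u)))
    rw [tauSummand_mk, rho_mul]
    simp only [mul_inv_rev, inv_inv, mul_inv_cancel_left]
    rfl

theorem tauSummand_iota (A : Rep.{0} k G) (H : Subgroup G) (a : A.V) (c : G ⧸ H) :
    tauSummand A H ((iota A H).hom a) c = a := by
  induction c using QuotientGroup.induction_on with
  | H u =>
    rw [tauSummand_mk, iota_apply, rho_mul]
    simp

/-- the trace `Coind_H^G Res_H A ⟶ A`, `f ↦ ∑_{uH} u • f(u⁻¹)` -/
def tau (A : Rep.{0} k G) (H : Subgroup G) : coindRes A H ⟶ A :=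
  letI : Fintype (G ⧸ H) := Fintype.ofFinite _
  Rep.ofHom
    { toLinearMap :=
        { toFun := fun f => ∑ c : G ⧸ H, tauSummand A H f c
          map_add' := fun f g => by
            rw [← Finset.sum_add_distrib]
            exact Finset.sum_congr rfl (fun c _ => tauSummand_add A H f g c)
          map_smul' := fun m f => by
            rw [RingHom.id_apply, Finset.smul_sum]
            exact Finset.sum_congr rfl (fun c _ => tauSummand_smul' A H m f c) }
      isIntertwining' := fun x => by
        ext f
        change ∑ c : G ⧸ H, tauSummand A H ((coindRes A H).ρ x f) c =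
          A.ρ x (∑ c : G ⧸ H, tauSummand A H f c)
        rw [map_sum]
        rw [Finset.sum_congr rfl (fun c _ => tauSummand_smul A H x f c)]
        exact (Equiv.sum_comp (MulAction.toPerm (x⁻¹ : G))
          (fun c => A.ρ x (tauSummand A H f c))) }

theorem tau_apply (A : Rep.{0} k G) (H : Subgroup G) (f : (coindRes A H).V) :
    letI : Fintype (G ⧸ H) := Fintype.ofFinite _
    (tau A H).hom f = ∑ c : G ⧸ H, tauSummand A H f c := rfl

theorem iota_tau (A : Rep.{0} k G) (H : Subgroup G) : iota A H ≫ tau A H = H.index • 𝟙 A := by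
  letI : Fintype (G ⧸ H) := Fintype.ofFinite _
  ext a
  change (tau A H).hom ((iota A H).hom a) = H.index • a
  rw [tau_apply, Finset.sum_congr rfl (fun c _ => tauSummand_iota A H a c), Finset.sum_const,
    Finset.card_univ, Subgroup.index, Nat.card_eq_fintype_card]

/-- if an additive functor kills `Coind_H^G Res_H A`, then `[G : H]` kills its value on `A` -/
theorem index_nsmul_eq_zero_of_isZero (F : Rep.{0} k G ⥤ ModuleCat k) [F.Additive]
    (A : Rep.{0} k G) (H : Subgroup G) (hz : Limits.IsZero (F.obj (coindRes A H)))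
    (x : F.obj A) : H.index • x = 0 := by
  have h1 : F.map (iota A H) ≫ F.map (tau A H) = H.index • 𝟙 (F.obj A) := by
    rw [← F.map_comp, iota_tau, F.map_nsmul, F.map_id]
  have h2 : F.map (iota A H) = 0 := hz.eq_of_tgt _ _
  rw [h2, Limits.zero_comp] at h1
  have h3 := congrArg (fun f => f.hom x) h1
  simp only [ModuleCat.hom_zero, LinearMap.zero_apply] at h3
  rw [h3]
  simp

end H26AR
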