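/-
W2-C (S55) block A, slice AR (helper26), part 2: Shapiro's lemma for Tate cohomology in the
vanishing form, degrees `n ≥ 1` and `n ≤ -2`; consequence: the index kills.
-/
import Mathlib
import Fermat.Agent.CFT2.A.Defs
import Fermat.Agent.CFT2.A.ARTrace_helper26

set_option autoImplicit false
set_option linter.style.haveILetI false
set_option linter.unusedSectionVars false
noncomputable section
namespace H26AR
open CategoryTheory Rep groupCohomology

variable {G : Type} [Group G] [Finite G]

/-- `Ĥⁿ` is additive -/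
theorem tateFunctor_additive (n : ℤ) :
    letI : Fintype G := Fintype.ofFinite G
    (tateCohomologyFunctor (R := ℤ) (G := G) n).Additive := by
  letI : Fintype G := Fintype.ofFinite G
  unfold tateCohomologyFunctor
  infer_instance

/-- the index kills `Ĥⁿ(G, A)` if `Ĥⁿ(G, Coind_H^G Res_H A) = 0` -/
theorem index_kills_tate_of_coind (A : Rep.{0} ℤ G) (H : Subgroup G) (n : ℤ)
    (hz : Limits.IsZero (H20A.tate (coindRes A H) n)) (x : H20A.tate A n) :
    H.index • x = 0 := by
  letI : Fintype G := Fintype.ofFinite G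
  haveI := tateFunctor_additive (G := G) n
  exact index_nsmul_eq_zero_of_isZero (tateCohomologyFunctor (R := ℤ) (G := G) n) A H hz x

/-- Shapiro for Tate cohomology, `n ≥ 1` -/
theorem tate_coindRes_isZero_pos (A : Rep.{0} ℤ G) (H : Subgroup G) (n : ℕ) (hn : n ≠ 0)
    (hz : Limits.IsZero (H20A.tate (H20A.resSub A H) n)) :
    Limits.IsZero (H20A.tate (coindRes A H) n) := by
  letI : Fintype G := Fintype.ofFinite G
  letI : Fintype H := Fintype.ofFinite H
  haveI : NeZero n := ⟨hn⟩
  have e1 : H20A.tate (coindRes A H) n ≅ groupCohomology (coindRes A H) n :=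
    (TateCohomology.isoGroupCohomology (R := ℤ) (G := G) n).app (coindRes A H)
  have e2 : groupCohomology (coindRes A H) n ≅ groupCohomology (H20A.resSub A H) n :=
    groupCohomology.coindIso (H20A.resSub A H) n
  have e3 : H20A.tate (H20A.resSub A H) n ≅ groupCohomology (H20A.resSub A H) n :=
    (TateCohomology.isoGroupCohomology (R := ℤ) (G := H) n).app (H20A.resSub A H)
  exact hz.of_iso (e1 ≪≫ e2 ≪≫ e3.symm)

/-- Shapiro for Tate cohomology, `n ≤ -2` -/
theorem tate_coindRes_isZero_neg (A : Rep.{0} ℤ G) (H : Subgroup G) (m : ℤ) (n : ℕ)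
    (hmn : m = -(n + 1)) (hn : n ≠ 0)
    (hz : Limits.IsZero (H20A.tate (H20A.resSub A H) m)) :
    Limits.IsZero (H20A.tate (coindRes A H) m) := by
  classical
  letI : Fintype G := Fintype.ofFinite G
  letI : Fintype H := Fintype.ofFinite H
  haveI : NeZero n := ⟨hn⟩
  have e1 : H20A.tate (coindRes A H) m ≅ groupHomology (coindRes A H) n :=
    (TateCohomology.isoGroupHomology (R := ℤ) (G := G) m n hmn).app (coindRes A H)
  have e2 : groupHomology (Rep.ind H.subtype (H20A.resSub A H)) n ≅
      groupHomology (coindRes A H) n :=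
    (groupHomology.functor ℤ G n).mapIso (Rep.indCoindIso (H20A.resSub A H))
  have e3 : groupHomology (Rep.ind H.subtype (H20A.resSub A H)) n ≅
      groupHomology (H20A.resSub A H) n :=
    groupHomology.indIso H (H20A.resSub A H) n
  have e4 : H20A.tate (H20A.resSub A H) m ≅ groupHomology (H20A.resSub A H) n :=
    (TateCohomology.isoGroupHomology (R := ℤ) (G := H) m n hmn).app (H20A.resSub A H)
  exact hz.of_iso (e1 ≪≫ e2.symm ≪≫ e3 ≪≫ e4.symm)

/-- AR2 in the degrees `n ≥ 1` and `n ≤ -2` -/
theorem index_kills_tate_of_ne (A : Rep.{0} ℤ G) (H : Subgroup G) (n : ℤ) (h0 : n ≠ 0)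
    (h1 : n ≠ -1) (hz : Limits.IsZero (H20A.tate (H20A.resSub A H) n)) (x : H20A.tate A n) :
    H.index • x = 0 := by
  apply index_kills_tate_of_coind A H n _ x
  rcases lt_or_gt_of_ne h0 with hneg | hpos
  · obtain ⟨j, hj⟩ : ∃ j : ℕ, n = -((j : ℤ) + 1) := ⟨(-n - 1).toNat, by omega⟩
    have hj0 : j ≠ 0 := by
      rintro rfl
      apply h1
      rw [hj]; simp
    exact tate_coindRes_isZero_neg A H n j hj hj0 hz
  · obtain ⟨j, rfl⟩ : ∃ j : ℕ, n = (j : ℤ) := ⟨n.toNat, by omega⟩
    have hj0 : j ≠ 0 := by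
      rintro rfl
      exact h0 rfl
    exact tate_coindRes_isZero_pos A H j hj0 hz

end H26AR
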