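/-
W2-C (S55) block A, slice AR (helper26): restriction-corestriction, vanishing forms.

* `h26ar_indexKillsTate_of` : AR2 `H20A.IndexKillsTateStatement G`, from the explicit descriptions
  AT0 of `Ĥ⁰`, `Ĥ⁻¹` (hypotheses `H20A.TateZeroStatement`, `H20A.TateNegOneStatement`);
  the degrees `n ≠ 0, -1` are unconditional (`H26AR.index_kills_tate_of_ne`).
* `h26ar_sylow_of` : AR3 `H20A.SylowStatement G` from AR2.
-/
import Mathlib
import Fermat.Agent.CFT2.A.Defs
import Fermat.Agent.CFT2.A.ARShapiro_helper26
import Fermat.Agent.CFT2.A.ARLow_helper26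

set_option autoImplicit false
set_option linter.style.haveILetI false
set_option linter.unusedSectionVars false
noncomputable section
namespace H26AR
open CategoryTheory Rep groupCohomology

variable {G : Type} [Group G] [Finite G]

/-- reduction of a statement about `A : Rep ℤ G` to representations `Rep.of ρ` on abelian groups
with their canonical `ℤ`-module structure -/
theorem rep_int_induction (P : Rep.{0} ℤ G → Prop)
    (h : ∀ (V : Type) [AddCommGroup V] (ρ : Representation ℤ G V), P (Rep.of ρ))
    (A : Rep.{0} ℤ G) : P A := by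
  have key : ∀ (V : Type) [AddCommGroup V] (m : Module ℤ V)
      (ρ : @Representation ℤ G V _ _ _ m), P (@Rep.of ℤ G _ _ V _ m ρ) := by
    intro V _ m ρ
    obtain rfl : m = AddCommGroup.toIntModule V := Subsingleton.elim _ _
    exact h V ρ
  exact key A.V A.hV2 A.ρ

/-- **AR2**: if `Ĥⁿ(H, A) = 0` then the index `[G : H]` kills `Ĥⁿ(G, A)`. -/
theorem h26ar_indexKillsTate_of
    (hT0 : ∀ (G : Type) [Group G] [Finite G], H20A.TateZeroStatement G)
    (hT1 : ∀ (G : Type) [Group G] [Finite G], H20A.TateNegOneStatement G)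
    (G : Type) [Group G] [Finite G] : H20A.IndexKillsTateStatement G := by
  intro A H n hz x
  by_cases h0 : n = 0
  · subst h0
    revert hz x
    refine rep_int_induction (G := G) (fun A => Limits.IsZero (H20A.tate (H20A.resSub A H) 0) →
      ∀ x : H20A.tate A 0, H.index • x = 0) ?_ A
    intro V _ ρ hz x
    exact index_kills_tate_zero_of hT0 ρ H hz x
  by_cases h1 : n = -1
  · subst h1
    revert hz x
    refine rep_int_induction (G := G)
      (fun A => Limits.IsZero (H20A.tate (H20A.resSub A H) (-1)) →
        ∀ x : H20A.tate A (-1), H.index • x = 0) ?_ A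
    intro V _ ρ hz x
    exact index_kills_tate_negOne_of hT1 ρ H hz x
  · exact index_kills_tate_of_ne A H n h0 h1 hz x

/-- **AR3**: Sylow reduction, from AR2. -/
theorem h26ar_sylow_of (G : Type) [Group G] [Finite G]
    (hAR2 : H20A.IndexKillsTateStatement G) : H20A.SylowStatement G := by
  intro A n h
  have hx : ∀ x : H20A.tate A n, x = 0 := by
    intro x
    have hk : ∀ (p : ℕ) [Fact p.Prime] (P : Sylow p G), (P : Subgroup G).index • x = 0 :=
      fun p _ P => hAR2 A (P : Subgroup G) n (h p P) x
    have hord : ∀ (p : ℕ) [Fact p.Prime] (P : Sylow p G),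
        addOrderOf x ∣ (P : Subgroup G).index :=
      fun p _ P => addOrderOf_dvd_of_nsmul_eq_zero (hk p P)
    by_contra hne
    have h1 : addOrderOf x ≠ 1 := fun h1 => hne (AddMonoid.addOrderOf_eq_one_iff.mp h1)
    obtain ⟨q, hq, hqd⟩ := Nat.exists_prime_and_dvd h1
    haveI : Fact q.Prime := ⟨hq⟩
    obtain ⟨P⟩ : Nonempty (Sylow q G) := inferInstance
    exact Sylow.not_dvd_index P (hqd.trans (hord q P))
  haveI : Subsingleton (H20A.tate A n) := ⟨fun a b => by rw [hx a, hx b]⟩
  exact ModuleCat.isZero_of_subsingleton _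

end H26AR
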