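/-
W2-C (S55) block A, slice AR (helper26), part AR1: the kernel of restriction
`Hⁿ(G, A) → Hⁿ(H, A)` is killed by the index `(G : H)`  (`H20A.IndexKillsCohStatement`).

Route: dimension shifting along `0 → V → Map(G, V) → Q → 0` (helper22's AI1 gives the vanishing of
`Hⁿ⁺¹(G, Map(G, V))` and `Hⁿ⁺¹(H, Map(G, V))`), with the connecting map commuting with
restriction (`delta_res`); degree `0`: restriction is injective; degree `1`: the trace
`N_{G/H} : I^H → I^G` on invariants.
-/
import Mathlib
import Fermat.Agent.CFT2.A.Defs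
import Fermat.Agent.CFT2.A.AI1_helper22
import Fermat.Agent.CFT2.A.AR_helper26

set_option autoImplicit false
set_option linter.style.haveILetI false
set_option linter.unusedSectionVars false
noncomputable section
namespace H26AR
open CategoryTheory Rep groupCohomology

section general
variable {k : Type} [CommRing k] {G : Type} [Group G]

/-- restriction `Hⁿ(G, A) ⟶ Hⁿ(H, A)` -/
abbrev resH (A : Rep.{0} k G) (H : Subgroup G) (n : ℕ) :
    groupCohomology A n ⟶ groupCohomology (Rep.res H.subtype A) n :=
  groupCohomology.map H.subtype (𝟙 (Rep.res H.subtype A)) n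

/-- naturality of restriction -/
theorem resH_naturality {A B : Rep.{0} k G} (f : A ⟶ B) (H : Subgroup G) (n : ℕ) :
    groupCohomology.map (MonoidHom.id G) f n ≫ resH B H n =
      resH A H n ≫
        groupCohomology.map (MonoidHom.id H) ((resFunctor H.subtype).map f) n := by
  change HomologicalComplex.homologyMap _ n ≫ HomologicalComplex.homologyMap _ n =
    HomologicalComplex.homologyMap _ n ≫ HomologicalComplex.homologyMap _ n
  rw [← HomologicalComplex.homologyMap_comp, ← HomologicalComplex.homologyMap_comp]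
  rfl

/-- restriction as a morphism of short complexes of cochain complexes -/
def resShortComplexHom (X : ShortComplex (Rep.{0} k G)) (H : Subgroup G) :
    X.map (cochainsFunctor k G) ⟶ (X.map (resFunctor H.subtype)).map (cochainsFunctor k H) where
  τ₁ := cochainsMap H.subtype (𝟙 _)
  τ₂ := cochainsMap H.subtype (𝟙 _)
  τ₃ := cochainsMap H.subtype (𝟙 _)
  comm₁₂ := rfl
  comm₂₃ := rfl

theorem delta_res (X : ShortComplex (Rep.{0} k G)) (hX : X.ShortExact) (H : Subgroup G)
    (i j : ℕ) (hij : i + 1 = j) :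
    δ hX i j hij ≫ resH X.X₁ H j =
      resH X.X₃ H i ≫ δ ((Rep.shortExact_res H.subtype).2 hX) i j hij :=
  HomologicalComplex.HomologySequence.δ_naturality (resShortComplexHom X H)
    (map_cochainsFunctor_shortExact hX)
    (map_cochainsFunctor_shortExact ((Rep.shortExact_res H.subtype).2 hX)) i j hij

end general

section H0
variable {k : Type} [CommRing k] {G : Type} [Group G]

/-- the invariant vector underlying a class in `H⁰` -/
def und (A : Rep.{0} k G) : groupCohomology A 0 →ₗ[k] A.V :=
  ((H0Iso A).hom ≫ (shortComplexH0 A).f).hom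

theorem und_injective (A : Rep.{0} k G) : Function.Injective (und A) := by
  intro x y hxy
  have h1 : ((H0Iso A).hom x).1 = ((H0Iso A).hom y).1 := hxy
  have h2 : (H0Iso A).hom x = (H0Iso A).hom y := Subtype.ext h1
  have h3 : Function.Injective (H0Iso A).hom :=
    (ModuleCat.mono_iff_injective _).1 inferInstance
  exact h3 h2

theorem und_inv (A : Rep.{0} k G) (x : groupCohomology A 0) (g : G) :
    A.ρ g (und A x) = und A x := ((H0Iso A).hom x).2 g

theorem exists_und (A : Rep.{0} k G) (a : A.V) (ha : ∀ g, A.ρ g a = a) :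
    ∃ x, und A x = a := by
  refine ⟨(H0Iso A).inv ⟨a, ha⟩, ?_⟩
  change ((shortComplexH0 A).f.hom ((H0Iso A).hom ((H0Iso A).inv ⟨a, ha⟩))) = a
  have h1 : (H0Iso A).hom ((H0Iso A).inv ⟨a, ha⟩) = ⟨a, ha⟩ := by
    have := congrArg (fun m => m.hom (⟨a, ha⟩ : A.ρ.invariants)) (H0Iso A).inv_hom_id
    exact this
  rw [h1]
  rfl

theorem und_map {H : Type} [Group H] {A : Rep.{0} k H} {B : Rep.{0} k G} (f : G →* H)
    (φ : res f A ⟶ B) (x : groupCohomology A 0) :
    und B (map f φ 0 x) = φ.hom (und A x) := by
  have := congrArg (fun m => m.hom x) (map_H0Iso_hom_f f φ)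
  exact this

end H0

section trace
variable {k : Type} [CommRing k] {G : Type} [Group G] [Finite G]

/-- the constant function with value an `H`-invariant vector, in `Coind_H^G Res_H A` -/
def constFn (A : Rep.{0} k G) (H : Subgroup G) (a : A.V) (ha : ∀ h : H, A.ρ (h : G) a = a) :
    (coindRes A H).V :=
  ⟨fun _ => a, fun h _ => (ha h).symm⟩

theorem constFn_inv (A : Rep.{0} k G) (H : Subgroup G) (a : A.V)
    (ha : ∀ h : H, A.ρ (h : G) a = a) (g : G) :
    (coindRes A H).ρ g (constFn A H a ha) = constFn A H a ha := rfl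

theorem constFn_eq_iota (A : Rep.{0} k G) (H : Subgroup G) (a : A.V)
    (ha : ∀ g : G, A.ρ g a = a) :
    constFn A H a (fun h => ha h) = (iota A H).hom a := by
  apply Subtype.ext
  funext g
  exact (ha g).symm

/-- the trace `N_{G/H} a = ∑_{uH} u a` of an `H`-invariant vector -/
def trH (A : Rep.{0} k G) (H : Subgroup G) (a : A.V) (ha : ∀ h : H, A.ρ (h : G) a = a) : A.V :=
  (tau A H).hom (constFn A H a ha)

theorem trH_inv (A : Rep.{0} k G) (H : Subgroup G) (a : A.V)
    (ha : ∀ h : H, A.ρ (h : G) a = a) (g : G) : A.ρ g (trH A H a ha) = trH A H a ha := by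
  have h1 := Rep.hom_comm_apply (tau A H) g (constFn A H a ha)
  rw [constFn_inv] at h1
  exact h1.symm

theorem trH_of_inv (A : Rep.{0} k G) (H : Subgroup G) (a : A.V) (ha : ∀ g : G, A.ρ g a = a) :
    trH A H a (fun h => ha h) = H.index • a := by
  unfold trH
  rw [constFn_eq_iota A H a ha]
  have h1 := congrArg (fun m => m.hom a) (iota_tau A H)
  exact h1

theorem trH_map {A B : Rep.{0} k G} (φ : A ⟶ B) (H : Subgroup G) (a : A.V)
    (ha : ∀ h : H, A.ρ (h : G) a = a) (hb : ∀ h : H, B.ρ (h : G) (φ.hom a) = φ.hom a) :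
    φ.hom (trH A H a ha) = trH B H (φ.hom a) hb := by
  letI : Fintype (G ⧸ H) := Fintype.ofFinite _
  unfold trH
  rw [tau_apply, tau_apply, map_sum]
  refine Finset.sum_congr rfl (fun c _ => ?_)
  induction c using QuotientGroup.induction_on with
  | H u =>
    rw [tauSummand_mk, tauSummand_mk]
    exact Rep.hom_comm_apply φ u a

end trace

section emb
variable {G : Type} [Group G] [Finite G] {V : Type} [AddCommGroup V]

/-- the embedding `V → Map(G, V)`, `a ↦ (x ↦ x a)` -/
def embHom (ρ : Representation ℤ G V) : Rep.of ρ ⟶ H20A.coindOne G V :=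
  H20A.repHom ρ (H22AI.h22ai_rho G V)
    { toFun := fun a x => ρ x a
      map_zero' := by funext x; simp
      map_add' := fun a b => by funext x; simp }
    (fun g v => by
      funext x
      change ρ x (ρ g v) = ρ (x * g) v
      rw [rho_mul'])

theorem embHom_apply (ρ : Representation ℤ G V) (a : V) (x : G) :
    (embHom ρ).hom a x = ρ x a := rfl

theorem embHom_injective (ρ : Representation ℤ G V) : Function.Injective (embHom ρ).hom := by
  intro a b hab
  have h1 := congrFun hab 1
  rw [embHom_apply, embHom_apply] at h1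
  simpa using h1

instance embHom_mono (ρ : Representation ℤ G V) : Mono (embHom ρ) :=
  (Rep.mono_iff_injective _).2 (embHom_injective ρ)

/-- the short exact sequence `0 → V → Map(G, V) → Q → 0` -/
def embSC (ρ : Representation ℤ G V) : ShortComplex (Rep.{0} ℤ G) :=
  ShortComplex.mk (embHom ρ) (Limits.cokernel.π (embHom ρ)) (Limits.cokernel.condition _)

theorem embSC_shortExact (ρ : Representation ℤ G V) : (embSC ρ).ShortExact :=
  ShortComplex.ShortExact.mk' (ShortComplex.exact_cokernel _) (embHom_mono ρ)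
    (inferInstanceAs (Epi (Limits.cokernel.π (embHom ρ))))

theorem embSC_isZero (ρ : Representation ℤ G V) (n : ℕ) :
    Limits.IsZero (groupCohomology (embSC ρ).X₂ (n + 1)) :=
  H22AI.h22ai_coh_isZero V n

theorem embSC_res_isZero (ρ : Representation ℤ G V) (H : Subgroup G) (n : ℕ) :
    Limits.IsZero (groupCohomology ((embSC ρ).map (resFunctor H.subtype)).X₂ (n + 1)) := by
  have e : groupCohomology (Rep.res H.subtype (H20A.coindOne G V)) (n + 1) ≅
      groupCohomology (H20A.coindOne H (G ⧸ H → V)) (n + 1) :=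
    (groupCohomology.functor ℤ H (n + 1)).mapIso (H22AI.h22ai_resIso H V)
  exact (H22AI.h22ai_coh_isZero (G := H) (G ⧸ H → V) n).of_iso e

end emb

section main
variable {G : Type} [Group G] [Finite G]

/-- AR1 in a fixed degree -/
def KillsAt (G : Type) [Group G] (H : Subgroup G) (n : ℕ) : Prop :=
  ∀ (A : Rep.{0} ℤ G) (x : groupCohomology A n), resH A H n x = 0 → H.index • x = 0

theorem killsAt_zero (H : Subgroup G) : KillsAt G H 0 := by
  intro A x hx
  have h1 : und (Rep.res H.subtype A) (resH A H 0 x) = und A x :=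
    und_map H.subtype (𝟙 (Rep.res H.subtype A)) x
  rw [hx, map_zero] at h1
  have h2 : x = 0 := und_injective A (by rw [← h1, map_zero])
  rw [h2, smul_zero]

theorem killsAt_succ (H : Subgroup G) (n : ℕ) (ih : KillsAt G H n) : KillsAt G H (n + 1) := by
  intro A
  refine rep_int_induction (G := G) (fun A => ∀ x : groupCohomology A (n + 1),
    resH A H (n + 1) x = 0 → H.index • x = 0) ?_ A
  intro V _ ρ x hx
  have hX := embSC_shortExact ρ
  have hXH := (Rep.shortExact_res H.subtype).2 hX
  have hepi : Epi (δ hX n (n + 1) rfl) := epi_δ_of_isZero hX n (embSC_isZero ρ n)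
  obtain ⟨y, rfl⟩ := (ModuleCat.epi_iff_surjective _).1 hepi x
  have hnat := delta_res (embSC ρ) hX H n (n + 1) rfl
  have h2 : δ hXH n (n + 1) rfl (resH (embSC ρ).X₃ H n y) = 0 := by
    have h3 := congrArg (fun m => m.hom y) hnat
    exact h3.symm.trans hx
  rcases n with _ | n
  · -- degree 1
    have hex := mapShortComplex₃_exact hXH (i := 0) (j := 1) rfl
    rw [ShortComplex.moduleCat_exact_iff] at hex
    obtain ⟨z, hz⟩ := hex (resH (embSC ρ).X₃ H 0 y) h2
    have hi : ∀ h : H, (embSC ρ).X₂.ρ (h : G) (und (Rep.res H.subtype (embSC ρ).X₂) z) =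
        und (Rep.res H.subtype (embSC ρ).X₂) z :=
      fun h => und_inv (Rep.res H.subtype (embSC ρ).X₂) z h
    have hgi : (embSC ρ).g.hom (und (Rep.res H.subtype (embSC ρ).X₂) z) =
        und (embSC ρ).X₃ y := by
      have h5 := und_map (MonoidHom.id H) ((resFunctor H.subtype).map (embSC ρ).g) z
      have h6 := und_map H.subtype (𝟙 (Rep.res H.subtype (embSC ρ).X₃)) y
      have h7 : und (Rep.res H.subtype (embSC ρ).X₃)
          (groupCohomology.map (MonoidHom.id H) ((resFunctor H.subtype).map (embSC ρ).g) 0 z) =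
          und (Rep.res H.subtype (embSC ρ).X₃) (resH (embSC ρ).X₃ H 0 y) := congrArg _ hz
      exact h5.symm.trans (h7.trans h6)
    obtain ⟨w, hw⟩ := exists_und (embSC ρ).X₂ (trH (embSC ρ).X₂ H _ hi) (trH_inv _ H _ hi)
    have hgw : groupCohomology.map (MonoidHom.id G) (embSC ρ).g 0 w = H.index • y := by
      apply und_injective
      have h8 := und_map (MonoidHom.id G) (embSC ρ).g w
      rw [hw] at h8
      rw [h8, map_nsmul]
      have hb : ∀ h : H, (embSC ρ).X₃.ρ (h : G)
          ((embSC ρ).g.hom (und (Rep.res H.subtype (embSC ρ).X₂) z)) =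
          (embSC ρ).g.hom (und (Rep.res H.subtype (embSC ρ).X₂) z) := by
        intro h
        rw [hgi]
        exact und_inv _ y h
      rw [trH_map (embSC ρ).g H _ hi hb]
      have h9 := trH_of_inv (embSC ρ).X₃ H (und (embSC ρ).X₃ y) (fun g => und_inv _ y g)
      rw [← h9]
      congr 1
    have hzero := (mapShortComplex₃ hX (i := 0) (j := 1) rfl).zero
    have h10 := congrArg (fun m => m.hom w) hzero
    have h11 : H.index • (δ hX 0 (0 + 1) rfl).hom y =
        (δ hX 0 (0 + 1) rfl).hom (H.index • y) := (map_nsmul _ _ _).symm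
    have h12 : (δ hX 0 (0 + 1) rfl).hom (H.index • y) =
        (δ hX 0 (0 + 1) rfl).hom
          ((groupCohomology.map (MonoidHom.id G) (embSC ρ).g 0).hom w) := congrArg _ hgw.symm
    exact h11.trans (h12.trans h10)
  · -- degree ≥ 2
    have hmono : Mono (δ hXH (n + 1) (n + 2) rfl) :=
      mono_δ_of_isZero hXH (n + 1) (embSC_res_isZero ρ H n)
    have h3 : resH (embSC ρ).X₃ H (n + 1) y = 0 :=
      (ModuleCat.mono_iff_injective _).1 hmono
        (h2.trans (map_zero (δ hXH (n + 1) (n + 2) rfl).hom).symm)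
    have h4 := ih (embSC ρ).X₃ y h3
    have h11 : H.index • (δ hX (n + 1) (n + 1 + 1) rfl).hom y =
        (δ hX (n + 1) (n + 1 + 1) rfl).hom (H.index • y) := (map_nsmul _ _ _).symm
    have h12 : (δ hX (n + 1) (n + 1 + 1) rfl).hom (H.index • y) = 0 := by
      rw [h4, map_zero]
    exact h11.trans h12

theorem killsAt (H : Subgroup G) (n : ℕ) : KillsAt G H n := by
  induction n with
  | zero => exact killsAt_zero H
  | succ n ih => exact killsAt_succ H n ih

end main

/-- **AR1**: the kernel of restriction `Hⁿ(G, A) → Hⁿ(H, A)` is killed by the index. -/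
theorem h26ar_indexKillsCoh (G : Type) [Group G] [Finite G] : H20A.IndexKillsCohStatement G := by
  intro A H n x hx
  exact killsAt H n A x hx

end H26AR
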