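/-
W2-C (S55) block A, slice AT0 (helper10): Tate cohomology in degrees `0` and `-1`, explicitly.

* `H10AT.h10at_tateZero G : H20A.TateZeroStatement G`     (`Ĥ⁰(G, V) = V^G / N V`, natural)
* `H10AT.h10at_tateNegOne G : H20A.TateNegOneStatement G` (`Ĥ⁻¹(G, V) = ker N / I_G V`, natural)

General versions (any commutative ring `k`, `A : Rep k G`, `[Fintype G]`):
`h10at_pi0 A : A.ρ.invariants →ₗ[k] tateCohomology A 0` (surjective, kernel = image of the norm,
natural), `h10at_pim1 A : ker A.ρ.norm →ₗ[k] tateCohomology A (-1)` (surjective, kernel =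
`Coinvariants.ker A.ρ`, natural).

Also reusable: for a homological complex `K` of modules, `h10at_proj K j k hk : ker (K.d j k) →ₗ
K.homology j` is surjective, vanishes exactly on the image of `K.d i j`, and is natural.
-/
import Mathlib
import Fermat.Agent.CFT2.A.Defs

set_option autoImplicit false

open CategoryTheory groupCohomology groupHomology

namespace H10AT

universe u v w

section general

variable {R : Type u} [Ring R]

theorem h10at_sc_homologyπ_eq_zero_iff (S : ShortComplex (ModuleCat.{v} R)) (z : S.cycles) :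
    S.homologyπ z = 0 ↔ ∃ y : S.X₁, S.f y = S.iCycles z := by
  have h1 := S.π_moduleCatCyclesIso_hom
  have h2 : S.moduleCatHomologyIso.hom (S.homologyπ z)
      = S.moduleCatLeftHomologyData.π (S.moduleCatCyclesIso.hom z) :=
    congrArg (fun f => f.hom z) h1
  have hinj : Function.Injective S.moduleCatHomologyIso.hom :=
    (ModuleCat.mono_iff_injective _).1 inferInstance
  have h3 : S.homologyπ z = 0 ↔ S.moduleCatHomologyIso.hom (S.homologyπ z) = 0 := by
    constructor
    · intro h; rw [h, map_zero]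
    · intro h; exact hinj (by rw [h, map_zero])
  rw [h3, h2]
  have h4 : (S.moduleCatLeftHomologyData.i (S.moduleCatCyclesIso.hom z))
      = S.iCycles z :=
    congrArg (fun f => f.hom z) S.moduleCatCyclesIso_hom_i
  rw [← h4]
  have key : ∀ w : LinearMap.ker S.g.hom,
      ((LinearMap.range S.moduleCatToCycles).mkQ w = 0 ↔ ∃ y : S.X₁, S.f y = (w : S.X₂)) := by
    intro w
    rw [Submodule.mkQ_apply, Submodule.Quotient.mk_eq_zero, LinearMap.mem_range]
    constructor
    · rintro ⟨y, hy⟩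
      exact ⟨y, congrArg Subtype.val hy⟩
    · rintro ⟨y, hy⟩
      exact ⟨y, Subtype.ext hy⟩
  exact key (S.moduleCatCyclesIso.hom z)

variable {ι : Type w} {c : ComplexShape ι}
  (K L : HomologicalComplex (ModuleCat.{v} R) c)

/-- the canonical map from the kernel of `d` to the cycles -/
noncomputable def h10at_cyc (j k : ι) (hk : c.next j = k) :
    ModuleCat.of R (LinearMap.ker (K.d j k).hom) ⟶ K.cycles j :=
  K.liftCycles (ModuleCat.ofHom (LinearMap.ker (K.d j k).hom).subtype) k hk (by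
    ext x
    exact x.2)

theorem h10at_iCycles_cyc (j k : ι) (hk : c.next j = k) (x : LinearMap.ker (K.d j k).hom) :
    K.iCycles j (h10at_cyc K j k hk x) = (x : K.X j) := by
  have := K.liftCycles_i (ModuleCat.ofHom (LinearMap.ker (K.d j k).hom).subtype) k hk (by
    ext x
    exact x.2)
  exact congrArg (fun f => f.hom x) this

theorem h10at_iCycles_injective (j : ι) : Function.Injective (K.iCycles j) :=
  (ModuleCat.mono_iff_injective _).1 inferInstance

theorem h10at_d_iCycles (j k : ι) (z : K.cycles j) : K.d j k (K.iCycles j z) = 0 := by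
  have := K.iCycles_d j k
  exact congrArg (fun f => f.hom z) this

theorem h10at_cyc_surjective (j k : ι) (hk : c.next j = k) :
    Function.Surjective (h10at_cyc K j k hk) := by
  intro z
  refine ⟨⟨K.iCycles j z, h10at_d_iCycles K j k z⟩, ?_⟩
  apply h10at_iCycles_injective
  rw [h10at_iCycles_cyc]

theorem h10at_homologyπ_surjective (j : ι) : Function.Surjective (K.homologyπ j) :=
  (ModuleCat.epi_iff_surjective _).1 inferInstance

theorem h10at_homologyπ_eq_zero_iff (i j : ι) (hi : c.prev j = i) (z : K.cycles j) :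
    K.homologyπ j z = 0 ↔ ∃ y : K.X i, K.d i j y = K.iCycles j z := by
  subst hi
  exact h10at_sc_homologyπ_eq_zero_iff (K.sc j) z

/-- the projection from the kernel of `d` onto the homology -/
noncomputable def h10at_proj (j k : ι) (hk : c.next j = k) :
    LinearMap.ker (K.d j k).hom →ₗ[R] K.homology j :=
  (h10at_cyc K j k hk ≫ K.homologyπ j).hom

theorem h10at_proj_surjective (j k : ι) (hk : c.next j = k) :
    Function.Surjective (h10at_proj K j k hk) := by
  intro x
  obtain ⟨z, rfl⟩ := h10at_homologyπ_surjective K j x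
  obtain ⟨w, rfl⟩ := h10at_cyc_surjective K j k hk z
  exact ⟨w, rfl⟩

theorem h10at_proj_eq_zero_iff (i j k : ι) (hi : c.prev j = i) (hk : c.next j = k)
    (x : LinearMap.ker (K.d j k).hom) :
    h10at_proj K j k hk x = 0 ↔ ∃ y : K.X i, K.d i j y = (x : K.X j) := by
  have : h10at_proj K j k hk x = K.homologyπ j (h10at_cyc K j k hk x) := rfl
  rw [this, h10at_homologyπ_eq_zero_iff K i j hi, h10at_iCycles_cyc]

variable {K L}

theorem h10at_proj_natural (φ : K ⟶ L) (j k : ι) (hk : c.next j = k)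
    (x : LinearMap.ker (K.d j k).hom) (y : LinearMap.ker (L.d j k).hom)
    (hxy : φ.f j (x : K.X j) = (y : L.X j)) :
    HomologicalComplex.homologyMap φ j (h10at_proj K j k hk x) = h10at_proj L j k hk y := by
  have h1 : HomologicalComplex.homologyMap φ j (K.homologyπ j (h10at_cyc K j k hk x))
      = L.homologyπ j (HomologicalComplex.cyclesMap φ j (h10at_cyc K j k hk x)) :=
    congrArg (fun f => f.hom (h10at_cyc K j k hk x)) (HomologicalComplex.homologyπ_naturality φ j)
  have h2 : HomologicalComplex.cyclesMap φ j (h10at_cyc K j k hk x) = h10at_cyc L j k hk y := by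
    apply h10at_iCycles_injective
    rw [h10at_iCycles_cyc, ← hxy, ← h10at_iCycles_cyc K j k hk x]
    exact congrArg (fun f => f.hom (h10at_cyc K j k hk x)) (HomologicalComplex.cyclesMap_i φ j)
  change HomologicalComplex.homologyMap φ j (K.homologyπ j (h10at_cyc K j k hk x)) = _
  rw [h1, h2]
  rfl

end general


section tate

set_option linter.unusedSectionVars false

variable {k G : Type u} [CommRing k] [Group G] [Fintype G]

theorem h10at_next0 : (ComplexShape.up ℤ).next 0 = 1 := by simp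
theorem h10at_prev0 : (ComplexShape.up ℤ).prev 0 = -1 := by simp
theorem h10at_nextm1 : (ComplexShape.up ℤ).next (-1) = 0 := by simp
theorem h10at_prevm1 : (ComplexShape.up ℤ).prev (-1) = -2 := by simp

theorem h10at_iso_hom_inv {X Y : ModuleCat.{u} k} (e : X ≅ Y) (x : X) :
    e.inv.hom (e.hom.hom x) = x :=
  LinearMap.congr_fun (congrArg ModuleCat.Hom.hom e.hom_inv_id) x

theorem h10at_iso_inv_hom {X Y : ModuleCat.{u} k} (e : X ≅ Y) (y : Y) :
    e.hom.hom (e.inv.hom y) = y :=
  LinearMap.congr_fun (congrArg ModuleCat.Hom.hom e.inv_hom_id) y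

theorem h10at_iso_inv_injective {X Y : ModuleCat.{u} k} (e : X ≅ Y) :
    Function.Injective e.inv.hom := fun a b h => by
  rw [← h10at_iso_inv_hom e a, ← h10at_iso_inv_hom e b, h]

theorem h10at_iso_hom_injective {X Y : ModuleCat.{u} k} (e : X ≅ Y) :
    Function.Injective e.hom.hom := fun a b h => by
  rw [← h10at_iso_hom_inv e a, ← h10at_iso_hom_inv e b, h]

/-- elementwise `comp_d₀₁_eq` -/
theorem h10at_comp_d01 (A : Rep k G) (y : (inhomogeneousCochains A).X 0) :
    (d₀₁ A).hom ((cochainsIso₀ A).hom.hom y)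
      = (cochainsIso₁ A).hom.hom (((inhomogeneousCochains A).d 0 1).hom y) :=
  LinearMap.congr_fun (congrArg ModuleCat.Hom.hom (comp_d₀₁_eq A)) y

/-- elementwise `eq_d₀₁_comp_inv` -/
theorem h10at_d01_comp_inv (A : Rep k G) (x : A.V) :
    ((inhomogeneousCochains A).d 0 1).hom ((cochainsIso₀ A).inv.hom x)
      = (cochainsIso₁ A).inv.hom ((d₀₁ A).hom x) :=
  LinearMap.congr_fun (congrArg ModuleCat.Hom.hom (eq_d₀₁_comp_inv A)) x

theorem h10at_mem_invariants_iff (A : Rep k G) (x : A.V) :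
    x ∈ A.ρ.invariants ↔ (d₀₁ A).hom x = 0 := by
  rw [← d₀₁_ker_eq_invariants, LinearMap.mem_ker]

/-- `d⁰ (x) = 0` for invariant `x` (in the Tate complex) -/
theorem h10at_d01_inv (A : Rep k G) (x : A.V) (hx : x ∈ A.ρ.invariants) :
    ((tateComplex A).d 0 1).hom ((cochainsIso₀ A).inv.hom x) = 0 := by
  have h3 : (d₀₁ A).hom x = 0 := (h10at_mem_invariants_iff A x).1 hx
  have h2 := h10at_d01_comp_inv A x
  rw [h3, map_zero] at h2
  exact h2

/-- invariants → kernel of `d⁰` in the Tate complex -/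
noncomputable def h10at_invToKer (A : Rep k G) :
    A.ρ.invariants →ₗ[k] LinearMap.ker ((tateComplex A).d 0 1).hom :=
  LinearMap.codRestrict _ ((cochainsIso₀ A).inv.hom ∘ₗ A.ρ.invariants.subtype)
    (fun x => h10at_d01_inv A x x.2)

theorem h10at_invToKer_coe (A : Rep k G) (x : A.ρ.invariants) :
    ((h10at_invToKer A x : LinearMap.ker ((tateComplex A).d 0 1).hom) : (tateComplex A).X 0)
      = (cochainsIso₀ A).inv.hom (x : A.V) := rfl

/-- the projection `A^G → Ĥ⁰(G, A)` -/
noncomputable def h10at_pi0 (A : Rep k G) : A.ρ.invariants →ₗ[k] tateCohomology A 0 :=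
  h10at_proj (tateComplex A) 0 1 h10at_next0 ∘ₗ h10at_invToKer A

theorem h10at_invToKer_surjective_aux (A : Rep k G) (y : (inhomogeneousCochains A).X 0)
    (hy : ((inhomogeneousCochains A).d 0 1).hom y = 0) :
    (cochainsIso₀ A).hom.hom y ∈ A.ρ.invariants := by
  rw [h10at_mem_invariants_iff, h10at_comp_d01, hy, map_zero]

theorem h10at_invToKer_surjective (A : Rep k G) : Function.Surjective (h10at_invToKer A) := by
  rintro ⟨y, hy⟩
  exact ⟨⟨(cochainsIso₀ A).hom.hom y, h10at_invToKer_surjective_aux A y hy⟩,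
    Subtype.ext (h10at_iso_hom_inv (cochainsIso₀ A) y)⟩

theorem h10at_pi0_surjective (A : Rep k G) : Function.Surjective (h10at_pi0 A) :=
  (h10at_proj_surjective (tateComplex A) 0 1 h10at_next0).comp (h10at_invToKer_surjective A)

/-- the Tate norm, elementwise -/
theorem h10at_tateNorm_apply (A : Rep k G) (y : (inhomogeneousChains A).X 0) :
    ((tateComplex A).d (-1) 0).hom y
      = (cochainsIso₀ A).inv.hom (A.ρ.norm ((chainsIso₀ A).hom.hom y)) := rfl

theorem h10at_pi0_eq_zero_iff (A : Rep k G) (x : A.ρ.invariants) :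
    h10at_pi0 A x = 0 ↔ ∃ y : A.V, A.ρ.norm y = (x : A.V) := by
  refine Iff.trans (h10at_proj_eq_zero_iff (tateComplex A) (-1) 0 1 h10at_prev0 h10at_next0
    (h10at_invToKer A x)) ?_
  constructor
  · rintro ⟨y, hy⟩
    refine ⟨(chainsIso₀ A).hom.hom y, ?_⟩
    apply h10at_iso_inv_injective (cochainsIso₀ A)
    exact hy
  · rintro ⟨y, hy⟩
    refine ⟨(chainsIso₀ A).inv.hom y, ?_⟩
    have h1 := h10at_tateNorm_apply A ((chainsIso₀ A).inv.hom y)
    rw [h10at_iso_inv_hom, hy] at h1
    exact h1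


/-! ### naturality in degree 0 -/

theorem h10at_map_f0 {A B : Rep k G} (f : A ⟶ B) (x : A.V) :
    ((tateComplex.map f).f 0).hom ((cochainsIso₀ A).inv.hom x)
      = (cochainsIso₀ B).inv.hom (f.hom x) := by
  have h2 := cochainsMap_f_0_comp_cochainsIso₀ (MonoidHom.id G) f
  have h3 : (cochainsIso₀ B).hom.hom (((cochainsMap (MonoidHom.id G) f).f 0).hom
      ((cochainsIso₀ A).inv.hom x)) = f.hom ((cochainsIso₀ A).hom.hom ((cochainsIso₀ A).inv.hom x)) :=
    LinearMap.congr_fun (congrArg ModuleCat.Hom.hom h2) ((cochainsIso₀ A).inv.hom x)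
  rw [h10at_iso_inv_hom] at h3
  apply h10at_iso_hom_injective (cochainsIso₀ B)
  rw [h10at_iso_inv_hom]
  exact h3

theorem h10at_pi0_natural {A B : Rep k G} (f : A ⟶ B) (x : A.ρ.invariants) (y : B.ρ.invariants)
    (hxy : f.hom (x : A.V) = (y : B.V)) :
    ((tateCohomologyFunctor 0).map f).hom (h10at_pi0 A x) = h10at_pi0 B y := by
  refine h10at_proj_natural (tateComplex.map f) 0 1 h10at_next0 (h10at_invToKer A x)
    (h10at_invToKer B y) ?_
  rw [h10at_invToKer_coe, h10at_invToKer_coe, ← hxy]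
  exact h10at_map_f0 f x

/-! ### degree -1 -/

/-- elementwise `comp_d₁₀_eq` -/
theorem h10at_comp_d10 (A : Rep k G) (z : G →₀ A.V) :
    (chainsIso₀ A).hom.hom (((inhomogeneousChains A).d 1 0).hom ((chainsIso₁ A).inv.hom z))
      = (d₁₀ A).hom z := by
  have h := LinearMap.congr_fun (congrArg ModuleCat.Hom.hom (eq_d₁₀_comp_inv A)) z
  have h' : ((inhomogeneousChains A).d 1 0).hom ((chainsIso₁ A).inv.hom z)
      = (chainsIso₀ A).inv.hom ((d₁₀ A).hom z) := h
  rw [h', h10at_iso_inv_hom]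

theorem h10at_tateNorm_ker (A : Rep k G) (x : A.V) (hx : A.ρ.norm x = 0) :
    ((tateComplex A).d (-1) 0).hom ((chainsIso₀ A).inv.hom x) = 0 := by
  rw [h10at_tateNorm_apply, h10at_iso_inv_hom, hx]
  exact map_zero _

/-- `ker N` → kernel of the Tate norm in the Tate complex -/
noncomputable def h10at_kerToKer (A : Rep k G) :
    LinearMap.ker A.ρ.norm →ₗ[k] LinearMap.ker ((tateComplex A).d (-1) 0).hom :=
  LinearMap.codRestrict _ ((chainsIso₀ A).inv.hom ∘ₗ (LinearMap.ker A.ρ.norm).subtype)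
    (fun x => h10at_tateNorm_ker A x x.2)

theorem h10at_kerToKer_coe (A : Rep k G) (x : LinearMap.ker A.ρ.norm) :
    ((h10at_kerToKer A x : LinearMap.ker ((tateComplex A).d (-1) 0).hom) : (tateComplex A).X (-1))
      = (chainsIso₀ A).inv.hom (x : A.V) := rfl

/-- the projection `ker N → Ĥ⁻¹(G, A)` -/
noncomputable def h10at_pim1 (A : Rep k G) : LinearMap.ker A.ρ.norm →ₗ[k] tateCohomology A (-1) :=
  h10at_proj (tateComplex A) (-1) 0 h10at_nextm1 ∘ₗ h10at_kerToKer A

theorem h10at_kerToKer_surjective_aux (A : Rep k G) (y : (inhomogeneousChains A).X 0)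
    (hy : ((tateComplex A).d (-1) 0).hom y = 0) :
    (chainsIso₀ A).hom.hom y ∈ LinearMap.ker A.ρ.norm := by
  rw [h10at_tateNorm_apply] at hy
  rw [LinearMap.mem_ker]
  apply h10at_iso_inv_injective (cochainsIso₀ A)
  rw [hy]
  exact (map_zero _).symm

theorem h10at_kerToKer_surjective (A : Rep k G) : Function.Surjective (h10at_kerToKer A) := by
  rintro ⟨y, hy⟩
  exact ⟨⟨(chainsIso₀ A).hom.hom y, h10at_kerToKer_surjective_aux A y hy⟩,
    Subtype.ext (h10at_iso_hom_inv (chainsIso₀ A) y)⟩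

theorem h10at_pim1_surjective (A : Rep k G) : Function.Surjective (h10at_pim1 A) :=
  (h10at_proj_surjective (tateComplex A) (-1) 0 h10at_nextm1).comp (h10at_kerToKer_surjective A)

theorem h10at_d_m2 (A : Rep k G) (z : (inhomogeneousChains A).X 1) :
    ((tateComplex A).d (-2) (-1)).hom z = ((inhomogeneousChains A).d 1 0).hom z := rfl

theorem h10at_pim1_eq_zero_iff_aux (A : Rep k G) (x : A.V) (z : (inhomogeneousChains A).X 1)
    (hz : ((inhomogeneousChains A).d 1 0).hom z = (chainsIso₀ A).inv.hom x) :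
    (d₁₀ A).hom ((chainsIso₁ A).hom.hom z) = x := by
  rw [← h10at_comp_d10, h10at_iso_hom_inv, hz, h10at_iso_inv_hom]

theorem h10at_pim1_eq_zero_iff (A : Rep k G) (x : LinearMap.ker A.ρ.norm) :
    h10at_pim1 A x = 0 ↔ (x : A.V) ∈ Representation.Coinvariants.ker A.ρ := by
  refine Iff.trans (h10at_proj_eq_zero_iff (tateComplex A) (-2) (-1) 0 h10at_prevm1 h10at_nextm1
    (h10at_kerToKer A x)) ?_
  rw [← range_d₁₀_eq_coinvariantsKer, LinearMap.mem_range]
  constructor
  · rintro ⟨z, hz⟩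
    exact ⟨(chainsIso₁ A).hom.hom z, h10at_pim1_eq_zero_iff_aux A x z hz⟩
  · rintro ⟨z, hz⟩
    refine ⟨(chainsIso₁ A).inv.hom z, ?_⟩
    have h := h10at_comp_d10 A z
    rw [hz] at h
    have h2 : ((inhomogeneousChains A).d 1 0).hom ((chainsIso₁ A).inv.hom z)
        = (chainsIso₀ A).inv.hom (x : A.V) := by
      apply h10at_iso_hom_injective (chainsIso₀ A)
      rw [h, h10at_iso_inv_hom]
    exact h2

theorem h10at_map_fm1 {A B : Rep k G} (f : A ⟶ B) (x : A.V) :
    ((tateComplex.map f).f (-1)).hom ((chainsIso₀ A).inv.hom x)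
      = (chainsIso₀ B).inv.hom (f.hom x) := by
  have h2 := chainsMap_f_0_comp_chainsIso₀ (MonoidHom.id G) f
  have h3 : (chainsIso₀ B).hom.hom (((chainsMap (MonoidHom.id G) f).f 0).hom
      ((chainsIso₀ A).inv.hom x)) = f.hom ((chainsIso₀ A).hom.hom ((chainsIso₀ A).inv.hom x)) :=
    LinearMap.congr_fun (congrArg ModuleCat.Hom.hom h2) ((chainsIso₀ A).inv.hom x)
  rw [h10at_iso_inv_hom] at h3
  apply h10at_iso_hom_injective (chainsIso₀ B)
  rw [h10at_iso_inv_hom]
  exact h3

theorem h10at_pim1_natural {A B : Rep k G} (f : A ⟶ B) (x : LinearMap.ker A.ρ.norm)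
    (y : LinearMap.ker B.ρ.norm) (hxy : f.hom (x : A.V) = (y : B.V)) :
    ((tateCohomologyFunctor (-1)).map f).hom (h10at_pim1 A x) = h10at_pim1 B y := by
  refine h10at_proj_natural (tateComplex.map f) (-1) 0 h10at_nextm1 (h10at_kerToKer A x)
    (h10at_kerToKer B y) ?_
  rw [h10at_kerToKer_coe, h10at_kerToKer_coe, ← hxy]
  exact h10at_map_fm1 f x

end tate

section final

variable (G : Type) [Group G] [Finite G]

/-- the map `V^G → Ĥ⁰(G, V)` -/
noncomputable def h10at_piZero (V : Type) [AddCommGroup V] (ρ : Representation ℤ G V) :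
    ρ.invariants →+ H20A.tate (Rep.of ρ) 0 :=
  letI : Fintype G := Fintype.ofFinite G
  (h10at_pi0 (Rep.of ρ)).toAddMonoidHom

/-- **AT0, degree 0**: `Ĥ⁰(G, V) = V^G / N V`, naturally in `V`. -/
theorem h10at_tateZero : H20A.TateZeroStatement G := by
  let _ : Fintype G := Fintype.ofFinite G
  refine ⟨fun V _ ρ => h10at_piZero G V ρ, ?_, ?_, ?_⟩
  · intro V _ ρ
    exact h10at_pi0_surjective (Rep.of ρ)
  · intro V _ ρ x
    exact h10at_pi0_eq_zero_iff (Rep.of ρ) x
  · intro V W _ _ ρ τ f hf x y hxy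
    exact h10at_pi0_natural (H20A.repHom ρ τ f hf) x y hxy

/-- the map `ker N → Ĥ⁻¹(G, V)` -/
theorem h10at_mem_ker_of_normOf {V : Type} [AddCommGroup V] (ρ : Representation ℤ G V) (x : V)
    (hx : x ∈ (H20A.normOf ρ).ker) :
    x ∈ LinearMap.ker (@Representation.norm ℤ G V _ _ (Fintype.ofFinite G) _ _ (Rep.of ρ).ρ) :=
  hx

/-- `ker (normOf ρ)` as the kernel of the linear norm map -/
noncomputable def h10at_kerIncl (V : Type) [AddCommGroup V] (ρ : Representation ℤ G V) :
    (H20A.normOf ρ).ker →+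
      LinearMap.ker (@Representation.norm ℤ G V _ _ (Fintype.ofFinite G) _ _ (Rep.of ρ).ρ) where
  toFun x := ⟨(x : V), h10at_mem_ker_of_normOf G ρ x x.2⟩
  map_zero' := rfl
  map_add' _ _ := rfl

noncomputable def h10at_piNegOne (V : Type) [AddCommGroup V] (ρ : Representation ℤ G V) :
    (H20A.normOf ρ).ker →+ H20A.tate (Rep.of ρ) (-1) :=
  letI : Fintype G := Fintype.ofFinite G
  (h10at_pim1 (Rep.of ρ)).toAddMonoidHom.comp (h10at_kerIncl G V ρ)

/-- **AT0, degree -1**: `Ĥ⁻¹(G, V) = ker N / I_G V`, naturally in `V`. -/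
theorem h10at_tateNegOne : H20A.TateNegOneStatement G := by
  let _ : Fintype G := Fintype.ofFinite G
  refine ⟨fun V _ ρ => h10at_piNegOne G V ρ, ?_, ?_, ?_⟩
  · intro V _ ρ z
    obtain ⟨x, hx⟩ := h10at_pim1_surjective (Rep.of ρ) z
    exact ⟨⟨(x : V), x.2⟩, hx⟩
  · intro V _ ρ x
    exact h10at_pim1_eq_zero_iff (Rep.of ρ) (h10at_kerIncl G V ρ x)
  · intro V W _ _ ρ τ f hf x y hxy
    exact h10at_pim1_natural (H20A.repHom ρ τ f hf) (h10at_kerIncl G V ρ x)
      (h10at_kerIncl G W τ y) hxy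

end final

end H10AT
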