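/-
W2-C (S55) block A, slice AR (helper26): unconditional statements AR2, AR3.

* `H26AR.h26ar_indexKillsTate G : H20A.IndexKillsTateStatement G`
* `H26AR.h26ar_sylow G : H20A.SylowStatement G`

(AT0 by helper10 plugged into `h26ar_indexKillsTate_of`, `h26ar_sylow_of`.)
-/
import Mathlib
import Fermat.Agent.CFT2.A.Defs
import Fermat.Agent.CFT2.A.AR_helper26
import Fermat.Agent.CFT2.A.AT0_helper10

namespace H26AR

/-- **AR2**: if `Ĥⁿ(H, A) = 0` then the index `(G : H)` kills `Ĥⁿ(G, A)` (all `n : ℤ`). -/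
theorem h26ar_indexKillsTate (G : Type) [Group G] [Finite G] : H20A.IndexKillsTateStatement G :=
  h26ar_indexKillsTate_of (fun G _ _ => H10AT.h10at_tateZero G)
    (fun G _ _ => H10AT.h10at_tateNegOne G) G

/-- **AR3**: if `Ĥⁿ(P, A) = 0` for all Sylow subgroups `P` then `Ĥⁿ(G, A) = 0`. -/
theorem h26ar_sylow (G : Type) [Group G] [Finite G] : H20A.SylowStatement G :=
  h26ar_sylow_of G (h26ar_indexKillsTate G)

end H26AR
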