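/-
W2-C (S55) block A, slice AR (helper26), part 3: the index kills `Ĥ⁰` and `Ĥ⁻¹`
(from the explicit descriptions AT0 of these groups, taken as hypotheses).
-/
import Mathlib
import Fermat.Agent.CFT2.A.Defs

set_option autoImplicit false
set_option linter.style.haveILetI false
set_option linter.unusedSectionVars false
noncomputable section
namespace H26AR
open CategoryTheory Rep groupCohomology

variable {G : Type} [Group G] [Finite G]

/-- the bijection `(G ⧸ H) × H → G`, `(c, h) ↦ c.out * h` -/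
theorem out_mul_bijective (H : Subgroup G) :
    Function.Bijective (fun x : (G ⧸ H) × H => (Quotient.out x.1 : G) * (x.2 : G)) := by
  constructor
  · rintro ⟨c, h⟩ ⟨c', h'⟩ hcc
    simp only at hcc
    have h1 : (QuotientGroup.mk (Quotient.out c * (h : G)) : G ⧸ H) =
        QuotientGroup.mk (Quotient.out c' * (h' : G)) := by rw [hcc]
    rw [QuotientGroup.mk_mul_of_mem _ h.2, QuotientGroup.mk_mul_of_mem _ h'.2,
      QuotientGroup.out_eq', QuotientGroup.out_eq'] at h1
    subst h1
    have h2 : (h : G) = h' := mul_left_cancel hcc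
    rw [Subtype.ext h2]
  · intro g
    refine ⟨(QuotientGroup.mk g, ⟨(Quotient.out (QuotientGroup.mk g : G ⧸ H))⁻¹ * g, ?_⟩), ?_⟩
    · rw [← QuotientGroup.eq, QuotientGroup.out_eq']
    · simp

/-- coset decomposition of a sum over `G` -/
theorem sum_eq_sum_cosets (H : Subgroup G) [Fintype G] [Fintype (G ⧸ H)] [Fintype H]
    {M : Type*} [AddCommMonoid M] (F : G → M) :
    ∑ g : G, F g = ∑ c : G ⧸ H, ∑ h : H, F (Quotient.out c * (h : G)) := by
  have h1 := (out_mul_bijective H).sum_comp F
  rw [← h1]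
  exact Fintype.sum_prod_type' (fun (c : G ⧸ H) (h : H) => F (Quotient.out c * (h : G)))

variable {V : Type} [AddCommGroup V]

theorem normOf_apply (ρ : Representation ℤ G V) (y : V) :
    letI : Fintype G := Fintype.ofFinite G
    H20A.normOf ρ y = ∑ g : G, ρ g y := by
  letI : Fintype G := Fintype.ofFinite G
  simp [H20A.normOf, Representation.norm]

theorem rho_mul' (ρ : Representation ℤ G V) (u v : G) (x : V) : ρ u (ρ v x) = ρ (u * v) x := by
  rw [map_mul]; rfl

/-- if `N_H y` is `G`-invariant then `N_G y = [G : H] • N_H y` -/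
theorem normOf_eq_index_nsmul (ρ : Representation ℤ G V) (H : Subgroup G) (y : V)
    (hinv : ∀ g : G, ρ g (H20A.normOf (ρ.comp H.subtype) y) =
      H20A.normOf (ρ.comp H.subtype) y) :
    H20A.normOf ρ y = H.index • H20A.normOf (ρ.comp H.subtype) y := by
  letI : Fintype G := Fintype.ofFinite G
  letI : Fintype H := Fintype.ofFinite H
  letI : Fintype (G ⧸ H) := Fintype.ofFinite _
  have hH : H20A.normOf (ρ.comp H.subtype) y = ∑ h : H, ρ (h : G) y := by
    rw [normOf_apply]
    rfl
  rw [normOf_apply, sum_eq_sum_cosets H]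
  have h1 : ∀ c : G ⧸ H, ∑ h : H, ρ (Quotient.out c * (h : G)) y =
      H20A.normOf (ρ.comp H.subtype) y := by
    intro c
    rw [← hinv (Quotient.out c), hH, map_sum]
    exact Finset.sum_congr rfl (fun h _ => (rho_mul' ρ _ _ y).symm)
  rw [Finset.sum_congr rfl (fun c _ => h1 c), Finset.sum_const, Finset.card_univ,
    Subgroup.index, Nat.card_eq_fintype_card]

/-- AR2 in degree `0`, for `Rep.of ρ` -/
theorem index_kills_tate_zero_of (hT0 : ∀ (G : Type) [Group G] [Finite G],
    H20A.TateZeroStatement G) (ρ : Representation ℤ G V) (H : Subgroup G)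
    (hz : Limits.IsZero (H20A.tate (H20A.resSub (Rep.of ρ) H) 0))
    (x : H20A.tate (Rep.of ρ) 0) : H.index • x = 0 := by
  obtain ⟨π, hsurj, hker, -⟩ := hT0 G
  obtain ⟨π', -, hker', -⟩ := hT0 H
  obtain ⟨a, rfl⟩ := hsurj V ρ x
  have ha : ∀ g : G, ρ g (a : V) = a := fun g => a.2 g
  set a' : Representation.invariants (ρ.comp H.subtype) := ⟨(a : V), fun h => ha h⟩ with ha'
  have h0 : π' V (ρ.comp H.subtype) a' = 0 := by
    have : Subsingleton (H20A.tate (H20A.resSub (Rep.of ρ) H) 0) :=
      ModuleCat.subsingleton_of_isZero hz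
    exact Subsingleton.elim _ _
  obtain ⟨y, hy⟩ := (hker' V (ρ.comp H.subtype) a').mp h0
  have hy' : H20A.normOf (ρ.comp H.subtype) y = (a : V) := hy
  rw [← map_nsmul, hker V ρ]
  refine ⟨y, ?_⟩
  rw [normOf_eq_index_nsmul ρ H y (by rw [hy']; exact ha), hy']
  rfl

theorem coinvKer_comp_le (ρ : Representation ℤ G V) (H : Subgroup G) :
    Representation.Coinvariants.ker (ρ.comp H.subtype) ≤ Representation.Coinvariants.ker ρ := by
  unfold Representation.Coinvariants.ker
  apply Submodule.span_le.mpr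
  rintro _ ⟨⟨h, x⟩, rfl⟩
  exact Representation.Coinvariants.sub_mem_ker (h : G) x

/-- AR2 in degree `-1`, for `Rep.of ρ` -/
theorem index_kills_tate_negOne_of (hT1 : ∀ (G : Type) [Group G] [Finite G],
    H20A.TateNegOneStatement G) (ρ : Representation ℤ G V) (H : Subgroup G)
    (hz : Limits.IsZero (H20A.tate (H20A.resSub (Rep.of ρ) H) (-1)))
    (x : H20A.tate (Rep.of ρ) (-1)) : H.index • x = 0 := by
  letI : Fintype G := Fintype.ofFinite G
  letI : Fintype H := Fintype.ofFinite H
  letI : Fintype (G ⧸ H) := Fintype.ofFinite _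
  obtain ⟨π, hsurj, hker, -⟩ := hT1 G
  obtain ⟨π', -, hker', -⟩ := hT1 H
  obtain ⟨a, rfl⟩ := hsurj V ρ x
  have ha : H20A.normOf ρ (a : V) = 0 := a.2
  -- the transfer of `a`
  set a' : V := ∑ c : G ⧸ H, ρ (Quotient.out c)⁻¹ (a : V) with ha'
  have hN : H20A.normOf (ρ.comp H.subtype) a' = 0 := by
    have hH : H20A.normOf (ρ.comp H.subtype) a' = ∑ h : H, ρ (h : G) a' := by
      rw [normOf_apply]
      rfl
    rw [hH, ha']
    have h1 : ∀ h : H, ρ (h : G) (∑ c : G ⧸ H, ρ (Quotient.out c)⁻¹ (a : V)) =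
        ∑ c : G ⧸ H, ρ ((Quotient.out c * ((h⁻¹ : H) : G))⁻¹) (a : V) := by
      intro h
      rw [map_sum]
      refine Finset.sum_congr rfl (fun c _ => ?_)
      rw [rho_mul']
      simp
    rw [Finset.sum_congr rfl (fun h _ => h1 h), Finset.sum_comm]
    have h2 : ∀ c : G ⧸ H, ∑ h : H, ρ ((Quotient.out c * ((h⁻¹ : H) : G))⁻¹) (a : V) =
        ∑ h : H, ρ ((Quotient.out c * (h : G))⁻¹) (a : V) := by
      intro c
      exact Equiv.sum_comp (Equiv.inv H) (fun h : H => ρ ((Quotient.out c * (h : G))⁻¹) (a : V))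
    rw [Finset.sum_congr rfl (fun c _ => h2 c),
      ← sum_eq_sum_cosets H (fun g => ρ g⁻¹ (a : V))]
    have h3 : ∑ g : G, ρ g⁻¹ (a : V) = ∑ g : G, ρ g (a : V) :=
      Equiv.sum_comp (Equiv.inv G) (fun g => ρ g (a : V))
    rw [h3, ← normOf_apply]
    exact ha
  have h0 : π' V (ρ.comp H.subtype) ⟨a', hN⟩ = 0 := by
    have : Subsingleton (H20A.tate (H20A.resSub (Rep.of ρ) H) (-1)) :=
      ModuleCat.subsingleton_of_isZero hz
    exact Subsingleton.elim _ _
  have h1 : a' ∈ Representation.Coinvariants.ker ρ :=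
    coinvKer_comp_le ρ H ((hker' V (ρ.comp H.subtype) ⟨a', hN⟩).mp h0)
  have h2 : H.index • (a : V) - a' ∈ Representation.Coinvariants.ker ρ := by
    have e : H.index • (a : V) - a' = ∑ c : G ⧸ H, -(ρ (Quotient.out c)⁻¹ (a : V) - (a : V)) := by
      rw [ha', Finset.sum_neg_distrib, Finset.sum_sub_distrib, Finset.sum_const,
        Finset.card_univ, Subgroup.index, Nat.card_eq_fintype_card]
      abel
    rw [e]
    exact Submodule.sum_mem _ (fun c _ =>
      Submodule.neg_mem _ (Representation.Coinvariants.sub_mem_ker _ _))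
  have h3 : H.index • (a : V) ∈ Representation.Coinvariants.ker ρ := by
    have := Submodule.add_mem _ h2 h1
    simpa using this
  rw [← map_nsmul, hker V ρ]
  exact h3

end H26AR
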