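/-
W2-C (S55) block A (helper26): the splitting module `C(φ)` of a 2-cocycle `φ` (Tate's theorem).

Model: `I_G = ker(Map(G, ℤ) → ℤ)` (augmentation kernel in coinduced coordinates, `(σ f)(y) = f(yσ)`),
`C(φ) = V × I_G` with `σ (c, x) = (σ c + ∑_y x(y) φ(σ, y⁻¹), σ x)`.
Sequences `seqA : 0 → I_G → Map(G, ℤ) → ℤ → 0`, `seqB : 0 → C → C(φ) → I_G → 0` and, for every
`f : H →* G`, the connecting maps of the restricted sequences:
`delta_one : δ(1) = [u]`, `u(h) = h δ₁ - δ₁`;  `delta_u : δ[u] = [φ ∘ (f × f)]`.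
-/
import Mathlib
import Fermat.Agent.CFT2.A.Defs
import Fermat.Agent.CFT2.A.AI2_helper22
import Fermat.Agent.CFT2.A.AF2_helper5

set_option autoImplicit false
set_option linter.style.haveILetI false
set_option linter.unusedSectionVars false
noncomputable section
namespace H26AT
open CategoryTheory Rep groupCohomology

section carrier
variable {G : Type} [Group G] [Fintype G]

/-- a representation from an action by additive maps (any `ℤ`-module structure) -/
def mkRep {W : Type} [AddCommGroup W] [Module ℤ W] (act : G → W →+ W)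
    (h1 : ∀ w, act 1 w = w) (hmul : ∀ g h w, act (g * h) w = act g (act h w)) :
    Representation ℤ G W where
  toFun g :=
    { toFun := act g
      map_add' := (act g).map_add
      map_smul' := fun n a => by simpa using map_intCast_smul (act g) ℤ ℤ n a }
  map_one' := by
    ext w
    exact h1 w
  map_mul' g h := by
    ext w
    exact hmul g h w

theorem mkRep_apply {W : Type} [AddCommGroup W] [Module ℤ W] (act : G → W →+ W)
    (h1 : ∀ w, act 1 w = w) (hmul : ∀ g h w, act (g * h) w = act g (act h w)) (g : G) (w : W) :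
    mkRep act h1 hmul g w = act g w := rfl

variable (G) in
/-- the augmentation `Map(G, ℤ) → ℤ` -/
def augHom : (G → ℤ) →+ ℤ where
  toFun f := ∑ y, f y
  map_zero' := by simp
  map_add' f g := by simp [Finset.sum_add_distrib]

theorem augHom_apply (f : G → ℤ) : augHom G f = ∑ y, f y := rfl

/-- translation `(σ f)(y) = f (y σ)` on the augmentation kernel -/
def augAct (σ : G) : (augHom G).ker →+ (augHom G).ker where
  toFun x := ⟨fun y => x.1 (y * σ), by
    have h := x.2
    rw [AddMonoidHom.mem_ker, augHom_apply] at h ⊢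
    rw [← h]
    exact Fintype.sum_equiv (Equiv.mulRight σ) _ _ (fun y => rfl)⟩
  map_zero' := rfl
  map_add' _ _ := rfl

theorem augAct_apply (σ : G) (x : (augHom G).ker) (y : G) : (augAct σ x).1 y = x.1 (y * σ) := rfl

theorem sum_ker (x : (augHom G).ker) : ∑ y, x.1 y = 0 := x.2

variable (G) in
/-- the augmentation kernel as a representation -/
def augRho : Representation ℤ G (augHom G).ker :=
  mkRep augAct (fun x => by
    apply Subtype.ext
    funext y
    rw [augAct_apply, mul_one]) (fun g h x => by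
    apply Subtype.ext
    funext y
    rw [augAct_apply, augAct_apply, augAct_apply, mul_assoc])

variable (G) in
/-- `I_G` -/
def augRep : Rep.{0} ℤ G := Rep.of (augRho G)

end carrier

section split
variable {G : Type} [Group G] [Fintype G] {V : Type} [AddCommGroup V]

/-- the 2-cocycle condition, explicitly -/
def IsCoc (ρ : Representation ℤ G V) (φ : G × G → V) : Prop :=
  ∀ g h j : G, φ (g * h, j) + φ (g, h) = ρ g (φ (h, j)) + φ (g, h * j)

theorem IsCoc.one_left {ρ : Representation ℤ G V} {φ : G × G → V} (hφ : IsCoc ρ φ) (z : G) :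
    φ (1, z) = φ (1, 1) := by
  have h := hφ 1 1 z
  simp only [mul_one, one_mul, map_one, Module.End.one_apply] at h
  exact (add_left_cancel h).symm

theorem IsCoc.one_right {ρ : Representation ℤ G V} {φ : G × G → V} (hφ : IsCoc ρ φ) (g : G) :
    φ (g, 1) = ρ g (φ (1, 1)) := by
  have h := hφ g 1 1
  simp only [mul_one] at h
  exact add_right_cancel (by rw [h, add_comm])

/-- the twisting term `∑ y, x(y) • φ(σ, y⁻¹)` -/
def twist (φ : G × G → V) (σ : G) (x : (augHom G).ker) : V := ∑ y, x.1 y • φ (σ, y⁻¹)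

theorem twist_add (φ : G × G → V) (σ : G) (x x' : (augHom G).ker) :
    twist φ σ (x + x') = twist φ σ x + twist φ σ x' := by
  unfold twist
  rw [← Finset.sum_add_distrib]
  refine Finset.sum_congr rfl (fun y _ => ?_)
  rw [← add_smul]
  rfl

theorem twist_zero (φ : G × G → V) (σ : G) : twist φ σ (0 : (augHom G).ker) = 0 := by
  unfold twist
  refine Finset.sum_eq_zero (fun y _ => ?_)
  exact zero_smul _ _

theorem twist_const (φ : G × G → V) (σ : G) (x : (augHom G).ker) (a : V)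
    (h : ∀ y, φ (σ, y) = a) : twist φ σ x = 0 := by
  unfold twist
  rw [Finset.sum_congr rfl (fun y _ => by rw [h y⁻¹]), ← Finset.sum_smul, sum_ker, zero_smul]

/-- the twisted action on `V × I_G` -/
def splitAct (ρ : Representation ℤ G V) (φ : G × G → V) (σ : G) :
    V × (augHom G).ker →+ V × (augHom G).ker where
  toFun w := (ρ σ w.1 + twist φ σ w.2, augAct σ w.2)
  map_zero' := by
    apply Prod.ext
    · change ρ σ 0 + twist φ σ 0 = 0
      rw [map_zero, twist_zero, add_zero]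
    · rfl
  map_add' w w' := by
    apply Prod.ext
    · change ρ σ (w.1 + w'.1) + twist φ σ (w.2 + w'.2) =
        (ρ σ w.1 + twist φ σ w.2) + (ρ σ w'.1 + twist φ σ w'.2)
      rw [map_add, twist_add]
      abel
    · rfl

theorem splitAct_fst (ρ : Representation ℤ G V) (φ : G × G → V) (σ : G)
    (w : V × (augHom G).ker) : (splitAct ρ φ σ w).1 = ρ σ w.1 + twist φ σ w.2 := rfl

theorem splitAct_snd (ρ : Representation ℤ G V) (φ : G × G → V) (σ : G)
    (w : V × (augHom G).ker) : (splitAct ρ φ σ w).2 = augAct σ w.2 := rfl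

theorem rho_twist (ρ : Representation ℤ G V) (φ : G × G → V) (g h : G) (x : (augHom G).ker) :
    ρ g (twist φ h x) = ∑ y, x.1 y • ρ g (φ (h, y⁻¹)) := by
  unfold twist
  rw [map_sum]
  refine Finset.sum_congr rfl (fun y _ => ?_)
  exact map_zsmul (ρ g) _ _

theorem twist_augAct (φ : G × G → V) (g h : G) (x : (augHom G).ker) :
    twist φ g (augAct h x) = ∑ y, x.1 y • φ (g, h * y⁻¹) := by
  unfold twist
  refine Fintype.sum_equiv (Equiv.mulRight h) _ _ (fun y => ?_)
  rw [augAct_apply]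
  change x.1 (y * h) • φ (g, y⁻¹) = x.1 (y * h) • φ (g, h * (y * h)⁻¹)
  rw [mul_inv_rev, mul_inv_cancel_left]

theorem splitAct_one (ρ : Representation ℤ G V) (φ : G × G → V) (hφ : IsCoc ρ φ)
    (w : V × (augHom G).ker) : splitAct ρ φ 1 w = w := by
  apply Prod.ext
  · rw [splitAct_fst, twist_const φ 1 w.2 (φ (1, 1)) (fun y => hφ.one_left y), add_zero, map_one]
    rfl
  · rw [splitAct_snd]
    apply Subtype.ext
    funext y
    rw [augAct_apply, mul_one]

theorem splitAct_mul (ρ : Representation ℤ G V) (φ : G × G → V) (hφ : IsCoc ρ φ) (g h : G)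
    (w : V × (augHom G).ker) : splitAct ρ φ (g * h) w = splitAct ρ φ g (splitAct ρ φ h w) := by
  apply Prod.ext
  · rw [splitAct_fst, splitAct_fst, splitAct_fst, splitAct_snd, map_add, rho_twist, twist_augAct,
      map_mul, Module.End.mul_apply, add_assoc]
    congr 1
    rw [← Finset.sum_add_distrib]
    have h0 : ∑ y, w.2.1 y • φ (g, h) = 0 := by
      rw [← Finset.sum_smul, sum_ker, zero_smul]
    have h1 : twist φ (g * h) w.2 = twist φ (g * h) w.2 + ∑ y, w.2.1 y • φ (g, h) := by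
      rw [h0, add_zero]
    rw [h1]
    unfold twist
    rw [← Finset.sum_add_distrib]
    refine Finset.sum_congr rfl (fun y _ => ?_)
    rw [← smul_add, ← smul_add, hφ g h y⁻¹]
  · rw [splitAct_snd, splitAct_snd, splitAct_snd]
    apply Subtype.ext
    funext y
    rw [augAct_apply, augAct_apply, augAct_apply, mul_assoc]

/-- the splitting module `C(φ)` as a representation -/
def splitRho (ρ : Representation ℤ G V) (φ : G × G → V) (hφ : IsCoc ρ φ) :
    Representation ℤ G (V × (augHom G).ker) :=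
  mkRep (splitAct ρ φ) (splitAct_one ρ φ hφ) (splitAct_mul ρ φ hφ)

/-- the splitting module `C(φ)` -/
def splitRep (ρ : Representation ℤ G V) (φ : G × G → V) (hφ : IsCoc ρ φ) : Rep.{0} ℤ G :=
  Rep.of (splitRho ρ φ hφ)

end split
section seqs
variable {G : Type} [Group G] [Fintype G] {V : Type} [AddCommGroup V]

/-- elementwise criterion for short exactness in `Rep ℤ G` -/
theorem shortExact_of (X : ShortComplex (Rep.{0} ℤ G)) (hf : Function.Injective X.f.hom)
    (hg : Function.Surjective X.g.hom)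
    (hex : ∀ x₂ : X.X₂, X.g.hom x₂ = 0 → ∃ x₁ : X.X₁, X.f.hom x₁ = x₂) : X.ShortExact :=
  ShortComplex.ShortExact.mk' ((H5AF.h5af_exact_iff X).2 hex)
    ((Rep.mono_iff_injective _).2 hf) ((Rep.epi_iff_surjective _).2 hg)

variable (G) in
/-- the inclusion `I_G → Map(G, ℤ)` -/
def augIncl : augRep G ⟶ H20A.coindOne G ℤ :=
  H22AI.h22ai_mkHom (augRep G) (H20A.coindOne G ℤ) (augHom G).ker.subtype (fun _ _ => rfl)

theorem augIncl_apply (x : (augHom G).ker) : (augIncl G).hom x = x.1 := rfl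

variable (G) in
/-- the augmentation `Map(G, ℤ) → ℤ` as a morphism of representations -/
def augMap : H20A.coindOne G ℤ ⟶ Rep.trivial ℤ G ℤ :=
  H22AI.h22ai_mkHom (H20A.coindOne G ℤ) (Rep.trivial ℤ G ℤ) (augHom G) (fun g (f : G → ℤ) => by
    change ∑ y, f (y * g) = ∑ y, f y
    exact Fintype.sum_equiv (Equiv.mulRight g) _ _ (fun y => rfl))

theorem augMap_apply (f : G → ℤ) : (augMap G).hom f = ∑ y, f y := rfl

variable (G) in
/-- `0 → I_G → Map(G, ℤ) → ℤ → 0` -/
def seqA : ShortComplex (Rep.{0} ℤ G) :=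
  ShortComplex.mk (augIncl G) (augMap G) (by
    apply Rep.hom_ext
    ext x
    exact x.2)

variable (G) in
theorem seqA_shortExact : (seqA G).ShortExact := by
  classical
  refine shortExact_of (seqA G) ?_ ?_ ?_
  · intro x y hxy
    exact Subtype.ext hxy
  · intro (n : ℤ)
    refine ⟨(Pi.single (1 : G) n : G → ℤ), ?_⟩
    change ∑ y, (Pi.single (1 : G) n : G → ℤ) y = n
    rw [Finset.sum_pi_single']
    simp
  · intro f hf
    exact ⟨⟨f, hf⟩, rfl⟩

/-- the inclusion `C → C(φ)` -/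
def splitInl (ρ : Representation ℤ G V) (φ : G × G → V) (hφ : IsCoc ρ φ) :
    Rep.of ρ ⟶ splitRep ρ φ hφ :=
  H22AI.h22ai_mkHom (Rep.of ρ) (splitRep ρ φ hφ) (AddMonoidHom.inl V (augHom G).ker)
    (fun g (c : V) => by
      apply Prod.ext
      · change ρ g c = ρ g c + twist φ g 0
        rw [twist_zero, add_zero]
      · rfl)

theorem splitInl_apply (ρ : Representation ℤ G V) (φ : G × G → V) (hφ : IsCoc ρ φ) (c : V) :
    (splitInl ρ φ hφ).hom c = ((c, 0) : V × (augHom G).ker) := rfl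

/-- the projection `C(φ) → I_G` -/
def splitPr (ρ : Representation ℤ G V) (φ : G × G → V) (hφ : IsCoc ρ φ) :
    splitRep ρ φ hφ ⟶ augRep G :=
  H22AI.h22ai_mkHom (splitRep ρ φ hφ) (augRep G) (AddMonoidHom.snd V (augHom G).ker)
    (fun _ _ => rfl)

theorem splitPr_apply (ρ : Representation ℤ G V) (φ : G × G → V) (hφ : IsCoc ρ φ)
    (w : V × (augHom G).ker) : (splitPr ρ φ hφ).hom w = w.2 := rfl

/-- `0 → C → C(φ) → I_G → 0` -/
def seqB (ρ : Representation ℤ G V) (φ : G × G → V) (hφ : IsCoc ρ φ) :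
    ShortComplex (Rep.{0} ℤ G) :=
  ShortComplex.mk (splitInl ρ φ hφ) (splitPr ρ φ hφ) (by
    apply Rep.hom_ext
    ext c
    rfl)

theorem seqB_shortExact (ρ : Representation ℤ G V) (φ : G × G → V) (hφ : IsCoc ρ φ) :
    (seqB ρ φ hφ).ShortExact := by
  refine shortExact_of (seqB ρ φ hφ) ?_ ?_ ?_
  · intro (x : V) (y : V) hxy
    exact congrArg Prod.fst hxy
  · intro (x : (augHom G).ker)
    exact ⟨((0, x) : V × (augHom G).ker), rfl⟩
  · intro (w : V × (augHom G).ker) hw
    refine ⟨w.1, ?_⟩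
    change ((w.1, 0) : V × (augHom G).ker) = w
    have h2 : w.2 = 0 := hw
    exact Prod.ext rfl h2.symm

end seqs

section cocycle
variable {G : Type} [Group G] [Fintype G] {V : Type} [AddCommGroup V]

variable (G) in
/-- the indicator function of `1` -/
def delta1 : G → ℤ := fun t => by classical exact if t = 1 then 1 else 0

theorem delta1_one : delta1 G 1 = 1 := by simp [delta1]

theorem delta1_of_ne {t : G} (h : t ≠ 1) : delta1 G t = 0 := by simp [delta1, h]

theorem sum_delta1 : ∑ t, delta1 G t = 1 := by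
  rw [Finset.sum_eq_single (1 : G)]
  · exact delta1_one
  · intro t _ ht
    exact delta1_of_ne ht
  · intro h
    exact absurd (Finset.mem_univ _) h

theorem sum_delta1_smul (F : G → V) : ∑ t, delta1 G t • F t = F 1 := by
  rw [Finset.sum_eq_single (1 : G)]
  · rw [delta1_one, one_smul]
  · intro t _ ht
    rw [delta1_of_ne ht, zero_smul]
  · intro h
    exact absurd (Finset.mem_univ _) h

/-- `u(h) = h • δ₁ - δ₁ ∈ I_G` -/
def uCoc (h : G) : (augHom G).ker :=
  ⟨fun t => delta1 G (t * h) - delta1 G t, by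
    rw [AddMonoidHom.mem_ker, augHom_apply, Finset.sum_sub_distrib, sub_eq_zero]
    exact Fintype.sum_equiv (Equiv.mulRight h) _ _ (fun y => rfl)⟩

theorem uCoc_apply (h t : G) : (uCoc h).1 t = delta1 G (t * h) - delta1 G t := rfl

theorem twist_uCoc (φ : G × G → V) (g h : G) : twist φ g (uCoc h) = φ (g, h) - φ (g, 1) := by
  unfold twist
  have h1 : ∀ t : G, (uCoc h).1 t • φ (g, t⁻¹) =
      delta1 G (t * h) • φ (g, t⁻¹) - delta1 G t • φ (g, t⁻¹) := fun t => by
    rw [uCoc_apply, sub_smul]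
  rw [Finset.sum_congr rfl (fun t _ => h1 t), Finset.sum_sub_distrib,
    sum_delta1_smul (fun t => φ (g, t⁻¹)), inv_one]
  congr 1
  have h2 := Fintype.sum_equiv (Equiv.mulRight h) (fun t => delta1 G (t * h) • φ (g, t⁻¹))
    (fun s => delta1 G s • φ (g, (s * h⁻¹)⁻¹)) (fun t => by
      change _ = delta1 G (t * h) • φ (g, (t * h * h⁻¹)⁻¹)
      rw [mul_inv_cancel_right])
  rw [h2, sum_delta1_smul (fun s => φ (g, (s * h⁻¹)⁻¹))]
  simp

theorem uCoc_cocycle (g h : G) : augAct g (uCoc h) - uCoc (g * h) + uCoc g = 0 := by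
  apply Subtype.ext
  funext t
  change (delta1 G (t * g * h) - delta1 G (t * g)) - (delta1 G (t * (g * h)) - delta1 G t) +
    (delta1 G (t * g) - delta1 G t) = 0
  rw [mul_assoc]
  ring

end cocycle

section deltas
variable {G : Type} [Group G] [Fintype G] {V : Type} [AddCommGroup V]
variable {H : Type} [Group H] (f : H →* G)

/-- `seqA` restricted along `f` -/
abbrev seqAH : ShortComplex (Rep.{0} ℤ H) := (seqA G).map (resFunctor f)

theorem seqAH_shortExact : (seqAH f).ShortExact :=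
  (Rep.shortExact_res f).2 (seqA_shortExact G)

/-- `seqB` restricted along `f` -/
abbrev seqBH (ρ : Representation ℤ G V) (φ : G × G → V) (hφ : IsCoc ρ φ) :
    ShortComplex (Rep.{0} ℤ H) := (seqB ρ φ hφ).map (resFunctor f)

theorem seqBH_shortExact (ρ : Representation ℤ G V) (φ : G × G → V) (hφ : IsCoc ρ φ) :
    (seqBH f ρ φ hφ).ShortExact :=
  (Rep.shortExact_res f).2 (seqB_shortExact ρ φ hφ)

/-- the invariant `1 ∈ ℤ` -/
def oneInv : (seqAH f).X₃.ρ.invariants := ⟨(1 : ℤ), fun _ => rfl⟩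

/-- the 1-cochain `h ↦ u(h)` of `H` with values in `I_G` -/
def uFun : H → (seqAH f).X₁ := fun h => uCoc (f h)

theorem uFun_eq : (seqAH f).f.hom ∘ uFun f = d₀₁ (seqAH f).X₂ (delta1 G) := by
  funext h
  rfl

theorem uFun_mem : uFun f ∈ cocycles₁ (seqAH f).X₁ :=
  mem_cocycles₁_of_comp_eq_d₀₁ (seqAH_shortExact f) (uFun_eq f)

/-- the class `g₁ = δ(1) ∈ H¹(H, I_G)` -/
theorem delta_one :
    δ (seqAH_shortExact f) 0 1 rfl ((H0Iso (seqAH f).X₃).inv (oneInv f)) =
      H1π (seqAH f).X₁ ⟨uFun f, uFun_mem f⟩ :=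
  δ₀_apply (seqAH_shortExact f) (oneInv f) (delta1 G) sum_delta1 (uFun f) (uFun_eq f)

variable (ρ : Representation ℤ G V) (φ : G × G → V) (hφ : IsCoc ρ φ)

/-- the lift `y(h) = (φ(1,1), u(h))` of `u` to `C(φ)` -/
def yFun : H → (seqBH f ρ φ hφ).X₂ :=
  fun h => ((φ (1, 1), uCoc (f h)) : V × (augHom G).ker)

/-- the restriction of the cocycle `φ` to `H` -/
def phiH : H × H → (seqBH f ρ φ hφ).X₁ := fun p => φ (f p.1, f p.2)

theorem uFun_mem' : uFun f ∈ cocycles₁ (seqBH f ρ φ hφ).X₃ := uFun_mem f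

theorem yFun_pr : (seqBH f ρ φ hφ).g.hom ∘ yFun f ρ φ hφ =
    ⇑(⟨uFun f, uFun_mem' f ρ φ hφ⟩ : cocycles₁ (seqBH f ρ φ hφ).X₃) := rfl

theorem phiH_eq : (seqBH f ρ φ hφ).f.hom ∘ phiH f ρ φ hφ =
    d₁₂ (seqBH f ρ φ hφ).X₂ (yFun f ρ φ hφ) := by
  funext ⟨h₁, h₂⟩
  apply Prod.ext
  · change φ (f h₁, f h₂) =
      (ρ (f h₁) (φ (1, 1)) + twist φ (f h₁) (uCoc (f h₂))) - φ (1, 1) + φ (1, 1)
    rw [twist_uCoc, hφ.one_right (f h₁)]
    abel
  · change (0 : (augHom G).ker) =
      augAct (f h₁) (uCoc (f h₂)) - uCoc (f (h₁ * h₂)) + uCoc (f h₁)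
    rw [map_mul]
    exact (uCoc_cocycle _ _).symm

theorem phiH_mem : phiH f ρ φ hφ ∈ cocycles₂ (seqBH f ρ φ hφ).X₁ :=
  mem_cocycles₂_of_comp_eq_d₁₂ (seqBH_shortExact f ρ φ hφ) (phiH_eq f ρ φ hφ)

/-- `δ(g₁) = [φ|_H]` -/
theorem delta_u :
    δ (seqBH_shortExact f ρ φ hφ) 1 2 rfl
        (H1π (seqBH f ρ φ hφ).X₃ ⟨uFun f, uFun_mem' f ρ φ hφ⟩) =
      H2π (seqBH f ρ φ hφ).X₁ ⟨phiH f ρ φ hφ, phiH_mem f ρ φ hφ⟩ :=
  δ₁_apply (seqBH_shortExact f ρ φ hφ) ⟨uFun f, uFun_mem' f ρ φ hφ⟩ (yFun f ρ φ hφ)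
    (yFun_pr f ρ φ hφ) (phiH f ρ φ hφ) (phiH_eq f ρ φ hφ)

/-- `δ δ 1 = [φ|_H]` -/
theorem delta_delta_one :
    δ (seqBH_shortExact f ρ φ hφ) 1 2 rfl
        (δ (seqAH_shortExact f) 0 1 rfl ((H0Iso (seqAH f).X₃).inv (oneInv f))) =
      H2π (seqBH f ρ φ hφ).X₁ ⟨phiH f ρ φ hφ, phiH_mem f ρ φ hφ⟩ := by
  rw [delta_one]
  exact delta_u f ρ φ hφ

end deltas

end H26AT
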