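import Mathlib
import Fermat.Agent.CFT2.A.Defs

/-!
# W2-C (S55), block A, slice AV (helper25), part 1: transport lemmas

* `H25AV.cohResRes`: `Hⁿ(K, (A|H)|K) ≅ Hⁿ(K', A|K')` for `K ≤ H ≤ G`, `K'` the image of `K` in `G`;
* `H25AV.cohResTop`: `Hⁿ(⊤, A|⊤) ≅ Hⁿ(G, A)`;
* `H25AV.tateIsoCoh`: `Ĥⁿ ≅ Hⁿ` for `n ≥ 1`;
* `H25AV.cyclic_vanish`: for `G` cyclic, `H¹ = H² = 0` implies `Ĥⁿ = 0` for all `n` (from AC);
* `H25AV.exists_normal_cyclic_quot`: a nontrivial finite `p`-group has a proper normal subgroup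
  with cyclic quotient.
-/

set_option autoImplicit false

open CategoryTheory

namespace H25AV

open H20A

section res

variable {k : Type} [CommRing k] {G : Type} [Group G] (A : Rep k G)

/-- `Hⁿ(K, (A|H)|K) ≅ Hⁿ(K', A|K')`, `K'` the image of `K ≤ H` in `G` (generic coefficients) -/
noncomputable def cohResRes' (H : Subgroup G) (K : Subgroup H) (n : ℕ) :
    groupCohomology (Rep.res K.subtype (Rep.res H.subtype A)) n ≅
      groupCohomology (Rep.res (K.map H.subtype).subtype A) n :=
  groupCohomology.mapIso (K.equivMapOfInjective H.subtype H.subtype_injective)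
    (LinearEquiv.refl k A.V) (fun g => rfl) n

/-- `Hⁿ(⊤, A|⊤) ≅ Hⁿ(G, A)` (generic coefficients) -/
noncomputable def cohResTop' (n : ℕ) :
    groupCohomology (Rep.res (⊤ : Subgroup G).subtype A) n ≅ groupCohomology A n :=
  groupCohomology.mapIso Subgroup.topEquiv (LinearEquiv.refl k A.V) (fun g => rfl) n

end res

section resInt

variable {G : Type} [Group G] (A : Rep ℤ G)

/-- `Hⁿ(K, (A|H)|K) ≅ Hⁿ(K', A|K')`, `K'` the image of `K ≤ H` in `G` -/
noncomputable def cohResRes (H : Subgroup G) (K : Subgroup H) (n : ℕ) :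
    groupCohomology (resSub (resSub A H) K) n ≅
      groupCohomology (resSub A (K.map H.subtype)) n :=
  cohResRes' A H K n

/-- `Hⁿ(⊤, A|⊤) ≅ Hⁿ(G, A)` -/
noncomputable def cohResTop (n : ℕ) :
    groupCohomology (resSub A (⊤ : Subgroup G)) n ≅ groupCohomology A n :=
  cohResTop' A n

end resInt

section tate

variable {G : Type} [Group G] [Finite G] (A : Rep ℤ G)

/-- `Ĥⁿ ≅ Hⁿ` for `n ≥ 1` -/
noncomputable def tateIsoCoh (n : ℕ) (hn : n ≠ 0) : tate A (n : ℤ) ≅ groupCohomology A n :=
  letI : Fintype G := Fintype.ofFinite G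
  haveI : NeZero n := ⟨hn⟩
  (TateCohomology.isoGroupCohomology n).app A

theorem tate_isZero_iff_coh (n : ℕ) (hn : n ≠ 0) :
    Limits.IsZero (tate A (n : ℤ)) ↔ Limits.IsZero (groupCohomology A n) :=
  (tateIsoCoh A n hn).isZero_iff

/-- for a cyclic group, `H¹ = H² = 0` implies `Ĥⁿ = 0` for all `n : ℤ` (uses AC) -/
theorem cyclic_vanish (hAC : CyclicPeriodStatement G) (hcyc : IsCyclic G)
    (h1 : Limits.IsZero (groupCohomology A 1)) (h2 : Limits.IsZero (groupCohomology A 2))
    (n : ℤ) : Limits.IsZero (tate A n) := by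
  have t1 : Limits.IsZero (tate A 1) := (tate_isZero_iff_coh A 1 one_ne_zero).2 h1
  have t2 : Limits.IsZero (tate A 2) := (tate_isZero_iff_coh A 2 two_ne_zero).2 h2
  have per : ∀ m : ℤ, Limits.IsZero (tate A m) ↔ Limits.IsZero (tate A (m + 2)) := fun m =>
    (hAC hcyc A m).some.isZero_iff
  -- all `1 + 2 j` and `2 + 2 j`
  have key : ∀ j : ℕ, (Limits.IsZero (tate A (1 + 2 * (j : ℤ))) ∧
      Limits.IsZero (tate A (2 + 2 * (j : ℤ)))) ∧
      (Limits.IsZero (tate A (1 - 2 * (j : ℤ))) ∧
      Limits.IsZero (tate A (2 - 2 * (j : ℤ)))) := by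
    intro j
    induction j with
    | zero => simpa using ⟨t1, t2⟩
    | succ j ih =>
      obtain ⟨⟨a, b⟩, c, d⟩ := ih
      refine ⟨⟨?_, ?_⟩, ?_, ?_⟩
      · have := (per (1 + 2 * (j : ℤ))).1 a
        convert this using 2
        push_cast
        ring
      · have := (per (2 + 2 * (j : ℤ))).1 b
        convert this using 2
        push_cast
        ring
      · have := (per (1 - 2 * ((j + 1 : ℕ) : ℤ))).2 (by
          convert c using 2
          push_cast
          ring)
        exact this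
      · have := (per (2 - 2 * ((j + 1 : ℕ) : ℤ))).2 (by
          convert d using 2
          push_cast
          ring)
        exact this
  rcases Int.even_or_odd' n with ⟨c, hc | hc⟩
  · -- n = 2c
    rcases le_or_gt 1 c with h | h
    · obtain ⟨j, hj⟩ : ∃ j : ℕ, c = 1 + j := ⟨(c - 1).toNat, by omega⟩
      have := (key j).1.2
      convert this using 2
      omega
    · obtain ⟨j, hj⟩ : ∃ j : ℕ, c = 1 - j := ⟨(1 - c).toNat, by omega⟩
      have := (key j).2.2
      convert this using 2
      omega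
  · rcases le_or_gt 0 c with h | h
    · obtain ⟨j, hj⟩ : ∃ j : ℕ, c = j := ⟨c.toNat, by omega⟩
      have := (key j).1.1
      convert this using 2
      omega
    · obtain ⟨j, hj⟩ : ∃ j : ℕ, c = - j := ⟨(-c).toNat, by omega⟩
      have := (key j).2.1
      convert this using 2
      omega

end tate

section pgroup

/-- a nontrivial finite `p`-group has a proper normal subgroup with cyclic quotient -/
theorem exists_normal_cyclic_quot (p : ℕ) [hp : Fact p.Prime] (H : Type) [Group H] [Finite H]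
    (hH : IsPGroup p H) (hnt : Nat.card H ≠ 1) :
    ∃ (N : Subgroup H) (_ : N.Normal), IsCyclic (H ⧸ N) ∧ Nat.card N < Nat.card H := by
  obtain ⟨k, hk⟩ := hH.exists_card_eq
  have hk0 : k ≠ 0 := by
    rintro rfl
    exact hnt (by simpa using hk)
  obtain ⟨j, rfl⟩ : ∃ j, k = j + 1 := ⟨k - 1, by omega⟩
  obtain ⟨N, hN⟩ := Sylow.exists_subgroup_card_pow_prime (G := H) p (n := j)
    (by rw [hk]; exact pow_dvd_pow p (Nat.le_succ j))
  have hidx : N.index = p := by
    have h1 := N.card_mul_index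
    rw [hN, hk, pow_succ] at h1
    exact Nat.eq_of_mul_eq_mul_left (pow_pos hp.out.pos j) h1
  have hmin : (Nat.card H).minFac = p := by
    rw [hk]
    exact hp.out.pow_minFac (Nat.succ_ne_zero j)
  have hnorm : N.Normal := Subgroup.normal_of_index_eq_minFac_card (by rw [hidx, hmin])
  refine ⟨N, hnorm, ?_, ?_⟩
  · have hcard : Nat.card (H ⧸ N) = p := hidx
    exact isCyclic_of_prime_card hcard
  · rw [hN, hk]
    exact Nat.pow_lt_pow_right hp.out.one_lt (Nat.lt_succ_self j)

end pgroup

end H25AV
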