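import Mathlib
import Fermat.Agent.CFT2.A.Defs

/-!
# W2-C (S55), block A, slice AV (helper25), part 2: `Ĥ⁰` and transitivity of norms

* `H25AV.nrm A y = ∑ g, g • y` (as a `finsum`, no `Fintype` instance);
* `H25AV.NormSurj A`: every invariant is a norm;
* `H25AV.tate0_isZero_iff`: `Ĥ⁰(G, A) = 0 ↔ NormSurj A` (from AT0, `H20A.TateZeroStatement`);
* `H25AV.normSurj_of_normal`: `NormSurj (A|N)` and `NormSurj (A^N as G/N-module)` imply
  `NormSurj A`.
-/

set_option autoImplicit false

open CategoryTheory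

namespace H25AV

open H20A

section defs

variable {G : Type} [Group G] [Finite G]

/-- the norm `∑ g, g • y` -/
noncomputable def nrm (A : Rep ℤ G) (y : A.V) : A.V := ∑ᶠ g : G, A.ρ g y

/-- every invariant element is a norm -/
def NormSurj (A : Rep ℤ G) : Prop :=
  ∀ x : A.V, (∀ g : G, A.ρ g x = x) → ∃ y : A.V, nrm A y = x

theorem nrm_of (V : Type) [AddCommGroup V] (ρ : Representation ℤ G V) (y : V) :
    nrm (Rep.of ρ) y = normOf ρ y := by
  letI : Fintype G := Fintype.ofFinite G
  unfold nrm normOf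
  rw [finsum_eq_sum_of_fintype]
  simp [Representation.norm]

/-- `Ĥ⁰(G, A) = 0` iff every invariant is a norm (uses AT0) -/
theorem tate0_isZero_iff (h0 : TateZeroStatement G) (A : Rep ℤ G) :
    Limits.IsZero (tate A 0) ↔ NormSurj A := by
  cases A
  rename_i V i1 i2 ρ
  have hi2 : i2 = AddCommGroup.toIntModule V := Subsingleton.elim _ _
  subst hi2
  obtain ⟨π, hs, hk, -⟩ := h0
  rw [ModuleCat.isZero_iff_subsingleton]
  constructor
  · intro hsub x hx
    have h1 : π V ρ ⟨x, hx⟩ = 0 := Subsingleton.elim _ _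
    obtain ⟨y, hy⟩ := (hk V ρ ⟨x, hx⟩).1 h1
    exact ⟨y, (nrm_of V ρ y).trans hy⟩
  · intro h
    refine ⟨fun a b => ?_⟩
    have key : ∀ t : tate (Rep.of ρ) 0, t = 0 := by
      intro t
      obtain ⟨x, rfl⟩ := hs V ρ t
      obtain ⟨y, hy⟩ := h x.1 x.2
      exact (hk V ρ x).2 ⟨y, (nrm_of V ρ y).symm.trans hy⟩
    rw [key a, key b]

end defs

section normal

variable {H : Type} [Group H] [Finite H] (B : Rep ℤ H) (N : Subgroup H) [N.Normal]

/-- the bijection `(H/N) × N → H`, `(q, n) ↦ q.out * n` -/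
theorem bijective_out_mul :
    Function.Bijective (fun x : (H ⧸ N) × N => (x.1.out * (x.2 : H) : H)) := by
  constructor
  · rintro ⟨q, n⟩ ⟨q', n'⟩ h
    simp only at h
    have hq : q = q' := by
      have h1 : ((q.out * (n : H) : H) : H ⧸ N) = ((q'.out * (n' : H) : H) : H ⧸ N) := by
        rw [h]
      rw [QuotientGroup.mk_mul_of_mem _ n.2, QuotientGroup.mk_mul_of_mem _ n'.2,
        QuotientGroup.out_eq', QuotientGroup.out_eq'] at h1
      exact h1
    subst hq
    have hn : (n : H) = n' := mul_left_cancel h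
    exact Prod.ext rfl (Subtype.ext hn)
  · intro h
    have hmem : ((h : H ⧸ N).out)⁻¹ * h ∈ N := by
      rw [← QuotientGroup.eq]
      exact QuotientGroup.out_eq' _
    exact ⟨⟨(h : H ⧸ N), ⟨_, hmem⟩⟩, by simp⟩

theorem nrm_eq_double (z : B.V) :
    nrm B z = ∑ᶠ q : H ⧸ N, B.ρ q.out (∑ᶠ n : N, B.ρ (n : H) z) := by
  unfold nrm
  rw [← finsum_eq_of_bijective _ (bijective_out_mul N)
    (f := fun x : (H ⧸ N) × N => B.ρ (x.1.out * (x.2 : H)) z) (fun x => rfl)]
  rw [finsum_curry _ (Set.toFinite _)]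
  refine finsum_congr fun q => ?_
  rw [map_finsum _ (Set.toFinite _)]
  refine finsum_congr fun n => ?_
  rw [map_mul]
  rfl

theorem quot_ρ_val (q : H ⧸ N) (w : (B.quotientToInvariants N).V) :
    (((B.quotientToInvariants N).ρ q w : (B.quotientToInvariants N).V) : B.V) =
      B.ρ q.out (w : B.V) := by
  conv_lhs => rw [← QuotientGroup.out_eq' q]
  rfl

/-- **transitivity of norms**: if every `N`-invariant is an `N`-norm and every `H/N`-invariant of
`B^N` is an `H/N`-norm, then every `H`-invariant is an `H`-norm. -/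
theorem normSurj_of_normal (hN : NormSurj (resSub B N))
    (hQ : NormSurj (B.quotientToInvariants N)) : NormSurj B := by
  intro x hx
  obtain ⟨w, hw⟩ := hQ (⟨x, fun n => hx n⟩ : (B.quotientToInvariants N).V) (by
    intro q
    apply Subtype.ext
    rw [quot_ρ_val]
    exact hx _)
  obtain ⟨z, hz⟩ := hN (w : B.V) (fun n => w.2 n)
  refine ⟨z, ?_⟩
  rw [nrm_eq_double B N z]
  have hz' : (∑ᶠ n : N, B.ρ (n : H) z) = (w : B.V) := hz
  rw [hz']
  have h1 : (∑ᶠ q : H ⧸ N, B.ρ q.out (w : B.V)) =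
      ((nrm (B.quotientToInvariants N) w : (B.quotientToInvariants N).V) : B.V) := by
    unfold nrm
    rw [← Submodule.coe_subtype, map_finsum _ (Set.toFinite _)]
    refine finsum_congr fun q => ?_
    rw [Submodule.coe_subtype, quot_ρ_val]
  rw [h1, hw]

end normal

end H25AV
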