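import Mathlib
import Fermat.Agent.CFT2.A.Defs
import Fermat.Agent.CFT2.A.AV1_helper25
import Fermat.Agent.CFT2.A.AV2_helper25

/-!
# W2-C (S55), block A, slice AV (helper25): cohomological triviality

`H20A.CohTrivStatement G`: if `H¹(H, A) = H²(H, A) = 0` for all subgroups `H ≤ G`, then
`Ĥⁿ(H, A) = 0` for all `n : ℤ` and all `H ≤ G`.

Proof (Serre, Local Fields IX §5 Thm 8; Milne CFT II.3.10): for `n ≥ 0` reduce to Sylow subgroups
(AR3), and for a `p`-group use induction on the order with a normal subgroup of index `p`,
inflation–restriction (AF), periodicity for the cyclic quotient (AC), and transitivity of norms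
(AT0); negative degrees follow by dimension shifting (AI3).

The statements of the other slices are taken as hypotheses (`H25AV.Inputs`).
-/

set_option autoImplicit false

open CategoryTheory

namespace H25AV

open H20A

/-- the slice statements used in the proof of AV -/
structure Inputs : Prop where
  ac : ∀ (G : Type) [Group G] [Finite G], CyclicPeriodStatement G
  af : ∀ (G : Type) [Group G] [Finite G] (n : ℕ), InfResStatement G n
  at0 : ∀ (G : Type) [Group G] [Finite G], TateZeroStatement G
  syl : ∀ (G : Type) [Group G] [Finite G], SylowStatement G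
  down : ∀ (G : Type) [Group G] [Finite G], DimShiftDownStatement G

section hyp

variable {G : Type} [Group G] [Finite G]

/-- `H¹ = H² = 0` for all subgroups -/
def Hyp (A : Rep ℤ G) : Prop := CohVanishes A 1 ∧ CohVanishes A 2

theorem Hyp.res {A : Rep ℤ G} (h : Hyp A) (H : Subgroup G) : Hyp (resSub A H) :=
  ⟨fun K => (cohResRes A H K 1).isZero_iff.2 (h.1 _),
    fun K => (cohResRes A H K 2).isZero_iff.2 (h.2 _)⟩

theorem Hyp.top {A : Rep ℤ G} (h : Hyp A) :
    Limits.IsZero (groupCohomology A 1) ∧ Limits.IsZero (groupCohomology A 2) :=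
  ⟨(cohResTop A 1).isZero_iff.1 (h.1 ⊤), (cohResTop A 2).isZero_iff.1 (h.2 ⊤)⟩

end hyp

/-- an injective additive map into a zero object has zero source -/
theorem isZero_of_injective {X Y : ModuleCat ℤ} (f : X →+ Y) (hf : Function.Injective f)
    (hY : Limits.IsZero Y) : Limits.IsZero X := by
  rw [ModuleCat.isZero_iff_subsingleton] at hY ⊢
  exact ⟨fun a b => hf (Subsingleton.elim _ _)⟩

/-- AV for `p`-groups in degrees `n ≥ 0`, by induction on the order -/
theorem pgroup_nonneg (I : Inputs) (p : ℕ) [Fact p.Prime] :
    ∀ (m : ℕ) (H : Type) [Group H] [Finite H], Nat.card H ≤ m → IsPGroup p H →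
      ∀ B : Rep ℤ H, Hyp B → ∀ n : ℕ, Limits.IsZero (tate B (n : ℤ)) := by
  intro m
  induction m with
  | zero =>
    intro H _ _ hcard
    exact absurd hcard (by have := Nat.card_pos (α := H); omega)
  | succ m ih =>
    intro H _ _ hcard hH B hB n
    by_cases hnt : Nat.card H = 1
    · haveI : Subsingleton H := (Nat.card_eq_one_iff_unique.1 hnt).1
      exact cyclic_vanish B (I.ac H) inferInstance hB.top.1 hB.top.2 n
    · obtain ⟨N, hNnorm, hcyc, hlt⟩ := exists_normal_cyclic_quot p H hH hnt
      -- the subgroup `N`
      have ihN : ∀ n : ℕ, Limits.IsZero (tate (resSub B N) (n : ℤ)) :=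
        ih N (by omega) (hH.to_subgroup N) (resSub B N) (hB.res N)
      have cohN : ∀ i : ℕ, 0 < i → Limits.IsZero (groupCohomology (resSub B N) i) :=
        fun i hi => (tate_isZero_iff_coh _ i hi.ne').1 (ihN i)
      have normN : NormSurj (resSub B N) := (tate0_isZero_iff (I.at0 N) _).1 (ihN 0)
      -- inflation-restriction
      have infres : ∀ n : ℕ, 0 < n → Function.Injective (infCoh B N n) ∧
          ∀ x : groupCohomology B n, resCoh B N n x = 0 ↔ ∃ y, infCoh B N n y = x :=
        fun n hn => I.af H n hn B N (fun i hi _ => cohN i hi)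
      -- the cyclic quotient
      have h1C : Limits.IsZero (groupCohomology (B.quotientToInvariants N) 1) :=
        isZero_of_injective _ (infres 1 one_pos).1 hB.top.1
      have h2C : Limits.IsZero (groupCohomology (B.quotientToInvariants N) 2) :=
        isZero_of_injective _ (infres 2 two_pos).1 hB.top.2
      have tateC : ∀ n : ℤ, Limits.IsZero (tate (B.quotientToInvariants N) n) :=
        cyclic_vanish _ (I.ac (H ⧸ N)) hcyc h1C h2C
      have cohC : ∀ i : ℕ, 0 < i → Limits.IsZero (groupCohomology (B.quotientToInvariants N) i) :=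
        fun i hi => (tate_isZero_iff_coh _ i hi.ne').1 (tateC i)
      have normC : NormSurj (B.quotientToInvariants N) :=
        (tate0_isZero_iff (I.at0 (H ⧸ N)) _).1 (tateC 0)
      rcases Nat.eq_zero_or_pos n with hn | hn
      · subst hn
        exact (tate0_isZero_iff (I.at0 H) B).2 (normSurj_of_normal B N normN normC)
      · rw [tate_isZero_iff_coh B n hn.ne', ModuleCat.isZero_iff_subsingleton]
        have hsubN := (ModuleCat.isZero_iff_subsingleton).1 (cohN n hn)
        have hsubC := (ModuleCat.isZero_iff_subsingleton).1 (cohC n hn)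
        have key : ∀ x : groupCohomology B n, x = 0 := by
          intro x
          obtain ⟨y, hy⟩ := ((infres n hn).2 x).1 (Subsingleton.elim _ _)
          rw [← hy, Subsingleton.elim y 0, map_zero]
        exact ⟨fun a b => by rw [key a, key b]⟩

/-- AV in degrees `n ≥ 0` -/
theorem nonneg (I : Inputs) (G : Type) [Group G] [Finite G] (A : Rep ℤ G) (h : Hyp A) (n : ℕ) :
    Limits.IsZero (tate A (n : ℤ)) :=
  I.syl G A n fun p _ P =>
    pgroup_nonneg I p (Nat.card P) P le_rfl P.isPGroup' (resSub A P) (h.res P) n

/-- AV in degrees `n ≤ 0`, by dimension shifting -/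
theorem nonpos (I : Inputs) (G : Type) [Group G] [Finite G] :
    ∀ (k : ℕ) (A : Rep ℤ G), Hyp A → ∀ H : Subgroup G,
      Limits.IsZero (tate (resSub A H) (-(k : ℤ))) := by
  intro k
  induction k with
  | zero =>
    intro A h H
    have := nonneg I H (resSub A H) (h.res H) 0
    simpa using this
  | succ k ih =>
    intro A h H
    obtain ⟨A', hA'⟩ := I.down G A
    have hyp' : Hyp A' := by
      constructor
      · intro K
        rw [← tate_isZero_iff_coh _ 1 one_ne_zero]
        refine (hA' K ((1 : ℕ) : ℤ)).some.isZero_iff.2 ?_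
        have := nonneg I K (resSub A K) (h.res K) 0
        simpa using this
      · intro K
        rw [← tate_isZero_iff_coh _ 2 two_ne_zero]
        refine (hA' K ((2 : ℕ) : ℤ)).some.isZero_iff.2 ?_
        have := nonneg I K (resSub A K) (h.res K) 1
        convert this using 2
        norm_num
    have := (hA' H (-(k : ℤ))).some.isZero_iff.1 (ih A' hyp' H)
    convert this using 2
    push_cast
    ring

/-- **AV**: `H20A.CohTrivStatement`, given AC, AF, AT0, AR3 (Sylow) and AI3 (shift down). -/
theorem helper25_cohTriv (I : Inputs) (G : Type) [Group G] [Finite G] : CohTrivStatement G := by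
  intro A h1 h2 n H
  have h : Hyp A := ⟨h1, h2⟩
  rcases le_or_gt 0 n with hn | hn
  · obtain ⟨m, rfl⟩ : ∃ m : ℕ, n = m := ⟨n.toNat, by omega⟩
    exact nonneg I H (resSub A H) (h.res H) m
  · obtain ⟨m, rfl⟩ : ∃ m : ℕ, n = -(m : ℤ) := ⟨(-n).toNat, by omega⟩
    exact nonpos I G m A h H

end H25AV
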