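import Mathlib
import Fermat.Agent.CFT2.A.Defs
import Fermat.Agent.CFT2.A.AC_helper25
import Fermat.Agent.CFT2.A.AV_helper25
import Fermat.Agent.CFT2.A.AT0_helper10
import Fermat.Agent.CFT2.A.AF_helper5
import Fermat.Agent.CFT2.A.AI2_helper22
import Fermat.Agent.CFT2.A.ARFinal_helper26

/-!
# W2-C (S55), block A (helper25): AC and AV, unconditional

* `H25AV.helper25_cyclicPeriod_final G : H20A.CyclicPeriodStatement G`  (AC)
* `H25AV.helper25_cohTriv_final G : H20A.CohTrivStatement G`  (AV)

assembled from AT0 (helper10), AF (helper5), AI3 (helper22), AR3 (helper26).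
-/

set_option autoImplicit false

namespace H25AV

/-- **AC**, unconditional: periodicity of Tate cohomology of finite cyclic groups. -/
theorem helper25_cyclicPeriod_final (G : Type) [Group G] [Finite G] :
    H20A.CyclicPeriodStatement G :=
  H25AC.helper25_cyclicPeriod G (H10AT.h10at_tateZero G) (H10AT.h10at_tateNegOne G)

theorem helper25_inputs : Inputs where
  ac := fun G _ _ => helper25_cyclicPeriod_final G
  af := fun G _ _ n => H5AF.h5af_infResStatement G n
  at0 := fun G _ _ => H10AT.h10at_tateZero G
  syl := fun G _ _ => H26AR.h26ar_sylow G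
  down := fun G _ _ => H22AI.h22ai_dimShiftDown G

/-- **AV**, unconditional: if `H¹(H, A) = H²(H, A) = 0` for all subgroups `H ≤ G`, then `A` is
cohomologically trivial. -/
theorem helper25_cohTriv_final (G : Type) [Group G] [Finite G] : H20A.CohTrivStatement G :=
  helper25_cohTriv helper25_inputs G

end H25AV
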