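/-
W2-C (S55) block A, WAVE 3 (helper20): Nakayama–Tate duality in degree (0,2) for lattices — INTERFACE.
What block E needs (helper14's master plan, NOTES/W2C-master.md): `NTRightStatement`, `NTLeftStatement`
(p-parts, for a `p`-class module) and `RecCardStatement`.  Everything else here is an internal slice.
Nothing here is proved by a placeholder.  Namespace `H20A`.  Plan and owners: NOTES/W2C-A.md.
-/
import Fermat.Agent.CFT2.A.Defs

set_option autoImplicit false

noncomputable section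

open CategoryTheory groupCohomology

namespace H20A

variable {G : Type} [Group G] [Finite G]

/-- the map induced on group cohomology by a morphism of representations -/
def cohMap {A B : Rep ℤ G} (f : A ⟶ B) (n : ℕ) : groupCohomology A n →+ groupCohomology B n :=
  ((groupCohomology.functor ℤ G n).map f).hom.toAddMonoidHom

section homs

variable {R V : Type} [AddCommGroup R] [AddCommGroup V]
  (ρR : Representation ℤ G R) (ρV : Representation ℤ G V)

/-- `Hom_ℤ(R, V)` with `g • f = ρV g ∘ f ∘ ρR g⁻¹` -/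
abbrev homRep : Representation ℤ G (R →ₗ[ℤ] V) := Representation.linHom ρR ρV

/-- evaluation at an invariant element `r` of `R`, as a morphism `Hom(R, V) ⟶ V` -/
def evHom (r : R) (hr : ∀ g, ρR g r = r) : Rep.of (homRep ρR ρV) ⟶ Rep.of ρV :=
  Rep.ofHom ⟨LinearMap.applyₗ r, fun g => by
    ext f
    simp only [LinearMap.coe_comp, Function.comp_apply, LinearMap.applyₗ_apply_apply,
      Representation.linHom_apply, hr g⁻¹]⟩

omit [Finite G] in
theorem evHom_apply (r : R) (hr : ∀ g, ρR g r = r) (f : R →ₗ[ℤ] V) :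
    (evHom ρR ρV r hr).hom f = f r := rfl

/-- for a `G`-invariant functional `f : R → ℤ`, the morphism `V ⟶ Hom(R, V)`, `v ↦ (r ↦ f r • v)` -/
def scalarHom (f : R →ₗ[ℤ] ℤ) (hf : ∀ g r, f (ρR g r) = f r) :
    Rep.of ρV ⟶ Rep.of (homRep ρR ρV) :=
  Rep.ofHom ⟨((LinearMap.lsmul ℤ V).comp f).flip, fun g => by
    ext v r
    simp [Representation.linHom_apply, hf]⟩

omit [Finite G] in
theorem scalarHom_apply (f : R →ₗ[ℤ] ℤ) (hf : ∀ g r, f (ρR g r) = f r) (v : V) (r : R) :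
    ((scalarHom ρR ρV f hf).hom v : R →ₗ[ℤ] V) r = f r • v := rfl

/-- the cup product of a 1-cocycle `c` of `Hom(R, V)` and a 1-cocycle `x` of `R`:
`(g, h) ↦ c g (g • x h)`, a 2-cocycle of `V` -/
def cup11Fun (c : G → (R →ₗ[ℤ] V)) (x : G → R) : G × G → V :=
  fun gh => c gh.1 (ρR gh.1 (x gh.2))

end homs

/-! ## class modules at `p` -/

/-- `(C, γ)` is a `p`-class module: ONE class `γ ∈ H²(G, C)` such that for every `p`-subgroup
`H`, `H¹(H, C) = 0` and `H²(H, C)` is cyclic of order `|H|`, generated by the restriction of `γ`. -/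
structure IsPClassModule (p : ℕ) (C : Rep ℤ G) (γ : groupCohomology C 2) : Prop where
  h1 : ∀ H : Subgroup G, IsPGroup p H → Limits.IsZero (groupCohomology (resSub C H) 1)
  card : ∀ H : Subgroup G, IsPGroup p H →
    Nat.card (groupCohomology (resSub C H) 2) = Nat.card H
  gen : ∀ H : Subgroup G, IsPGroup p H → ∀ x : groupCohomology (resSub C H) 2,
    ∃ k : ℤ, x = k • resCoh C H 2 γ

/-! ## the deliverables for block E -/

/-- **NT-R** (master plan (i)): for a `p`-class module `(C, γ)` and a lattice `R`, every nonzero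
`p`-primary class `u ∈ H²(G, R)` is detected by some `b ∈ Hom_G(R, C)`: `b_* u ≠ 0` in `H²(G, C)`. -/
def NTRightStatement (G : Type) [Group G] [Finite G] : Prop :=
  ∀ (p : ℕ) [Fact p.Prime] (V : Type) [AddCommGroup V] (ρV : Representation ℤ G V)
    (γ : groupCohomology (Rep.of ρV) 2), IsPClassModule p (Rep.of ρV) γ →
  ∀ (R : Type) [AddCommGroup R] [Module.Free ℤ R] [Module.Finite ℤ R]
    (ρR : Representation ℤ G R) (u : groupCohomology (Rep.of ρR) 2),
    u ≠ 0 → (∃ k : ℕ, (p ^ k) • u = 0) →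
    ∃ (b : R →+ V) (hb : ∀ g r, b (ρR g r) = ρV g (b r)),
      cohMap (repHom ρR ρV b hb) 2 u ≠ 0

/-- **NT-L** (master plan (ii)): if `b ∈ Hom_G(R, C)` kills all `p`-primary classes of `H²(G, R)`,
then `m • b` is a norm `N_G f = ∑ g, g f g⁻¹` for some `m` prime to `p`. -/
def NTLeftStatement (G : Type) [Group G] [Finite G] : Prop :=
  ∀ (p : ℕ) [Fact p.Prime] (V : Type) [AddCommGroup V] (ρV : Representation ℤ G V)
    (γ : groupCohomology (Rep.of ρV) 2), IsPClassModule p (Rep.of ρV) γ →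
  ∀ (R : Type) [AddCommGroup R] [Module.Free ℤ R] [Module.Finite ℤ R]
    (ρR : Representation ℤ G R) (b : R →+ V) (hb : ∀ g r, b (ρR g r) = ρV g (b r)),
    (∀ u : groupCohomology (Rep.of ρR) 2, (∃ k : ℕ, (p ^ k) • u = 0) →
      cohMap (repHom ρR ρV b hb) 2 u = 0) →
    ∃ (m : ℕ) (f : R →ₗ[ℤ] V), ¬ p ∣ m ∧ m • b.toIntLinearMap = normOf (homRep ρR ρV) f

/-- **REC**: for a class module, `[C^G : N_G C] = |G^ab|`. -/
def RecCardStatement (G : Type) [Group G] [Finite G] : Prop :=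
  ∀ (V : Type) [AddCommGroup V] (ρV : Representation ℤ G V)
    (γ : groupCohomology (Rep.of ρV) 2), IsClassModule (Rep.of ρV) γ →
    (normOf ρV).range.relIndex ρV.invariants.toAddSubgroup = Nat.card (Abelianization G)

/-! ## internal slices -/

/-- **W3-P** (Serre, Local Fields IX Thm 5): `G` a `p`-group, `p A = 0`, `H₁(G, A) = 0`
⇒ `A` is free over `𝔽_p[G]`, i.e. `A ≅ Map(G, W)`. -/
def PGroupFreeStatement (G : Type) [Group G] [Finite G] : Prop :=
  ∀ (p : ℕ) [Fact p.Prime], IsPGroup p G →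
  ∀ (A : Type) [AddCommGroup A] (ρ : Representation ℤ G A), (∀ a : A, p • a = 0) →
    Limits.IsZero (tate (Rep.of ρ) (-2)) →
    ∃ (W : Type) (_ : AddCommGroup W), Nonempty (Rep.of ρ ≅ coindOne G W)

/-- **W3-H** (Serre IX Thm 9, Cor): `A` cohomologically trivial, `R` a lattice ⇒ `Hom(R, A)` is
cohomologically trivial. -/
def HomCohTrivStatement (G : Type) [Group G] [Finite G] : Prop :=
  ∀ (V : Type) [AddCommGroup V] (ρV : Representation ℤ G V), CohTrivial (Rep.of ρV) →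
  ∀ (R : Type) [AddCommGroup R] [Module.Free ℤ R] [Module.Finite ℤ R]
    (ρR : Representation ℤ G R), CohTrivial (Rep.of (homRep ρR ρV))

/-- the class of `1` in `H⁰(G, ℤ)` -/
def IsUnitClass (x : groupCohomology (Rep.trivial ℤ G ℤ) 0) : Prop :=
  (((groupCohomology.H0Iso (Rep.trivial ℤ G ℤ)).hom x : (Rep.trivial ℤ G ℤ).ρ.invariants) : ℤ) = 1

/-- **W3-Spl**: the splitting module.  For a class module `(C, γ)` there are short exact sequences
`0 → I → P → ℤ → 0` and `0 → C → A → I → 0` with `P` and `A` cohomologically trivial such that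
`δ δ 1 = γ`. -/
def SplittingStatement (G : Type) [Group G] [Finite G] : Prop :=
  ∀ (C : Rep ℤ G) (γ : groupCohomology C 2), IsClassModule C γ →
    ∃ (I A P : Rep ℤ G) (i : C ⟶ A) (q : A ⟶ I) (j : I ⟶ P) (ε : P ⟶ Rep.trivial ℤ G ℤ)
      (wb : i ≫ q = 0) (wa : j ≫ ε = 0) (hb : (ShortComplex.mk i q wb).ShortExact)
      (ha : (ShortComplex.mk j ε wa).ShortExact),
      CohTrivial A ∧ CohTrivial P ∧
      ∀ x : groupCohomology (Rep.trivial ℤ G ℤ) 0, IsUnitClass x →
        (groupCohomology.δ hb 1 2 rfl).hom ((groupCohomology.δ ha 0 1 rfl).hom x) = γ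

/-- **W3-T** Tate's theorem with coefficients, degree `0 → 2`: for a class module `(C, γ)` and a
lattice `R`, the map `Hom_G(R, ℤ) → H²(G, Hom(R, C))`, `f ↦ (m_f)_* γ` is surjective with kernel
`N_G Hom(R, ℤ)` (`N_G f₀ = f₀ ∘ N`). -/
def TateCoeffStatement (G : Type) [Group G] [Finite G] : Prop :=
  ∀ (V : Type) [AddCommGroup V] (ρV : Representation ℤ G V)
    (γ : groupCohomology (Rep.of ρV) 2), IsClassModule (Rep.of ρV) γ →
  ∀ (R : Type) [AddCommGroup R] [Module.Free ℤ R] [Module.Finite ℤ R]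
    (ρR : Representation ℤ G R),
    (∀ x : groupCohomology (Rep.of (homRep ρR ρV)) 2,
      ∃ (f : R →ₗ[ℤ] ℤ) (hf : ∀ g r, f (ρR g r) = f r), x = cohMap (scalarHom ρR ρV f hf) 2 γ) ∧
    (∀ (f : R →ₗ[ℤ] ℤ) (hf : ∀ g r, f (ρR g r) = f r),
      cohMap (scalarHom ρR ρV f hf) 2 γ = 0 ↔ ∃ f₀ : R →ₗ[ℤ] ℤ, ∀ r, f r = f₀ (normOf ρR r))

/-- **W3-L** duality for lattices in degree `(0,0)`: the pairing
`R^G / N R × Hom_G(R, ℤ) / N Hom(R, ℤ) → ℤ / |G|`, `(r, f) ↦ f r` is perfect. -/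
def LatticeDualityStatement (G : Type) [Group G] [Finite G] : Prop :=
  ∀ (R : Type) [AddCommGroup R] [Module.Free ℤ R] [Module.Finite ℤ R]
    (ρR : Representation ℤ G R),
    (∀ r : R, (∀ g, ρR g r = r) →
      (∀ f : R →ₗ[ℤ] ℤ, (∀ g x, f (ρR g x) = f x) → (Nat.card G : ℤ) ∣ f r) →
      ∃ r₀ : R, r = normOf ρR r₀) ∧
    (∀ f : R →ₗ[ℤ] ℤ, (∀ g x, f (ρR g x) = f x) →
      (∀ r : R, (∀ g, ρR g r = r) → (Nat.card G : ℤ) ∣ f r) →
      ∃ f₀ : R →ₗ[ℤ] ℤ, ∀ r, f r = f₀ (normOf ρR r))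

/-- **W3-20** the pairing `H²(G, Hom(R, C)) × R^G → H²(G, C)`, `(c, r) ↦ (ev_r)_* c` is perfect
(modulo norms on the right). -/
def Pair20Statement (G : Type) [Group G] [Finite G] : Prop :=
  ∀ (V : Type) [AddCommGroup V] (ρV : Representation ℤ G V)
    (γ : groupCohomology (Rep.of ρV) 2), IsClassModule (Rep.of ρV) γ →
  ∀ (R : Type) [AddCommGroup R] [Module.Free ℤ R] [Module.Finite ℤ R]
    (ρR : Representation ℤ G R),
    (∀ c : groupCohomology (Rep.of (homRep ρR ρV)) 2, c ≠ 0 →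
      ∃ (r : R) (hr : ∀ g, ρR g r = r), cohMap (evHom ρR ρV r hr) 2 c ≠ 0) ∧
    (∀ (r : R) (hr : ∀ g, ρR g r = r),
      (∀ c : groupCohomology (Rep.of (homRep ρR ρV)) 2, cohMap (evHom ρR ρV r hr) 2 c = 0) →
      ∃ r₀ : R, r = normOf ρR r₀)

/-- **W3-11** the cup product pairing `H¹(G, Hom(R, C)) × H¹(G, R) → H²(G, C)` is perfect. -/
def Pair11Statement (G : Type) [Group G] [Finite G] : Prop :=
  ∀ (V : Type) [AddCommGroup V] (ρV : Representation ℤ G V)
    (γ : groupCohomology (Rep.of ρV) 2), IsClassModule (Rep.of ρV) γ →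
  ∀ (R : Type) [AddCommGroup R] [Module.Free ℤ R] [Module.Finite ℤ R]
    (ρR : Representation ℤ G R),
    (∀ (c : G → (R →ₗ[ℤ] V)) (x : G → R) (_ : c ∈ cocycles₁ (Rep.of (homRep ρR ρV)))
      (_ : x ∈ cocycles₁ (Rep.of ρR)), cup11Fun ρR c x ∈ cocycles₂ (Rep.of ρV)) ∧
    (∀ x : cocycles₁ (Rep.of ρR), (H1π (Rep.of ρR)).hom x ≠ 0 →
      ∃ (c : cocycles₁ (Rep.of (homRep ρR ρV))) (h : cup11Fun ρR c.1 x.1 ∈ cocycles₂ (Rep.of ρV)),
        (H2π (Rep.of ρV)).hom ⟨cup11Fun ρR c.1 x.1, h⟩ ≠ 0) ∧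
    (∀ c : cocycles₁ (Rep.of (homRep ρR ρV)),
      (∀ (x : cocycles₁ (Rep.of ρR)) (h : cup11Fun ρR c.1 x.1 ∈ cocycles₂ (Rep.of ρV)),
        (H2π (Rep.of ρV)).hom ⟨cup11Fun ρR c.1 x.1, h⟩ = 0) →
      (H1π (Rep.of (homRep ρR ρV))).hom c = 0)

/-- **W3-U1** `Hom(P, V)` is cohomologically trivial when `P ≅ Map(G, W)`. -/
def HomCoindStatement (G : Type) [Group G] [Finite G] : Prop :=
  ∀ (P : Type) [AddCommGroup P] (ρP : Representation ℤ G P) (W : Type) [AddCommGroup W],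
    Nonempty (Rep.of ρP ≅ coindOne G W) →
  ∀ (V : Type) [AddCommGroup V] (ρV : Representation ℤ G V), CohTrivial (Rep.of (homRep ρP ρV))

/-- **W3-U2** `Hom(R, P)` is cohomologically trivial when `P ≅ Map(G, W)`. -/
def HomToCoindStatement (G : Type) [Group G] [Finite G] : Prop :=
  ∀ (P : Type) [AddCommGroup P] (ρP : Representation ℤ G P) (W : Type) [AddCommGroup W],
    Nonempty (Rep.of ρP ≅ coindOne G W) →
  ∀ (R : Type) [AddCommGroup R] (ρR : Representation ℤ G R), CohTrivial (Rep.of (homRep ρR ρP))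

/-- **W3-Sh** the shifted lattice: every lattice `R` sits in an exact sequence of `G`-modules
`0 → R → P → R⁺ → 0` with `P ≅ Map(G, W)` and `R⁺` a lattice. -/
def ShiftLatticeStatement (G : Type) [Group G] [Finite G] : Prop :=
  ∀ (R : Type) [AddCommGroup R] [Module.Free ℤ R] [Module.Finite ℤ R]
    (ρR : Representation ℤ G R),
    ∃ (R' : Type) (_ : AddCommGroup R') (_ : Module.Free ℤ R') (_ : Module.Finite ℤ R')
      (ρ' : Representation ℤ G R') (P : Type) (_ : AddCommGroup P) (ρP : Representation ℤ G P)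
      (W : Type) (_ : AddCommGroup W) (i : R →+ P) (q : P →+ R'),
      Nonempty (Rep.of ρP ≅ coindOne G W) ∧
      (∀ g r, i (ρR g r) = ρP g (i r)) ∧ (∀ g x, q (ρP g x) = ρ' g (q x)) ∧
      Function.Injective i ∧ Function.Surjective q ∧ (∀ x, q x = 0 ↔ ∃ r, i r = x)

/-- **NT₀-R**: NT-R for a (full) class module, without `p`. -/
def NT0RightStatement (G : Type) [Group G] [Finite G] : Prop :=
  ∀ (V : Type) [AddCommGroup V] (ρV : Representation ℤ G V)
    (γ : groupCohomology (Rep.of ρV) 2), IsClassModule (Rep.of ρV) γ →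
  ∀ (R : Type) [AddCommGroup R] [Module.Free ℤ R] [Module.Finite ℤ R]
    (ρR : Representation ℤ G R) (u : groupCohomology (Rep.of ρR) 2), u ≠ 0 →
    ∃ (b : R →+ V) (hb : ∀ g r, b (ρR g r) = ρV g (b r)),
      cohMap (repHom ρR ρV b hb) 2 u ≠ 0

/-- **NT₀-L**: NT-L for a (full) class module, without `p`. -/
def NT0LeftStatement (G : Type) [Group G] [Finite G] : Prop :=
  ∀ (V : Type) [AddCommGroup V] (ρV : Representation ℤ G V)
    (γ : groupCohomology (Rep.of ρV) 2), IsClassModule (Rep.of ρV) γ →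
  ∀ (R : Type) [AddCommGroup R] [Module.Free ℤ R] [Module.Finite ℤ R]
    (ρR : Representation ℤ G R) (b : R →+ V) (hb : ∀ g r, b (ρR g r) = ρV g (b r)),
    (∀ u : groupCohomology (Rep.of ρR) 2, cohMap (repHom ρR ρV b hb) 2 u = 0) →
    ∃ f : R →ₗ[ℤ] V, b.toIntLinearMap = normOf (homRep ρR ρV) f

end H20A

end
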