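/-
W2-C (S55) block A (helper26): the splitting module is cohomologically trivial;
**W3-Spl** `H26AT.h26at_splitting G : H20A.SplittingStatement G` and
**ATate** `H26AT.h26at_tate G : H20A.TateTheoremStatement G` (Tate's theorem).

`H¹(H, I_G)` is generated by `g₁ = δ(1) = [u]`, `δ(g₁) = res γ` generates `H²(H, C)` of order `|H|`,
`|H|` kills `H¹` (AR1), so `δ : H¹(H, I_G) → H²(H, C)` is bijective; with `H¹(H, C) = 0` and
`H²(H, I_G) = H¹(H, ℤ) = 0` this gives `H¹(H, C(φ)) = H²(H, C(φ)) = 0`; then AV (helper25).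
-/
import Mathlib
import Fermat.Agent.CFT2.A.Defs
import Fermat.Agent.CFT2.A.Defs3
import Fermat.Agent.CFT2.A.ATateSplit_helper26
import Fermat.Agent.CFT2.A.ARCoh_helper26
import Fermat.Agent.CFT2.A.ARFinal_helper26
import Fermat.Agent.CFT2.A.AVFinal_helper25

set_option autoImplicit false
set_option linter.style.haveILetI false
set_option linter.unusedSectionVars false
noncomputable section
namespace H26AT
open CategoryTheory Rep groupCohomology

section generalities
variable {G : Type} [Group G] [Finite G]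

/-- `|G|` kills `Hⁿ⁺¹(G, A)` -/
theorem card_nsmul_eq_zero (A : Rep.{0} ℤ G) (n : ℕ) (x : groupCohomology A (n + 1)) :
    Nat.card G • x = 0 := by
  have h1 := H26AR.h26ar_indexKillsCoh G A (⊥ : Subgroup G) (n + 1) x
  rw [Subgroup.index_bot] at h1
  apply h1
  have hz : Limits.IsZero (groupCohomology (H20A.resSub A (⊥ : Subgroup G)) (n + 1)) :=
    isZero_groupCohomology_succ_of_subsingleton _ n
  have h2 : groupCohomology.map (⊥ : Subgroup G).subtype (𝟙 (H20A.resSub A ⊥)) (n + 1) = 0 :=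
    hz.eq_of_tgt _ _
  change (groupCohomology.map (⊥ : Subgroup G).subtype (𝟙 (H20A.resSub A ⊥)) (n + 1)).hom x = 0
  rw [h2]
  rfl

/-- elements of a zero object vanish -/
theorem eq_zero_of_isZero {M : ModuleCat.{0} ℤ} (h : Limits.IsZero M) (x : M) : x = 0 := by
  have h1 : (𝟙 M : M ⟶ M) = 0 := h.eq_of_src _ _
  have h2 := congrArg (fun f => f.hom x) h1
  exact h2

theorem isZero_of_forall {M : ModuleCat.{0} ℤ} (h : ∀ x : M, x = 0) : Limits.IsZero M := by
  haveI : Subsingleton M := ⟨fun a b => by rw [h a, h b]⟩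
  exact ModuleCat.isZero_of_subsingleton M

/-- `H¹(G, ℤ) = 0` for a finite group (trivial action) -/
theorem h1_trivial_isZero (A : Rep.{0} ℤ G) (hA : ∀ (g : G) (a : A.V), A.ρ g a = a)
    (htf : ∀ (n : ℕ) (a : A.V), 0 < n → n • a = 0 → a = 0) :
    Limits.IsZero (groupCohomology A 1) := by
  apply isZero_of_forall
  intro x
  induction x using H1_induction_on with
  | h c =>
    have hc : ∀ g h : G, c (g * h) = c g + c h := by
      intro g h
      have h1 := (mem_cocycles₁_iff (A := A) c).1 c.2 g h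
      rw [hA] at h1
      rw [add_comm]
      exact h1
    have hpow : ∀ (g : G) (n : ℕ), c (g ^ n) = n • c g := by
      intro g n
      induction n with
      | zero =>
        have h1 := hc 1 1
        rw [mul_one] at h1
        rw [pow_zero, zero_smul]
        exact (add_eq_left.mp h1.symm)
      | succ n ih => rw [pow_succ, hc, ih, succ_nsmul]
    have hzero : ∀ g : G, c g = 0 := by
      intro g
      have h1 := hpow g (orderOf g)
      rw [pow_orderOf_eq_one] at h1
      have h2 := hpow g 0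
      rw [pow_zero, zero_smul] at h2
      rw [h2] at h1
      exact htf (orderOf g) (c g) (orderOf_pos g) h1.symm
    have hc0 : c = 0 := cocycles₁_ext hzero
    rw [hc0, map_zero]

end generalities
section vanish
variable {G : Type} [Group G] [Fintype G] {V : Type} [AddCommGroup V]
variable (ρ : Representation ℤ G V) (φ : G × G → V) (hφ : IsCoc ρ φ) (H : Subgroup G)

/-- `Hⁿ⁺¹(H, Map(G, W)) = 0` -/
theorem coind_res_isZero (W : Type) [AddCommGroup W] (n : ℕ) :
    Limits.IsZero (groupCohomology (Rep.res H.subtype (H20A.coindOne G W)) (n + 1)) :=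
  (H22AI.h22ai_coh_isZero (G := H) (G ⧸ H → W) n).of_iso
    ((groupCohomology.functor ℤ H (n + 1)).mapIso (H22AI.h22ai_resIso H W))

/-- the generator `g₁ = [u]` of `H¹(H, I_G)` -/
def g1 : groupCohomology (seqAH H.subtype).X₁ 1 :=
  H1π (seqAH H.subtype).X₁ ⟨uFun H.subtype, uFun_mem H.subtype⟩

theorem und_one :
    H26AR.und (seqAH H.subtype).X₃ ((H0Iso (seqAH H.subtype).X₃).inv (oneInv H.subtype)) =
      (1 : ℤ) := by
  change ((shortComplexH0 (seqAH H.subtype).X₃).f.hom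
    ((H0Iso (seqAH H.subtype).X₃).hom ((H0Iso (seqAH H.subtype).X₃).inv (oneInv H.subtype)))) = _
  have h1 : (H0Iso (seqAH H.subtype).X₃).hom
      ((H0Iso (seqAH H.subtype).X₃).inv (oneInv H.subtype)) = oneInv H.subtype := by
    have := congrArg (fun m => m.hom (oneInv H.subtype)) (H0Iso (seqAH H.subtype).X₃).inv_hom_id
    exact this
  rw [h1]
  rfl

/-- `H¹(H, I_G)` is generated by `g₁` -/
theorem h1I_gen (x : groupCohomology (seqAH H.subtype).X₁ 1) : ∃ n : ℤ, x = n • g1 H := by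
  have hepi : Epi (δ (seqAH_shortExact H.subtype) 0 1 rfl) :=
    epi_δ_of_isZero (seqAH_shortExact H.subtype) 0 (coind_res_isZero H ℤ 0)
  obtain ⟨z, rfl⟩ := (ModuleCat.epi_iff_surjective _).1 hepi x
  obtain ⟨n, hn⟩ : ∃ n : ℤ, n = H26AR.und (seqAH H.subtype).X₃ z := ⟨_, rfl⟩
  refine ⟨n, ?_⟩
  have hz : z = n • (H0Iso (seqAH H.subtype).X₃).inv (oneInv H.subtype) := by
    apply H26AR.und_injective
    rw [map_zsmul, und_one, ← hn]
    change n = n • (1 : ℤ)
    rw [smul_eq_mul, mul_one]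
  have h2 : (δ (seqAH_shortExact H.subtype) 0 1 rfl).hom z =
      (δ (seqAH_shortExact H.subtype) 0 1 rfl).hom
        (n • (H0Iso (seqAH H.subtype).X₃).inv (oneInv H.subtype)) := congrArg _ hz
  rw [map_zsmul] at h2
  exact h2.trans (congrArg _ (delta_one H.subtype))

/-- `H²(H, I_G) = 0` -/
theorem h2I_isZero : Limits.IsZero (groupCohomology (seqAH H.subtype).X₁ 2) := by
  apply isZero_of_forall
  intro x
  have hex := mapShortComplex₁_exact (seqAH_shortExact H.subtype) (i := 1) (j := 2) rfl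
  rw [ShortComplex.moduleCat_exact_iff] at hex
  obtain ⟨y, hy⟩ := hex x (eq_zero_of_isZero (coind_res_isZero H ℤ 1) _)
  have hy0 : y = 0 := by
    refine eq_zero_of_isZero (h1_trivial_isZero (seqAH H.subtype).X₃ (fun _ _ => rfl) ?_) y
    intro n (a : ℤ) hn ha
    have ha' : (n : ℤ) * a = 0 := (nsmul_eq_mul n a).symm.trans ha
    rcases mul_eq_zero.mp ha' with h | h
    · omega
    · exact h
  rw [← hy, hy0]
  exact map_zero _

/-- the restriction of `[φ]` to `H` is `[φ|_H]` -/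
theorem res_class (hφmem : φ ∈ cocycles₂ (Rep.of ρ)) :
    H20A.resCoh (Rep.of ρ) H 2 (H2π (Rep.of ρ) ⟨φ, hφmem⟩) =
      H2π (seqBH H.subtype ρ φ hφ).X₁
        ⟨phiH H.subtype ρ φ hφ, phiH_mem H.subtype ρ φ hφ⟩ := by
  have h1 := H2π_comp_map_apply H.subtype (𝟙 (H20A.resSub (Rep.of ρ) H)) ⟨φ, hφmem⟩
  refine h1.trans ?_
  congr 1

/-- the order of `res γ` is `|H|` -/
theorem order_gen {M : Type} [AddCommGroup M] (y : M) (N : ℕ) (_hN : 0 < N)
    (hcard : Nat.card M = N) (hgen : ∀ x : M, ∃ k : ℤ, x = k • y) (n : ℤ) (hn : n • y = 0) :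
    (N : ℤ) ∣ n := by
  haveI : Finite M := Nat.finite_of_card_ne_zero (by omega)
  have h1 : addOrderOf y = Nat.card M :=
    addOrderOf_eq_card_of_forall_mem_zmultiples (fun x => by
      obtain ⟨k, hk⟩ := hgen x
      exact ⟨k, hk.symm⟩)
  rw [← hcard, ← h1]
  exact addOrderOf_dvd_iff_zsmul_eq_zero.mpr hn

end vanish

section main
variable {G : Type} [Group G] [Fintype G] {V : Type} [AddCommGroup V]
variable (ρ : Representation ℤ G V) (φ : G × G → V) (hφ : IsCoc ρ φ)

/-- `δ(g₁) = res γ` -/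
theorem delta_g1 (hφmem : φ ∈ cocycles₂ (Rep.of ρ)) (H : Subgroup G) :
    (δ (seqBH_shortExact H.subtype ρ φ hφ) 1 2 rfl).hom (g1 H) =
      H20A.resCoh (Rep.of ρ) H 2 (H2π (Rep.of ρ) ⟨φ, hφmem⟩) :=
  (delta_u H.subtype ρ φ hφ).trans (res_class ρ φ hφ H hφmem).symm

theorem delta_b_injective (hφmem : φ ∈ cocycles₂ (Rep.of ρ))
    (hcm : H20A.IsClassModule (Rep.of ρ) (H2π (Rep.of ρ) ⟨φ, hφmem⟩)) (H : Subgroup G)
    (v : groupCohomology (seqBH H.subtype ρ φ hφ).X₃ 1)
    (hv : (δ (seqBH_shortExact H.subtype ρ φ hφ) 1 2 rfl).hom v = 0) : v = 0 := by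
  obtain ⟨n, rfl⟩ := h1I_gen H v
  have h0 : (δ (seqBH_shortExact H.subtype ρ φ hφ) 1 2 rfl).hom (n • g1 H) =
      n • (δ (seqBH_shortExact H.subtype ρ φ hφ) 1 2 rfl).hom (g1 H) := map_zsmul _ _ _
  have h1 : n • H20A.resCoh (Rep.of ρ) H 2 (H2π (Rep.of ρ) ⟨φ, hφmem⟩) = 0 := by
    have e1 : n • H20A.resCoh (Rep.of ρ) H 2 (H2π (Rep.of ρ) ⟨φ, hφmem⟩) =
        n • (δ (seqBH_shortExact H.subtype ρ φ hφ) 1 2 rfl).hom (g1 H) :=
      congrArg (fun z => n • z) (delta_g1 ρ φ hφ hφmem H).symm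
    exact e1.trans (h0.symm.trans hv)
  obtain ⟨m, rfl⟩ := order_gen (H20A.resCoh (Rep.of ρ) H 2 (H2π (Rep.of ρ) ⟨φ, hφmem⟩))
    (Nat.card H) Nat.card_pos (hcm.card H) (hcm.gen H) n h1
  have h2 := card_nsmul_eq_zero (seqAH H.subtype).X₁ 0 (g1 H)
  have h3 : ((Nat.card H : ℤ) * m) • g1 H = m • (Nat.card H • g1 H) := by
    rw [mul_comm, mul_smul, natCast_zsmul]
  have h4 : m • (Nat.card H • g1 H) = 0 := by
    rw [h2]
    exact zsmul_zero m
  exact h3.trans h4

theorem split_h1_isZero (hφmem : φ ∈ cocycles₂ (Rep.of ρ))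
    (hcm : H20A.IsClassModule (Rep.of ρ) (H2π (Rep.of ρ) ⟨φ, hφmem⟩)) (H : Subgroup G) :
    Limits.IsZero (groupCohomology (H20A.resSub (splitRep ρ φ hφ) H) 1) := by
  apply isZero_of_forall
  intro w
  have hzero := (mapShortComplex₃ (seqBH_shortExact H.subtype ρ φ hφ) (i := 1) (j := 2) rfl).zero
  have h1 := congrArg (fun m => m.hom w) hzero
  have h2 := delta_b_injective ρ φ hφ hφmem hcm H _ h1
  have hex := mapShortComplex₂_exact (seqBH_shortExact H.subtype ρ φ hφ) 1
  rw [ShortComplex.moduleCat_exact_iff] at hex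
  obtain ⟨c, hc⟩ := hex w h2
  have hc0 : c = 0 := eq_zero_of_isZero (hcm.h1 H) c
  rw [← hc, hc0]
  exact map_zero _

theorem split_h2_isZero (hφmem : φ ∈ cocycles₂ (Rep.of ρ))
    (hcm : H20A.IsClassModule (Rep.of ρ) (H2π (Rep.of ρ) ⟨φ, hφmem⟩)) (H : Subgroup G) :
    Limits.IsZero (groupCohomology (H20A.resSub (splitRep ρ φ hφ) H) 2) := by
  apply isZero_of_forall
  intro w
  have hex := mapShortComplex₂_exact (seqBH_shortExact H.subtype ρ φ hφ) 2
  rw [ShortComplex.moduleCat_exact_iff] at hex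
  obtain ⟨c, hc⟩ := hex w (eq_zero_of_isZero (h2I_isZero H) _)
  obtain ⟨k, hk⟩ := hcm.gen H c
  rw [← delta_g1 ρ φ hφ hφmem H] at hk
  have hzero := (mapShortComplex₁ (seqBH_shortExact H.subtype ρ φ hφ) (i := 1) (j := 2) rfl).zero
  have h1 := congrArg (fun m => m.hom (g1 H)) hzero
  rw [← hc, hk]
  refine (map_zsmul _ _ _).trans ?_
  have h3 : k • (0 : groupCohomology (H20A.resSub (splitRep ρ φ hφ) H) 2) = 0 := by
    exact zsmul_zero k
  refine Eq.trans ?_ h3
  exact congrArg (fun z => k • z) h1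

/-- the splitting module of a class module is cohomologically trivial -/
theorem split_cohTrivial (hφmem : φ ∈ cocycles₂ (Rep.of ρ))
    (hcm : H20A.IsClassModule (Rep.of ρ) (H2π (Rep.of ρ) ⟨φ, hφmem⟩)) :
    H20A.CohTrivial (splitRep ρ φ hφ) :=
  H25AV.helper25_cohTriv_final G (splitRep ρ φ hφ)
    (fun H => split_h1_isZero ρ φ hφ hφmem hcm H) (fun H => split_h2_isZero ρ φ hφ hφmem hcm H)

end main

section final

/-- **W3-Spl**: the splitting module (`H20A.SplittingStatement`). -/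
theorem h26at_splitting (G : Type) [Group G] [Finite G] : H20A.SplittingStatement G := by
  letI : Fintype G := Fintype.ofFinite G
  intro C
  refine H26AR.rep_int_induction (G := G) (fun C => ∀ γ : groupCohomology C 2,
    H20A.IsClassModule C γ →
    ∃ (I A P : Rep ℤ G) (i : C ⟶ A) (q : A ⟶ I) (j : I ⟶ P) (ε : P ⟶ Rep.trivial ℤ G ℤ)
      (wb : i ≫ q = 0) (wa : j ≫ ε = 0) (hb : (ShortComplex.mk i q wb).ShortExact)
      (ha : (ShortComplex.mk j ε wa).ShortExact),
      H20A.CohTrivial A ∧ H20A.CohTrivial P ∧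
      ∀ x : groupCohomology (Rep.trivial ℤ G ℤ) 0, H20A.IsUnitClass x →
        (groupCohomology.δ hb 1 2 rfl).hom ((groupCohomology.δ ha 0 1 rfl).hom x) = γ) ?_ C
  intro V _ ρ γ hcm
  obtain ⟨⟨φ, hφmem⟩, rfl⟩ := (ModuleCat.epi_iff_surjective (H2π (Rep.of ρ))).1 inferInstance γ
  have hφ : IsCoc ρ φ := (mem_cocycles₂_iff (A := Rep.of ρ) φ).1 hφmem
  refine ⟨augRep G, splitRep ρ φ hφ, H20A.coindOne G ℤ, splitInl ρ φ hφ, splitPr ρ φ hφ,
    augIncl G, augMap G, (seqB ρ φ hφ).zero, (seqA G).zero, seqB_shortExact ρ φ hφ,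
    seqA_shortExact G, split_cohTrivial ρ φ hφ hφmem hcm, H22AI.h22ai_coindTrivial G ℤ, ?_⟩
  intro x hx
  have hx1 : x = (H0Iso (seqAH (MonoidHom.id G)).X₃).inv (oneInv (MonoidHom.id G)) := by
    apply H26AR.und_injective
    have h1 : H26AR.und (Rep.trivial ℤ G ℤ) x = (1 : ℤ) := hx
    refine h1.trans ?_
    symm
    change ((shortComplexH0 (seqAH (MonoidHom.id G)).X₃).f.hom
      ((H0Iso (seqAH (MonoidHom.id G)).X₃).hom
        ((H0Iso (seqAH (MonoidHom.id G)).X₃).inv (oneInv (MonoidHom.id G))))) = _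
    have h2 : (H0Iso (seqAH (MonoidHom.id G)).X₃).hom
        ((H0Iso (seqAH (MonoidHom.id G)).X₃).inv (oneInv (MonoidHom.id G))) =
        oneInv (MonoidHom.id G) := by
      have := congrArg (fun m => m.hom (oneInv (MonoidHom.id G)))
        (H0Iso (seqAH (MonoidHom.id G)).X₃).inv_hom_id
      exact this
    rw [h2]
    rfl
  rw [hx1]
  exact delta_delta_one (MonoidHom.id G) ρ φ hφ

/-- **ATate**: Tate's theorem (`H20A.TateTheoremStatement`). -/
theorem h26at_tate (G : Type) [Group G] [Finite G] : H20A.TateTheoremStatement G := by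
  intro C γ hcm n
  letI : Fintype G := Fintype.ofFinite G
  obtain ⟨I, A, P, i, q, j, ε, wb, wa, hb, ha, hA, hP, -⟩ := h26at_splitting G C γ hcm
  have hA' : ∀ m : ℤ, Limits.IsZero (tateCohomology A m) := fun m =>
    H26AR.h26ar_sylow G A m (fun p _ Pp => hA m (Pp : Subgroup G))
  have hP' : ∀ m : ℤ, Limits.IsZero (tateCohomology P m) := fun m =>
    H26AR.h26ar_sylow G P m (fun p _ Pp => hP m (Pp : Subgroup G))
  have i1 := H22AI.h22ai_isIso_δ ha n (hP' n) (hP' (n + 1))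
  have i2 := H22AI.h22ai_isIso_δ hb (n + 1) (hA' (n + 1)) (hA' (n + 1 + 1))
  have e1 : tateCohomology (Rep.trivial ℤ G ℤ) n ≅ tateCohomology I (n + 1) :=
    @asIso _ _ _ _ (TateCohomology.δ ha n) i1
  have e2 : tateCohomology I (n + 1) ≅ tateCohomology C (n + 1 + 1) :=
    @asIso _ _ _ _ (TateCohomology.δ hb (n + 1)) i2
  have hn : n + 1 + 1 = n + 2 := by ring
  rw [hn] at e2
  exact ⟨e1 ≪≫ e2⟩

end final

end H26AT
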