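/-
W2-C (S55) block A, wave 3, slice W3-U (helper22): untwisting.

For `P ≅ Map(G, W)`:
* `Hom(P, V) ≅ Map(G, Hom(W, V))`, `f ↦ (x ↦ (w ↦ x • f(δ_x w)))`     (`h22w3u_homCoind`),
* `Hom(R, P) ≅ Map(G, Hom(R, W))`, `f ↦ (x ↦ (r ↦ f(x⁻¹ r)(x)))`      (`h22w3u_homToCoind`),
as `G`-modules; so both are cohomologically trivial by AI1 (`H22AI.h22ai_coindTrivial`).
-/
import Fermat.Agent.CFT2.A.Defs3
import Fermat.Agent.CFT2.A.AI2_helper22

set_option autoImplicit false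
set_option linter.unusedSectionVars false
set_option linter.unusedSimpArgs false

noncomputable section

open CategoryTheory groupCohomology Limits

namespace H22W3U

open H20A H22AI

variable {G : Type} [Group G]

/-- cohomological triviality is invariant under isomorphism -/
theorem h22w3u_cohTrivial_of_iso [Finite G] {A B : Rep ℤ G} (e : A ≅ B) (hB : CohTrivial B) :
    CohTrivial A := by
  intro n H
  let _ : Fintype H := Fintype.ofFinite H
  have e1 : resSub A H ≅ resSub B H := (Rep.resFunctor H.subtype).mapIso e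
  have e2 : tate (resSub A H) n ≅ tate (resSub B H) n := (tateCohomologyFunctor n).mapIso e1
  exact (hB n H).of_iso e2

theorem h22w3u_lin_ext {V W : Type} [AddCommGroup V] [AddCommGroup W] [Module ℤ V] [Module ℤ W]
    {ρ : Representation ℤ G V} {σ : Representation ℤ G W} (f g : ρ.IntertwiningMap σ)
    (h : ∀ a : V, f a = g a) : f = g := by
  apply Representation.IntertwiningMap.ext
  exact LinearMap.ext h

/-- morphisms of `Rep ℤ G` are equal if they agree on elements (no `ℤ`-module diamond) -/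
theorem h22w3u_hom_ext {A B : Rep.{0} ℤ G} (f g : A ⟶ B) (h : ∀ a : A.V, f.hom a = g.hom a) :
    f = g := by
  apply Rep.hom_ext
  exact @h22w3u_lin_ext G _ A.V B.V _ _ A.hV2 B.hV2 A.ρ B.ρ f.hom g.hom h

/-- build an isomorphism of `Rep ℤ G` from mutually inverse equivariant additive maps -/
def h22w3u_mkIso (A B : Rep.{0} ℤ G) (f : A.V →+ B.V) (f' : B.V →+ A.V)
    (hf : ∀ g a, f (A.ρ g a) = B.ρ g (f a))
    (h1 : ∀ a, f' (f a) = a) (h2 : ∀ b, f (f' b) = b) : A ≅ B where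
  hom := h22ai_mkHom A B f hf
  inv := h22ai_mkHom B A f' (fun g b => by
    have := hf g (f' b)
    rw [h2] at this
    rw [← this, h1])
  hom_inv_id := h22w3u_hom_ext _ _ h1
  inv_hom_id := h22w3u_hom_ext _ _ h2

section data

variable {P W : Type} [AddCommGroup P] [AddCommGroup W] {ρP : Representation ℤ G P}
  (e : Rep.of ρP ≅ coindOne G W)

/-- the underlying map `P → Map(G, W)` -/
def h22w3u_fwd : P →+ (G → W) where
  toFun p := e.hom.hom p
  map_zero' := map_zero _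
  map_add' := map_add _

/-- the underlying map `Map(G, W) → P` -/
def h22w3u_bwd : (G → W) →+ P where
  toFun φ := e.inv.hom φ
  map_zero' := map_zero _
  map_add' := map_add _

theorem h22w3u_bwd_fwd (p : P) : h22w3u_bwd e (h22w3u_fwd e p) = p := by
  have := congrArg (fun f => f.hom p) e.hom_inv_id
  exact this

theorem h22w3u_fwd_bwd (φ : G → W) : h22w3u_fwd e (h22w3u_bwd e φ) = φ := by
  have := congrArg (fun f => f.hom φ) e.inv_hom_id
  exact this

theorem h22w3u_fwd_comm (g : G) (p : P) (x : G) :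
    h22w3u_fwd e (ρP g p) x = h22w3u_fwd e p (x * g) := by
  have := Rep.hom_comm_apply e.hom g p
  exact congrFun this x

theorem h22w3u_bwd_comm (g : G) (φ : G → W) :
    h22w3u_bwd e (fun x => φ (x * g)) = ρP g (h22w3u_bwd e φ) := by
  have := Rep.hom_comm_apply e.inv g φ
  exact this

/-! ## `Hom(R, P)` -/

section toCoind

variable {R : Type} [AddCommGroup R] (ρR : Representation ℤ G R)

/-- `f ↦ (x ↦ (r ↦ f(x⁻¹ r)(x)))` -/
def h22w3u_F2 : (R →ₗ[ℤ] P) →+ (G → (R →ₗ[ℤ] W)) where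
  toFun f x :=
    ((Pi.evalAddMonoidHom (fun _ : G => W) x).comp (h22w3u_fwd e)).toIntLinearMap ∘ₗ f ∘ₗ ρR x⁻¹
  map_zero' := by
    funext x
    ext r
    simp
  map_add' f₁ f₂ := by
    funext x
    ext r
    simp

theorem h22w3u_F2_apply (f : R →ₗ[ℤ] P) (x : G) (r : R) :
    h22w3u_F2 e ρR f x r = h22w3u_fwd e (f (ρR x⁻¹ r)) x := rfl

/-- `Φ ↦ (r ↦ ε⁻¹(x ↦ Φ(x)(x r)))` -/
def h22w3u_G2 : (G → (R →ₗ[ℤ] W)) →+ (R →ₗ[ℤ] P) where
  toFun Φ := AddMonoidHom.toIntLinearMap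
    { toFun := fun r => h22w3u_bwd e (fun x => Φ x (ρR x r))
      map_zero' := by
        have : (fun x => Φ x (ρR x (0 : R))) = (0 : G → W) := by funext x; simp
        rw [this, map_zero]
      map_add' := fun r s => by
        have : (fun x => Φ x (ρR x (r + s))) = (fun x => Φ x (ρR x r)) + (fun x => Φ x (ρR x s)) := by
          funext x; simp
        rw [this, map_add] }
  map_zero' := by
    ext r
    show h22w3u_bwd e (fun x => (0 : G → (R →ₗ[ℤ] W)) x (ρR x r)) = 0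
    have : (fun x => (0 : G → (R →ₗ[ℤ] W)) x (ρR x r)) = (0 : G → W) := by funext x; simp
    rw [this, map_zero]
  map_add' Φ Ψ := by
    ext r
    show h22w3u_bwd e (fun x => (Φ + Ψ) x (ρR x r))
      = h22w3u_bwd e (fun x => Φ x (ρR x r)) + h22w3u_bwd e (fun x => Ψ x (ρR x r))
    have : (fun x => (Φ + Ψ) x (ρR x r)) = (fun x => Φ x (ρR x r)) + (fun x => Ψ x (ρR x r)) := by
      funext x; simp
    rw [this, map_add]

theorem h22w3u_G2_apply (Φ : G → (R →ₗ[ℤ] W)) (r : R) :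
    h22w3u_G2 e ρR Φ r = h22w3u_bwd e (fun x => Φ x (ρR x r)) := rfl

theorem h22w3u_G2_F2 (f : R →ₗ[ℤ] P) : h22w3u_G2 e ρR (h22w3u_F2 e ρR f) = f := by
  ext r
  rw [h22w3u_G2_apply]
  have : (fun x => h22w3u_F2 e ρR f x (ρR x r)) = h22w3u_fwd e (f r) := by
    funext x
    rw [h22w3u_F2_apply, ← Module.End.mul_apply, ← map_mul, inv_mul_cancel, map_one,
      Module.End.one_apply]
  rw [this, h22w3u_bwd_fwd]

theorem h22w3u_F2_G2 (Φ : G → (R →ₗ[ℤ] W)) : h22w3u_F2 e ρR (h22w3u_G2 e ρR Φ) = Φ := by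
  funext x
  ext r
  rw [h22w3u_F2_apply, h22w3u_G2_apply, h22w3u_fwd_bwd]
  show Φ x (ρR x (ρR x⁻¹ r)) = Φ x r
  rw [← Module.End.mul_apply, ← map_mul, mul_inv_cancel, map_one, Module.End.one_apply]

theorem h22w3u_F2_comm (g : G) (f : R →ₗ[ℤ] P) :
    h22w3u_F2 e ρR (homRep ρR ρP g f) = (coindOne G (R →ₗ[ℤ] W)).ρ g (h22w3u_F2 e ρR f) := by
  funext x
  ext r
  show h22w3u_F2 e ρR (homRep ρR ρP g f) x r = h22w3u_F2 e ρR f (x * g) r
  rw [h22w3u_F2_apply, h22w3u_F2_apply]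
  show h22w3u_fwd e (ρP g (f (ρR g⁻¹ (ρR x⁻¹ r)))) x = _
  rw [h22w3u_fwd_comm, ← Module.End.mul_apply, ← map_mul, mul_inv_rev]

/-- `Hom(R, P) ≅ Map(G, Hom(R, W))` -/
def h22w3u_iso2 : Rep.of (homRep ρR ρP) ≅ coindOne G (R →ₗ[ℤ] W) :=
  h22w3u_mkIso (Rep.of (homRep ρR ρP)) (coindOne G (R →ₗ[ℤ] W)) (h22w3u_F2 e ρR)
    (h22w3u_G2 e ρR) (fun g f => h22w3u_F2_comm e ρR g f) (h22w3u_G2_F2 e ρR)
    (h22w3u_F2_G2 e ρR)

end toCoind

/-! ## `Hom(P, V)` -/

section fromCoind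

variable [Fintype G] [DecidableEq G] {V : Type} [AddCommGroup V] (ρV : Representation ℤ G V)

/-- `f ↦ (x ↦ (w ↦ x • f(ε⁻¹ δ_x w)))` -/
def h22w3u_F1 : (P →ₗ[ℤ] V) →+ (G → (W →ₗ[ℤ] V)) where
  toFun f x := ρV x ∘ₗ f ∘ₗ
    ((h22w3u_bwd e).comp (AddMonoidHom.single (fun _ : G => W) x)).toIntLinearMap
  map_zero' := by
    funext x
    ext w
    simp
  map_add' f₁ f₂ := by
    funext x
    ext w
    simp

theorem h22w3u_F1_apply (f : P →ₗ[ℤ] V) (x : G) (w : W) :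
    h22w3u_F1 e ρV f x w = ρV x (f (h22w3u_bwd e (Pi.single x w))) := rfl

/-- `Φ ↦ (p ↦ ∑ x, x⁻¹ • Φ(x)(ε p x))` -/
def h22w3u_G1 : (G → (W →ₗ[ℤ] V)) →+ (P →ₗ[ℤ] V) where
  toFun Φ := AddMonoidHom.toIntLinearMap
    { toFun := fun p => ∑ x : G, ρV x⁻¹ (Φ x (h22w3u_fwd e p x))
      map_zero' := by simp
      map_add' := fun p p' => by simp [Finset.sum_add_distrib] }
  map_zero' := by
    ext p
    show ∑ x : G, ρV x⁻¹ ((0 : G → (W →ₗ[ℤ] V)) x (h22w3u_fwd e p x)) = 0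
    simp
  map_add' Φ Ψ := by
    ext p
    show ∑ x : G, ρV x⁻¹ ((Φ + Ψ) x (h22w3u_fwd e p x))
      = ∑ x : G, ρV x⁻¹ (Φ x (h22w3u_fwd e p x)) + ∑ x : G, ρV x⁻¹ (Ψ x (h22w3u_fwd e p x))
    simp [Finset.sum_add_distrib]

theorem h22w3u_G1_apply (Φ : G → (W →ₗ[ℤ] V)) (p : P) :
    h22w3u_G1 e ρV Φ p = ∑ x : G, ρV x⁻¹ (Φ x (h22w3u_fwd e p x)) := rfl

theorem h22w3u_sum_single (φ : G → W) : ∑ x : G, (Pi.single x (φ x) : G → W) = φ := by
  funext y
  rw [Finset.sum_apply, Finset.sum_eq_single y]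
  · simp
  · intro x _ hx
    simp [Pi.single_apply, hx.symm]
  · intro h; exact absurd (Finset.mem_univ _) h

theorem h22w3u_G1_F1 (f : P →ₗ[ℤ] V) : h22w3u_G1 e ρV (h22w3u_F1 e ρV f) = f := by
  ext p
  rw [h22w3u_G1_apply]
  have h1 : ∀ x : G, ρV x⁻¹ (h22w3u_F1 e ρV f x (h22w3u_fwd e p x))
      = f (h22w3u_bwd e (Pi.single x (h22w3u_fwd e p x))) := by
    intro x
    rw [h22w3u_F1_apply, ← Module.End.mul_apply, ← map_mul, inv_mul_cancel, map_one,
      Module.End.one_apply]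
  simp only [h1]
  rw [← map_sum, ← map_sum, h22w3u_sum_single, h22w3u_bwd_fwd]

theorem h22w3u_F1_G1 (Φ : G → (W →ₗ[ℤ] V)) : h22w3u_F1 e ρV (h22w3u_G1 e ρV Φ) = Φ := by
  funext x
  ext w
  rw [h22w3u_F1_apply, h22w3u_G1_apply]
  simp only [h22w3u_fwd_bwd]
  rw [Finset.sum_eq_single x]
  · simp only [Pi.single_eq_same]
    rw [← Module.End.mul_apply, ← map_mul, mul_inv_cancel, map_one, Module.End.one_apply]
  · intro y _ hy
    simp [Pi.single_apply, hy]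
  · intro h; exact absurd (Finset.mem_univ _) h

theorem h22w3u_single_shift (g x : G) (w : W) :
    (coindOne G W).ρ g⁻¹ (Pi.single x w : G → W) = (Pi.single (x * g) w : G → W) := by
  funext y
  show (Pi.single x w : G → W) (y * g⁻¹) = (Pi.single (x * g) w : G → W) y
  by_cases h : y = x * g
  · subst h; simp
  · have h' : y * g⁻¹ ≠ x := fun hh => h (by rw [← hh]; group)
    simp [Pi.single_apply, h, h']

theorem h22w3u_F1_comm (g : G) (f : P →ₗ[ℤ] V) :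
    h22w3u_F1 e ρV (homRep ρP ρV g f) = (coindOne G (W →ₗ[ℤ] V)).ρ g (h22w3u_F1 e ρV f) := by
  funext x
  ext w
  show h22w3u_F1 e ρV (homRep ρP ρV g f) x w = h22w3u_F1 e ρV f (x * g) w
  rw [h22w3u_F1_apply, h22w3u_F1_apply]
  show ρV x (ρV g (f (ρP g⁻¹ (h22w3u_bwd e (Pi.single x w))))) = _
  have h1 : ρP g⁻¹ (h22w3u_bwd e (Pi.single x w)) = h22w3u_bwd e (Pi.single (x * g) w) := by
    rw [← h22w3u_bwd_comm]
    congr 1
    exact h22w3u_single_shift g x w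
  rw [h1, ← Module.End.mul_apply, ← map_mul]

/-- `Hom(P, V) ≅ Map(G, Hom(W, V))` -/
def h22w3u_iso1 : Rep.of (homRep ρP ρV) ≅ coindOne G (W →ₗ[ℤ] V) :=
  h22w3u_mkIso (Rep.of (homRep ρP ρV)) (coindOne G (W →ₗ[ℤ] V)) (h22w3u_F1 e ρV)
    (h22w3u_G1 e ρV) (fun g f => h22w3u_F1_comm e ρV g f) (h22w3u_G1_F1 e ρV)
    (h22w3u_F1_G1 e ρV)

end fromCoind

end data

/-- **W3-U1**: `Hom(P, V)` is cohomologically trivial when `P ≅ Map(G, W)`. -/
theorem h22w3u_homCoind (G : Type) [Group G] [Finite G] : HomCoindStatement G := by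
  classical
  intro P _ ρP W _ ⟨e⟩ V _ ρV
  let _ : Fintype G := Fintype.ofFinite G
  exact h22w3u_cohTrivial_of_iso (h22w3u_iso1 e ρV) (h22ai_coindTrivial G (W →ₗ[ℤ] V))

/-- **W3-U2**: `Hom(R, P)` is cohomologically trivial when `P ≅ Map(G, W)`. -/
theorem h22w3u_homToCoind (G : Type) [Group G] [Finite G] : HomToCoindStatement G := by
  intro P _ ρP W _ ⟨e⟩ R _ ρR
  exact h22w3u_cohTrivial_of_iso (h22w3u_iso2 e ρR) (h22ai_coindTrivial G (R →ₗ[ℤ] W))

end H22W3U
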