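/-
W2-C (S55) block A wave 3 (helper20): toolkit for the slices W3-NT0 and W3-11.
An extension `0 → R → P → R' → 0` of `G`-modules with `P ≅ Map(G, W)` and `R'` free:
the short exact sequences of representations `R → P → R'` and
`Hom(R', V) → Hom(P, V) → Hom(R, V)`, vanishing of `H¹`, `H²` of `P` and of `Hom(P, V)`,
and `Hom_G(P, V) = N Hom(P, V)`.
-/
import Fermat.Agent.CFT2.A.Defs3
import Fermat.Agent.CFT2.A.W3U_helper22
import Fermat.Agent.CFT2.A.AF2_helper5
import Fermat.Agent.CFT2.A.AT0_helper10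

set_option autoImplicit false

noncomputable section

open CategoryTheory groupCohomology

namespace H20W3

variable {G : Type} [Group G]
  {R P R' V : Type} [AddCommGroup R] [AddCommGroup P] [AddCommGroup R'] [AddCommGroup V]

/-- an extension `0 → R → P → R' → 0` of `G`-modules -/
structure h20c_Ext (ρR : Representation ℤ G R) (ρP : Representation ℤ G P)
    (ρ' : Representation ℤ G R') (i : R →+ P) (q : P →+ R') : Prop where
  hi : ∀ g r, i (ρR g r) = ρP g (i r)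
  hq : ∀ g x, q (ρP g x) = ρ' g (q x)
  inj : Function.Injective i
  surj : Function.Surjective q
  ex : ∀ x, q x = 0 ↔ ∃ r, i r = x

variable {ρR : Representation ℤ G R} {ρP : Representation ℤ G P}
  {ρ' : Representation ℤ G R'} {i : R →+ P} {q : P →+ R'}

theorem h20c_Ext.qi (E : h20c_Ext ρR ρP ρ' i q) (r : R) : q (i r) = 0 :=
  (E.ex _).2 ⟨r, rfl⟩

/-- the short complex `R → P → R'` -/
abbrev h20c_seq (E : h20c_Ext ρR ρP ρ' i q) : ShortComplex (Rep ℤ G) :=
  ShortComplex.mk (H20A.repHom ρR ρP i E.hi) (H20A.repHom ρP ρ' q E.hq) (by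
    apply Rep.hom_ext
    ext r
    exact E.qi r)

theorem h20c_seq_shortExact (E : h20c_Ext ρR ρP ρ' i q) : (h20c_seq E).ShortExact := by
  refine ShortComplex.ShortExact.mk' ((H5AF.h5af_exact_iff _).2 ?_)
    ((Rep.mono_iff_injective _).2 E.inj) ((Rep.epi_iff_surjective _).2 E.surj)
  intro x hx
  exact (E.ex x).1 hx

/-- a `ℤ`-linear section of `q` -/
theorem h20c_exists_section [Module.Free ℤ R'] (E : h20c_Ext ρR ρP ρ' i q) :
    ∃ σ : R' →ₗ[ℤ] P, ∀ y, q (σ y) = y := by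
  obtain ⟨σ, hσ⟩ := Module.projective_lifting_property q.toIntLinearMap
    (LinearMap.id : R' →ₗ[ℤ] R') E.surj
  exact ⟨σ, fun y => LinearMap.congr_fun hσ y⟩

/-- a `ℤ`-linear retraction of `i` -/
theorem h20c_exists_retraction [Module.Free ℤ R'] (E : h20c_Ext ρR ρP ρ' i q) :
    ∃ s : P →ₗ[ℤ] R, ∀ r, s (i r) = r := by
  obtain ⟨σ, hσ⟩ := h20c_exists_section E
  have h1 : ∀ x : P, ∃ r : R, i r = x - σ (q x) := fun x =>
    (E.ex _).1 (by rw [map_sub, hσ, sub_self])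
  choose s hs using h1
  have hs0 : ∀ r, s (i r) = r := fun r => by
    apply E.inj
    rw [hs, E.qi, map_zero, sub_zero]
  refine ⟨⟨⟨s, fun x y => ?_⟩, fun m x => ?_⟩, hs0⟩
  · apply E.inj
    rw [map_add, hs, hs, hs, map_add, map_add]
    abel
  · apply E.inj
    simp only [RingHom.id_apply]
    rw [map_zsmul, hs, hs, map_zsmul, map_zsmul, smul_sub]

/-! ## the `Hom(-, V)` sequence -/

section pre

variable {A B : Type} [AddCommGroup A] [AddCommGroup B]
  (ρA : Representation ℤ G A) (ρB : Representation ℤ G B) (ρV : Representation ℤ G V)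

/-- precomposition with an equivariant map, as a morphism `Hom(B, V) ⟶ Hom(A, V)` -/
def h20c_pre (f : A →+ B) (hf : ∀ g a, f (ρA g a) = ρB g (f a)) :
    Rep.of (H20A.homRep ρB ρV) ⟶ Rep.of (H20A.homRep ρA ρV) :=
  Rep.ofHom ⟨LinearMap.lcomp ℤ V f.toIntLinearMap, fun g => by
    ext φ a
    simp only [LinearMap.coe_comp, Function.comp_apply, LinearMap.lcomp_apply,
      Representation.linHom_apply, AddMonoidHom.coe_toIntLinearMap, hf]⟩

theorem h20c_pre_apply (f : A →+ B) (hf : ∀ g a, f (ρA g a) = ρB g (f a)) (φ : B →ₗ[ℤ] V)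
    (a : A) : ((h20c_pre ρA ρB ρV f hf).hom φ : A →ₗ[ℤ] V) a = φ (f a) := rfl

end pre

variable (ρV : Representation ℤ G V)

/-- the short complex `Hom(R', V) → Hom(P, V) → Hom(R, V)` -/
abbrev h20c_homSeq (E : h20c_Ext ρR ρP ρ' i q) : ShortComplex (Rep ℤ G) :=
  ShortComplex.mk (h20c_pre ρP ρ' ρV q E.hq) (h20c_pre ρR ρP ρV i E.hi) (by
    apply Rep.hom_ext
    ext φ r
    show φ (q (i r)) = 0
    rw [E.qi, map_zero])

theorem h20c_homSeq_shortExact [Module.Free ℤ R'] (E : h20c_Ext ρR ρP ρ' i q) :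
    (h20c_homSeq ρV E).ShortExact := by
  obtain ⟨σ, hσ⟩ := h20c_exists_section E
  obtain ⟨s, hs⟩ := h20c_exists_retraction E
  refine ShortComplex.ShortExact.mk' ((H5AF.h5af_exact_iff _).2 ?_)
    ((Rep.mono_iff_injective _).2 ?_) ((Rep.epi_iff_surjective _).2 ?_)
  · intro (f : P →ₗ[ℤ] V) hf
    have hf' : ∀ r, f (i r) = 0 := fun r => LinearMap.congr_fun hf r
    refine ⟨(f.comp σ : R' →ₗ[ℤ] V), ?_⟩
    apply LinearMap.ext
    intro x
    show f (σ (q x)) = f x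
    obtain ⟨r, hr⟩ := (E.ex (x - σ (q x))).1 (by rw [map_sub, hσ, sub_self])
    have := hf' r
    rw [hr, map_sub, sub_eq_zero] at this
    exact this.symm
  · intro (f : R' →ₗ[ℤ] V) (f' : R' →ₗ[ℤ] V) h
    apply LinearMap.ext
    intro y
    obtain ⟨x, rfl⟩ := E.surj y
    exact LinearMap.congr_fun h x
  · intro (b : R →ₗ[ℤ] V)
    refine ⟨(b.comp s : P →ₗ[ℤ] V), ?_⟩
    apply LinearMap.ext
    intro r
    show b (s (i r)) = b r
    rw [hs]

/-! ## vanishing for `P` and `Hom(P, V)` -/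

section vanish

variable [Finite G] {W : Type} [AddCommGroup W]

omit [Finite G] in
theorem h20c_coh_isZero (e : Rep.of ρP ≅ H20A.coindOne G W) (n : ℕ) :
    Limits.IsZero (groupCohomology (Rep.of ρP) (n + 1)) :=
  (H22AI.h22ai_coh_isZero W n).of_iso ((groupCohomology.functor ℤ G (n + 1)).mapIso e)

theorem h20c_coh_hom_isZero (e : Rep.of ρP ≅ H20A.coindOne G W) (n : ℕ) :
    Limits.IsZero (groupCohomology (Rep.of (H20A.homRep ρP ρV)) (n + 1)) := by
  classical
  let _ : Fintype G := Fintype.ofFinite G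
  exact h20c_coh_isZero (H22W3U.h22w3u_iso1 e ρV) n

/-- `Hom_G(P, V) = N Hom(P, V)` -/
theorem h20c_inv_norm (e : Rep.of ρP ≅ H20A.coindOne G W) (f : P →ₗ[ℤ] V)
    (hf : ∀ g, H20A.homRep ρP ρV g f = f) :
    ∃ f₀ : P →ₗ[ℤ] V, f = H20A.normOf (H20A.homRep ρP ρV) f₀ := by
  classical
  let _ : Fintype G := Fintype.ofFinite G
  have hz : Limits.IsZero (H20A.tate (Rep.of (H20A.homRep ρP ρV)) 0) :=
    (H22AI.h22ai_tate_isZero (W →ₗ[ℤ] V) 0).of_iso
      ((tateCohomologyFunctor 0).mapIso (H22W3U.h22w3u_iso1 e ρV))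
  obtain ⟨π, -, hker, -⟩ := H10AT.h10at_tateZero (G := G)
  have := ModuleCat.subsingleton_of_isZero hz
  have h0 : π _ (H20A.homRep ρP ρV) ⟨f, hf⟩ = 0 := Subsingleton.elim _ _
  obtain ⟨y, hy⟩ := (hker _ _ ⟨f, hf⟩).1 h0
  exact ⟨y, hy.symm⟩

end vanish

/-! ## cochain computations -/

/-- the class of `f ∘ y` -/
theorem h20c_cohMap_H2π {A B : Type} [AddCommGroup A] [AddCommGroup B]
    (ρA : Representation ℤ G A) (ρB : Representation ℤ G B) (f : A →+ B)
    (hf : ∀ g a, f (ρA g a) = ρB g (f a)) (y : cocycles₂ (Rep.of ρA))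
    (h : (fun gh => f (y.1 gh)) ∈ cocycles₂ (Rep.of ρB)) :
    H20A.cohMap (H20A.repHom ρA ρB f hf) 2 ((H2π (Rep.of ρA)).hom y)
      = (H2π (Rep.of ρB)).hom ⟨fun gh => f (y.1 gh), h⟩ := by
  have := H2π_comp_map_apply (MonoidHom.id G) (H20A.repHom ρA ρB f hf) y
  exact this

/-- two cocycles differing by a coboundary have the same class -/
theorem h20c_H2π_eq {A : Type} [AddCommGroup A] (ρA : Representation ℤ G A)
    (y z : cocycles₂ (Rep.of ρA)) (ψ : G → A)
    (h : ∀ g h, y.1 (g, h) = z.1 (g, h) + (ρA g (ψ h) - ψ (g * h) + ψ g)) :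
    (H2π (Rep.of ρA)).hom y = (H2π (Rep.of ρA)).hom z := by
  refine (H2π_eq_iff y z).2 ⟨ψ, ?_⟩
  funext ⟨g, k⟩
  have := h g k
  change _ = y.1 (g, k) - z.1 (g, k)
  rw [this]
  simp only [d₁₂_hom_apply]
  abel

section nt0

variable (E : h20c_Ext ρR ρP ρ' i q)

/-- the key identity for NT₀: `b_* δ[x] = -[c ∪ x]` when `q^* c = d b̃` and `b = b̃ ∘ i` -/
theorem h20c_delta_cup (x : cocycles₁ (Rep.of ρ')) (c : G → (R' →ₗ[ℤ] V)) (bt : P →ₗ[ℤ] V)
    (hc : ∀ g p, c g (q p) = H20A.homRep ρP ρV g bt p - bt p)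
    (b : R →+ V) (hb : ∀ g r, b (ρR g r) = ρV g (b r)) (hbi : ∀ r, b r = bt (i r))
    (h : H20A.cup11Fun ρ' c x.1 ∈ cocycles₂ (Rep.of ρV)) :
    H20A.cohMap (H20A.repHom ρR ρV b hb) 2
      ((groupCohomology.δ (h20c_seq_shortExact E) 1 2 rfl).hom ((H1π (Rep.of ρ')).hom x))
    = - (H2π (Rep.of ρV)).hom ⟨H20A.cup11Fun ρ' c x.1, h⟩ := by
  classical
  have hx := (mem_cocycles₁_iff x.1).1 x.2
  choose xt hxt using fun g => E.surj (x.1 g)
  have hy : ∀ gh : G × G, ∃ r : R, i r = ρP gh.1 (xt gh.2) - xt (gh.1 * gh.2) + xt gh.1 := by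
    intro gh
    apply (E.ex _).1
    rw [map_add, map_sub, E.hq, hxt, hxt, hxt, hx]
    abel
  choose y hy using hy
  have key := groupCohomology.δ₁_apply (h20c_seq_shortExact E) x xt (funext hxt) y (funext hy)
  have hymem : y ∈ cocycles₂ (Rep.of ρR) :=
    groupCohomology.mem_cocycles₂_of_comp_eq_d₁₂ (h20c_seq_shortExact E) (funext hy)
  have key' : (groupCohomology.δ (h20c_seq_shortExact E) 1 2 rfl).hom ((H1π (Rep.of ρ')).hom x)
      = (H2π (Rep.of ρR)).hom ⟨y, hymem⟩ := key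
  rw [key']
  have hby : (fun gh => b ((⟨y, hymem⟩ : cocycles₂ (Rep.of ρR)).1 gh)) ∈ cocycles₂ (Rep.of ρV) := by
    rw [mem_cocycles₂_iff]
    intro g h j
    have h1 := (mem_cocycles₂_iff (A := Rep.of ρR) y).1 hymem g h j
    have h2 := congrArg b h1
    simp only [map_add] at h2
    rw [h2]
    congr 1
    exact hb g _
  rw [h20c_cohMap_H2π ρR ρV b hb ⟨y, hymem⟩ hby, eq_neg_iff_add_eq_zero, ← map_add]
  refine (H2π_eq_zero_iff _).2 ⟨fun g => bt (xt g), ?_⟩
  funext ⟨g, k⟩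
  have e1 : b (y (g, k)) = bt (ρP g (xt k)) - bt (xt (g * k)) + bt (xt g) := by
    rw [hbi, hy]
    simp only [map_add, map_sub]
  have e2 : H20A.cup11Fun ρ' c x.1 (g, k) = ρV g (bt (xt k)) - bt (ρP g (xt k)) := by
    show c g (ρ' g (x.1 k)) = _
    rw [← hxt k, ← E.hq, hc, Representation.linHom_apply]
    simp only [LinearMap.coe_comp, Function.comp_apply]
    rw [← Module.End.mul_apply, ← map_mul, inv_mul_cancel, map_one, Module.End.one_apply]
  show ρV g (bt (xt k)) - bt (xt (g * k)) + bt (xt g) = b (y (g, k)) + H20A.cup11Fun ρ' c x.1 (g, k)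
  rw [e1, e2]
  abel

end nt0

end H20W3

end
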