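/-
W2-C (S55) block A wave 3, slice W3-Sh (helper20): the shifted lattice.
`0 → R → Map(G, R) → R⁺ → 0` with `R⁺ = {φ | φ 1 = 0}` (a lattice), `q φ = φ - i (φ 1)`.
-/
import Fermat.Agent.CFT2.A.Defs3

set_option autoImplicit false

noncomputable section

open CategoryTheory groupCohomology

namespace H20W3

variable {G : Type} [Group G]

/-- the right-translation representation on `G → R` -/
def h20sh_coindRepr (G : Type) [Group G] (R : Type) [AddCommGroup R] :
    Representation ℤ G (G → R) where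
  toFun := fun g => { toFun := fun φ x => φ (x * g), map_add' := fun _ _ => rfl,
                      map_smul' := fun _ _ => rfl }
  map_one' := by ext φ x; simp
  map_mul' := fun g h => by ext φ x; simp [mul_assoc]

theorem h20sh_coindRepr_apply (R : Type) [AddCommGroup R] (g : G) (φ : G → R) (x : G) :
    h20sh_coindRepr G R g φ x = φ (x * g) := rfl

theorem h20sh_coindRepr_eq (G : Type) [Group G] (R : Type) [AddCommGroup R] :
    Rep.of (h20sh_coindRepr G R) = H20A.coindOne G R := rfl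

variable {R : Type} [AddCommGroup R] (ρR : Representation ℤ G R)

/-- `i r = (x ↦ x • r)` -/
def h20sh_i : R →ₗ[ℤ] (G → R) where
  toFun r := fun x => ρR x r
  map_add' a b := by ext x; simp
  map_smul' n a := by ext x; simp

theorem h20sh_i_apply (r : R) (x : G) : h20sh_i ρR r x = ρR x r := rfl

theorem h20sh_i_equivariant (g : G) (r : R) :
    h20sh_i ρR (ρR g r) = h20sh_coindRepr G R g (h20sh_i ρR r) := by
  ext x
  simp [h20sh_i_apply, h20sh_coindRepr_apply, map_mul]

theorem h20sh_i_injective : Function.Injective (h20sh_i ρR) := by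
  intro a b h
  have := congrFun h 1
  simpa [h20sh_i_apply] using this

/-- evaluation at `1` -/
def h20sh_ev : (G → R) →ₗ[ℤ] R := LinearMap.proj 1

/-- the shifted lattice `R⁺ = {φ | φ 1 = 0}` -/
abbrev h20sh_Rp (G : Type) [Group G] (R : Type) [AddCommGroup R] : Submodule ℤ (G → R) :=
  LinearMap.ker (h20sh_ev (G := G) (R := R))

theorem h20sh_mem_Rp (φ : G → R) : φ ∈ h20sh_Rp G R ↔ φ 1 = 0 := by
  simp [h20sh_Rp, h20sh_ev]

/-- `q₀ φ = φ - i (φ 1)` as an endomorphism of `G → R` -/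
def h20sh_q₀ : (G → R) →ₗ[ℤ] (G → R) :=
  LinearMap.id - (h20sh_i ρR).comp h20sh_ev

theorem h20sh_q₀_apply (φ : G → R) (x : G) : h20sh_q₀ ρR φ x = φ x - ρR x (φ 1) := rfl

theorem h20sh_q₀_mem (φ : G → R) : h20sh_q₀ ρR φ ∈ h20sh_Rp G R := by
  rw [h20sh_mem_Rp, h20sh_q₀_apply]
  simp

/-- `q : Map(G, R) → R⁺` -/
def h20sh_q : (G → R) →ₗ[ℤ] h20sh_Rp G R :=
  (h20sh_q₀ ρR).codRestrict _ (h20sh_q₀_mem ρR)

theorem h20sh_q_coe (φ : G → R) : ((h20sh_q ρR φ : h20sh_Rp G R) : G → R) = h20sh_q₀ ρR φ := rfl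

theorem h20sh_q_of_mem (ψ : h20sh_Rp G R) : h20sh_q ρR ψ.1 = ψ := by
  apply Subtype.ext
  ext x
  have h1 : ψ.1 1 = 0 := (h20sh_mem_Rp _).1 ψ.2
  rw [h20sh_q_coe, h20sh_q₀_apply, h1, map_zero, sub_zero]

theorem h20sh_q_i (r : R) : h20sh_q ρR (h20sh_i ρR r) = 0 := by
  apply Subtype.ext
  ext x
  rw [h20sh_q_coe, h20sh_q₀_apply]
  simp [h20sh_i_apply]

theorem h20sh_q_eq_zero_iff (φ : G → R) : h20sh_q ρR φ = 0 ↔ ∃ r, h20sh_i ρR r = φ := by
  constructor
  · intro h
    refine ⟨φ 1, ?_⟩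
    ext x
    have := congrFun (congrArg Subtype.val h) x
    rw [h20sh_q_coe, h20sh_q₀_apply] at this
    simp only [ZeroMemClass.coe_zero, Pi.zero_apply] at this
    rw [h20sh_i_apply]
    exact (sub_eq_zero.1 this).symm
  · rintro ⟨r, rfl⟩
    exact h20sh_q_i ρR r

theorem h20sh_q_surjective : Function.Surjective (h20sh_q ρR) :=
  fun ψ => ⟨ψ.1, h20sh_q_of_mem ρR ψ⟩

/-- the action on `R⁺`: `g • ψ = q (g • ψ)` -/
def h20sh_reprP : Representation ℤ G (h20sh_Rp G R) where
  toFun g := (h20sh_q ρR).comp ((h20sh_coindRepr G R g).comp (h20sh_Rp G R).subtype)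
  map_one' := by
    ext ψ : 1
    simp only [map_one, LinearMap.coe_comp, Function.comp_apply, Submodule.coe_subtype,
      Module.End.one_apply]
    exact h20sh_q_of_mem ρR ψ
  map_mul' g h := by
    ext ψ : 1
    simp only [map_mul, LinearMap.coe_comp, Function.comp_apply, Submodule.coe_subtype,
      Module.End.mul_apply]
    apply Subtype.ext
    ext x
    simp only [h20sh_q_coe, h20sh_q₀_apply, h20sh_coindRepr_apply, one_mul]
    have h1 : ψ.1 1 = 0 := (h20sh_mem_Rp _).1 ψ.2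
    simp only [map_sub, ← Module.End.mul_apply, ← map_mul]
    rw [mul_assoc]
    abel

theorem h20sh_q_equivariant (g : G) (φ : G → R) :
    h20sh_q ρR (h20sh_coindRepr G R g φ) = h20sh_reprP ρR g (h20sh_q ρR φ) := by
  apply Subtype.ext
  ext x
  simp only [h20sh_reprP, MonoidHom.coe_mk, OneHom.coe_mk, LinearMap.coe_comp,
    Function.comp_apply, Submodule.coe_subtype, h20sh_q_coe, h20sh_q₀_apply,
    h20sh_coindRepr_apply, one_mul]
  simp only [map_sub, ← Module.End.mul_apply, ← map_mul]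
  abel

theorem h20_shiftLattice (G : Type) [Group G] [Finite G] : H20A.ShiftLatticeStatement G := by
  intro R _ _ _ ρR
  refine ⟨h20sh_Rp G R, inferInstance, inferInstance, inferInstance, h20sh_reprP ρR,
    G → R, inferInstance, h20sh_coindRepr G R, R, inferInstance,
    (h20sh_i ρR).toAddMonoidHom, (h20sh_q ρR).toAddMonoidHom, ?_, ?_, ?_, ?_, ?_, ?_⟩
  · exact ⟨eqToIso (h20sh_coindRepr_eq G R)⟩
  · exact fun g r => h20sh_i_equivariant ρR g r
  · exact fun g x => h20sh_q_equivariant ρR g x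
  · exact h20sh_i_injective ρR
  · exact h20sh_q_surjective ρR
  · exact fun x => h20sh_q_eq_zero_iff ρR x

end H20W3

end
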