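/-
W2-C (S55) block A wave 3, slice W3-11 (helper20): the cup product pairing
`H¹(G, Hom(R, C)) × H¹(G, R) → H²(G, C)` is perfect, from the `(2, 0)` pairing (W3-20) for the
shifted lattice.  `0 → R → P → R' → 0`, `P ≅ Map(G, W)`:
`δ⁰ : R'^G → H¹(R)` is onto with kernel the norms (mod `P^G`), `∂ : H¹(Hom(R, V)) ≅ H²(Hom(R', V))`
and `(ev_y)_* ∂[c] = [c ∪ δ⁰ y]`.
-/
import Fermat.Agent.CFT2.A.W3Coc_helper20
import Fermat.Agent.CFT2.A.W3Sh_helper20

set_option autoImplicit false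

noncomputable section

open CategoryTheory groupCohomology

namespace H20W3

variable {G : Type} [Group G]
  {R P R' V : Type} [AddCommGroup R] [AddCommGroup P] [AddCommGroup R'] [AddCommGroup V]
  {ρR : Representation ℤ G R} {ρP : Representation ℤ G P}
  {ρ' : Representation ℤ G R'} {i : R →+ P} {q : P →+ R'} (ρV : Representation ℤ G V)

/-- the class of `f ∘ y`, for a general morphism `f` -/
theorem h20c_cohMap_H2π' [Finite G] {A B : Rep ℤ G} (f : A ⟶ B) (y : cocycles₂ A)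
    (h : (fun gh => f.hom (y.1 gh)) ∈ cocycles₂ B) :
    H20A.cohMap f 2 ((H2π A).hom y) = (H2π B).hom ⟨fun gh => f.hom (y.1 gh), h⟩ := by
  have := H2π_comp_map_apply (MonoidHom.id G) f y
  exact this

/-- the image of a 2-cocycle under a morphism is a 2-cocycle -/
theorem h20c_map_mem {A B : Rep ℤ G} (f : A ⟶ B) (y : cocycles₂ A) :
    (fun gh => f.hom (y.1 gh)) ∈ cocycles₂ B := by
  have := (mapCocycles₂ (MonoidHom.id G) f y).2
  exact this

/-- the cup product of two 1-cocycles is a 2-cocycle -/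
theorem h20c_cup_mem (ρR : Representation ℤ G R) (c : G → (R →ₗ[ℤ] V)) (x : G → R)
    (hc : c ∈ cocycles₁ (Rep.of (H20A.homRep ρR ρV))) (hx : x ∈ cocycles₁ (Rep.of ρR)) :
    H20A.cup11Fun ρR c x ∈ cocycles₂ (Rep.of ρV) := by
  rw [mem_cocycles₁_iff] at hc hx
  rw [mem_cocycles₂_iff]
  intro g h j
  show c (g * h) (ρR (g * h) (x j)) + c g (ρR g (x h))
    = ρV g (c h (ρR h (x j))) + c g (ρR g (x (h * j)))
  have h1 : c (g * h) (ρR (g * h) (x j))
      = ρV g (c h (ρR g⁻¹ (ρR (g * h) (x j)))) + c g (ρR (g * h) (x j)) :=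
    LinearMap.congr_fun (hc g h) _
  have h2 : x (h * j) = ρR h (x j) + x h := hx h j
  rw [h1, h2, map_mul, Module.End.mul_apply, ← Module.End.mul_apply (ρR g⁻¹), ← map_mul,
    inv_mul_cancel, map_one, Module.End.one_apply, map_add, map_add]
  abel

section identity

variable [Finite G] [Module.Free ℤ R'] (E : h20c_Ext ρR ρP ρ' i q)

omit [Finite G] [Module.Free ℤ R'] in
/-- a lift `x` of `d p̃` along `i` is a cocycle -/
theorem h20c_lift_cocycle (E : h20c_Ext ρR ρP ρ' i q) (pt : P) (x : G → R)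
    (hx : ∀ g, i (x g) = ρP g pt - pt) :
    x ∈ cocycles₁ (Rep.of ρR) := by
  rw [mem_cocycles₁_iff]
  intro g h
  apply E.inj
  show i (x (g * h)) = i (ρR g (x h) + x g)
  rw [map_add, E.hi, hx, hx, hx, map_mul, Module.End.mul_apply, map_sub]
  abel

/-- the key identity for W3-11: `(ev_y)_* ∂[c] = [c ∪ x]` when `y = q p̃` and `i ∘ x = d p̃` -/
theorem h20c_ev_delta (c : cocycles₁ (Rep.of (H20A.homRep ρR ρV))) (pt : P) (y : R')
    (hy : ∀ g, ρ' g y = y) (hpy : q pt = y) (x : G → R) (hx : ∀ g, i (x g) = ρP g pt - pt)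
    (h : H20A.cup11Fun ρR c.1 x ∈ cocycles₂ (Rep.of ρV)) :
    H20A.cohMap (H20A.evHom ρ' ρV y hy) 2
      ((groupCohomology.δ (h20c_homSeq_shortExact ρV E) 1 2 rfl).hom
        ((H1π (Rep.of (H20A.homRep ρR ρV))).hom c))
    = (H2π (Rep.of ρV)).hom ⟨H20A.cup11Fun ρR c.1 x, h⟩ := by
  classical
  obtain ⟨σ, hσ⟩ := h20c_exists_section E
  obtain ⟨s, hs⟩ := h20c_exists_retraction E
  have hcc := (mem_cocycles₁_iff (A := Rep.of (H20A.homRep ρR ρV)) c.1).1 c.2
  have hxc := (mem_cocycles₁_iff (A := Rep.of ρR) x).1 (h20c_lift_cocycle E pt x hx)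
  -- lift of `c` to `Hom(P, V)`
  let ct : G → (P →ₗ[ℤ] V) := fun g => (c.1 g).comp s
  have hcti : ∀ g r, ct g (i r) = c.1 g r := fun g r => by
    show c.1 g (s (i r)) = c.1 g r
    rw [hs]
  -- `d c̃`
  let dct : G × G → (P →ₗ[ℤ] V) := fun gh =>
    H20A.homRep ρP ρV gh.1 (ct gh.2) - ct (gh.1 * gh.2) + ct gh.1
  have hdct : ∀ gh r, dct gh (i r) = 0 := by
    intro gh r
    show ρV gh.1 (ct gh.2 (ρP gh.1⁻¹ (i r))) - ct (gh.1 * gh.2) (i r) + ct gh.1 (i r) = 0
    rw [← E.hi, hcti, hcti, hcti]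
    have := LinearMap.congr_fun (hcc gh.1 gh.2) r
    rw [this]
    show ρV gh.1 (c.1 gh.2 (ρR gh.1⁻¹ r)) - (ρV gh.1 (c.1 gh.2 (ρR gh.1⁻¹ r)) + c.1 gh.1 r)
      + c.1 gh.1 r = 0
    abel
  let z : G × G → (R' →ₗ[ℤ] V) := fun gh => (dct gh).comp σ
  have hzq : ∀ gh p, z gh (q p) = dct gh p := by
    intro gh p
    show dct gh (σ (q p)) = dct gh p
    obtain ⟨r, hr⟩ := (E.ex (p - σ (q p))).1 (by rw [map_sub, hσ, sub_self])
    have := hdct gh r
    rw [hr, map_sub, sub_eq_zero] at this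
    exact this.symm
  have hct' : (h20c_homSeq ρV E).g.hom ∘ ct = c.1 := by
    funext g
    apply LinearMap.ext
    intro r
    exact hcti g r
  have hz' : (h20c_homSeq ρV E).f.hom ∘ z = d₁₂ (h20c_homSeq ρV E).X₂ ct := by
    funext gh
    apply LinearMap.ext
    intro p
    exact hzq gh p
  have key := groupCohomology.δ₁_apply (h20c_homSeq_shortExact ρV E) c ct hct' z hz'
  have hzmem : z ∈ cocycles₂ (Rep.of (H20A.homRep ρ' ρV)) :=
    groupCohomology.mem_cocycles₂_of_comp_eq_d₁₂ (h20c_homSeq_shortExact ρV E) hz'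
  have key' : (groupCohomology.δ (h20c_homSeq_shortExact ρV E) 1 2 rfl).hom
      ((H1π (Rep.of (H20A.homRep ρR ρV))).hom c)
      = (H2π (Rep.of (H20A.homRep ρ' ρV))).hom ⟨z, hzmem⟩ := key
  rw [key', h20c_cohMap_H2π' (H20A.evHom ρ' ρV y hy) ⟨z, hzmem⟩ (h20c_map_mem _ _)]
  refine h20c_H2π_eq ρV _ _ (fun g => ct g pt + c.1 g (x g)) ?_
  intro g k
  show z (g, k) y = c.1 g (ρR g (x k))
    + (ρV g (ct k pt + c.1 k (x k)) - (ct (g * k) pt + c.1 (g * k) (x (g * k)))
      + (ct g pt + c.1 g (x g)))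
  rw [← hpy, hzq]
  show ρV g (ct k (ρP g⁻¹ pt)) - ct (g * k) pt + ct g pt = _
  have e1 : ρP g⁻¹ pt = pt - i (ρR g⁻¹ (x g)) := by
    rw [E.hi, hx, map_sub, ← Module.End.mul_apply, ← map_mul, inv_mul_cancel, map_one,
      Module.End.one_apply]
    abel
  have e2 : c.1 (g * k) (x (g * k)) = ρV g (c.1 k (x k)) + ρV g (c.1 k (ρR g⁻¹ (x g)))
      + c.1 g (ρR g (x k)) + c.1 g (x g) := by
    have h1 : c.1 (g * k) (x (g * k))
        = ρV g (c.1 k (ρR g⁻¹ (x (g * k)))) + c.1 g (x (g * k)) :=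
      LinearMap.congr_fun (hcc g k) _
    rw [h1, hxc g k, map_add, ← Module.End.mul_apply (ρR g⁻¹), ← map_mul, inv_mul_cancel,
      map_one, Module.End.one_apply, map_add, map_add, map_add]
    abel
  rw [e1, map_sub, hcti, map_sub, e2, map_add]
  abel

end identity

/-- the norm is invariant -/
theorem h20c_norm_inv [Finite G] {A : Type} [AddCommGroup A] (ρA : Representation ℤ G A) (g : G)
    (a : A) : ρA g (H20A.normOf ρA a) = H20A.normOf ρA a := by
  let _ : Fintype G := Fintype.ofFinite G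
  show ρA g ((∑ h, ρA h : Module.End ℤ A) a) = (∑ h, ρA h : Module.End ℤ A) a
  rw [LinearMap.sum_apply, map_sum]
  refine Fintype.sum_equiv (Equiv.mulLeft g) _ _ fun h => ?_
  rw [Equiv.coe_mulLeft, map_mul, Module.End.mul_apply]

/-- the norm commutes with equivariant maps -/
theorem h20c_norm_comm [Finite G] {A B : Type} [AddCommGroup A] [AddCommGroup B]
    (ρA : Representation ℤ G A) (ρB : Representation ℤ G B) (f : A →+ B)
    (hf : ∀ g a, f (ρA g a) = ρB g (f a)) (a : A) :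
    f (H20A.normOf ρA a) = H20A.normOf ρB (f a) := by
  let _ : Fintype G := Fintype.ofFinite G
  show f ((∑ h, ρA h : Module.End ℤ A) a) = (∑ h, ρB h : Module.End ℤ B) (f a)
  rw [LinearMap.sum_apply, LinearMap.sum_apply, map_sum]
  exact Finset.sum_congr rfl fun h _ => hf h a

theorem h20_pair11 (G : Type) [Group G] [Finite G] (h20 : H20A.Pair20Statement G) :
    H20A.Pair11Statement G := by
  intro V _ ρV γ hC R _ _ _ ρR
  obtain ⟨R', _, _, _, ρ', P, _, ρP, W, _, i, q, ⟨e⟩, hi, hq, hinj, hsurj, hex⟩ :=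
    h20_shiftLattice G R ρR
  have E : h20c_Ext ρR ρP ρ' i q := ⟨hi, hq, hinj, hsurj, hex⟩
  obtain ⟨hA, hB⟩ := h20 V ρV γ hC R' ρ'
  refine ⟨fun c x hc hx => h20c_cup_mem ρV ρR c x hc hx, ?_, ?_⟩
  · -- right nondegeneracy
    intro x hx0
    -- `i ∘ x` is a coboundary
    have hix : (fun g => i (x.1 g)) ∈ cocycles₁ (Rep.of ρP) := by
      rw [mem_cocycles₁_iff]
      intro g h
      have := (mem_cocycles₁_iff (A := Rep.of ρR) x.1).1 x.2 g h
      show i (x.1 (g * h)) = ρP g (i (x.1 h)) + i (x.1 g)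
      rw [this, map_add, E.hi]
    have hz : (H1π (Rep.of ρP)) ⟨_, hix⟩ = 0 := by
      have := ModuleCat.subsingleton_of_isZero (h20c_coh_isZero e 0)
      exact Subsingleton.elim _ _
    obtain ⟨pt, hpt⟩ := (H1π_eq_zero_iff _).1 hz
    have hpt' : ∀ g, i (x.1 g) = ρP g pt - pt := fun g => (congrFun hpt g).symm
    have hy : ∀ g, ρ' g (q pt) = q pt := by
      intro g
      have := congrArg q (hpt' g)
      rw [E.qi, map_sub, E.hq] at this
      exact (sub_eq_zero.1 this.symm)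
    -- `q p̃` is not a norm
    have hnn : ¬ ∃ r₀ : R', q pt = H20A.normOf ρ' r₀ := by
      rintro ⟨r₀, hr₀⟩
      obtain ⟨p₀, rfl⟩ := E.surj r₀
      rw [← h20c_norm_comm ρP ρ' q E.hq] at hr₀
      obtain ⟨r, hr⟩ := (E.ex (pt - H20A.normOf ρP p₀)).1 (by rw [map_sub, hr₀, sub_self])
      apply hx0
      have : (H1π (Rep.of ρR)) x = 0 := by
        refine (H1π_eq_zero_iff _).2 ⟨r, ?_⟩
        funext g
        apply E.inj
        show i (ρR g r - r) = i (x.1 g)
        rw [hpt', map_sub, E.hi, hr, map_sub, h20c_norm_inv]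
        abel
      exact this
    have hex2 : ∃ c' : groupCohomology (Rep.of (H20A.homRep ρ' ρV)) 2,
        H20A.cohMap (H20A.evHom ρ' ρV (q pt) hy) 2 c' ≠ 0 := by
      by_contra hcon
      push Not at hcon
      exact hnn (hB (q pt) hy hcon)
    obtain ⟨c', hc'⟩ := hex2
    have hepi := groupCohomology.epi_δ_of_isZero (h20c_homSeq_shortExact ρV E) 1
      (h20c_coh_hom_isZero ρV e 1)
    obtain ⟨ξ, hξ⟩ := (ModuleCat.epi_iff_surjective _).1 hepi c'
    obtain ⟨c, hc⟩ := (ModuleCat.epi_iff_surjective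
      (H1π (Rep.of (H20A.homRep ρR ρV)))).1 inferInstance ξ
    have hmem := h20c_cup_mem ρV ρR c.1 x.1 c.2 x.2
    refine ⟨c, hmem, ?_⟩
    have key := h20c_ev_delta ρV E c pt (q pt) hy rfl x.1 hpt' hmem
    rw [← key]
    have hc'' : c' = (groupCohomology.δ (h20c_homSeq_shortExact ρV E) 1 2 rfl).hom
        ((H1π (Rep.of (H20A.homRep ρR ρV))).hom c) := by
      rw [← hξ, ← hc]
    rw [← hc'']
    exact hc'
  · -- left nondegeneracy
    intro c hc
    by_contra hne
    have hmono := groupCohomology.mono_δ_of_isZero (h20c_homSeq_shortExact ρV E) 1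
      (h20c_coh_hom_isZero ρV e 0)
    have hinj' := (ModuleCat.mono_iff_injective _).1 hmono
    have hne' : (groupCohomology.δ (h20c_homSeq_shortExact ρV E) 1 2 rfl).hom
        ((H1π (Rep.of (H20A.homRep ρR ρV))).hom c) ≠ 0 := by
      intro h0
      apply hne
      apply hinj'
      rw [map_zero]
      exact h0
    obtain ⟨y, hy, hev⟩ := hA _ hne'
    obtain ⟨pt, rfl⟩ := E.surj y
    have hx : ∀ g, ∃ r, i r = ρP g pt - pt := fun g =>
      (E.ex _).1 (by rw [map_sub, E.hq, hy, sub_self])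
    choose x hx using hx
    have hxmem := h20c_lift_cocycle E pt x hx
    have hmem := h20c_cup_mem ρV ρR c.1 x c.2 hxmem
    have key := h20c_ev_delta ρV E c pt (q pt) hy rfl x hx hmem
    apply hev
    rw [key]
    exact hc ⟨x, hxmem⟩ hmem

end H20W3

end
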