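/-
W2-C (S55) block A wave 3, slice W3-20 (helper20): the pairing
`H²(G, Hom(R, C)) × R^G → H²(G, C)`, `(c, r) ↦ (ev_r)_* c` is perfect, from Tate's theorem with
coefficients (W3-T) and lattice duality (W3-L).
-/
import Fermat.Agent.CFT2.A.Defs3

set_option autoImplicit false

noncomputable section

open CategoryTheory groupCohomology

namespace H20W3

variable {G : Type} [Group G]

theorem h20p_cohMap_comp [Finite G] {A B C : Rep ℤ G} (f : A ⟶ B) (g : B ⟶ C) (n : ℕ)
    (x : groupCohomology A n) :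
    H20A.cohMap (f ≫ g) n x = H20A.cohMap g n (H20A.cohMap f n x) := by
  simp only [H20A.cohMap, Functor.map_comp]
  rfl

theorem h20p_functor_map_zsmul {A : Rep ℤ G} (m : ℤ) (n : ℕ) :
    (groupCohomology.functor ℤ G n).map (m • 𝟙 A) = m • 𝟙 _ := by
  have := (cochainsFunctor ℤ G ⋙ HomologicalComplex.homologyFunctor (ModuleCat ℤ) _ n).map_zsmul
      (f := 𝟙 A) (r := m)
  rw [CategoryTheory.Functor.map_id] at this
  exact this

theorem h20p_cohMap_zsmul [Finite G] {A : Rep ℤ G} (m : ℤ) (n : ℕ) (x : groupCohomology A n) :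
    H20A.cohMap (m • 𝟙 A) n x = m • x := by
  simp only [H20A.cohMap, h20p_functor_map_zsmul]
  rfl

section

variable [Finite G] {R V : Type} [AddCommGroup R] [AddCommGroup V]
  (ρR : Representation ℤ G R) (ρV : Representation ℤ G V)

omit [Finite G] in
theorem h20p_scalar_ev (f : R →ₗ[ℤ] ℤ) (hf : ∀ g r, f (ρR g r) = f r) (r : R)
    (hr : ∀ g, ρR g r = r) :
    H20A.scalarHom ρR ρV f hf ≫ H20A.evHom ρR ρV r hr = (f r) • 𝟙 (Rep.of ρV) := by
  apply Rep.hom_ext
  ext v
  rfl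

theorem h20p_ev_scalar_coh (f : R →ₗ[ℤ] ℤ) (hf : ∀ g r, f (ρR g r) = f r) (r : R)
    (hr : ∀ g, ρR g r = r) (n : ℕ) (x : groupCohomology (Rep.of ρV) n) :
    H20A.cohMap (H20A.evHom ρR ρV r hr) n (H20A.cohMap (H20A.scalarHom ρR ρV f hf) n x)
      = (f r) • x := by
  rw [← h20p_cohMap_comp, h20p_scalar_ev, h20p_cohMap_zsmul]

end

/-- in a finite additive group generated by `x`, `m • x = 0` implies `card ∣ m` -/
theorem h20p_card_dvd_of_zsmul_eq_zero {M : Type} [AddCommGroup M] (x : M)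
    (hgen : ∀ y : M, ∃ k : ℤ, y = k • x) (n : ℕ) (hn : Nat.card M = n) (m : ℤ)
    (hm : m • x = 0) : (n : ℤ) ∣ m := by
  have h1 : addOrderOf x = Nat.card M := by
    apply addOrderOf_eq_card_of_forall_mem_zmultiples
    intro y
    obtain ⟨k, rfl⟩ := hgen y
    exact AddSubgroup.zsmul_mem _ (AddSubgroup.mem_zmultiples x) k
  rw [← hn, ← h1]
  exact addOrderOf_dvd_iff_zsmul_eq_zero.2 hm

/-- the fundamental class of a class module has order exactly `|G|` -/
theorem h20p_card_dvd_of_zsmul_gamma [Finite G] (C : Rep ℤ G) (γ : groupCohomology C 2)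
    (hC : H20A.IsClassModule C γ) (m : ℤ) (hm : m • γ = 0) : (Nat.card G : ℤ) ∣ m := by
  have hcard := hC.card ⊤
  have hgen := hC.gen ⊤
  have h2 : m • H20A.resCoh C ⊤ 2 γ = 0 := by
    rw [← map_zsmul, hm, map_zero]
  have h3 : Nat.card (⊤ : Subgroup G) = Nat.card G := Nat.card_congr Subgroup.topEquiv.toEquiv
  exact h20p_card_dvd_of_zsmul_eq_zero _ hgen _ (hcard.trans h3) m h2

theorem h20_pair20 (G : Type) [Group G] [Finite G] (hT : H20A.TateCoeffStatement G)
    (hL : H20A.LatticeDualityStatement G) : H20A.Pair20Statement G := by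
  intro V _ ρV γ hC R _ _ _ ρR
  obtain ⟨hT1, hT2⟩ := hT V ρV γ hC R ρR
  obtain ⟨hL1, hL2⟩ := hL R ρR
  refine ⟨?_, ?_⟩
  · intro c hc
    obtain ⟨f, hf, rfl⟩ := hT1 c
    by_contra hcon
    push Not at hcon
    apply hc
    rw [hT2 f hf]
    apply hL2 f hf
    intro r hr
    have h := hcon r hr
    rw [h20p_ev_scalar_coh] at h
    exact h20p_card_dvd_of_zsmul_gamma _ γ hC _ h
  · intro r hr h
    apply hL1 r hr
    intro f hf
    have h1 := h (H20A.cohMap (H20A.scalarHom ρR ρV f hf) 2 γ)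
    rw [h20p_ev_scalar_coh] at h1
    exact h20p_card_dvd_of_zsmul_gamma _ γ hC _ h1

end H20W3

end
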