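import Mathlib
import Fermat.Agent.CFT2.A.Defs3

/-!
# W2-C (S55), block A, wave 3, slice W3-L (helper25): duality for lattices in degree `(0,0)`

`H20A.LatticeDualityStatement G`: for a `G`-lattice `R` the pairing
`R^G / N R × Hom_G(R, ℤ) / N Hom(R, ℤ) → ℤ / |G|`, `(r, f) ↦ f r`, is perfect:
* if `r ∈ R^G` and `|G| ∣ f r` for all invariant functionals `f`, then `r ∈ N R`
  (coordinates of the lattice `N R`);
* if `f` is an invariant functional with `|G| ∣ f r` for all `r ∈ R^G`, then `f = f₀ ∘ N`
  (`R^G` is a direct summand of `R`, because `R / R^G` embeds in `Map(G, R)`).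
-/

set_option autoImplicit false

namespace H25W3L

open H20A

section

variable {G : Type} [Group G] [Finite G] {R : Type} [AddCommGroup R] (ρR : Representation ℤ G R)

theorem normOf_apply_self (g : G) (x : R) : normOf ρR (ρR g x) = normOf ρR x := by
  letI : Fintype G := Fintype.ofFinite G
  exact Representation.norm_self_apply ρR g x

theorem self_normOf_apply (g : G) (x : R) : ρR g (normOf ρR x) = normOf ρR x := by
  letI : Fintype G := Fintype.ofFinite G
  exact Representation.self_norm_apply ρR g x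

theorem normOf_eq_sum [Fintype G] (x : R) : normOf ρR x = ∑ g : G, ρR g x := by
  unfold normOf
  have : (Fintype.ofFinite G) = ‹Fintype G› := Subsingleton.elim _ _
  rw [this]
  simp [Representation.norm]

theorem normOf_of_invariant (r : R) (hr : ∀ g, ρR g r = r) :
    normOf ρR r = (Nat.card G : ℤ) • r := by
  letI : Fintype G := Fintype.ofFinite G
  rw [normOf_eq_sum]
  simp only [hr, Finset.sum_const, Finset.card_univ, Nat.card_eq_fintype_card]
  simp

theorem apply_normOf (f : R →ₗ[ℤ] ℤ) (hf : ∀ g x, f (ρR g x) = f x) (x : R) :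
    f (normOf ρR x) = (Nat.card G : ℤ) * f x := by
  letI : Fintype G := Fintype.ofFinite G
  rw [normOf_eq_sum, map_sum]
  simp only [hf, Finset.sum_const, Finset.card_univ, Nat.card_eq_fintype_card]
  simp

/-- the norm as a linear map -/
noncomputable def nrmLin : R →ₗ[ℤ] R := (normOf ρR).toIntLinearMap

theorem nrmLin_apply (x : R) : nrmLin ρR x = normOf ρR x := rfl

variable [Module.Free ℤ R] [Module.Finite ℤ R]

/-- **W3-L, part 1**: an invariant `r` on which all invariant functionals take values in `|G| ℤ`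
is a norm. -/
theorem lattice_left (r : R) (hr : ∀ g, ρR g r = r)
    (h : ∀ f : R →ₗ[ℤ] ℤ, (∀ g x, f (ρR g x) = f x) → (Nat.card G : ℤ) ∣ f r) :
    ∃ r₀ : R, r = normOf ρR r₀ := by
  classical
  have hn0 : (Nat.card G : ℤ) ≠ 0 := by exact_mod_cast Nat.card_pos.ne'
  let Λ : Submodule ℤ R := LinearMap.range (nrmLin ρR)
  let b := Module.Free.chooseBasis ℤ Λ
  letI : Fintype (Module.Free.ChooseBasisIndex ℤ Λ) := Module.Free.ChooseBasisIndex.fintype ℤ Λ
  let N' : R →ₗ[ℤ] Λ := (nrmLin ρR).rangeRestrict
  have hdiv : ∀ i, (Nat.card G : ℤ) ∣ b.coord i (N' r) := fun i =>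
    h ((b.coord i).comp N') (fun g x => by
      have : N' (ρR g x) = N' x := Subtype.ext (normOf_apply_self ρR g x)
      simp only [LinearMap.comp_apply, this])
  choose c hc using hdiv
  have hx : ∀ i, ∃ x, nrmLin ρR x = (b i : R) := fun i => (b i).2
  choose x hx using hx
  refine ⟨∑ i, c i • x i, ?_⟩
  have h1 : (N' r : R) = (Nat.card G : ℤ) • r := normOf_of_invariant ρR r hr
  have h2 : N' r = ∑ i, (b.coord i (N' r)) • b i := (b.sum_repr (N' r)).symm
  have h3 : (N' r : R) = (Nat.card G : ℤ) • normOf ρR (∑ i, c i • x i) := by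
    rw [h2]
    rw [← nrmLin_apply, map_sum, Finset.smul_sum]
    simp only [Submodule.coe_sum, Submodule.coe_smul, map_smul]
    refine Finset.sum_congr rfl fun i _ => ?_
    rw [hc i, hx i, mul_smul]
  rw [h1] at h3
  exact smul_right_injective R hn0 h3

/-- **W3-L, part 2**: an invariant functional with values in `|G| ℤ` on the invariants is a
norm `f₀ ∘ N`. -/
theorem lattice_right (f : R →ₗ[ℤ] ℤ) (hf : ∀ g x, f (ρR g x) = f x)
    (h : ∀ r : R, (∀ g, ρR g r = r) → (Nat.card G : ℤ) ∣ f r) :
    ∃ f₀ : R →ₗ[ℤ] ℤ, ∀ r, f r = f₀ (normOf ρR r) := by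
  classical
  have hn0 : (Nat.card G : ℤ) ≠ 0 := by exact_mod_cast Nat.card_pos.ne'
  -- `R^G` is a direct summand: `R / R^G` embeds in `Map(G, R)`
  let D : R →ₗ[ℤ] (G → R) := LinearMap.pi (fun g => ρR g - LinearMap.id)
  have hD : ∀ r g, D r g = ρR g r - r := fun r g => rfl
  let D' : R →ₗ[ℤ] LinearMap.range D := D.rangeRestrict
  have hsurj : Function.Surjective D' := D.surjective_rangeRestrict
  obtain ⟨s, hs⟩ := Module.projective_lifting_property D' LinearMap.id hsurj
  have hs' : ∀ y, D' (s y) = y := fun y => congrArg (fun φ => φ y) hs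
  let π : R →ₗ[ℤ] R := LinearMap.id - s.comp D'
  have hπ : ∀ r, π r = r - s (D' r) := fun r => rfl
  have hπinv : ∀ r g, ρR g (π r) = π r := by
    intro r g
    have h0 : D' (π r) = 0 := by
      rw [hπ, map_sub, hs', sub_self]
    have h1 : D (π r) g = 0 := by
      have : D (π r) = 0 := congrArg Subtype.val h0
      rw [this]
      rfl
    rw [hD] at h1
    exact sub_eq_zero.1 h1
  have hπid : ∀ r, (∀ g, ρR g r = r) → π r = r := by
    intro r hr
    have h0 : D' r = 0 := by
      apply Subtype.ext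
      funext g
      show D r g = 0
      rw [hD, hr, sub_self]
    rw [hπ, h0, map_zero, sub_zero]
  -- divide `f ∘ π` by `|G|`
  have hdiv : ∀ r, (Nat.card G : ℤ) ∣ f (π r) := fun r => h (π r) (hπinv r)
  choose q hq using hdiv
  have hqadd : ∀ x y, q (x + y) = q x + q y := by
    intro x y
    have h1 : (Nat.card G : ℤ) * q (x + y) = (Nat.card G : ℤ) * (q x + q y) := by
      rw [← hq, mul_add, ← hq, ← hq, map_add, map_add]
    exact mul_left_cancel₀ hn0 h1
  refine ⟨(AddMonoidHom.mk' q hqadd).toIntLinearMap, fun r => ?_⟩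
  show f r = q (normOf ρR r)
  have h2 : (Nat.card G : ℤ) * q (normOf ρR r) = (Nat.card G : ℤ) * f r := by
    rw [← hq, hπid _ (fun g => self_normOf_apply ρR g r), apply_normOf ρR f hf]
  exact (mul_left_cancel₀ hn0 h2).symm

end

/-- **W3-L**: `H20A.LatticeDualityStatement`. -/
theorem helper25_latticeDuality (G : Type) [Group G] [Finite G] :
    H20A.LatticeDualityStatement G := by
  intro R _ _ _ ρR
  exact ⟨fun r hr h => lattice_left ρR r hr h, fun f hf h => lattice_right ρR f hf h⟩

end H25W3L
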