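/-
W2-C (S55) block A wave 3, slice W3-NT0 (helper20): Nakayama–Tate in degree `(0, 2)` for a
(full) class module, from the `(1, 1)` pairing (W3-11) for the shifted lattice.
`0 → R → P → R' → 0`, `P ≅ Map(G, W)`: `δ : H¹(R') → H²(R)` is onto, and for `c ∈ Z¹(Hom(R', V))`
with `q^* c = d b̃`, `b = b̃ ∘ i ∈ Hom_G(R, V)` one has `b_* δ[x] = -[c ∪ x]`.
-/
import Fermat.Agent.CFT2.A.W3Coc_helper20
import Fermat.Agent.CFT2.A.W3Sh_helper20

set_option autoImplicit false

noncomputable section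

open CategoryTheory groupCohomology

namespace H20W3

variable {G : Type} [Group G]
  {R P R' V : Type} [AddCommGroup R] [AddCommGroup P] [AddCommGroup R'] [AddCommGroup V]
  {ρR : Representation ℤ G R} {ρP : Representation ℤ G P}
  {ρ' : Representation ℤ G R'} {i : R →+ P} {q : P →+ R'} (ρV : Representation ℤ G V)

/-- `q^* c` is a cocycle -/
theorem h20n_pre_cocycle (E : h20c_Ext ρR ρP ρ' i q) (c : G → (R' →ₗ[ℤ] V))
    (hc : c ∈ cocycles₁ (Rep.of (H20A.homRep ρ' ρV))) :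
    (fun g => (c g).comp q.toIntLinearMap) ∈ cocycles₁ (Rep.of (H20A.homRep ρP ρV)) := by
  rw [mem_cocycles₁_iff] at hc ⊢
  intro g h
  apply LinearMap.ext
  intro p
  have h1 := LinearMap.congr_fun (hc g h) (q p)
  show c (g * h) (q p) = ρV g (c h (q (ρP g⁻¹ p))) + c g (q p)
  rw [E.hq]
  exact h1

theorem h20_nt0Right (G : Type) [Group G] [Finite G] (hP : H20A.Pair11Statement G) :
    H20A.NT0RightStatement G := by
  intro V _ ρV γ hC R _ _ _ ρR u hu
  obtain ⟨R', _, _, _, ρ', P, _, ρP, W, _, i, q, ⟨e⟩, hi, hq, hinj, hsurj, hex⟩ :=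
    h20_shiftLattice G R ρR
  have E : h20c_Ext ρR ρP ρ' i q := ⟨hi, hq, hinj, hsurj, hex⟩
  have hepi := groupCohomology.epi_δ_of_isZero (h20c_seq_shortExact E) 1 (h20c_coh_isZero e 1)
  have hsur := (ModuleCat.epi_iff_surjective _).1 hepi
  obtain ⟨ξ, hξ⟩ := hsur u
  obtain ⟨x, hx⟩ := (ModuleCat.epi_iff_surjective (H1π (Rep.of ρ'))).1 inferInstance ξ
  have hx0 : (H1π (Rep.of ρ')).hom x ≠ 0 := by
    intro h0
    apply hu
    rw [← hξ, ← hx]
    have : (H1π (Rep.of ρ')) x = 0 := h0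
    rw [this, map_zero]
  obtain ⟨-, hnd, -⟩ := hP V ρV γ hC R' ρ'
  obtain ⟨c, hcx, hne⟩ := hnd x hx0
  have hqc := h20n_pre_cocycle ρV E c.1 c.2
  have hz : (H1π (Rep.of (H20A.homRep ρP ρV))) ⟨_, hqc⟩ = 0 := by
    have := ModuleCat.subsingleton_of_isZero (h20c_coh_hom_isZero ρV e 0)
    exact Subsingleton.elim _ _
  obtain ⟨bt, hbt⟩ := (H1π_eq_zero_iff _).1 hz
  have hc : ∀ g p, c.1 g (q p) = H20A.homRep ρP ρV g bt p - bt p := by
    intro g p
    have := congrFun hbt g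
    exact (LinearMap.congr_fun this p).symm
  have hb : ∀ g r, (bt.comp i.toIntLinearMap).toAddMonoidHom (ρR g r)
      = ρV g ((bt.comp i.toIntLinearMap).toAddMonoidHom r) := by
    intro g r
    show bt (i (ρR g r)) = ρV g (bt (i r))
    have h1 := hc g (i (ρR g r))
    rw [E.qi, map_zero, Representation.linHom_apply] at h1
    simp only [LinearMap.coe_comp, Function.comp_apply] at h1
    rw [E.hi, ← Module.End.mul_apply, ← map_mul, inv_mul_cancel, map_one,
      Module.End.one_apply] at h1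
    rw [E.hi]
    exact (sub_eq_zero.1 h1.symm).symm
  refine ⟨(bt.comp i.toIntLinearMap).toAddMonoidHom, hb, ?_⟩
  have key := h20c_delta_cup ρV E x c.1 bt hc _ hb (fun r => rfl) hcx
  have hu' : u = (groupCohomology.δ (h20c_seq_shortExact E) 1 2 rfl).hom
      ((H1π (Rep.of ρ')).hom x) := by
    rw [← hξ, ← hx]
  rw [hu', key]
  exact neg_ne_zero.2 hne

/-- the norm commutes with precomposition by an equivariant map -/
theorem h20n_norm_comp [Finite G] (E : h20c_Ext ρR ρP ρ' i q) (f : P →ₗ[ℤ] V) (r : R) :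
    (H20A.normOf (H20A.homRep ρP ρV) f : P →ₗ[ℤ] V) (i r)
      = (H20A.normOf (H20A.homRep ρR ρV) (f.comp i.toIntLinearMap) : R →ₗ[ℤ] V) r := by
  let _ : Fintype G := Fintype.ofFinite G
  show ((∑ g, H20A.homRep ρP ρV g : Module.End ℤ (P →ₗ[ℤ] V)) f) (i r)
    = ((∑ g, H20A.homRep ρR ρV g : Module.End ℤ (R →ₗ[ℤ] V)) (f.comp i.toIntLinearMap)) r
  rw [LinearMap.sum_apply, LinearMap.sum_apply, LinearMap.sum_apply, LinearMap.sum_apply]
  refine Finset.sum_congr rfl fun g _ => ?_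
  show ρV g (f (ρP g⁻¹ (i r))) = ρV g (f (i (ρR g⁻¹ r)))
  rw [E.hi]

theorem h20_nt0Left (G : Type) [Group G] [Finite G] (hP : H20A.Pair11Statement G) :
    H20A.NT0LeftStatement G := by
  intro V _ ρV γ hC R _ _ _ ρR b hb hkill
  obtain ⟨R', _, _, _, ρ', P, _, ρP, W, _, i, q, ⟨e⟩, hi, hq, hinj, hsurj, hex⟩ :=
    h20_shiftLattice G R ρR
  have E : h20c_Ext ρR ρP ρ' i q := ⟨hi, hq, hinj, hsurj, hex⟩
  obtain ⟨σ, hσ⟩ := h20c_exists_section E
  obtain ⟨s, hs⟩ := h20c_exists_retraction E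
  -- extend `b` to `b̃ : P → V`
  obtain ⟨bt, hbi⟩ : ∃ bt : P →ₗ[ℤ] V, ∀ r, b r = bt (i r) :=
    ⟨b.toIntLinearMap.comp s, fun r => by
      show b r = b (s (i r))
      rw [hs]⟩
  -- `g b̃ - b̃` vanishes on `R`
  have hvan : ∀ g r, H20A.homRep ρP ρV g bt (i r) - bt (i r) = 0 := by
    intro g r
    rw [Representation.linHom_apply]
    simp only [LinearMap.coe_comp, Function.comp_apply]
    rw [← E.hi, ← hbi, ← hbi, hb, ← Module.End.mul_apply, ← map_mul, mul_inv_cancel, map_one,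
      Module.End.one_apply, sub_self]
  obtain ⟨c, hc⟩ : ∃ c : G → (R' →ₗ[ℤ] V),
      ∀ g p, c g (q p) = H20A.homRep ρP ρV g bt p - bt p := by
    refine ⟨fun g => (H20A.homRep ρP ρV g bt - bt).comp σ, fun g p => ?_⟩
    show H20A.homRep ρP ρV g bt (σ (q p)) - bt (σ (q p)) = _
    obtain ⟨r, hr⟩ := (E.ex (p - σ (q p))).1 (by rw [map_sub, hσ, sub_self])
    have h1 := hvan g r
    rw [hr, map_sub, map_sub] at h1
    have h2 := sub_eq_zero.1 h1
    rw [sub_eq_sub_iff_add_eq_add] at h2 ⊢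
    rw [add_comm, ← h2, add_comm]
  have hcmem : c ∈ cocycles₁ (Rep.of (H20A.homRep ρ' ρV)) := by
    rw [mem_cocycles₁_iff]
    intro g h
    apply LinearMap.ext
    intro y
    obtain ⟨p, rfl⟩ := E.surj y
    show c (g * h) (q p) = ρV g (c h (ρ' g⁻¹ (q p))) + c g (q p)
    rw [← E.hq, hc, hc, hc]
    simp only [Representation.linHom_apply, LinearMap.coe_comp, Function.comp_apply]
    rw [mul_inv_rev, map_mul, map_mul, Module.End.mul_apply, Module.End.mul_apply, map_sub]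
    abel
  obtain ⟨-, -, hnd⟩ := hP V ρV γ hC R' ρ'
  have h0 : (H1π (Rep.of (H20A.homRep ρ' ρV))).hom ⟨c, hcmem⟩ = 0 := by
    apply hnd
    intro x h
    have key := h20c_delta_cup ρV E x c bt hc b hb hbi h
    rw [hkill] at key
    exact neg_eq_zero.1 key.symm
  obtain ⟨e', he'⟩ := (H1π_eq_zero_iff _).1 h0
  have he : ∀ g y, H20A.homRep ρ' ρV g e' y - e' y = c g y := by
    intro g y
    have := congrFun he' g
    exact LinearMap.congr_fun this y
  have hinv : ∀ g, H20A.homRep ρP ρV g (bt - e'.comp q.toIntLinearMap)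
      = bt - e'.comp q.toIntLinearMap := by
    intro g
    apply LinearMap.ext
    intro p
    have h1 := hc g p
    have h2 := he g (q p)
    rw [Representation.linHom_apply] at h1 h2 ⊢
    simp only [LinearMap.coe_comp, Function.comp_apply, LinearMap.sub_apply, map_sub,
      AddMonoidHom.coe_toIntLinearMap] at h1 h2 ⊢
    rw [E.hq]
    rw [← h2] at h1
    rw [sub_eq_sub_iff_add_eq_add] at h1 ⊢
    rw [add_comm (bt p), ← h1]
  obtain ⟨f₀, hf₀⟩ := h20c_inv_norm ρV e _ hinv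
  refine ⟨f₀.comp i.toIntLinearMap, ?_⟩
  apply LinearMap.ext
  intro r
  rw [← h20n_norm_comp ρV E f₀ r, ← hf₀]
  show b r = bt (i r) - e' (q (i r))
  rw [E.qi, map_zero, sub_zero, hbi]

end H20W3

end
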