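/-
W2-C (S55) block A, wave 3 (helper26): **W3-Rec** `H26Rec.h26rec_recCard G : H20A.RecCardStatement G`:
for a class module `(C, γ)`, `[C^G : N_G C] = |G^ab|`.

`C^G / N C = Ĥ⁰(G, C)` (AT0, helper10) `≅ Ĥ⁻²(G, ℤ)` (Tate's theorem, `H26AT.h26at_tate`)
`≅ H₁(G, ℤ) ≅ G^ab ⊗ ℤ` (Mathlib).
-/
import Mathlib
import Fermat.Agent.CFT2.A.Defs
import Fermat.Agent.CFT2.A.Defs3
import Fermat.Agent.CFT2.A.ATate_helper26
import Fermat.Agent.CFT2.A.AT0_helper10

set_option autoImplicit false
set_option linter.style.haveILetI false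
set_option linter.unusedSectionVars false
noncomputable section
namespace H26Rec
open CategoryTheory Rep groupCohomology

section card
variable {G : Type} [Group G] [Finite G]

/-- `|Ĥ⁻²(G, ℤ)| = |G^ab|` -/
theorem card_tate_neg_two :
    Nat.card (H20A.tate (Rep.trivial ℤ G ℤ) (-2)) = Nat.card (Abelianization G) := by
  letI : Fintype G := Fintype.ofFinite G
  have e1 := (TateCohomology.isoGroupHomology (R := ℤ) (G := G) (-2) 1 (by norm_num)).app
    (Rep.trivial ℤ G ℤ)
  have e2 := groupHomology.H1AddEquivOfIsTrivial (Rep.trivial ℤ G ℤ)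
  have e3 : TensorProduct ℤ (Additive (Abelianization G)) ℤ ≃ₗ[ℤ] Additive (Abelianization G) :=
    TensorProduct.rid ℤ (Additive (Abelianization G))
  have c1 : Nat.card (H20A.tate (Rep.trivial ℤ G ℤ) (-2)) =
      Nat.card (groupHomology (Rep.trivial ℤ G ℤ) 1) :=
    Nat.card_congr e1.toLinearEquiv.toEquiv
  have c2 : Nat.card (groupHomology (Rep.trivial ℤ G ℤ) 1) =
      Nat.card (TensorProduct ℤ (Additive (Abelianization G)) ℤ) :=
    Nat.card_congr e2.toEquiv
  have c3 : Nat.card (TensorProduct ℤ (Additive (Abelianization G)) ℤ) =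
      Nat.card (Additive (Abelianization G)) := Nat.card_congr e3.toEquiv
  rw [c1, c2, c3]
  rfl


/-- `|Ĥ⁰(G, V)| = [V^G : N V]` -/
theorem card_tate_zero {V : Type} [AddCommGroup V] (ρ : Representation ℤ G V) :
    Nat.card (H20A.tate (Rep.of ρ) 0) =
      (H20A.normOf ρ).range.relIndex ρ.invariants.toAddSubgroup := by
  obtain ⟨π, hsurj, hker, -⟩ := H10AT.h10at_tateZero G
  let ι : ρ.invariants.toAddSubgroup →+ ρ.invariants :=
    { toFun := fun x => ⟨x.1, x.2⟩
      map_zero' := rfl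
      map_add' := fun _ _ => rfl }
  let π' : ρ.invariants.toAddSubgroup →+ H20A.tate (Rep.of ρ) 0 := (π V ρ).comp ι
  have hs : Function.Surjective π' := by
    intro t
    obtain ⟨x, hx⟩ := hsurj V ρ t
    exact ⟨⟨x.1, x.2⟩, hx⟩
  have hk : π'.ker = (H20A.normOf ρ).range.addSubgroupOf ρ.invariants.toAddSubgroup := by
    ext x
    rw [AddMonoidHom.mem_ker, AddSubgroup.mem_addSubgroupOf, AddMonoidHom.mem_range]
    exact hker V ρ (ι x)
  have h1 := AddSubgroup.index_ker π'
  rw [AddMonoidHom.range_eq_top.2 hs, AddSubgroup.card_top] at h1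
  rw [AddSubgroup.relIndex, ← hk, h1]

end card

section final

/-- **W3-Rec**: for a class module, `[C^G : N_G C] = |G^ab|` (`H20A.RecCardStatement`). -/
theorem h26rec_recCard (G : Type) [Group G] [Finite G] : H20A.RecCardStatement G := by
  intro V _ ρ γ hcm
  obtain ⟨e⟩ := H26AT.h26at_tate G (Rep.of ρ) γ hcm (-2)
  have h2 : ((-2 : ℤ) + 2) = 0 := by norm_num
  rw [h2] at e
  rw [← card_tate_zero ρ, ← card_tate_neg_two (G := G)]
  exact (Nat.card_congr e.toLinearEquiv.toEquiv).symm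

end final
end H26Rec
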