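import Mathlib
import Fermat.Agent.CFT2.A.Defs3
import Fermat.Agent.CFT2.A.W3U_helper22
import Fermat.Agent.CFT2.A.AVFinal_helper25

set_option autoImplicit false
set_option linter.unusedSectionVars false
set_option linter.unusedSimpArgs false
set_option linter.unusedVariables false

noncomputable section

open CategoryTheory groupCohomology Limits

namespace H22W3H

open H20A H22AI H22W3U

variable {G : Type} [Group G]

/-! ## Canonical form of objects, elementwise short exactness -/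

/-- every object of `Rep ℤ G` is `Rep.of ρ` for a representation on an abelian group with its
canonical `ℤ`-module structure -/
theorem h22w3h_can (A : Rep.{0} ℤ G) :
    ∃ (V : Type) (_ : AddCommGroup V) (ρ : Representation ℤ G V), A = Rep.of ρ := by
  have key : ∀ (V : Type) [AddCommGroup V] (m : Module ℤ V)
      (ρ : @Representation ℤ G V _ _ _ m),
      ∃ (V' : Type) (_ : AddCommGroup V') (ρ' : Representation ℤ G V'),
        @Rep.of ℤ G _ _ V _ m ρ = Rep.of ρ' := by
    intro V _ m ρ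
    obtain rfl : m = AddCommGroup.toIntModule V := Subsingleton.elim _ _
    exact ⟨V, _, ρ, rfl⟩
  exact key A.V A.hV2 A.ρ

theorem h22w3h_exact_iff (X : ShortComplex (Rep.{0} ℤ G)) :
    X.Exact ↔ ∀ x₂ : X.X₂, X.g.hom x₂ = 0 → ∃ x₁ : X.X₁, X.f.hom x₁ = x₂ :=
  H5AF.h5af_exact_iff X

/-- elementwise criterion for short exactness in `Rep ℤ G` -/
theorem h22w3h_shortExact_of (X : ShortComplex (Rep.{0} ℤ G)) (hf : Function.Injective X.f.hom)
    (hg : Function.Surjective X.g.hom)
    (hex : ∀ x₂ : X.X₂, X.g.hom x₂ = 0 → ∃ x₁ : X.X₁, X.f.hom x₁ = x₂) : X.ShortExact :=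
  ShortComplex.ShortExact.mk' ((h22w3h_exact_iff X).2 hex)
    ((Rep.mono_iff_injective _).2 hf) ((Rep.epi_iff_surjective _).2 hg)

theorem h22w3h_inj_of_shortExact {X : ShortComplex (Rep.{0} ℤ G)} (h : X.ShortExact) :
    Function.Injective X.f.hom := (Rep.mono_iff_injective _).1 h.mono_f

theorem h22w3h_surj_of_shortExact {X : ShortComplex (Rep.{0} ℤ G)} (h : X.ShortExact) :
    Function.Surjective X.g.hom := (Rep.epi_iff_surjective _).1 h.epi_g

theorem h22w3h_ex_of_shortExact {X : ShortComplex (Rep.{0} ℤ G)} (h : X.ShortExact) :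
    ∀ x₂ : X.X₂, X.g.hom x₂ = 0 → ∃ x₁ : X.X₁, X.f.hom x₁ = x₂ :=
  (h22w3h_exact_iff X).1 h.exact

/-! ## Tate cohomology: vanishing from the long exact sequence -/

section les

variable [Finite G]

theorem h22w3h_L1 {S : ShortComplex (Rep.{0} ℤ G)} (hS : S.ShortExact) (m : ℤ)
    (h3 : IsZero (tate S.X₃ m)) (h2 : IsZero (tate S.X₂ (m + 1))) :
    IsZero (tate S.X₁ (m + 1)) := by
  let _ : Fintype G := Fintype.ofFinite G
  exact (TateCohomology.exact₁ hS m).isZero_X₂ (h3.eq_of_src _ _) (h2.eq_of_tgt _ _)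

theorem h22w3h_L3 {S : ShortComplex (Rep.{0} ℤ G)} (hS : S.ShortExact) (m : ℤ)
    (h2 : IsZero (tate S.X₂ m)) (h1 : IsZero (tate S.X₁ (m + 1))) :
    IsZero (tate S.X₃ m) := by
  let _ : Fintype G := Fintype.ofFinite G
  exact (TateCohomology.exact₃ hS m).isZero_X₂ (h2.eq_of_src _ _) (h1.eq_of_tgt _ _)

theorem h22w3h_L1' {S : ShortComplex (Rep.{0} ℤ G)} (hS : S.ShortExact)
    (h3 : ∀ m, IsZero (tate S.X₃ m)) (h2 : ∀ m, IsZero (tate S.X₂ m)) (n : ℤ) :
    IsZero (tate S.X₁ n) := by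
  have := h22w3h_L1 hS (n - 1) (h3 _) (h2 _)
  rwa [sub_add_cancel] at this

theorem h22w3h_L3' {S : ShortComplex (Rep.{0} ℤ G)} (hS : S.ShortExact)
    (h2 : ∀ m, IsZero (tate S.X₂ m)) (h1 : ∀ m, IsZero (tate S.X₁ m)) (n : ℤ) :
    IsZero (tate S.X₃ n) :=
  h22w3h_L3 hS n (h2 _) (h1 _)

/-- if `Ĥ(X₃) = 0` then `f_*` is injective on Tate cohomology -/
theorem h22w3h_inj {S : ShortComplex (Rep.{0} ℤ G)} (hS : S.ShortExact)
    (h3 : ∀ m, IsZero (tate S.X₃ m)) (n : ℤ) :
    Function.Injective (tateMap S.f n) := by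
  let _ : Fintype G := Fintype.ofFinite G
  have h := (TateCohomology.exact₁ hS (n - 1)).mono_g ((h3 (n - 1)).eq_of_src _ _)
  have e : n - 1 + 1 = n := sub_add_cancel n 1
  have h' : Mono ((tateCohomologyFunctor n).map S.f) := by
    rw [← e]; exact h
  exact (ModuleCat.mono_iff_injective _).1 h'

end les

end H22W3H
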