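import Mathlib
import Fermat.Agent.CFT2.A.W3H1_helper22

set_option autoImplicit false
set_option linter.unusedSectionVars false
set_option linter.unusedSimpArgs false
set_option linter.unusedVariables false

noncomputable section

open CategoryTheory groupCohomology Limits

namespace H22W3H

open H20A H22AI H22W3U

variable {G : Type} [Group G]

/-! ## The functor `Hom(R, -)` -/

section homFunctor

variable {R : Type} [AddCommGroup R] (ρR : Representation ℤ G R)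
variable {V₁ V₂ V₃ : Type} [AddCommGroup V₁] [AddCommGroup V₂] [AddCommGroup V₃]
  {ρ₁ : Representation ℤ G V₁} {ρ₂ : Representation ℤ G V₂} {ρ₃ : Representation ℤ G V₃}

/-- the underlying linear map of a morphism -/
def h22w3h_lin (f : Rep.of ρ₁ ⟶ Rep.of ρ₂) : V₁ →ₗ[ℤ] V₂ := f.hom.toLinearMap

theorem h22w3h_lin_apply (f : Rep.of ρ₁ ⟶ Rep.of ρ₂) (v : V₁) : h22w3h_lin f v = f.hom v := rfl

theorem h22w3h_lin_comm (f : Rep.of ρ₁ ⟶ Rep.of ρ₂) (g : G) (v : V₁) :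
    h22w3h_lin f (ρ₁ g v) = ρ₂ g (h22w3h_lin f v) :=
  Rep.hom_comm_apply f g v

/-- post-composition `Hom(R, V₁) → Hom(R, V₂)` -/
def h22w3h_homMap (f : Rep.of ρ₁ ⟶ Rep.of ρ₂) :
    Rep.of (homRep ρR ρ₁) ⟶ Rep.of (homRep ρR ρ₂) :=
  h22ai_mkHom (Rep.of (homRep ρR ρ₁)) (Rep.of (homRep ρR ρ₂))
    { toFun := fun φ => h22w3h_lin f ∘ₗ φ
      map_zero' := by simp
      map_add' := fun φ ψ => by ext r; simp }
    (fun g (φ : R →ₗ[ℤ] V₁) => by
      ext r
      show h22w3h_lin f (ρ₁ g (φ (ρR g⁻¹ r))) = ρ₂ g (h22w3h_lin f (φ (ρR g⁻¹ r)))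
      exact h22w3h_lin_comm f g _)

theorem h22w3h_homMap_apply (f : Rep.of ρ₁ ⟶ Rep.of ρ₂) (φ : R →ₗ[ℤ] V₁) (r : R) :
    ((h22w3h_homMap ρR f).hom φ : R →ₗ[ℤ] V₂) r = f.hom (φ r) := rfl

variable [Module.Free ℤ R]

/-- `Hom(R, -)` preserves short exact sequences (`R` free) -/
theorem h22w3h_homSES (f : Rep.of ρ₁ ⟶ Rep.of ρ₂) (g : Rep.of ρ₂ ⟶ Rep.of ρ₃) (w : f ≫ g = 0)
    (hS : (ShortComplex.mk f g w).ShortExact) :
    ∃ w' : h22w3h_homMap ρR f ≫ h22w3h_homMap ρR g = 0,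
      (ShortComplex.mk (h22w3h_homMap ρR f) (h22w3h_homMap ρR g) w').ShortExact := by
  have hinj : Function.Injective f.hom := h22w3h_inj_of_shortExact hS
  have hsurj : Function.Surjective g.hom := h22w3h_surj_of_shortExact hS
  have hex : ∀ x₂ : V₂, g.hom x₂ = 0 → ∃ x₁ : V₁, f.hom x₁ = x₂ := h22w3h_ex_of_shortExact hS
  have hzero : ∀ x : V₁, g.hom (f.hom x) = 0 := by
    intro x
    have := congrArg (fun k => k.hom x) w
    exact this
  have w' : h22w3h_homMap ρR f ≫ h22w3h_homMap ρR g = 0 := by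
    apply h22w3u_hom_ext
    intro (φ : R →ₗ[ℤ] V₁)
    show (h22w3h_homMap ρR g).hom ((h22w3h_homMap ρR f).hom φ) = 0
    ext r
    rw [h22w3h_homMap_apply, h22w3h_homMap_apply]
    exact hzero _
  refine ⟨w', h22w3h_shortExact_of _ ?_ ?_ ?_⟩
  · intro (φ : R →ₗ[ℤ] V₁) (ψ : R →ₗ[ℤ] V₁) h
    ext r
    apply hinj
    have := congrArg (fun k : R →ₗ[ℤ] V₂ => k r) h
    exact this
  · intro (ψ : R →ₗ[ℤ] V₃)
    obtain ⟨φ, hφ⟩ := Module.projective_lifting_property (h22w3h_lin g) ψ hsurj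
    exact ⟨φ, hφ⟩
  · intro (φ : R →ₗ[ℤ] V₂) hφ
    have hmem : ∀ r, φ r ∈ LinearMap.range (h22w3h_lin f) := by
      intro r
      have h1 : g.hom (φ r) = 0 := by
        have := congrArg (fun k : R →ₗ[ℤ] V₃ => k r) hφ
        exact this
      obtain ⟨x, hx⟩ := hex _ h1
      exact ⟨x, hx⟩
    obtain ⟨ψ, hψ⟩ := Module.projective_lifting_property (h22w3h_lin f).rangeRestrict
      (φ.codRestrict _ hmem) (LinearMap.surjective_rangeRestrict _)
    refine ⟨ψ, ?_⟩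
    ext r
    have := congrArg (fun k : R →ₗ[ℤ] LinearMap.range (h22w3h_lin f) => (k r : V₂)) hψ
    exact this

end homFunctor

end H22W3H
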