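/-
W2-C (S55) block A wave 3, slice W3-P (helper26): Serre, Local Fields IX Thm 5.
`H26W3P.h26w3p_pGroupFree G : H20A.PGroupFreeStatement G`:
for a finite `p`-group `G` and a `G`-module `A` with `p A = 0` and `Ĥ⁻²(G, A) = H₁(G, A) = 0`,
`A ≅ Map(G, W)` (with `W = A_G`).

* `h26w3p_nakayama` : Nakayama for `p`-groups (`M = B + I_G M ⇒ M = B`), by a nonzero `G`-fixed
  functional in the finite span of an orbit in the dual (fixed points of `p`-group actions).
* `Φ : Map(G, A_G) → A`, `φ ↦ ∑ x⁻¹ s(φ x)` for an additive section `s` of `A → A_G`; onto by Nakayama;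
  `K = ker Φ` has `Ĥ⁻¹(K) = 0` (Tate sequence) and `N = 0` on `K`, hence `K = I_G K` (AT0), `K = 0`.
-/
import Mathlib
import Fermat.Agent.CFT2.A.Defs
import Fermat.Agent.CFT2.A.Defs3
import Fermat.Agent.CFT2.A.AI2_helper22
import Fermat.Agent.CFT2.A.AT0_helper10
import Fermat.Agent.CFT2.A.ATateSplit_helper26
import Fermat.Agent.CFT2.A.ARLow_helper26

set_option autoImplicit false
set_option linter.style.haveILetI false
set_option linter.unusedSectionVars false
noncomputable section
namespace H26W3P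
open CategoryTheory

section nakayama
variable {G : Type} [Group G] [Finite G] {M : Type} [AddCommGroup M]

theorem nakayama_aux (p : ℕ) [Fact p.Prime] [Module (ZMod p) M] (hG : IsPGroup p G)
    (ρ : Representation ℤ G M)
    (B : AddSubgroup M) (hB : ∀ (g : G) (b : M), b ∈ B → ρ g b ∈ B)
    (h : ∀ m : M, ∃ b ∈ B, m - b ∈ Representation.Coinvariants.ker ρ) (m : M) : m ∈ B := by
  classical
  by_contra hm
  obtain ⟨f, hfm, hBf⟩ : ∃ f : M →ₗ[ZMod p] ZMod p, f m ≠ 0 ∧ ∀ b : M, b ∈ B → f b = 0 := by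
    have hm' : m ∉ AddSubgroup.toZModSubmodule p B :=
      fun hh => hm ((AddSubgroup.mem_toZModSubmodule p).1 hh)
    obtain ⟨f, hfm, hBf⟩ := Submodule.exists_le_ker_of_notMem hm'
    exact ⟨f, hfm, fun b hb => hBf ((AddSubgroup.mem_toZModSubmodule p).2 hb)⟩
  -- the action on `M`, as `ZMod p`-linear maps
  let T : G → (M →ₗ[ZMod p] M) := fun g => (ρ g : M →ₗ[ℤ] M).toAddMonoidHom.toZModLinearMap p
  have hT : ∀ g x, T g x = ρ g x := fun g x => rfl
  let act : G → Module.Dual (ZMod p) M → Module.Dual (ZMod p) M := fun g μ => μ ∘ₗ T g⁻¹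
  have hact : ∀ g μ x, act g μ x = μ (ρ g⁻¹ x) := fun g μ x => rfl
  have hact_one : ∀ μ, act 1 μ = μ := by
    intro μ
    ext x
    rw [hact, inv_one, map_one]
    rfl
  have hact_mul : ∀ g h μ, act (g * h) μ = act g (act h μ) := by
    intro g h μ
    ext x
    rw [hact, hact, hact, mul_inv_rev, map_mul]
    rfl
  have hact_add : ∀ g μ ν, act g (μ + ν) = act g μ + act g ν := fun g μ ν => rfl
  have hact_smul : ∀ g (c : ZMod p) μ, act g (c • μ) = c • act g μ := fun g c μ => rfl
  have hact_zero : ∀ g, act g 0 = 0 := fun g => rfl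
  let N : Submodule (ZMod p) (Module.Dual (ZMod p) M) :=
    Submodule.span (ZMod p) (Set.range (fun g => act g f))
  have hNstab : ∀ g μ, μ ∈ N → act g μ ∈ N := by
    intro g μ hμ
    induction hμ using Submodule.span_induction with
    | mem x hx =>
      obtain ⟨h', rfl⟩ := hx
      apply Submodule.subset_span
      exact ⟨g * h', hact_mul g h' f⟩
    | zero => rw [hact_zero]; exact N.zero_mem
    | add x y _ _ hx hy => rw [hact_add]; exact N.add_mem hx hy
    | smul c x _ hx => rw [hact_smul]; exact N.smul_mem c hx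
  have hNB : ∀ μ, μ ∈ N → ∀ b, b ∈ B → μ b = 0 := by
    intro μ hμ
    induction hμ using Submodule.span_induction with
    | mem x hx =>
      obtain ⟨h', rfl⟩ := hx
      intro b hb
      rw [hact]
      exact hBf _ (hB h'⁻¹ b hb)
    | zero => intro b _; rfl
    | add x y _ _ hx hy =>
      intro b hb
      rw [LinearMap.add_apply, hx b hb, hy b hb, add_zero]
    | smul c x _ hx =>
      intro b hb
      rw [LinearMap.smul_apply, hx b hb, smul_zero]
  have hfN : f ∈ N := Submodule.subset_span ⟨1, hact_one f⟩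
  letI : MulAction G N :=
    { smul := fun g μ => ⟨act g μ.1, hNstab g μ.1 μ.2⟩
      one_smul := fun μ => Subtype.ext (hact_one μ.1)
      mul_smul := fun g h μ => Subtype.ext (hact_mul g h μ.1) }
  have hsmul : ∀ (g : G) (μ : N), ((g • μ : N) : Module.Dual (ZMod p) M) = act g μ.1 :=
    fun g μ => rfl
  haveI : Module.Finite (ZMod p) N := Module.Finite.span_of_finite (ZMod p) (Set.finite_range _)
  haveI : Finite N := Module.finite_of_finite (ZMod p)
  have hf0 : (⟨f, hfN⟩ : N) ≠ 0 := by
    intro h0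
    apply hfm
    have h1 : f = 0 := congrArg Subtype.val h0
    rw [h1]
    rfl
  have hpN : p ∣ Nat.card N := by
    have h1 : addOrderOf (⟨f, hfN⟩ : N) = p := by
      apply addOrderOf_eq_prime
      · apply Subtype.ext
        change p • f = 0
        ext x
        rw [LinearMap.smul_apply, LinearMap.zero_apply]
        exact (ZModModule.char_nsmul_eq_zero p (f x))
      · exact hf0
    have h2 := addOrderOf_dvd_natCard (⟨f, hfN⟩ : N)
    rw [h1] at h2
    exact h2
  have h0fix : (0 : N) ∈ MulAction.fixedPoints G N := by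
    intro g
    apply Subtype.ext
    rw [hsmul]
    exact hact_zero g
  obtain ⟨μ, hμfix, hμne⟩ :=
    hG.exists_fixed_point_of_prime_dvd_card_of_fixed_point N hpN h0fix
  have hμinv : ∀ g x, μ.1 (ρ g x) = μ.1 x := by
    intro g x
    have h1 := congrArg Subtype.val (hμfix g⁻¹)
    rw [hsmul] at h1
    have h2 : act g⁻¹ μ.1 x = μ.1 x := congrArg (fun ν => ν x) h1
    rw [hact, inv_inv] at h2
    exact h2
  have hμker : ∀ c, c ∈ Representation.Coinvariants.ker ρ → μ.1 c = 0 := by
    intro c hc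
    unfold Representation.Coinvariants.ker at hc
    induction hc using Submodule.span_induction with
    | mem x hx =>
      obtain ⟨⟨g, y⟩, rfl⟩ := hx
      change μ.1 (ρ g y - y) = 0
      rw [map_sub, hμinv, sub_self]
    | zero => exact map_zero _
    | add x y _ _ hx hy => rw [map_add, hx, hy, add_zero]
    | smul c x _ hx => rw [map_zsmul, hx, smul_zero]
  apply hμne
  apply Subtype.ext
  symm
  ext x
  obtain ⟨b, hb, hxb⟩ := h x
  have h1 : x = b + (x - b) := by abel
  rw [h1, map_add, hNB μ.1 μ.2 b hb, hμker _ hxb, add_zero]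
  rfl

/-- **Nakayama for `p`-groups**: if `G` is a finite `p`-group acting on an abelian group `M`
killed by `p`, and `B` is a `G`-stable subgroup with `M = B + I_G M`, then `B = M`. -/
theorem h26w3p_nakayama (p : ℕ) [Fact p.Prime] (hG : IsPGroup p G) (ρ : Representation ℤ G M)
    (hp : ∀ m : M, p • m = 0) (B : AddSubgroup M) (hB : ∀ (g : G) (b : M), b ∈ B → ρ g b ∈ B)
    (h : ∀ m : M, ∃ b ∈ B, m - b ∈ Representation.Coinvariants.ker ρ) (m : M) : m ∈ B :=
  letI : Module (ZMod p) M := AddCommGroup.zmodModule hp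
  nakayama_aux p hG ρ B hB h m

end nakayama
section sectionmap
variable {A W : Type} [AddCommGroup A] [AddCommGroup W]

theorem exists_section_aux (p : ℕ) [Fact p.Prime] [Module (ZMod p) A] [Module (ZMod p) W]
    (π : A →+ W) (hπ : Function.Surjective π) : ∃ s : W →+ A, ∀ w, π (s w) = w := by
  have h1 : LinearMap.range (π.toZModLinearMap p) = ⊤ :=
    LinearMap.range_eq_top.2 hπ
  obtain ⟨g, hg⟩ := LinearMap.exists_rightInverse_of_surjective (π.toZModLinearMap p) h1
  refine ⟨g.toAddMonoidHom, fun w => ?_⟩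
  have h2 := congrArg (fun f => f w) hg
  exact h2

/-- a surjection of abelian groups killed by `p` has an additive section -/
theorem exists_section (p : ℕ) [Fact p.Prime] (hA : ∀ a : A, p • a = 0) (hW : ∀ w : W, p • w = 0)
    (π : A →+ W) (hπ : Function.Surjective π) : ∃ s : W →+ A, ∀ w, π (s w) = w :=
  letI : Module (ZMod p) A := AddCommGroup.zmodModule hA
  letI : Module (ZMod p) W := AddCommGroup.zmodModule hW
  exists_section_aux p π hπ

end sectionmap

section main
variable {G : Type} [Group G] [Fintype G] {A : Type} [AddCommGroup A]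
variable (ρ : Representation ℤ G A) {W : Type} [AddCommGroup W] (s : W →+ A)

/-- `Φ(φ) = ∑_x x⁻¹ s(φ(x))` -/
def phiAdd : (G → W) →+ A where
  toFun φ := ∑ x : G, ρ x⁻¹ (s (φ x))
  map_zero' := by simp
  map_add' a b := by simp [Finset.sum_add_distrib]

theorem phiAdd_apply (φ : G → W) : phiAdd ρ s φ = ∑ x : G, ρ x⁻¹ (s (φ x)) := rfl

theorem phiAdd_equivariant (g : G) (φ : G → W) :
    phiAdd ρ s (fun x => φ (x * g)) = ρ g (phiAdd ρ s φ) :=
  H22AI.h22ai_down_equivariant ρ g (fun x => s (φ x))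

theorem phiAdd_single [DecidableEq G] (w : W) :
    phiAdd ρ s (Pi.single (1 : G) w) = s w := by
  rw [phiAdd_apply, Finset.sum_eq_single (1 : G)]
  · simp
  · intro x _ hx
    simp [hx]
  · intro h
    exact absurd (Finset.mem_univ _) h

/-- `Φ` as a morphism `Map(G, W) ⟶ A` -/
def phiHom : H20A.coindOne G W ⟶ Rep.of ρ :=
  H22AI.h22ai_mkHom (H20A.coindOne G W) (Rep.of ρ) (phiAdd ρ s)
    (fun g (φ : G → W) => phiAdd_equivariant ρ s g φ)

theorem phiHom_apply (φ : G → W) : (phiHom ρ s).hom φ = phiAdd ρ s φ := rfl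

theorem phi_surjective (p : ℕ) [Fact p.Prime] (hG : IsPGroup p G) (hA : ∀ a : A, p • a = 0)
    (s : ρ.Coinvariants →+ A) (hs : ∀ w, Representation.Coinvariants.mk ρ (s w) = w) :
    Function.Surjective (phiAdd ρ s) := by
  classical
  intro a
  have h1 := h26w3p_nakayama p hG ρ hA (phiAdd ρ s).range
    (fun g b hb => by
      obtain ⟨φ, rfl⟩ := hb
      exact ⟨fun x => φ (x * g), phiAdd_equivariant ρ s g φ⟩)
    (fun m => by
      refine ⟨s (Representation.Coinvariants.mk ρ m),
        ⟨Pi.single (1 : G) (Representation.Coinvariants.mk ρ m), phiAdd_single ρ s _⟩, ?_⟩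
      rw [← Representation.Coinvariants.mk_eq_zero, map_sub, hs, sub_self]) a
  exact h1

/-- the action of `G` on `ker Φ` -/
def kerAct (g : G) : (phiAdd ρ s).ker →+ (phiAdd ρ s).ker where
  toFun k := ⟨fun x => k.1 (x * g), by
    rw [AddMonoidHom.mem_ker, phiAdd_equivariant, (AddMonoidHom.mem_ker).1 k.2, map_zero]⟩
  map_zero' := rfl
  map_add' _ _ := rfl

theorem kerAct_apply (g : G) (k : (phiAdd ρ s).ker) (x : G) :
    (kerAct ρ s g k).1 x = k.1 (x * g) := rfl

/-- `ker Φ` as a representation (canonical `ℤ`-module structure) -/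
def kerRho : @Representation ℤ G (phiAdd ρ s).ker _ _ _
    (AddCommGroup.toIntModule (phiAdd ρ s).ker) :=
  @H26AT.mkRep G _ (phiAdd ρ s).ker _ (AddCommGroup.toIntModule (phiAdd ρ s).ker)
    (kerAct ρ s)
    (fun k => by
      apply Subtype.ext
      funext x
      rw [kerAct_apply, mul_one])
    (fun g h k => by
      apply Subtype.ext
      funext x
      rw [kerAct_apply, kerAct_apply, kerAct_apply, mul_assoc])

theorem kerRho_apply (g : G) (k : (phiAdd ρ s).ker) (x : G) :
    (kerRho ρ s g k).1 x = k.1 (x * g) := rfl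

/-- the inclusion `ker Φ → Map(G, W)` -/
def kerIncl : Rep.of (kerRho ρ s) ⟶ H20A.coindOne G W :=
  H22AI.h22ai_mkHom (Rep.of (kerRho ρ s)) (H20A.coindOne G W) (phiAdd ρ s).ker.subtype
    (fun _ _ => rfl)

/-- `0 → ker Φ → Map(G, W) → A → 0` -/
def kerSeq : ShortComplex (Rep.{0} ℤ G) :=
  ShortComplex.mk (kerIncl ρ s) (phiHom ρ s) (by
    apply Rep.hom_ext
    ext k
    exact k.2)

theorem kerSeq_shortExact (hsurj : Function.Surjective (phiAdd ρ s)) :
    (kerSeq ρ s).ShortExact := by
  refine H26AT.shortExact_of (kerSeq ρ s) ?_ hsurj ?_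
  · intro x y hxy
    exact Subtype.ext hxy
  · intro (φ : G → W) hφ
    exact ⟨⟨φ, hφ⟩, rfl⟩

end main
section final

theorem eq_zero_of_isZero' {M : ModuleCat.{0} ℤ} (h : Limits.IsZero M) (x : M) : x = 0 := by
  have h1 : (𝟙 M : M ⟶ M) = 0 := h.eq_of_src _ _
  have h2 := congrArg (fun f => f.hom x) h1
  exact h2

theorem mk_phiAdd {G : Type} [Group G] [Fintype G] {A : Type} [AddCommGroup A]
    (ρ : Representation ℤ G A) (s : ρ.Coinvariants →+ A)
    (hs : ∀ w, Representation.Coinvariants.mk ρ (s w) = w) (φ : G → ρ.Coinvariants) :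
    Representation.Coinvariants.mk ρ (phiAdd ρ s φ) = ∑ x : G, φ x := by
  rw [phiAdd_apply, map_sum]
  refine Finset.sum_congr rfl (fun x _ => ?_)
  rw [Representation.Coinvariants.mk_self_apply, hs]

/-- **W3-P** (Serre, Local Fields IX Thm 5). -/
theorem h26w3p_pGroupFree (G : Type) [Group G] [Finite G] : H20A.PGroupFreeStatement G := by
  intro p _ hG A _ ρ hA hT
  letI : Fintype G := Fintype.ofFinite G
  have hW : ∀ w : ρ.Coinvariants, p • w = 0 := by
    intro w
    induction w using Representation.Coinvariants.induction_on with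
    | h v => rw [← map_nsmul, hA, map_zero]
  obtain ⟨s, hs⟩ := exists_section p hA hW (Representation.Coinvariants.mk ρ).toAddMonoidHom
    (Representation.Coinvariants.mk_surjective ρ)
  have hsurj := phi_surjective ρ p hG hA s hs
  have hS := kerSeq_shortExact ρ s hsurj
  -- `Ĥ⁻¹(G, ker Φ) = 0`
  have hK : ∀ x : tateCohomology (Rep.of (kerRho ρ s)) (-2 + 1), x = 0 := by
    intro x
    have hex := TateCohomology.exact₁ hS (-2)
    rw [ShortComplex.moduleCat_exact_iff] at hex
    obtain ⟨y, hy⟩ := hex x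
      (eq_zero_of_isZero' (H22AI.h22ai_tate_isZero ρ.Coinvariants (-2 + 1)) _)
    have hy0 : y = 0 := eq_zero_of_isZero' hT y
    rw [← hy, hy0]
    exact map_zero _
  obtain ⟨πT, -, hker, -⟩ := H10AT.h10at_tateNegOne G
  have hnorm : ∀ k : (phiAdd ρ s).ker, H20A.normOf (kerRho ρ s) k = 0 := by
    intro k
    rw [H26AR.normOf_apply]
    apply Subtype.ext
    rw [AddSubgroup.val_finsetSum]
    funext x
    rw [Finset.sum_apply]
    change ∑ g : G, k.1 (x * g) = 0
    have h1 := mk_phiAdd ρ s hs k.1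
    rw [(AddMonoidHom.mem_ker).1 k.2, map_zero] at h1
    rw [h1]
    exact Fintype.sum_equiv (Equiv.mulLeft x) _ _ (fun y => rfl)
  have hmem : ∀ k : (phiAdd ρ s).ker, k ∈ Representation.Coinvariants.ker (kerRho ρ s) := by
    intro k
    exact (hker _ (kerRho ρ s) ⟨k, hnorm k⟩).1 (hK _)
  have hpK : ∀ k : (phiAdd ρ s).ker, p • k = 0 := by
    intro k
    apply Subtype.ext
    funext x
    exact hW (k.1 x)
  have hK0 : ∀ k : (phiAdd ρ s).ker, k = 0 := by
    intro k
    have h1 := h26w3p_nakayama p hG (kerRho ρ s) hpK ⊥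
      (fun g b hb => by
        rw [AddSubgroup.mem_bot] at hb ⊢
        rw [hb, map_zero])
      (fun m => ⟨0, AddSubgroup.zero_mem _, by rw [sub_zero]; exact hmem m⟩) k
    exact (AddSubgroup.mem_bot).1 h1
  have hinj : Function.Injective (phiAdd ρ s) :=
    (injective_iff_map_eq_zero _).2 (fun φ hφ => congrArg Subtype.val (hK0 ⟨φ, hφ⟩))
  haveI : Mono (phiHom ρ s) := (Rep.mono_iff_injective _).2 hinj
  haveI : Epi (phiHom ρ s) := (Rep.epi_iff_surjective _).2 hsurj
  haveI : IsIso (phiHom ρ s) := isIso_of_mono_of_epi _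
  exact ⟨ρ.Coinvariants, inferInstance, ⟨(asIso (phiHom ρ s)).symm⟩⟩

end final

end H26W3P
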