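import Mathlib
import Fermat.Agent.CFT2.A.W3H2_helper22
import Fermat.Agent.CFT2.A.W3P_helper26
import Fermat.Agent.CFT2.A.ARFinal_helper26

set_option autoImplicit false
set_option linter.unusedSectionVars false
set_option linter.unusedSimpArgs false
set_option linter.unusedVariables false

noncomputable section

open CategoryTheory groupCohomology Limits

namespace H22W3H

open H20A H22AI H22W3U

variable {G : Type} [Group G] [Finite G]

/-! ## `|G|` kills Tate cohomology -/

/-- modules over the trivial group are coinduced -/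
def h22w3h_trivIso [Subsingleton G] {V : Type} [AddCommGroup V] (ρ : Representation ℤ G V) :
    Rep.of ρ ≅ coindOne G V :=
  h22w3u_mkIso (Rep.of ρ) (coindOne G V)
    { toFun := fun a _ => a, map_zero' := rfl, map_add' := fun _ _ => rfl }
    { toFun := fun φ => φ 1, map_zero' := rfl, map_add' := fun _ _ => rfl }
    (fun g a => by
      obtain rfl : g = 1 := Subsingleton.elim _ _
      funext x
      show ρ 1 a = a
      simp)
    (fun a => rfl)
    (fun φ => by
      funext x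
      show φ 1 = φ x
      rw [Subsingleton.elim x 1])

theorem h22w3h_tate_isZero_of_subsingleton [Subsingleton G] (A : Rep.{0} ℤ G) (n : ℤ) :
    IsZero (tate A n) := by
  obtain ⟨V, _, ρ, rfl⟩ := h22w3h_can A
  let _ : Fintype G := Fintype.ofFinite G
  exact (h22ai_tate_isZero V n).of_iso ((tateCohomologyFunctor n).mapIso (h22w3h_trivIso ρ))

theorem h22w3h_card_kills (A : Rep.{0} ℤ G) (n : ℤ) (x : tate A n) : Nat.card G • x = 0 := by
  have h := H26AR.h26ar_indexKillsTate G A ⊥ n (h22w3h_tate_isZero_of_subsingleton _ n) x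
  rwa [Subgroup.index_bot] at h

/-! ## multiplication by `p` on Tate cohomology -/

theorem h22w3h_tateMap_nsmul (A : Rep.{0} ℤ G) (p : ℕ) (n : ℤ) (x : tate A n) :
    tateMap (p • 𝟙 A) n x = p • x := by
  let _ : Fintype G := Fintype.ofFinite G
  have : (tateCohomologyFunctor (R := ℤ) (G := G) n).Additive := by
    unfold tateCohomologyFunctor; infer_instance
  show ((tateCohomologyFunctor n).map (p • 𝟙 A)).hom x = p • x
  rw [Functor.map_nsmul, CategoryTheory.Functor.map_id]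
  rfl

/-- if `p` is injective on `Ĥⁿ(G, A)` and `G` is a `p`-group then `Ĥⁿ(G, A) = 0` -/
theorem h22w3h_isZero_of_inj (p : ℕ) [Fact p.Prime] (hG : IsPGroup p G) (A : Rep.{0} ℤ G) (n : ℤ)
    (hinj : Function.Injective (tateMap (p • 𝟙 A) n)) : IsZero (tate A n) := by
  obtain ⟨k, hk⟩ := IsPGroup.iff_card.1 hG
  have h1 : ∀ x : tate A n, p • x = 0 → x = 0 := by
    intro x hx
    apply hinj
    rw [h22w3h_tateMap_nsmul, hx, map_zero]
  have h2 : ∀ (j : ℕ) (x : tate A n), p ^ j • x = 0 → x = 0 := by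
    intro j
    induction j with
    | zero => intro x hx; simpa using hx
    | succ j ih =>
      intro x hx
      apply ih
      apply h1
      rw [← mul_smul, ← pow_succ']
      exact hx
  rw [ModuleCat.isZero_iff_subsingleton]
  refine ⟨fun a b => ?_⟩
  have ha : a = 0 := h2 k a (by rw [← hk]; exact h22w3h_card_kills A n a)
  have hb : b = 0 := h2 k b (by rw [← hk]; exact h22w3h_card_kills A n b)
  rw [ha, hb]

/-! ## the torsion-free step -/

section claim2

variable {Q : Type} [AddCommGroup Q] (ρQ : Representation ℤ G Q)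
variable {R : Type} [AddCommGroup R] [Module.Free ℤ R] (ρR : Representation ℤ G R)

theorem h22w3h_homMap_nsmul (p : ℕ) :
    h22w3h_homMap ρR (p • 𝟙 (Rep.of ρQ)) = p • 𝟙 (Rep.of (homRep ρR ρQ)) := by
  apply h22w3u_hom_ext
  intro (φ : R →ₗ[ℤ] Q)
  rfl

/-- `Q` cohomologically trivial for the `p`-group `G`, `Q̄ = Q / p` (as an abstract cokernel
of an injective `p`): then `Ĥ(G, Hom(R, Q)) = 0` -/
theorem h22w3h_claim2 (hP : PGroupFreeStatement G) (p : ℕ) [Fact p.Prime] (hG : IsPGroup p G)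
    (hQ : ∀ m, IsZero (tate (Rep.of ρQ) m))
    {Qb : Type} [AddCommGroup Qb] (ρb : Representation ℤ G Qb)
    (π : Rep.of ρQ ⟶ Rep.of ρb) (w : (p • 𝟙 (Rep.of ρQ)) ≫ π = 0)
    (hS : (ShortComplex.mk (p • 𝟙 (Rep.of ρQ)) π w).ShortExact) (n : ℤ) :
    IsZero (tate (Rep.of (homRep ρR ρQ)) n) := by
  -- `p` kills `Q̄`
  have hsurj : Function.Surjective π.hom := h22w3h_surj_of_shortExact hS
  have hpb : ∀ x : Qb, p • x = 0 := by
    intro x
    obtain ⟨y, rfl⟩ := hsurj x
    have h1 := congrArg (fun k => k.hom y) w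
    have h2 : π.hom (p • y) = 0 := h1
    rw [← h2, map_nsmul]
  -- `Ĥ(Q̄) = 0`
  have hQb : ∀ m, IsZero (tate (Rep.of ρb) m) := fun m => h22w3h_L3' hS hQ hQ m
  obtain ⟨W', _, ⟨e⟩⟩ := hP p hG Qb ρb hpb (hQb (-2))
  have hHb : ∀ m, IsZero (tate (Rep.of (homRep ρR ρb)) m) := by
    intro m
    let _ : Fintype G := Fintype.ofFinite G
    exact (h22ai_tate_isZero _ m).of_iso ((tateCohomologyFunctor m).mapIso (h22w3u_iso2 e ρR))
  obtain ⟨w', hS'⟩ := h22w3h_homSES ρR (p • 𝟙 (Rep.of ρQ)) π w hS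
  have hinj := h22w3h_inj hS' hHb n
  apply h22w3h_isZero_of_inj p hG
  have : h22w3h_homMap ρR (p • 𝟙 (Rep.of ρQ)) = p • 𝟙 (Rep.of (homRep ρR ρQ)) :=
    h22w3h_homMap_nsmul ρQ ρR p
  rw [← this]
  exact hinj

/-- the same with `Q / p` an arbitrary object -/
theorem h22w3h_claim2' (hP : PGroupFreeStatement G) (p : ℕ) [Fact p.Prime] (hG : IsPGroup p G)
    (hQ : ∀ m, IsZero (tate (Rep.of ρQ) m))
    (B : Rep.{0} ℤ G)
    (π : Rep.of ρQ ⟶ B) (w : (p • 𝟙 (Rep.of ρQ)) ≫ π = 0)
    (hS : (ShortComplex.mk (p • 𝟙 (Rep.of ρQ)) π w).ShortExact) (n : ℤ) :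
    IsZero (tate (Rep.of (homRep ρR ρQ)) n) := by
  obtain ⟨Qb, _, ρb, rfl⟩ := h22w3h_can B
  exact h22w3h_claim2 ρQ ρR hP p hG hQ ρb π w hS n

/-- `Q` torsion-free and cohomologically trivial for the `p`-group `G` ⇒ `Ĥ(G, Hom(R, Q)) = 0` -/
theorem h22w3h_claim3 (hP : PGroupFreeStatement G) (p : ℕ) [Fact p.Prime] (hG : IsPGroup p G)
    (hQ : ∀ m, IsZero (tate (Rep.of ρQ) m)) (htf : ∀ x : Q, p • x = 0 → x = 0) (n : ℤ) :
    IsZero (tate (Rep.of (homRep ρR ρQ)) n) := by
  have hmono : Mono (p • 𝟙 (Rep.of ρQ)) := by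
    rw [Rep.mono_iff_injective]
    intro (x : Q) (y : Q) (hxy : p • x = p • y)
    have : p • (x - y) = 0 := by rw [smul_sub, hxy, sub_self]
    exact sub_eq_zero.1 (htf _ this)
  exact h22w3h_claim2' ρQ ρR hP p hG hQ (cokernel (p • 𝟙 (Rep.of ρQ)))
    (cokernel.π _) (cokernel.condition _)
    (ShortComplex.ShortExact.mk' (ShortComplex.exact_cokernel _) hmono inferInstance) n

end claim2

/-! ## the `p`-group case -/

section core

variable {V : Type} [AddCommGroup V] (ρV : Representation ℤ G V)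
variable {R : Type} [AddCommGroup R] [Module.Free ℤ R] (ρR : Representation ℤ G R)

/-- `G` a `p`-group, `Ĥ(G, V) = 0` in all degrees, `R` free over `ℤ` ⇒ `Ĥ(G, Hom(R, V)) = 0` -/
theorem h22w3h_core_p (hP : PGroupFreeStatement G) (p : ℕ) [Fact p.Prime] (hG : IsPGroup p G)
    (hV : ∀ m, IsZero (tate (Rep.of ρV) m)) (n : ℤ) :
    IsZero (tate (Rep.of (homRep ρR ρV)) n) := by
  classical
  letI : Fintype G := Fintype.ofFinite G
  let s : (V →₀ ℤ) →+ V := (Finsupp.linearCombination ℤ (id : V → V)).toAddMonoidHom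
  have hs : ∀ v, s (Finsupp.single v 1) = v := by
    intro v
    show Finsupp.linearCombination ℤ (id : V → V) (Finsupp.single v 1) = v
    rw [Finsupp.linearCombination_single, one_smul, id]
  have hsurj : Function.Surjective (H26W3P.phiAdd ρV s) := by
    intro v
    exact ⟨Pi.single 1 (Finsupp.single v 1), by rw [H26W3P.phiAdd_single, hs]⟩
  have hS := H26W3P.kerSeq_shortExact ρV s hsurj
  -- `Ĥ(Q) = 0`
  have hQ : ∀ m, IsZero (tate (Rep.of (H26W3P.kerRho ρV s)) m) :=
    fun m => h22w3h_L1' hS hV (fun m => h22ai_tate_isZero _ m) m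
  -- `Q` is torsion-free
  have hp0 : (p : ℤ) ≠ 0 := by exact_mod_cast (Fact.out : p.Prime).ne_zero
  have htf : ∀ x : (H26W3P.phiAdd ρV s).ker, p • x = 0 → x = 0 := by
    intro x hx
    apply Subtype.ext
    funext g
    ext v
    have h1 : (p • x).1 g v = 0 := by rw [hx]; rfl
    have h2 : (p • x).1 g v = p • (x.1 g v) := rfl
    rw [h2, nsmul_eq_mul] at h1
    rcases mul_eq_zero.1 h1 with h | h
    · exact absurd h hp0
    · exact h
  have hHQ := h22w3h_claim3 (H26W3P.kerRho ρV s) ρR hP p hG hQ htf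
  -- `Hom(R, F)`
  have hHF : ∀ m, IsZero (tate (Rep.of (homRep ρR (coindOne G (V →₀ ℤ)).ρ)) m) := by
    intro m
    exact (h22ai_tate_isZero _ m).of_iso
      ((tateCohomologyFunctor m).mapIso (h22w3u_iso2 (Iso.refl (coindOne G (V →₀ ℤ))) ρR))
  obtain ⟨w', hS'⟩ := h22w3h_homSES ρR (H26W3P.kerIncl ρV s) (H26W3P.phiHom ρV s)
    (H26W3P.kerSeq ρV s).zero hS
  exact h22w3h_L3' hS' hHF hHQ n

end core

end H22W3H
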