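import Mathlib
import Fermat.Agent.CFT2.A.W3H3_helper22

/-!
# W2-C (S55), block A wave 3, slice W3-H (helper22)

`H22W3H.h22w3h_homCohTriv G : H20A.HomCohTrivStatement G` (Serre, Local Fields IX Thm 9):
`A` cohomologically trivial, `R` a lattice ⇒ `Hom(R, A)` cohomologically trivial.
-/

set_option autoImplicit false
set_option linter.unusedSectionVars false
set_option linter.unusedSimpArgs false
set_option linter.unusedVariables false

noncomputable section

open CategoryTheory groupCohomology Limits

namespace H22W3H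

open H20A H22AI H22W3U

variable {G : Type} [Group G] [Finite G]

section sub

variable {V : Type} [AddCommGroup V] (ρV : Representation ℤ G V)
variable {R : Type} [AddCommGroup R] [Module.Free ℤ R] (ρR : Representation ℤ G R)

omit [Finite G] [Module.Free ℤ R] in
theorem h22w3h_homRep_comp {H : Type} [Group H] (ι : H →* G) :
    homRep (ρR.comp ι) (ρV.comp ι) = (homRep ρR ρV).comp ι := by
  ext g f r
  simp [Representation.linHom_apply]

/-- the `p`-subgroup case -/
theorem h22w3h_core_sub (P : Subgroup G) (hP : PGroupFreeStatement ↥P) (p : ℕ) [Fact p.Prime]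
    (hG : IsPGroup p ↥P) (hV : ∀ m, IsZero (tate (resSub (Rep.of ρV) P) m)) (n : ℤ) :
    IsZero (tate (resSub (Rep.of (homRep ρR ρV)) P) n) := by
  have h := h22w3h_core_p (G := ↥P) (ρV.comp P.subtype) (ρR.comp P.subtype) hP p hG hV n
  rw [h22w3h_homRep_comp] at h
  exact h

end sub

/-- **W3-H** from W3-P. -/
theorem h22w3h_homCohTriv_of (hP : ∀ (G : Type) [Group G] [Finite G], PGroupFreeStatement G)
    (G : Type) [Group G] [Finite G] : HomCohTrivStatement G := by
  intro V _ ρV hV R _ _ _ ρR
  have key : ∀ (H : Subgroup G) (n : ℕ), n ≠ 0 →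
      IsZero (groupCohomology (resSub (Rep.of (homRep ρR ρV)) H) n) := by
    intro H n hn
    rw [← H25AV.tate_isZero_iff_coh _ n hn]
    apply H26AR.h26ar_sylow ↥H
    intro p _ P
    rw [H25AV.tate_isZero_iff_coh _ n hn]
    refine (H25AV.cohResRes _ H (P : Subgroup H) n).isZero_iff.2 ?_
    rw [← H25AV.tate_isZero_iff_coh _ n hn]
    have hP' : IsPGroup p ↥((P : Subgroup H).map H.subtype) := P.isPGroup'.map _
    exact h22w3h_core_sub ρV ρR _ (hP _) p hP' (fun m => hV m _) n
  exact H25AV.helper25_cohTriv_final G _ (fun H => key H 1 one_ne_zero)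
    (fun H => key H 2 two_ne_zero)

/-- **W3-H** (Serre, Local Fields IX Thm 9, Cor): `A` cohomologically trivial, `R` a lattice
⇒ `Hom(R, A)` is cohomologically trivial. -/
theorem h22w3h_homCohTriv (G : Type) [Group G] [Finite G] : HomCohTrivStatement G :=
  h22w3h_homCohTriv_of (fun G _ _ => H26W3P.h26w3p_pGroupFree G) G

end H22W3H
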