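/-
W2-C (S55) block A, wave 3 (helper26): **W3-T** Tate's theorem with coefficients, degree `0 → 2`.

`H26W3T.h26w3t_tateCoeff G : H20A.HomCohTrivStatement G → H20A.TateCoeffStatement G`.

Proof: apply `Hom(R, -)` (exact, `R` free) to the splitting sequences
`0 → I_G → Map(G, ℤ) → ℤ → 0` and `0 → C → C(φ) → I_G → 0`; `Hom(R, Map(G, ℤ))` (W3-U2) and
`Hom(R, C(φ))` (W3-H) are cohomologically trivial, so `δ δ : H⁰(Hom(R, ℤ)) → H²(Hom(R, C))` is onto
with kernel the image of `H⁰(Hom(R, Map(G, ℤ)))`, which is `{f₀ ∘ N}`; naturality of `δ` for the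
scalar maps `v ↦ (r ↦ f r • v)` gives `δ δ [f] = (m_f)_* γ`.
-/
import Mathlib
import Fermat.Agent.CFT2.A.Defs
import Fermat.Agent.CFT2.A.Defs3
import Fermat.Agent.CFT2.A.ATateSplit_helper26
import Fermat.Agent.CFT2.A.ATate_helper26
import Fermat.Agent.CFT2.A.ARCoh_helper26
import Fermat.Agent.CFT2.A.ARFinal_helper26
import Fermat.Agent.CFT2.A.AV1_helper25
import Fermat.Agent.CFT2.A.W3U_helper22

set_option autoImplicit false
set_option linter.style.haveILetI false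
set_option linter.unusedSectionVars false
noncomputable section
namespace H26W3T
open CategoryTheory Rep groupCohomology

section homfunctor
variable {G : Type} [Group G] [Fintype G] {R : Type} [AddCommGroup R]
  (ρR : Representation ℤ G R)
variable {W₁ W₂ W₃ : Type} [AddCommGroup W₁] [AddCommGroup W₂] [AddCommGroup W₃]
  {ρ₁ : Representation ℤ G W₁} {ρ₂ : Representation ℤ G W₂} {ρ₃ : Representation ℤ G W₃}

/-- post-composition with a morphism, as an additive map -/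
def postAdd (φ : Rep.of ρ₁ ⟶ Rep.of ρ₂) : (R →ₗ[ℤ] W₁) →+ (R →ₗ[ℤ] W₂) where
  toFun h := (φ.hom.toLinearMap : W₁ →ₗ[ℤ] W₂).comp h
  map_zero' := by
    ext r
    exact map_zero φ.hom.toLinearMap
  map_add' h h' := by
    ext r
    exact map_add φ.hom.toLinearMap (h r) (h' r)

theorem postAdd_apply (φ : Rep.of ρ₁ ⟶ Rep.of ρ₂) (h : R →ₗ[ℤ] W₁) (r : R) :
    postAdd (R := R) φ h r = φ.hom (h r) := rfl

/-- `Hom(R, -)` on morphisms -/
def homMap (φ : Rep.of ρ₁ ⟶ Rep.of ρ₂) :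
    Rep.of (H20A.homRep ρR ρ₁) ⟶ Rep.of (H20A.homRep ρR ρ₂) :=
  H20A.repHom (H20A.homRep ρR ρ₁) (H20A.homRep ρR ρ₂) (postAdd φ) (fun g h => by
    ext r
    exact Rep.hom_comm_apply φ g (h (ρR g⁻¹ r)))

theorem homMap_apply (φ : Rep.of ρ₁ ⟶ Rep.of ρ₂) (h : R →ₗ[ℤ] W₁) (r : R) :
    ((homMap ρR φ).hom h : R →ₗ[ℤ] W₂) r = φ.hom (h r) := rfl

/-- `Hom(R, -)` applied to a short complex -/
def homSC (i : Rep.of ρ₁ ⟶ Rep.of ρ₂) (q : Rep.of ρ₂ ⟶ Rep.of ρ₃) (w : i ≫ q = 0) :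
    ShortComplex (Rep.{0} ℤ G) :=
  ShortComplex.mk (homMap ρR i) (homMap ρR q) (by
    apply Rep.hom_ext
    apply Representation.IntertwiningMap.ext
    apply LinearMap.ext
    intro (h : R →ₗ[ℤ] W₁)
    apply LinearMap.ext
    intro r
    change q.hom (i.hom (h r)) = 0
    have h1 := congrArg (fun (m : Rep.of ρ₁ ⟶ Rep.of ρ₃) => m.hom (h r)) w
    exact h1)

theorem homSC_shortExact [Module.Free ℤ R] (i : Rep.of ρ₁ ⟶ Rep.of ρ₂)
    (q : Rep.of ρ₂ ⟶ Rep.of ρ₃) (w : i ≫ q = 0) (hX : (ShortComplex.mk i q w).ShortExact) :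
    (homSC ρR i q w).ShortExact := by
  have hinj : Function.Injective i.hom := (Rep.mono_iff_injective _).1 hX.mono_f
  have hsurj : Function.Surjective q.hom := (Rep.epi_iff_surjective _).1 hX.epi_g
  have hex := (H5AF.h5af_exact_iff (ShortComplex.mk i q w)).1 hX.exact
  refine H26AT.shortExact_of (homSC ρR i q w) ?_ ?_ ?_
  · intro (h : R →ₗ[ℤ] W₁) (h' : R →ₗ[ℤ] W₁) hh
    apply LinearMap.ext
    intro r
    apply hinj
    exact congrArg (fun (k : R →ₗ[ℤ] W₂) => k r) hh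
  · intro (h₃ : R →ₗ[ℤ] W₃)
    obtain ⟨h, hh⟩ := Module.projective_lifting_property (q.hom.toLinearMap : W₂ →ₗ[ℤ] W₃) h₃ hsurj
    exact ⟨h, hh⟩
  · intro (h₂ : R →ₗ[ℤ] W₂) hh
    have hmem : ∀ r, h₂ r ∈ LinearMap.range (i.hom.toLinearMap : W₁ →ₗ[ℤ] W₂) := by
      intro r
      have h1 : q.hom (h₂ r) = 0 := congrArg (fun (k : R →ₗ[ℤ] W₃) => k r) hh
      obtain ⟨x₁, hx₁⟩ := hex (h₂ r) h1
      exact ⟨x₁, hx₁⟩
    refine ⟨((LinearEquiv.ofInjective (i.hom.toLinearMap : W₁ →ₗ[ℤ] W₂) hinj).symm.toLinearMap).comp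
      (h₂.codRestrict (LinearMap.range (i.hom.toLinearMap : W₁ →ₗ[ℤ] W₂)) hmem), ?_⟩
    apply LinearMap.ext
    intro r
    change i.hom ((LinearEquiv.ofInjective (i.hom.toLinearMap : W₁ →ₗ[ℤ] W₂) hinj).symm
      (h₂.codRestrict (LinearMap.range (i.hom.toLinearMap : W₁ →ₗ[ℤ] W₂)) hmem r)) = h₂ r
    have h2 := LinearEquiv.apply_symm_apply
      (LinearEquiv.ofInjective (i.hom.toLinearMap : W₁ →ₗ[ℤ] W₂) hinj)
      (h₂.codRestrict (LinearMap.range (i.hom.toLinearMap : W₁ →ₗ[ℤ] W₂)) hmem r)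
    exact congrArg Subtype.val h2

/-- the scalar maps form a morphism of short complexes -/
def scalSC (i : Rep.of ρ₁ ⟶ Rep.of ρ₂) (q : Rep.of ρ₂ ⟶ Rep.of ρ₃) (w : i ≫ q = 0)
    (f : R →ₗ[ℤ] ℤ) (hf : ∀ g r, f (ρR g r) = f r) :
    ShortComplex.mk i q w ⟶ homSC ρR i q w where
  τ₁ := H20A.scalarHom ρR ρ₁ f hf
  τ₂ := H20A.scalarHom ρR ρ₂ f hf
  τ₃ := H20A.scalarHom ρR ρ₃ f hf
  comm₁₂ := by
    apply Rep.hom_ext
    apply Representation.IntertwiningMap.ext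
    apply LinearMap.ext
    intro (v : W₁)
    apply LinearMap.ext
    intro r
    change i.hom (f r • v) = f r • i.hom v
    exact map_zsmul i.hom.toLinearMap (f r) v
  comm₂₃ := by
    apply Rep.hom_ext
    apply Representation.IntertwiningMap.ext
    apply LinearMap.ext
    intro (v : W₂)
    apply LinearMap.ext
    intro r
    change q.hom (f r • v) = f r • q.hom v
    exact map_zsmul q.hom.toLinearMap (f r) v

end homfunctor

section concrete
variable {G : Type} [Group G] [Fintype G] {R : Type} [AddCommGroup R]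
  (ρR : Representation ℤ G R)
variable {V : Type} [AddCommGroup V] (ρ : Representation ℤ G V) (φ : G × G → V)
  (hφ : H26AT.IsCoc ρ φ)

variable (G) in
/-- the representation of `Map(G, ℤ)` -/
def rhoP : Representation ℤ G (G → ℤ) := (H20A.coindOne G ℤ).ρ

variable (G) in
/-- the trivial representation on `ℤ` -/
def rhoT : Representation ℤ G ℤ := (Rep.trivial ℤ G ℤ).ρ

theorem rhoP_apply (g : G) (F : G → ℤ) (x : G) : rhoP G g F x = F (x * g) := rfl

theorem rhoT_apply (g : G) (n : ℤ) : rhoT G g n = n := rfl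

variable (G) in
def iA : Rep.of (H26AT.augRho G) ⟶ Rep.of (rhoP G) := H26AT.augIncl G

variable (G) in
def qA : Rep.of (rhoP G) ⟶ Rep.of (rhoT G) := H26AT.augMap G

def iB : Rep.of ρ ⟶ Rep.of (H26AT.splitRho ρ φ hφ) := H26AT.splitInl ρ φ hφ

def qB : Rep.of (H26AT.splitRho ρ φ hφ) ⟶ Rep.of (H26AT.augRho G) := H26AT.splitPr ρ φ hφ

variable (G) in
theorem wA : iA G ≫ qA G = 0 := (H26AT.seqA G).zero

theorem wB : iB ρ φ hφ ≫ qB ρ φ hφ = 0 := (H26AT.seqB ρ φ hφ).zero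

variable (G) in
theorem hA : (ShortComplex.mk (iA G) (qA G) (wA G)).ShortExact := H26AT.seqA_shortExact G

theorem hB : (ShortComplex.mk (iB ρ φ hφ) (qB ρ φ hφ) (wB ρ φ hφ)).ShortExact :=
  H26AT.seqB_shortExact ρ φ hφ

theorem qA_apply (F : G → ℤ) : (qA G).hom F = ∑ y, F y := rfl

variable [Module.Free ℤ R]

theorem hA' : (homSC ρR (iA G) (qA G) (wA G)).ShortExact :=
  homSC_shortExact ρR (iA G) (qA G) (wA G) (hA G)

theorem hB' : (homSC ρR (iB ρ φ hφ) (qB ρ φ hφ) (wB ρ φ hφ)).ShortExact :=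
  homSC_shortExact ρR (iB ρ φ hφ) (qB ρ φ hφ) (wB ρ φ hφ) (hB ρ φ hφ)

end concrete

section coh
variable {G : Type} [Group G] [Fintype G] {R : Type} [AddCommGroup R]
  (ρR : Representation ℤ G R)
variable {V : Type} [AddCommGroup V] (ρ : Representation ℤ G V) (φ : G × G → V)
  (hφ : H26AT.IsCoc ρ φ)

/-- cohomologically trivial modules have vanishing cohomology in positive degrees -/
theorem coh_isZero_of_cohTrivial (X : Rep.{0} ℤ G) (hX : H20A.CohTrivial X) (n : ℕ) (hn : n ≠ 0) :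
    Limits.IsZero (groupCohomology X n) :=
  (H25AV.tate_isZero_iff_coh X n hn).1
    (H26AR.h26ar_sylow G X n (fun _ _ P => hX n (P : Subgroup G)))

variable (G) in
theorem exists_unit : ∃ x : groupCohomology (Rep.of (rhoT G)) 0,
    H26AR.und (Rep.of (rhoT G)) x = (1 : ℤ) :=
  H26AR.exists_und (Rep.of (rhoT G)) (1 : ℤ) (fun _ => rfl)

/-- `δ δ 1 = [φ]` -/
theorem dd_unit (hφmem : φ ∈ cocycles₂ (Rep.of ρ)) (x : groupCohomology (Rep.of (rhoT G)) 0)
    (hx : H26AR.und (Rep.of (rhoT G)) x = (1 : ℤ)) :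
    (δ (hB ρ φ hφ) 1 2 rfl).hom ((δ (hA G) 0 1 rfl).hom x) = H2π (Rep.of ρ) ⟨φ, hφmem⟩ := by
  have hx1 : x = (H0Iso (H26AT.seqAH (MonoidHom.id G)).X₃).inv (H26AT.oneInv (MonoidHom.id G)) := by
    apply H26AR.und_injective
    refine hx.trans ?_
    symm
    change ((shortComplexH0 (H26AT.seqAH (MonoidHom.id G)).X₃).f.hom
      ((H0Iso (H26AT.seqAH (MonoidHom.id G)).X₃).hom
        ((H0Iso (H26AT.seqAH (MonoidHom.id G)).X₃).inv (H26AT.oneInv (MonoidHom.id G))))) = _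
    have h2 : (H0Iso (H26AT.seqAH (MonoidHom.id G)).X₃).hom
        ((H0Iso (H26AT.seqAH (MonoidHom.id G)).X₃).inv (H26AT.oneInv (MonoidHom.id G))) =
        H26AT.oneInv (MonoidHom.id G) := by
      have := congrArg (fun m => m.hom (H26AT.oneInv (MonoidHom.id G)))
        (H0Iso (H26AT.seqAH (MonoidHom.id G)).X₃).inv_hom_id
      exact this
    rw [h2]
    rfl
  rw [hx1]
  exact H26AT.delta_delta_one (MonoidHom.id G) ρ φ hφ

variable [Module.Free ℤ R]

/-- naturality of `δ δ` with respect to the scalar maps -/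
theorem key (f : R →ₗ[ℤ] ℤ) (hf : ∀ g r, f (ρR g r) = f r)
    (x₁ : groupCohomology (Rep.of (rhoT G)) 0) :
    (groupCohomology.map (MonoidHom.id G) (H20A.scalarHom ρR ρ f hf) 2).hom
      ((δ (hB ρ φ hφ) 1 2 rfl).hom ((δ (hA G) 0 1 rfl).hom x₁)) =
    (δ (hB' ρR ρ φ hφ) 1 2 rfl).hom ((δ (hA' ρR) 0 1 rfl).hom
      ((groupCohomology.map (MonoidHom.id G) (H20A.scalarHom ρR (rhoT G) f hf) 0).hom x₁)) := by
  have nA := δ_naturality (hA G) (hA' ρR) (scalSC ρR (iA G) (qA G) (wA G) f hf) 0 1 rfl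
  have nB := δ_naturality (hB ρ φ hφ) (hB' ρR ρ φ hφ)
    (scalSC ρR (iB ρ φ hφ) (qB ρ φ hφ) (wB ρ φ hφ) f hf) 1 2 rfl
  have eA := congrArg (fun m => m.hom x₁) nA
  have eB := congrArg (fun m => m.hom ((δ (hA G) 0 1 rfl).hom x₁)) nB
  exact eB.trans (congrArg (δ (hB' ρR ρ φ hφ) 1 2 rfl).hom eA)

end coh

section elements
variable {G : Type} [Group G] [Fintype G] {R : Type} [AddCommGroup R]
  (ρR : Representation ℤ G R)

theorem normOf_eq_sum {V : Type} [AddCommGroup V] (ρ : Representation ℤ G V) (y : V) :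
    H20A.normOf ρ y = ∑ g : G, ρ g y := by
  have h := H26AR.normOf_apply ρ y
  have e : Fintype.ofFinite G = ‹Fintype G› := Subsingleton.elim _ _
  rw [e] at h
  exact h

theorem rho_inv_apply (g : G) (r : R) : ρR g⁻¹ (ρR g r) = r := by
  rw [← Module.End.mul_apply, ← map_mul, inv_mul_cancel, map_one]
  rfl

theorem rho_mul_apply (g h : G) (r : R) : ρR (g * h) r = ρR g (ρR h r) := by
  rw [map_mul]
  rfl

/-- invariant elements of `Hom(R, ℤ)` are the invariant functionals -/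
theorem und_invariant (z : groupCohomology (Rep.of (H20A.homRep ρR (rhoT G))) 0) (g : G) (r : R) :
    (H26AR.und (Rep.of (H20A.homRep ρR (rhoT G))) z : R →ₗ[ℤ] ℤ) (ρR g r) =
      (H26AR.und (Rep.of (H20A.homRep ρR (rhoT G))) z : R →ₗ[ℤ] ℤ) r := by
  have h1 := H26AR.und_inv (Rep.of (H20A.homRep ρR (rhoT G))) z g
  have h2 := congrArg (fun (k : R →ₗ[ℤ] ℤ) => k (ρR g r)) h1
  have h3 : (H26AR.und (Rep.of (H20A.homRep ρR (rhoT G))) z : R →ₗ[ℤ] ℤ) (ρR g⁻¹ (ρR g r)) =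
      (H26AR.und (Rep.of (H20A.homRep ρR (rhoT G))) z : R →ₗ[ℤ] ℤ) (ρR g r) := h2
  rw [rho_inv_apply] at h3
  exact h3.symm

/-- the class of an invariant functional -/
theorem und_scal (f : R →ₗ[ℤ] ℤ) (hf : ∀ g r, f (ρR g r) = f r)
    (x₁ : groupCohomology (Rep.of (rhoT G)) 0)
    (hx : H26AR.und (Rep.of (rhoT G)) x₁ = (1 : ℤ)) :
    H26AR.und (Rep.of (H20A.homRep ρR (rhoT G)))
      ((groupCohomology.map (MonoidHom.id G) (H20A.scalarHom ρR (rhoT G) f hf) 0).hom x₁) = f := by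
  have h1 := H26AR.und_map (MonoidHom.id G) (H20A.scalarHom ρR (rhoT G) f hf) x₁
  refine h1.trans ?_
  apply LinearMap.ext
  intro r
  have h2 : ((H20A.scalarHom ρR (rhoT G) f hf).hom (H26AR.und (Rep.of (rhoT G)) x₁) : R →ₗ[ℤ] ℤ) r =
      f r • (H26AR.und (Rep.of (rhoT G)) x₁ : ℤ) := rfl
  refine h2.trans ?_
  rw [hx, smul_eq_mul, mul_one]

/-- invariant elements of `Hom(R, Map(G, ℤ))` -/
theorem und_invariantP (h : groupCohomology (Rep.of (H20A.homRep ρR (rhoP G))) 0) (y : G) (r : R) :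
    (H26AR.und (Rep.of (H20A.homRep ρR (rhoP G))) h : R →ₗ[ℤ] (G → ℤ)) r y =
      (H26AR.und (Rep.of (H20A.homRep ρR (rhoP G))) h : R →ₗ[ℤ] (G → ℤ)) (ρR y r) 1 := by
  have h1 := H26AR.und_inv (Rep.of (H20A.homRep ρR (rhoP G))) h y⁻¹
  have h2 := congrArg (fun (k : R →ₗ[ℤ] (G → ℤ)) => k r y) h1
  have h3 : (H26AR.und (Rep.of (H20A.homRep ρR (rhoP G))) h : R →ₗ[ℤ] (G → ℤ))
      (ρR y⁻¹⁻¹ r) (y * y⁻¹) =
      (H26AR.und (Rep.of (H20A.homRep ρR (rhoP G))) h : R →ₗ[ℤ] (G → ℤ)) r y := h2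
  rw [inv_inv, mul_inv_cancel] at h3
  exact h3.symm

/-- evaluation at `1` of a map `R → Map(G, ℤ)` -/
def evOne (k : R →ₗ[ℤ] (G → ℤ)) : R →ₗ[ℤ] ℤ :=
  AddMonoidHom.toIntLinearMap
    { toFun := fun r => k r 1
      map_zero' := by rw [map_zero]; rfl
      map_add' := fun a b => by rw [map_add]; rfl }

theorem evOne_apply (k : R →ₗ[ℤ] (G → ℤ)) (r : R) : evOne k r = k r 1 := rfl

/-- `r ↦ (y ↦ f₀ (y r))` -/
def coMap (f₀ : R →ₗ[ℤ] ℤ) : R →ₗ[ℤ] (G → ℤ) :=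
  AddMonoidHom.toIntLinearMap
    { toFun := fun r y => f₀ (ρR y r)
      map_zero' := by
        funext y
        change f₀ (ρR y 0) = 0
        rw [map_zero, map_zero]
      map_add' := fun a b => by
        funext y
        change f₀ (ρR y (a + b)) = f₀ (ρR y a) + f₀ (ρR y b)
        rw [map_add, map_add] }

theorem coMap_apply (f₀ : R →ₗ[ℤ] ℤ) (r : R) (y : G) : coMap ρR f₀ r y = f₀ (ρR y r) := rfl

theorem coMap_inv (f₀ : R →ₗ[ℤ] ℤ) (g : G) :
    (Rep.of (H20A.homRep ρR (rhoP G))).ρ g (coMap ρR f₀) = coMap ρR f₀ := by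
  apply LinearMap.ext
  intro r
  funext x
  change f₀ (ρR (x * g) (ρR g⁻¹ r)) = f₀ (ρR x r)
  rw [← rho_mul_apply, mul_assoc, mul_inv_cancel, mul_one]

end elements

section kernel
variable {G : Type} [Group G] [Fintype G] {R : Type} [AddCommGroup R] [Module.Free ℤ R]
  (ρR : Representation ℤ G R)

/-- the kernel of `δ : H⁰(Hom(R, ℤ)) → H¹(Hom(R, I_G))` consists of the norms -/
theorem kerA (z : groupCohomology (Rep.of (H20A.homRep ρR (rhoT G))) 0) :
    (δ (hA' ρR) 0 1 rfl).hom z = 0 ↔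
      ∃ f₀ : R →ₗ[ℤ] ℤ, ∀ r, (H26AR.und (Rep.of (H20A.homRep ρR (rhoT G))) z : R →ₗ[ℤ] ℤ) r =
        f₀ (H20A.normOf ρR r) := by
  constructor
  · intro hz
    have hex := mapShortComplex₃_exact (hA' (G := G) ρR) (i := 0) (j := 1) rfl
    rw [ShortComplex.moduleCat_exact_iff] at hex
    obtain ⟨h, hh⟩ := hex z hz
    have hh' : (groupCohomology.map (MonoidHom.id G) (homMap ρR (qA G)) 0).hom h = z := hh
    refine ⟨evOne (H26AR.und (Rep.of (H20A.homRep ρR (rhoP G))) h), fun r => ?_⟩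
    have h1 := H26AR.und_map (MonoidHom.id G) (homMap ρR (qA G)) h
    rw [hh'] at h1
    have h2 := congrArg (fun (k : R →ₗ[ℤ] ℤ) => k r) h1
    refine h2.trans ?_
    change ∑ y, (H26AR.und (Rep.of (H20A.homRep ρR (rhoP G))) h : R →ₗ[ℤ] (G → ℤ)) r y = _
    rw [normOf_eq_sum, map_sum]
    refine Finset.sum_congr rfl (fun y _ => ?_)
    rw [evOne_apply]
    exact und_invariantP ρR h y r
  · rintro ⟨f₀, hf₀⟩
    obtain ⟨h, hh⟩ := H26AR.exists_und (Rep.of (H20A.homRep ρR (rhoP G))) (coMap ρR f₀)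
      (coMap_inv ρR f₀)
    have hz : z = (groupCohomology.map (MonoidHom.id G) (homMap ρR (qA G)) 0).hom h := by
      apply H26AR.und_injective
      have h1 := H26AR.und_map (MonoidHom.id G) (homMap ρR (qA G)) h
      refine Eq.trans ?_ h1.symm
      rw [hh]
      apply LinearMap.ext
      intro r
      refine (hf₀ r).trans ?_
      change _ = ∑ y, f₀ (ρR y r)
      rw [normOf_eq_sum, map_sum]
    rw [hz]
    have hzero := (mapShortComplex₃ (hA' (G := G) ρR) (i := 0) (j := 1) rfl).zero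
    exact congrArg (fun m => m.hom h) hzero

end kernel

section final

/-- **W3-T**: Tate's theorem with coefficients in degree `0 → 2` (`H20A.TateCoeffStatement`),
from **W3-H** (`H20A.HomCohTrivStatement`). -/
theorem h26w3t_tateCoeff (G : Type) [Group G] [Finite G] (hH : H20A.HomCohTrivStatement G) :
    H20A.TateCoeffStatement G := by
  letI : Fintype G := Fintype.ofFinite G
  intro V _ ρ γ hcm R _ _ _ ρR
  obtain ⟨⟨φ, hφmem⟩, rfl⟩ := (ModuleCat.epi_iff_surjective (H2π (Rep.of ρ))).1 inferInstance γ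
  have hφ : H26AT.IsCoc ρ φ := (mem_cocycles₂_iff (A := Rep.of ρ) φ).1 hφmem
  -- vanishing
  have cP : H20A.CohTrivial (Rep.of (H20A.homRep ρR (rhoP G))) :=
    H22W3U.h22w3u_homToCoind G (G → ℤ) (rhoP G) ℤ ⟨Iso.refl _⟩ R ρR
  have cA : H20A.CohTrivial (Rep.of (H20A.homRep ρR (H26AT.splitRho ρ φ hφ))) :=
    hH (V × (H26AT.augHom G).ker) (H26AT.splitRho ρ φ hφ)
      (H26AT.split_cohTrivial ρ φ hφ hφmem hcm) R ρR
  have zP1 : Limits.IsZero (groupCohomology (homSC ρR (iA G) (qA G) (wA G)).X₂ 1) :=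
    coh_isZero_of_cohTrivial _ cP 1 one_ne_zero
  have zA1 : Limits.IsZero
      (groupCohomology (homSC ρR (iB ρ φ hφ) (qB ρ φ hφ) (wB ρ φ hφ)).X₂ 1) :=
    coh_isZero_of_cohTrivial _ cA 1 one_ne_zero
  have zA2 : Limits.IsZero
      (groupCohomology (homSC ρR (iB ρ φ hφ) (qB ρ φ hφ) (wB ρ φ hφ)).X₂ 2) :=
    coh_isZero_of_cohTrivial _ cA 2 two_ne_zero
  have epiA : Function.Surjective (δ (hA' (G := G) ρR) 0 1 rfl).hom :=
    (ModuleCat.epi_iff_surjective _).1 (epi_δ_of_isZero (hA' (G := G) ρR) 0 zP1)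
  have epiB : Function.Surjective (δ (hB' ρR ρ φ hφ) 1 2 rfl).hom :=
    (ModuleCat.epi_iff_surjective _).1 (epi_δ_of_isZero (hB' ρR ρ φ hφ) 1 zA2)
  have monoB : Function.Injective (δ (hB' ρR ρ φ hφ) 1 2 rfl).hom :=
    (ModuleCat.mono_iff_injective _).1 (mono_δ_of_isZero (hB' ρR ρ φ hφ) 1 zA1)
  obtain ⟨x₁, hx₁⟩ := exists_unit G
  have hkey : ∀ (f : R →ₗ[ℤ] ℤ) (hf : ∀ g r, f (ρR g r) = f r),
      H20A.cohMap (H20A.scalarHom ρR ρ f hf) 2 (H2π (Rep.of ρ) ⟨φ, hφmem⟩) =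
      (δ (hB' ρR ρ φ hφ) 1 2 rfl).hom ((δ (hA' ρR) 0 1 rfl).hom
        ((groupCohomology.map (MonoidHom.id G) (H20A.scalarHom ρR (rhoT G) f hf) 0).hom x₁)) := by
    intro f hf
    have h1 := key ρR ρ φ hφ f hf x₁
    rw [dd_unit ρ φ hφ hφmem x₁ hx₁] at h1
    exact h1
  refine ⟨fun x => ?_, fun f hf => ?_⟩
  · obtain ⟨y, rfl⟩ := epiB x
    obtain ⟨z, rfl⟩ := epiA y
    refine ⟨H26AR.und (Rep.of (H20A.homRep ρR (rhoT G))) z, und_invariant ρR z, ?_⟩
    rw [hkey]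
    congr 2
    apply H26AR.und_injective
    exact (und_scal ρR _ (und_invariant ρR z) x₁ hx₁).symm
  · rw [hkey f hf]
    constructor
    · intro h0
      have h1 : (δ (hA' ρR) 0 1 rfl).hom
          ((groupCohomology.map (MonoidHom.id G) (H20A.scalarHom ρR (rhoT G) f hf) 0).hom x₁) =
          0 := monoB (h0.trans (map_zero _).symm)
      obtain ⟨f₀, hf₀⟩ := (kerA ρR _).1 h1
      refine ⟨f₀, fun r => ?_⟩
      exact (congrArg (fun (k : R →ₗ[ℤ] ℤ) => k r) (und_scal ρR f hf x₁ hx₁)).symm.trans (hf₀ r)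
    · rintro ⟨f₀, hf₀⟩
      have h1 : (δ (hA' ρR) 0 1 rfl).hom
          ((groupCohomology.map (MonoidHom.id G) (H20A.scalarHom ρR (rhoT G) f hf) 0).hom x₁) =
          0 := by
        apply (kerA ρR _).2
        refine ⟨f₀, fun r => ?_⟩
        exact (congrArg (fun (k : R →ₗ[ℤ] ℤ) => k r) (und_scal ρR f hf x₁ hx₁)).trans (hf₀ r)
      rw [h1]
      exact map_zero _

end final
end H26W3T
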