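/-
W2-C (S55) block A, wave 3 (helper26): **W3-T**, unconditional:
`H26W3T.h26w3t_tateCoeff_final G : H20A.TateCoeffStatement G`
(= `h26w3t_tateCoeff` with helper22's W3-H `H22W3H.h22w3h_homCohTriv` plugged in).
-/
import Fermat.Agent.CFT2.A.W3T_helper26
import Fermat.Agent.CFT2.A.W3H_helper22

set_option autoImplicit false

namespace H26W3T

/-- **W3-T**: Tate's theorem with coefficients in degree `0 → 2`, unconditional. -/
theorem h26w3t_tateCoeff_final (G : Type) [Group G] [Finite G] : H20A.TateCoeffStatement G :=
  h26w3t_tateCoeff G (H22W3H.h22w3h_homCohTriv G)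

end H26W3T
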