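/-
W2-C (S55) block A (helper20): FINAL ASSEMBLY of wave 3, unconditional.
`Pair20`, `Pair11`, `NT₀-R`, `NT₀-L` for every finite group, and `REC`.
(The `p`-versions `NT-R`, `NT-L` are assembled in `FinalNT_helper20.lean`.)
-/
import Fermat.Agent.CFT2.A.W311_helper20
import Fermat.Agent.CFT2.A.W320_helper20
import Fermat.Agent.CFT2.A.W3NT0_helper20
import Fermat.Agent.CFT2.A.W3TFinal_helper26
import Fermat.Agent.CFT2.A.W3L_helper25
import Fermat.Agent.CFT2.A.W3Rec_helper26

set_option autoImplicit false

namespace H20W3

theorem h20_pair20_final (G : Type) [Group G] [Finite G] : H20A.Pair20Statement G :=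
  h20_pair20 G (H26W3T.h26w3t_tateCoeff_final G) (H25W3L.helper25_latticeDuality G)

theorem h20_pair11_final (G : Type) [Group G] [Finite G] : H20A.Pair11Statement G :=
  h20_pair11 G (h20_pair20_final G)

theorem h20_nt0Right_final (G : Type) [Group G] [Finite G] : H20A.NT0RightStatement G :=
  h20_nt0Right G (h20_pair11_final G)

theorem h20_nt0Left_final (G : Type) [Group G] [Finite G] : H20A.NT0LeftStatement G :=
  h20_nt0Left G (h20_pair11_final G)

theorem h20_recCard_final (G : Type) [Group G] [Finite G] : H20A.RecCardStatement G :=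
  H26Rec.h26rec_recCard G

end H20W3
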