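/-
W2-C (S55) block A (helper20), slice INF-P: inflation `H²(G/S, A^S) → H²(G, A)` is injective on
`p`-primary classes as soon as `H¹(P, A) = 0` for the `p`-subgroups `P` of `G`.
Explicit cocycle proof: if `inf c = d f` then `f|_S - c(1,1)` is a 1-cocycle of `S`, and if it is a
coboundary then `c` is a coboundary; in general `m [f|_S] = 0` for `m = |S|_{p'}`.
-/
import Fermat.Agent.CFT2.A.Defs3
import Fermat.Agent.CFT2.A.ARCoh_helper26
import Fermat.Agent.CFT2.A.AV1_helper25
import Fermat.Agent.CFT2.A.W3H1_helper22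

set_option autoImplicit false

noncomputable section

open CategoryTheory groupCohomology

namespace H20IP

variable {G : Type} [Group G] {V : Type} [AddCommGroup V] (ρ : Representation ℤ G V)
  (S : Subgroup G) [S.Normal]

/-- the core computation: a 2-cocycle of `G/S` in `A^S` whose inflation is `d f` with
`f|_S - c(1,1)` a coboundary on `S` is a coboundary. -/
theorem h20ip_core (c : cocycles₂ ((Rep.of ρ).quotientToInvariants S)) (f : G → V)
    (hf : ∀ g h : G, ((c.1 ((g : G ⧸ S), (h : G ⧸ S))) : V) = ρ g (f h) - f (g * h) + f g)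
    (a : V) (ha : ∀ s ∈ S, f s - ((c.1 (1, 1)) : V) = ρ s a - a) :
    (H2π ((Rep.of ρ).quotientToInvariants S)) c = 0 := by
  have hcoc := (mem_cocycles₂_iff (A := (Rep.of ρ).quotientToInvariants S) c.1).1 c.2
  -- the values of `c` as elements of `A`
  set C : G → G → V := fun g h => ((c.1 ((g : G ⧸ S), (h : G ⧸ S))) : V) with hC
  have hCinv : ∀ g h, ∀ s ∈ S, ρ s (C g h) = C g h := fun g h s hs =>
    (c.1 ((g : G ⧸ S), (h : G ⧸ S))).2 ⟨s, hs⟩
  have hCr : ∀ g h, ∀ s ∈ S, C g (h * s) = C g h := by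
    intro g h s hs
    have : ((h * s : G) : G ⧸ S) = (h : G ⧸ S) := by
      rw [QuotientGroup.mk_mul, (QuotientGroup.eq_one_iff s).2 hs, mul_one]
    simp only [hC, this]
  have hCl : ∀ g h, ∀ s ∈ S, C (g * s) h = C g h := by
    intro g h s hs
    have : ((g * s : G) : G ⧸ S) = (g : G ⧸ S) := by
      rw [QuotientGroup.mk_mul, (QuotientGroup.eq_one_iff s).2 hs, mul_one]
    simp only [hC, this]
  have hCcoc : ∀ g h j : G, C (g * h) j + C g h = ρ g (C h j) + C g (h * j) := by
    intro g h j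
    have := congrArg Subtype.val (hcoc (g : G ⧸ S) (h : G ⧸ S) (j : G ⧸ S))
    exact this
  have hC1 : ∀ g, C g 1 = ρ g (C 1 1) := by
    intro g
    have := hCcoc g 1 1
    simp only [mul_one] at this
    exact add_left_cancel (a := C g 1) (by rw [this, add_comm])
  have hC2 : ∀ j, C 1 j = C 1 1 := by
    intro j
    have := hCcoc 1 1 j
    simp only [mul_one, one_mul, map_one, Module.End.one_apply] at this
    exact (add_left_cancel this).symm
  have hCs : ∀ g, ∀ s ∈ S, C g s = ρ g (C 1 1) := by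
    intro g s hs
    have := hCr g 1 s hs
    rw [one_mul] at this
    rw [this, hC1]
  have hsC : ∀ g, ∀ s ∈ S, C s g = C 1 1 := by
    intro g s hs
    have := hCl 1 g s hs
    rw [one_mul] at this
    rw [this, hC2]
  -- the corrected cochain
  set F₀ : G → V := fun g => f g - ρ g a + a with hF₀
  have hFr : ∀ g, ∀ s ∈ S, F₀ (g * s) = F₀ g := by
    intro g s hs
    have h1 : C g s = ρ g (f s) - f (g * s) + f g := hf g s
    rw [hCs g s hs] at h1
    have h2 := ha s hs
    have h3 : f (g * s) = f g + ρ g (ρ s a - a) := by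
      rw [← h2, map_sub]
      change f (g * s) = f g + (ρ g (f s) - ρ g (C 1 1))
      rw [h1]
      abel
    simp only [hF₀]
    rw [h3, map_mul, Module.End.mul_apply, map_sub]
    abel
  have hFl : ∀ g, ∀ s ∈ S, F₀ (s * g) = ρ s (F₀ g) := by
    intro g s hs
    have h1 : C s g = ρ s (f g) - f (s * g) + f s := hf s g
    rw [hsC g s hs] at h1
    have h2 := ha s hs
    have h3 : f (s * g) = ρ s (f g) + (ρ s a - a) := by
      rw [← h2]
      change f (s * g) = ρ s (f g) + (f s - C 1 1)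
      rw [h1]
      abel
    simp only [hF₀]
    rw [h3, map_mul, Module.End.mul_apply, map_add, map_sub]
    abel
  have hFinv : ∀ g, ∀ s ∈ S, ρ s (F₀ g) = F₀ g := by
    intro g s hs
    rw [← hFl g s hs]
    have : s * g = g * (g⁻¹ * s * g) := by group
    rw [this]
    exact hFr g _ (Subgroup.Normal.conj_mem' ‹_› s hs g)
  refine (H2π_eq_zero_iff c).2 ⟨fun x => Quotient.liftOn' x
    (fun g => (⟨F₀ g, fun s => hFinv g s.1 s.2⟩ : ((Rep.of ρ).quotientToInvariants S).V)) ?_, ?_⟩
  · intro g h hgh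
    apply Subtype.ext
    show F₀ g = F₀ h
    have hs : g⁻¹ * h ∈ S := QuotientGroup.leftRel_apply.1 hgh
    have := hFr g _ hs
    rw [mul_inv_cancel_left] at this
    exact this.symm
  · funext ⟨x, y⟩
    induction x using QuotientGroup.induction_on with | @H g =>
    induction y using QuotientGroup.induction_on with | @H h =>
    apply Subtype.ext
    show ρ g (F₀ h) - F₀ (g * h) + F₀ g = C g h
    have hfgh : C g h = ρ g (f h) - f (g * h) + f g := hf g h
    rw [hfgh]
    simp only [hF₀]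
    rw [map_mul, Module.End.mul_apply, map_add, map_sub]
    abel

/-- if `m` kills `H¹(S, A)` then `m` kills the kernel of inflation `H²(G/S, A^S) → H²(G, A)` -/
theorem h20ip_ker_smul [Finite G] (m : ℤ)
    (hm : ∀ y : groupCohomology (H20A.resSub (Rep.of ρ) S) 1, m • y = 0)
    (x : groupCohomology ((Rep.of ρ).quotientToInvariants S) 2)
    (hx : H20A.infCoh (Rep.of ρ) S 2 x = 0) : m • x = 0 := by
  obtain ⟨c, rfl⟩ := (ModuleCat.epi_iff_surjective
    (H2π ((Rep.of ρ).quotientToInvariants S))).1 inferInstance x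
  have h1 := H2π_comp_map_apply (QuotientGroup.mk' S)
    (Rep.ofHom <| (Rep.of ρ).ρ.quotientToInvariants_lift S) c
  have hx' : (groupCohomology.map (QuotientGroup.mk' S)
      (Rep.ofHom <| (Rep.of ρ).ρ.quotientToInvariants_lift S) 2)
      ((H2π ((Rep.of ρ).quotientToInvariants S)) c) = 0 := hx
  rw [h1] at hx'
  obtain ⟨f, hf⟩ := (H2π_eq_zero_iff _).1 hx'
  have hf' : ∀ g h : G, ((c.1 ((g : G ⧸ S), (h : G ⧸ S))) : V) = ρ g (f h) - f (g * h) + f g :=
    fun g h => (congrFun hf (g, h)).symm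
  have hinv : ∀ s ∈ S, ρ s ((c.1 (1, 1)) : V) = ((c.1 (1, 1)) : V) := fun s hs =>
    (c.1 (1, 1)).2 ⟨s, hs⟩
  -- `f|_S - c(1,1)` is a 1-cocycle of `S`
  have hf1 : (fun s : S => f s - ((c.1 (1, 1)) : V)) ∈ cocycles₁ (H20A.resSub (Rep.of ρ) S) := by
    rw [mem_cocycles₁_iff]
    intro s t
    show f (s * t) - ((c.1 (1, 1)) : V) = ρ s (f t - ((c.1 (1, 1)) : V)) + (f s - ((c.1 (1, 1)) : V))
    have h2 := hf' s t
    have e1 : ((s : G) : G ⧸ S) = 1 := (QuotientGroup.eq_one_iff _).2 s.2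
    have e2 : ((t : G) : G ⧸ S) = 1 := (QuotientGroup.eq_one_iff _).2 t.2
    rw [e1, e2] at h2
    rw [map_sub, hinv s s.2]
    have h3 : f (s * t) = ρ s (f t) + f s - ((c.1 (1, 1)) : V) := by
      rw [h2]
      abel
    rw [h3]
    abel
  have hy := hm ((H1π (H20A.resSub (Rep.of ρ) S)) ⟨_, hf1⟩)
  rw [← map_zsmul] at hy
  obtain ⟨a, ha⟩ := (H1π_eq_zero_iff _).1 hy
  have ha' : ∀ s ∈ S, m • f s - m • ((c.1 (1, 1)) : V) = ρ s a - a := by
    intro s hs
    have := congrFun ha ⟨s, hs⟩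
    rw [← smul_sub]
    exact this.symm
  have hcore := h20ip_core ρ S (m • c) (fun g => m • f g) (fun g h => by
    show m • ((c.1 ((g : G ⧸ S), (h : G ⧸ S))) : V) = _
    rw [hf' g h, map_zsmul]
    simp only [smul_add, smul_sub]) a ha'
  rw [map_zsmul] at hcore
  exact hcore

/-- **INF-P** (statement): inflation `H²(G/S, A^S) → H²(G, A)` is injective on `p`-primary
classes if `H¹(P, A) = 0` for all `p`-subgroups `P` of `G`. -/
def InfPStatement (G : Type) [Group G] [Finite G] : Prop :=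
  ∀ (p : ℕ) [Fact p.Prime] (A : Rep ℤ G),
    (∀ H : Subgroup G, IsPGroup p H → Limits.IsZero (groupCohomology (H20A.resSub A H) 1)) →
  ∀ (S : Subgroup G) [S.Normal] (x : groupCohomology (A.quotientToInvariants S) 2),
    (∃ k : ℕ, (p ^ k) • x = 0) → H20A.infCoh A S 2 x = 0 → x = 0

/-- the index of a Sylow `p`-subgroup of `S` kills `H¹(S, A)` -/
theorem h20ip_h1_killed [Finite G] (p : ℕ) [Fact p.Prime] (A : Rep ℤ G)
    (hA : ∀ H : Subgroup G, IsPGroup p H →
      Limits.IsZero (groupCohomology (H20A.resSub A H) 1)) (S : Subgroup G) :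
    ∃ m : ℕ, ¬ p ∣ m ∧ ∀ y : groupCohomology (H20A.resSub A S) 1, m • y = 0 := by
  obtain ⟨T⟩ : Nonempty (Sylow p S) := inferInstance
  refine ⟨(T : Subgroup S).index, T.not_dvd_index, fun y => ?_⟩
  apply H26AR.h26ar_indexKillsCoh S (H20A.resSub A S) (T : Subgroup S) 1 y
  have hz : Limits.IsZero (groupCohomology (H20A.resSub (H20A.resSub A S) (T : Subgroup S)) 1) :=
    (hA _ (T.isPGroup'.map S.subtype)).of_iso (H25AV.cohResRes A S (T : Subgroup S) 1)
  have := ModuleCat.subsingleton_of_isZero hz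
  exact Subsingleton.elim _ _

theorem h20ip_infP (G : Type) [Group G] [Finite G] : InfPStatement G := by
  intro p _ A hA S _ x ⟨k, hk⟩ h0
  obtain ⟨m, hpm, hm⟩ := h20ip_h1_killed p A hA S
  obtain ⟨V, _, ρ, rfl⟩ := H22W3H.h22w3h_can A
  have h1 : (m : ℤ) • x = 0 := by
    apply h20ip_ker_smul ρ S (m : ℤ) _ x h0
    intro y
    rw [natCast_zsmul]
    exact hm y
  have hcop : IsCoprime (m : ℤ) ((p ^ k : ℕ) : ℤ) := by
    rw [Nat.isCoprime_iff_coprime]
    exact Nat.Coprime.pow_right k ((Nat.Prime.coprime_iff_not_dvd Fact.out).2 hpm).symm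
  obtain ⟨u, v, huv⟩ := hcop
  have h2 : ((p ^ k : ℕ) : ℤ) • x = 0 := by
    rw [natCast_zsmul]
    exact hk
  calc x = (1 : ℤ) • x := (one_smul ℤ x).symm
    _ = (u * m + v * ((p ^ k : ℕ) : ℤ)) • x := by rw [huv]
    _ = 0 := by
      rw [add_zsmul, mul_zsmul, mul_zsmul, h1, h2, zsmul_zero, zsmul_zero, add_zero]

end H20IP

end
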