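/-
W2-C (S55) blocks A/E (helper26): finite-level consequences of Nakayama-Tate duality.

* `H26NT.h26nt_fin R ρR : Finite (groupCohomology (Rep.of ρR) 2)`   (NT-FIN; `G` finite, `R` f.g.)
* `H26NT.dual_surj` : a separating subgroup of `Hom(A, Z)` is everything (`A` finite, `Z` finite
  cyclic with `|Z| A = 0`), from Mathlib's duality of finite abelian groups with `M = Multiplicative Z`
* `H26NT.h26nt_surj` (NT-SURJ): for a `p`-class module `(C, γ)` and a lattice `R`, every additive map
  `φ : H²(G, R) → H²(G, C)` agrees on the `p`-primary classes with `b_*` for some `b ∈ Hom_G(R, C)`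
  (hypothesis: `H20A.NTRightStatement G`).
* helpers: `cohMap_add`, `pPart`, `eqHoms`, `pushHom`, `res_injective_pPart`, `card_sylow_smul`,
  `eq_zero_of_coprime_smul`.
-/
import Mathlib
import Fermat.Agent.CFT2.A.Defs
import Fermat.Agent.CFT2.A.Defs3
import Fermat.Agent.CFT2.A.ATate_helper26
import Fermat.Agent.CFT2.A.ARCoh_helper26

set_option autoImplicit false
set_option linter.style.haveILetI false
set_option linter.unusedSectionVars false
noncomputable section
namespace H26NT
open CategoryTheory Rep groupCohomology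

section fin
variable {G : Type} [Group G] [Finite G]

/-- **NT-FIN**: `H²(G, R)` is finite for a finite group `G` and a finitely generated `R`. -/
theorem h26nt_fin (R : Type) [AddCommGroup R] [Module.Finite ℤ R] (ρR : Representation ℤ G R) :
    Finite (groupCohomology (Rep.of ρR) 2) := by
  haveI : Module.Finite ℤ (G × G → R) := inferInstance
  haveI : IsNoetherian ℤ (G × G → R) := inferInstance
  haveI : Module.Finite ℤ (cocycles₂ (Rep.of ρR)) :=
    Module.Finite.iff_fg.2 (IsNoetherian.noetherian _)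
  have hs : Function.Surjective (H2π (Rep.of ρR)).hom :=
    (ModuleCat.epi_iff_surjective (H2π (Rep.of ρR))).1 inferInstance
  haveI : Module.Finite ℤ (groupCohomology (Rep.of ρR) 2) :=
    Module.Finite.of_surjective (H2π (Rep.of ρR)).hom hs
  apply Module.finite_of_fg_torsion
  intro x
  refine ⟨⟨(Nat.card G : ℤ), ?_⟩, ?_⟩
  · rw [mem_nonZeroDivisors_iff_ne_zero]
    exact_mod_cast Nat.card_pos.ne'
  · have h := H26AT.card_nsmul_eq_zero (Rep.of ρR) 1 x
    exact (Nat.cast_smul_eq_nsmul ℤ (Nat.card G) x).trans h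

end fin

section dual
variable {A Z : Type} [AddCommGroup A] [Finite A] [AddCommGroup Z] [Finite Z] [IsAddCyclic Z]

theorem hasEnough_card : HasEnoughRootsOfUnity (Multiplicative Z) (Nat.card Z) := by
  refine ⟨?_, ?_⟩
  · obtain ⟨g, hg⟩ := IsCyclic.exists_generator (α := Multiplicative Z)
    refine ⟨g, ?_⟩
    have h1 : orderOf g = Nat.card (Multiplicative Z) := orderOf_eq_card_of_forall_mem_zpowers hg
    have h2 : Nat.card (Multiplicative Z) = Nat.card Z := rfl
    rw [← h2, ← h1]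
    exact IsPrimitiveRoot.orderOf g
  · haveI : IsCyclic (Multiplicative Z)ˣ :=
      isCyclic_of_surjective (toUnits (G := Multiplicative Z)) (toUnits (G := Multiplicative Z)).surjective
    infer_instance

/-- the translation `Hom(A, Z) → Hom(Mult A, (Mult Z)ˣ)` -/
def trans (ψ : A →+ Z) : Multiplicative A →* (Multiplicative Z)ˣ :=
  (toUnits (G := Multiplicative Z)).toMonoidHom.comp (AddMonoidHom.toMultiplicative ψ)

theorem trans_apply (ψ : A →+ Z) (a : Multiplicative A) :
    ((trans ψ a : (Multiplicative Z)ˣ) : Multiplicative Z) = Multiplicative.ofAdd (ψ a.toAdd) := rfl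

theorem trans_eq_one_iff (ψ : A →+ Z) (a : Multiplicative A) :
    trans ψ a = 1 ↔ ψ a.toAdd = 0 := by
  rw [Units.ext_iff, trans_apply]
  rfl

theorem trans_injective : Function.Injective (trans (A := A) (Z := Z)) := by
  intro ψ ψ' h
  ext a
  have h1 := congrArg (fun f => ((f (Multiplicative.ofAdd a) : (Multiplicative Z)ˣ) :
    Multiplicative Z)) h
  exact h1

theorem trans_add (ψ ψ' : A →+ Z) : trans (ψ + ψ') = trans ψ * trans ψ' := by
  ext a
  rfl

theorem trans_zero : trans (0 : A →+ Z) = 1 := by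
  ext a
  rfl

theorem trans_neg (ψ : A →+ Z) : trans (-ψ) = (trans ψ)⁻¹ := by
  ext a
  rfl

/-- a separating subgroup of `Hom(A, Z)` is everything (`Z` finite cyclic, `|Z|` kills `A`) -/
theorem dual_surj (hexp : ∀ a : A, Nat.card Z • a = 0) (Ψ : AddSubgroup (A →+ Z))
    (hsep : ∀ a : A, (∀ ψ ∈ Ψ, ψ a = 0) → a = 0) (x : A →+ Z) : x ∈ Ψ := by
  haveI : NeZero (Nat.card Z) := ⟨Nat.card_pos.ne'⟩
  haveI := hasEnough_card (Z := Z)
  have hdvd : Monoid.exponent (Multiplicative A) ∣ Nat.card Z := by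
    apply Monoid.exponent_dvd_of_forall_pow_eq_one
    intro g
    exact congrArg Multiplicative.ofAdd (hexp g.toAdd)
  haveI hE : HasEnoughRootsOfUnity (Multiplicative Z) (Monoid.exponent (Multiplicative A)) :=
    HasEnoughRootsOfUnity.of_dvd (Multiplicative Z) hdvd
  haveI : Finite (Multiplicative A →* (Multiplicative Z)ˣ) :=
    Finite.of_injective (fun f => (f : Multiplicative A → (Multiplicative Z)ˣ))
      DFunLike.coe_injective
  haveI hE' : HasEnoughRootsOfUnity (Multiplicative Z)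
      (Monoid.exponent (Multiplicative A →* (Multiplicative Z)ˣ)) := by
    rwa [Monoid.exponent_eq_of_mulEquiv
      (CommGroup.monoidHom_mulEquiv_of_hasEnoughRootsOfUnity (Multiplicative A)
        (Multiplicative Z)).some]
  let Ψ' : Subgroup (Multiplicative A →* (Multiplicative Z)ˣ) :=
    { carrier := {f | ∃ ψ ∈ Ψ, trans ψ = f}
      one_mem' := ⟨0, Ψ.zero_mem, trans_zero⟩
      mul_mem' := by
        rintro _ _ ⟨ψ, hψ, rfl⟩ ⟨ψ', hψ', rfl⟩
        exact ⟨ψ + ψ', Ψ.add_mem hψ hψ', trans_add ψ ψ'⟩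
      inv_mem' := by
        rintro _ ⟨ψ, hψ, rfl⟩
        exact ⟨-ψ, Ψ.neg_mem hψ, trans_neg ψ⟩ }
  have hmem : trans x ∈ Ψ' := by
    rw [← CommGroup.forall_monoidHom_apply_eq_one_iff (M := Multiplicative Z) Ψ' (trans x)]
    intro η hη
    have hg : CommGroup.monoidHomMonoidHomEquiv (Multiplicative A) (Multiplicative Z) η = 1 := by
      have h0 : (CommGroup.monoidHomMonoidHomEquiv (Multiplicative A) (Multiplicative Z) η).toAdd
          = 0 := by
        apply hsep
        intro ψ hψ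
        rw [← trans_eq_one_iff, CommGroup.apply_monoidHomMonoidHomEquiv]
        exact hη _ ⟨ψ, hψ, rfl⟩
      exact congrArg Multiplicative.ofAdd h0
    rw [← CommGroup.apply_monoidHomMonoidHomEquiv, hg, map_one]
  obtain ⟨ψ, hψ, hψx⟩ := hmem
  rw [← trans_injective hψx]
  exact hψ

end dual

section add
variable {G : Type} [Group G]

/-- `cohMap` is additive in the morphism -/
theorem cohMap_add {A B : Rep.{0} ℤ G} (f g : A ⟶ B) (n : ℕ) (x : groupCohomology A n) :
    H20A.cohMap (f + g) n x = H20A.cohMap f n x + H20A.cohMap g n x := by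
  have h1 : (groupCohomology.functor ℤ G n).map (f + g) =
      (groupCohomology.functor ℤ G n).map f + (groupCohomology.functor ℤ G n).map g := by
    change HomologicalComplex.homologyMap ((cochainsFunctor ℤ G).map (f + g)) n =
      HomologicalComplex.homologyMap ((cochainsFunctor ℤ G).map f) n +
      HomologicalComplex.homologyMap ((cochainsFunctor ℤ G).map g) n
    rw [Functor.map_add, HomologicalComplex.homologyMap_add]
  have h2 := congrArg (fun m => m.hom x) h1
  exact h2

variable {R V : Type} [AddCommGroup R] [AddCommGroup V]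
  (ρR : Representation ℤ G R) (ρV : Representation ℤ G V)

theorem repHom_add (b b' : R →+ V) (hb : ∀ g r, b (ρR g r) = ρV g (b r))
    (hb' : ∀ g r, b' (ρR g r) = ρV g (b' r)) :
    H20A.repHom ρR ρV (b + b') (fun g r => by
      rw [AddMonoidHom.add_apply, AddMonoidHom.add_apply, hb, hb', map_add]) =
      H20A.repHom ρR ρV b hb + H20A.repHom ρR ρV b' hb' := by
  apply Rep.hom_ext
  apply Representation.IntertwiningMap.ext
  apply LinearMap.ext
  intro r
  rfl

end add

section coprime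

theorem eq_zero_of_coprime_smul {M : Type} [AddCommGroup M] (p : ℕ) [Fact p.Prime] (m k : ℕ)
    (hm : ¬ p ∣ m) (x : M) (h1 : m • x = 0) (h2 : (p ^ k) • x = 0) : x = 0 := by
  have hc : Nat.Coprime m (p ^ k) :=
    Nat.Coprime.pow_right k ((Nat.Prime.coprime_iff_not_dvd Fact.out).2 hm).symm
  have d1 : addOrderOf x ∣ m := addOrderOf_dvd_of_nsmul_eq_zero h1
  have d2 : addOrderOf x ∣ p ^ k := addOrderOf_dvd_of_nsmul_eq_zero h2
  have d3 : addOrderOf x ∣ 1 := by
    have := Nat.dvd_gcd d1 d2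
    rwa [hc.gcd_eq_one] at this
  exact AddMonoid.addOrderOf_eq_one_iff.1 (Nat.dvd_one.1 d3)

end coprime

section surj
variable {G : Type} [Group G] [Finite G]

/-- the `p`-primary part of an abelian group -/
def pPart (p : ℕ) (M : Type) [AddCommGroup M] : AddSubgroup M where
  carrier := {u | ∃ k : ℕ, (p ^ k) • u = 0}
  zero_mem' := ⟨0, smul_zero _⟩
  add_mem' := by
    rintro a b ⟨k, hk⟩ ⟨l, hl⟩
    refine ⟨k + l, ?_⟩
    have h1 : (p ^ (k + l)) • a = 0 := by
      rw [pow_add, mul_comm, mul_smul, hk, smul_zero]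
    have h2 : (p ^ (k + l)) • b = 0 := by
      rw [pow_add, mul_smul, hl, smul_zero]
    rw [smul_add, h1, h2, add_zero]
  neg_mem' := by
    rintro a ⟨k, hk⟩
    exact ⟨k, by rw [smul_neg, hk, neg_zero]⟩

theorem mem_pPart {p : ℕ} {M : Type} [AddCommGroup M] (u : M) :
    u ∈ pPart p M ↔ ∃ k : ℕ, (p ^ k) • u = 0 := Iff.rfl

variable {R V : Type} [AddCommGroup R] [AddCommGroup V]
  (ρR : Representation ℤ G R) (ρV : Representation ℤ G V)

/-- the group `Hom_G(R, V)` -/
def eqHoms : AddSubgroup (R →+ V) where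
  carrier := {b | ∀ g r, b (ρR g r) = ρV g (b r)}
  zero_mem' := fun g r => by
    rw [AddMonoidHom.zero_apply, AddMonoidHom.zero_apply, map_zero]
  add_mem' := by
    intro b b' hb hb' g r
    rw [AddMonoidHom.add_apply, AddMonoidHom.add_apply, hb, hb', map_add]
  neg_mem' := by
    intro b hb g r
    rw [AddMonoidHom.neg_apply, AddMonoidHom.neg_apply, hb, map_neg]

/-- the morphism of representations of an equivariant map -/
def bHom (b : eqHoms ρR ρV) : Rep.of ρR ⟶ Rep.of ρV := H20A.repHom ρR ρV b.1 b.2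

theorem bHom_add (b b' : eqHoms ρR ρV) : bHom ρR ρV (b + b') = bHom ρR ρV b + bHom ρR ρV b' := by
  apply Rep.hom_ext
  apply Representation.IntertwiningMap.ext
  apply LinearMap.ext
  intro r
  rfl

/-- `b ↦ b_*` as an additive map -/
def pushHom : eqHoms ρR ρV →+
    (groupCohomology (Rep.of ρR) 2 →+ groupCohomology (Rep.of ρV) 2) :=
  AddMonoidHom.mk' (fun b => H20A.cohMap (bHom ρR ρV b) 2) (fun b b' => by
    ext u
    rw [bHom_add]
    exact cohMap_add _ _ 2 u)

theorem pushHom_apply (b : eqHoms ρR ρV) (u : groupCohomology (Rep.of ρR) 2) :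
    pushHom ρR ρV b u = H20A.cohMap (H20A.repHom ρR ρV b.1 b.2) 2 u := rfl


/-- restriction to a Sylow subgroup is injective on `p`-primary classes -/
theorem res_injective_pPart (p : ℕ) [Fact p.Prime] (P : Sylow p G) (A : Rep.{0} ℤ G) (n : ℕ)
    (v : groupCohomology A n) (hv : ∃ k : ℕ, (p ^ k) • v = 0)
    (h0 : H20A.resCoh A (P : Subgroup G) n v = 0) : v = 0 := by
  obtain ⟨k, hk⟩ := hv
  have h1 := H26AR.h26ar_indexKillsCoh G A (P : Subgroup G) n v h0
  exact eq_zero_of_coprime_smul p _ k (Sylow.not_dvd_index P) v h1 hk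

/-- `|P|` kills the `p`-primary part of `H^{n+1}` -/
theorem card_sylow_smul (p : ℕ) [Fact p.Prime] (P : Sylow p G) (A : Rep.{0} ℤ G) (n : ℕ)
    (u : groupCohomology A (n + 1)) (hu : ∃ k : ℕ, (p ^ k) • u = 0) :
    Nat.card (P : Subgroup G) • u = 0 := by
  obtain ⟨k, hk⟩ := hu
  apply eq_zero_of_coprime_smul p _ k (Sylow.not_dvd_index P)
  · rw [← mul_smul, Subgroup.index_mul_card]
    exact H26AT.card_nsmul_eq_zero A n u
  · rw [← mul_smul, mul_comm, mul_smul, hk, smul_zero]

/-- **NT-SURJ**: every additive map `H²(G, R) → H²(G, C)` is induced, on `p`-primary classes, by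
some `b ∈ Hom_G(R, C)` (`C` a `p`-class module, `R` a lattice). -/
theorem h26nt_surj (hNTR : H20A.NTRightStatement G) (p : ℕ) [Fact p.Prime]
    (γ : groupCohomology (Rep.of ρV) 2) (hcm : H20A.IsPClassModule p (Rep.of ρV) γ)
    [Module.Free ℤ R] [Module.Finite ℤ R]
    (φ : groupCohomology (Rep.of ρR) 2 →+ groupCohomology (Rep.of ρV) 2) :
    ∃ (b : R →+ V) (hb : ∀ g r, b (ρR g r) = ρV g (b r)),
      ∀ u : groupCohomology (Rep.of ρR) 2, (∃ k : ℕ, (p ^ k) • u = 0) →
        H20A.cohMap (H20A.repHom ρR ρV b hb) 2 u = φ u := by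
  obtain ⟨P⟩ : Nonempty (Sylow p G) := inferInstance
  have hP : IsPGroup p (P : Subgroup G) := P.isPGroup'
  -- the target `Z' = H²(P, C)` is finite cyclic of order `|P|`
  have hcard := hcm.card (P : Subgroup G) hP
  haveI hfin : Finite (groupCohomology (H20A.resSub (Rep.of ρV) (P : Subgroup G)) 2) :=
    Nat.finite_of_card_ne_zero (by rw [hcard]; exact Nat.card_pos.ne')
  haveI hcyc : IsAddCyclic (groupCohomology (H20A.resSub (Rep.of ρV) (P : Subgroup G)) 2) :=
    ⟨⟨H20A.resCoh (Rep.of ρV) (P : Subgroup G) 2 γ, fun x => by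
      obtain ⟨k, hk⟩ := hcm.gen (P : Subgroup G) hP x
      exact ⟨k, hk.symm⟩⟩⟩
  haveI hfinX : Finite (groupCohomology (Rep.of ρR) 2) := h26nt_fin R ρR
  -- the maps
  let ι := (pPart p (groupCohomology (Rep.of ρR) 2)).subtype
  let resV := H20A.resCoh (Rep.of ρV) (P : Subgroup G) 2
  let Θ : eqHoms ρR ρV →+ (pPart p (groupCohomology (Rep.of ρR) 2) →+
      groupCohomology (H20A.resSub (Rep.of ρV) (P : Subgroup G)) 2) :=
    AddMonoidHom.mk' (fun b => (resV.comp (pushHom ρR ρV b)).comp ι) (fun b b' => by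
      ext u
      simp only [AddMonoidHom.comp_apply, map_add, AddMonoidHom.add_apply])
  have hexp : ∀ a : pPart p (groupCohomology (Rep.of ρR) 2),
      Nat.card (groupCohomology (H20A.resSub (Rep.of ρV) (P : Subgroup G)) 2) • a = 0 := by
    intro a
    apply Subtype.ext
    rw [hcard]
    exact card_sylow_smul p P (Rep.of ρR) 1 a.1 a.2
  have hpp : ∀ (b : eqHoms ρR ρV) (u : groupCohomology (Rep.of ρR) 2),
      (∃ k : ℕ, (p ^ k) • u = 0) → ∃ k : ℕ, (p ^ k) • (pushHom ρR ρV b u) = 0 := by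
    rintro b u ⟨k, hk⟩
    refine ⟨k, ?_⟩
    rw [← map_nsmul, hk, map_zero]
  have hsep : ∀ a : pPart p (groupCohomology (Rep.of ρR) 2),
      (∀ ψ ∈ Θ.range, ψ a = 0) → a = 0 := by
    intro a ha
    by_contra hne
    have hne' : (a : groupCohomology (Rep.of ρR) 2) ≠ 0 := fun h => hne (Subtype.ext h)
    obtain ⟨b, hb, hbu⟩ := hNTR p V ρV γ hcm R ρR a.1 hne' a.2
    apply hbu
    have h1 := ha (Θ ⟨b, hb⟩) ⟨⟨b, hb⟩, rfl⟩
    exact res_injective_pPart p P (Rep.of ρV) 2 _ (hpp ⟨b, hb⟩ a.1 a.2) h1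
  have hx := dual_surj hexp Θ.range hsep ((resV.comp φ).comp ι)
  obtain ⟨b, hb⟩ := hx
  refine ⟨b.1, b.2, fun u hu => ?_⟩
  have h1 := congrArg (fun ψ => ψ ⟨u, hu⟩) hb
  have h2 : resV (pushHom ρR ρV b u) = resV (φ u) := h1
  have h3 : resV (pushHom ρR ρV b u - φ u) = 0 := by
    rw [map_sub, h2, sub_self]
  have h4 : ∃ k : ℕ, (p ^ k) • (pushHom ρR ρV b u - φ u) = 0 := by
    obtain ⟨k, hk⟩ := hu
    refine ⟨k, ?_⟩
    rw [smul_sub, ← map_nsmul, ← map_nsmul, hk, map_zero, map_zero, sub_zero]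
  have h5 := res_injective_pPart p P (Rep.of ρV) 2 _ h4 h3
  exact sub_eq_zero.1 h5

end surj
end H26NT
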