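/-
W2-C (S55) blocks A/E (helper26): finite-level consequences of Nakayama-Tate duality, part 2.

* `H26NT.dual_mem` (double annihilator in `Hom(A, Z)`), `H26NT.sep_points`, `H26NT.exists_factor`
  (a homomorphism `A → Z` vanishing on `ker (j : A → A')` factors through `j`);
  `A`, `A'` finite, `Z` finite cyclic, `|Z|` kills `A`, `A'`.
* `H26NT.theta_surjective` (NT-SURJ'): every additive `H²(G, R)(p) → H²(P, C)` is `u ↦ res_P (b_* u)`.
* `H26NT.h26nt_alpha1` (**ALPHA1-FL**): `b ∈ Hom_G(R₁, C)` killing the `p`-primary part of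
  `ker (ι_* : H²(G, R₁) → H²(G, R₀))` satisfies `m b = a ∘ ι + N_G f`, `m` prime to `p`,
  `a ∈ Hom_G(R₀, C)` (hypotheses `H20A.NTRightStatement G`, `H20A.NTLeftStatement G`; no condition
  on `ι`).
-/
import Mathlib
import Fermat.Agent.CFT2.A.NTCons_helper26

set_option autoImplicit false
set_option linter.style.haveILetI false
set_option linter.unusedSectionVars false
noncomputable section
namespace H26NT
open CategoryTheory Rep groupCohomology

section dual2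
variable {A Z : Type} [AddCommGroup A] [Finite A] [AddCommGroup Z] [Finite Z] [IsAddCyclic Z]

theorem hasEnough_exp (hexp : ∀ a : A, Nat.card Z • a = 0) :
    HasEnoughRootsOfUnity (Multiplicative Z) (Monoid.exponent (Multiplicative A)) := by
  haveI : NeZero (Nat.card Z) := ⟨Nat.card_pos.ne'⟩
  haveI := hasEnough_card (Z := Z)
  have hdvd : Monoid.exponent (Multiplicative A) ∣ Nat.card Z := by
    apply Monoid.exponent_dvd_of_forall_pow_eq_one
    intro g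
    exact congrArg Multiplicative.ofAdd (hexp g.toAdd)
  exact HasEnoughRootsOfUnity.of_dvd (Multiplicative Z) hdvd

/-- double annihilator: `x` lies in the subgroup `Ψ` of `Hom(A, Z)` as soon as it vanishes on the
common kernel of `Ψ` -/
theorem dual_mem (hexp : ∀ a : A, Nat.card Z • a = 0) (Ψ : AddSubgroup (A →+ Z)) (x : A →+ Z)
    (hx : ∀ a : A, (∀ ψ ∈ Ψ, ψ a = 0) → x a = 0) : x ∈ Ψ := by
  haveI hE := hasEnough_exp (A := A) (Z := Z) hexp
  haveI : Finite (Multiplicative A →* (Multiplicative Z)ˣ) :=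
    Finite.of_injective (fun f => (f : Multiplicative A → (Multiplicative Z)ˣ))
      DFunLike.coe_injective
  haveI hE' : HasEnoughRootsOfUnity (Multiplicative Z)
      (Monoid.exponent (Multiplicative A →* (Multiplicative Z)ˣ)) := by
    rwa [Monoid.exponent_eq_of_mulEquiv
      (CommGroup.monoidHom_mulEquiv_of_hasEnoughRootsOfUnity (Multiplicative A)
        (Multiplicative Z)).some]
  let Ψ' : Subgroup (Multiplicative A →* (Multiplicative Z)ˣ) :=
    { carrier := {f | ∃ ψ ∈ Ψ, trans ψ = f}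
      one_mem' := ⟨0, Ψ.zero_mem, trans_zero⟩
      mul_mem' := by
        rintro _ _ ⟨ψ, hψ, rfl⟩ ⟨ψ', hψ', rfl⟩
        exact ⟨ψ + ψ', Ψ.add_mem hψ hψ', trans_add ψ ψ'⟩
      inv_mem' := by
        rintro _ ⟨ψ, hψ, rfl⟩
        exact ⟨-ψ, Ψ.neg_mem hψ, trans_neg ψ⟩ }
  have hmem : trans x ∈ Ψ' := by
    rw [← CommGroup.forall_monoidHom_apply_eq_one_iff (M := Multiplicative Z) Ψ' (trans x)]
    intro η hη
    rw [← CommGroup.apply_monoidHomMonoidHomEquiv, trans_eq_one_iff]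
    apply hx
    intro ψ hψ
    rw [← trans_eq_one_iff, CommGroup.apply_monoidHomMonoidHomEquiv]
    exact hη _ ⟨ψ, hψ, rfl⟩
  obtain ⟨ψ, hψ, hψx⟩ := hmem
  rw [← trans_injective hψx]
  exact hψ

/-- homomorphisms to `Z` separate the points of `A` -/
theorem sep_points (hexp : ∀ a : A, Nat.card Z • a = 0) (a : A) (ha : ∀ ψ : A →+ Z, ψ a = 0) :
    a = 0 := by
  haveI hE := hasEnough_exp (A := A) (Z := Z) hexp
  by_contra hne
  have hne' : Multiplicative.ofAdd a ≠ 1 := fun h => hne (congrArg Multiplicative.toAdd h)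
  obtain ⟨φ, hφ⟩ := CommGroup.exists_apply_ne_one_of_hasEnoughRootsOfUnity (Multiplicative A)
    (Multiplicative Z) hne'
  apply hφ
  let ψ : A →+ Z := AddMonoidHom.mk' (fun a => ((φ (Multiplicative.ofAdd a) :
    (Multiplicative Z)ˣ) : Multiplicative Z).toAdd) (fun a b => by
      change Multiplicative.toAdd ((φ (Multiplicative.ofAdd a * Multiplicative.ofAdd b) :
        (Multiplicative Z)ˣ) : Multiplicative Z) = _
      rw [map_mul]
      rfl)
  have h1 : ψ a = 0 := ha ψ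
  apply Units.ext
  exact congrArg Multiplicative.ofAdd h1

/-- extension of homomorphisms: `x : A → Z` vanishing on the kernel of `j : A → A'` factors
through `j` -/
theorem exists_factor {A' : Type} [AddCommGroup A'] [Finite A']
    (hexp : ∀ a : A, Nat.card Z • a = 0) (hexp' : ∀ a : A', Nat.card Z • a = 0)
    (j : A →+ A') (x : A →+ Z) (hx : ∀ a : A, j a = 0 → x a = 0) :
    ∃ x' : A' →+ Z, ∀ a : A, x' (j a) = x a := by
  let Θ : (A' →+ Z) →+ (A →+ Z) :=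
    AddMonoidHom.mk' (fun x' => x'.comp j) (fun x' y' => by
      ext a
      rfl)
  have hmem : x ∈ Θ.range := by
    apply dual_mem hexp
    intro a ha
    apply hx
    apply sep_points hexp'
    intro ψ
    exact ha (Θ ψ) ⟨ψ, rfl⟩
  obtain ⟨x', hx'⟩ := hmem
  exact ⟨x', fun a => congrArg (fun f => f a) hx'⟩

end dual2

section alpha
variable {G : Type} [Group G] [Finite G]

theorem cohMap_comp {A B C : Rep.{0} ℤ G} (f : A ⟶ B) (g : B ⟶ C) (n : ℕ)
    (x : groupCohomology A n) :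
    H20A.cohMap (f ≫ g) n x = H20A.cohMap g n (H20A.cohMap f n x) := by
  have h1 := (groupCohomology.functor ℤ G n).map_comp f g
  exact congrArg (fun m => m.hom x) h1

variable (p : ℕ) [Fact p.Prime] (P : Sylow p G)
variable {R V : Type} [AddCommGroup R] [AddCommGroup V]
  (ρR : Representation ℤ G R) (ρV : Representation ℤ G V)

/-- `b ↦ (u ↦ res_P (b_* u))` on the `p`-primary classes -/
def theta : eqHoms ρR ρV →+ (pPart p (groupCohomology (Rep.of ρR) 2) →+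
    groupCohomology (H20A.resSub (Rep.of ρV) (P : Subgroup G)) 2) :=
  AddMonoidHom.mk' (fun b => ((H20A.resCoh (Rep.of ρV) (P : Subgroup G) 2).comp
    (pushHom ρR ρV b)).comp (pPart p (groupCohomology (Rep.of ρR) 2)).subtype) (fun b b' => by
      ext u
      simp only [AddMonoidHom.comp_apply, map_add, AddMonoidHom.add_apply])

theorem theta_apply (b : eqHoms ρR ρV) (u : pPart p (groupCohomology (Rep.of ρR) 2)) :
    theta p P ρR ρV b u =
      H20A.resCoh (Rep.of ρV) (P : Subgroup G) 2 (pushHom ρR ρV b u.1) := rfl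

theorem pushHom_pPart (b : eqHoms ρR ρV) (u : groupCohomology (Rep.of ρR) 2)
    (hu : ∃ k : ℕ, (p ^ k) • u = 0) : ∃ k : ℕ, (p ^ k) • (pushHom ρR ρV b u) = 0 := by
  obtain ⟨k, hk⟩ := hu
  refine ⟨k, ?_⟩
  rw [← map_nsmul, hk, map_zero]

theorem card_smul_pPart (γ : groupCohomology (Rep.of ρV) 2)
    (hcm : H20A.IsPClassModule p (Rep.of ρV) γ)
    (a : pPart p (groupCohomology (Rep.of ρR) 2)) :
    Nat.card (groupCohomology (H20A.resSub (Rep.of ρV) (P : Subgroup G)) 2) • a = 0 := by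
  apply Subtype.ext
  rw [hcm.card (P : Subgroup G) P.isPGroup']
  exact card_sylow_smul p P (Rep.of ρR) 1 a.1 a.2

theorem finite_target (γ : groupCohomology (Rep.of ρV) 2)
    (hcm : H20A.IsPClassModule p (Rep.of ρV) γ) :
    Finite (groupCohomology (H20A.resSub (Rep.of ρV) (P : Subgroup G)) 2) :=
  Nat.finite_of_card_ne_zero (by
    rw [hcm.card (P : Subgroup G) P.isPGroup']
    exact Nat.card_pos.ne')

theorem cyclic_target (γ : groupCohomology (Rep.of ρV) 2)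
    (hcm : H20A.IsPClassModule p (Rep.of ρV) γ) :
    IsAddCyclic (groupCohomology (H20A.resSub (Rep.of ρV) (P : Subgroup G)) 2) :=
  ⟨⟨H20A.resCoh (Rep.of ρV) (P : Subgroup G) 2 γ, fun x => by
    obtain ⟨k, hk⟩ := hcm.gen (P : Subgroup G) P.isPGroup' x
    exact ⟨k, hk.symm⟩⟩⟩

/-- **NT-SURJ'**: every additive map `H²(G, R)(p) → H²(P, C)` is `u ↦ res_P (b_* u)` -/
theorem theta_surjective (hNTR : H20A.NTRightStatement G)
    (γ : groupCohomology (Rep.of ρV) 2) (hcm : H20A.IsPClassModule p (Rep.of ρV) γ)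
    [Module.Free ℤ R] [Module.Finite ℤ R]
    (x : pPart p (groupCohomology (Rep.of ρR) 2) →+
      groupCohomology (H20A.resSub (Rep.of ρV) (P : Subgroup G)) 2) :
    ∃ b : eqHoms ρR ρV, theta p P ρR ρV b = x := by
  haveI := finite_target p P ρV γ hcm
  haveI := cyclic_target p P ρV γ hcm
  haveI : Finite (groupCohomology (Rep.of ρR) 2) := h26nt_fin R ρR
  have hsep : ∀ a : pPart p (groupCohomology (Rep.of ρR) 2),
      (∀ ψ ∈ (theta p P ρR ρV).range, ψ a = 0) → a = 0 := by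
    intro a ha
    by_contra hne
    have hne' : (a : groupCohomology (Rep.of ρR) 2) ≠ 0 := fun h => hne (Subtype.ext h)
    obtain ⟨b, hb, hbu⟩ := hNTR p V ρV γ hcm R ρR a.1 hne' a.2
    apply hbu
    have h1 := ha (theta p P ρR ρV ⟨b, hb⟩) ⟨⟨b, hb⟩, rfl⟩
    exact res_injective_pPart p P (Rep.of ρV) 2 _ (pushHom_pPart p ρR ρV ⟨b, hb⟩ a.1 a.2) h1
  exact dual_surj (card_smul_pPart p P ρR ρV γ hcm) (theta p P ρR ρV).range hsep x


variable {R₀ R₁ : Type} [AddCommGroup R₀] [AddCommGroup R₁]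
  (ρ₀ : Representation ℤ G R₀) (ρ₁ : Representation ℤ G R₁)

/-- composition of equivariant maps -/
def compE (a : eqHoms ρ₀ ρV) (ι : eqHoms ρ₁ ρ₀) : eqHoms ρ₁ ρV :=
  ⟨a.1.comp ι.1, fun g r => by
    rw [AddMonoidHom.comp_apply, AddMonoidHom.comp_apply, ι.2, a.2]⟩

theorem pushHom_compE (a : eqHoms ρ₀ ρV) (ι : eqHoms ρ₁ ρ₀)
    (u : groupCohomology (Rep.of ρ₁) 2) :
    pushHom ρ₁ ρV (compE ρV ρ₀ ρ₁ a ι) u = pushHom ρ₀ ρV a (pushHom ρ₁ ρ₀ ι u) := by
  have h1 : bHom ρ₁ ρV (compE ρV ρ₀ ρ₁ a ι) = bHom ρ₁ ρ₀ ι ≫ bHom ρ₀ ρV a := by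
    apply Rep.hom_ext
    apply Representation.IntertwiningMap.ext
    apply LinearMap.ext
    intro r
    rfl
  change H20A.cohMap (bHom ρ₁ ρV (compE ρV ρ₀ ρ₁ a ι)) 2 u = _
  rw [h1]
  exact cohMap_comp _ _ 2 u

/-- `ι_*` on `p`-primary classes -/
def pushP (ι : eqHoms ρ₁ ρ₀) : pPart p (groupCohomology (Rep.of ρ₁) 2) →+
    pPart p (groupCohomology (Rep.of ρ₀) 2) :=
  AddMonoidHom.mk' (fun u => ⟨pushHom ρ₁ ρ₀ ι u.1, pushHom_pPart p ρ₁ ρ₀ ι u.1 u.2⟩)
    (fun u v => by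
      apply Subtype.ext
      exact map_add (pushHom ρ₁ ρ₀ ι) u.1 v.1)

/-- **ALPHA1-FL**: if `b ∈ Hom_G(R₁, C)` kills `ker (ι_* : H²(G, R₁) → H²(G, R₀))`, then
`m b = a ∘ ι + N_G f` with `m` prime to `p`, `a ∈ Hom_G(R₀, C)`, `f ∈ Hom_ℤ(R₁, C)`. -/
theorem h26nt_alpha1 (hNTR : H20A.NTRightStatement G) (hNTL : H20A.NTLeftStatement G)
    (γ : groupCohomology (Rep.of ρV) 2) (hcm : H20A.IsPClassModule p (Rep.of ρV) γ)
    [Module.Free ℤ R₀] [Module.Finite ℤ R₀] [Module.Free ℤ R₁] [Module.Finite ℤ R₁]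
    (ι : R₁ →+ R₀) (hι : ∀ g r, ι (ρ₁ g r) = ρ₀ g (ι r))
    (b : R₁ →+ V) (hb : ∀ g r, b (ρ₁ g r) = ρV g (b r))
    (hker : ∀ u : groupCohomology (Rep.of ρ₁) 2, (∃ k : ℕ, (p ^ k) • u = 0) →
      H20A.cohMap (H20A.repHom ρ₁ ρ₀ ι hι) 2 u = 0 →
      H20A.cohMap (H20A.repHom ρ₁ ρV b hb) 2 u = 0) :
    ∃ (m : ℕ) (a : R₀ →+ V) (_ : ∀ g r, a (ρ₀ g r) = ρV g (a r)) (f : R₁ →ₗ[ℤ] V),
      m.Coprime p ∧ ∀ r : R₁, m • b r = a (ι r) + H20A.normOf (H20A.homRep ρ₁ ρV) f r := by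
  obtain ⟨P⟩ : Nonempty (Sylow p G) := inferInstance
  haveI := finite_target p P ρV γ hcm
  haveI := cyclic_target p P ρV γ hcm
  haveI : Finite (groupCohomology (Rep.of ρ₁) 2) := h26nt_fin R₁ ρ₁
  haveI : Finite (groupCohomology (Rep.of ρ₀) 2) := h26nt_fin R₀ ρ₀
  let ιE : eqHoms ρ₁ ρ₀ := ⟨ι, hι⟩
  let bE : eqHoms ρ₁ ρV := ⟨b, hb⟩
  -- factor `x₁ = res ∘ b_*` through `ι_*`
  obtain ⟨x₀, hx₀⟩ := exists_factor (card_smul_pPart p P ρ₁ ρV γ hcm)
    (card_smul_pPart p P ρ₀ ρV γ hcm) (pushP p ρ₀ ρ₁ ιE) (theta p P ρ₁ ρV bE) (fun u hu => by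
      have h1 : pushHom ρ₁ ρ₀ ιE u.1 = 0 := congrArg Subtype.val hu
      have h2 : pushHom ρ₁ ρV bE u.1 = 0 := hker u.1 u.2 h1
      rw [theta_apply, h2, map_zero])
  obtain ⟨aE, haE⟩ := theta_surjective p P ρ₀ ρV hNTR γ hcm x₀
  -- `c = b - a ∘ ι` kills the `p`-primary classes
  let cE : eqHoms ρ₁ ρV := bE - compE ρV ρ₀ ρ₁ aE ιE
  have hc : ∀ u : groupCohomology (Rep.of ρ₁) 2, (∃ k : ℕ, (p ^ k) • u = 0) →
      H20A.cohMap (H20A.repHom ρ₁ ρV cE.1 cE.2) 2 u = 0 := by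
    intro u hu
    apply res_injective_pPart p P (Rep.of ρV) 2 _ (pushHom_pPart p ρ₁ ρV cE u hu)
    have h1 : pushHom ρ₁ ρV cE u = pushHom ρ₁ ρV bE u -
        pushHom ρ₀ ρV aE (pushHom ρ₁ ρ₀ ιE u) := by
      rw [← pushHom_compE]
      change pushHom ρ₁ ρV (bE - compE ρV ρ₀ ρ₁ aE ιE) u = _
      rw [map_sub]
      rfl
    change H20A.resCoh (Rep.of ρV) (P : Subgroup G) 2 (pushHom ρ₁ ρV cE u) = 0
    rw [h1, map_sub, sub_eq_zero]
    have h2 := hx₀ ⟨u, hu⟩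
    rw [← haE] at h2
    exact h2.symm
  obtain ⟨m, f, hm, hmf⟩ := hNTL p V ρV γ hcm R₁ ρ₁ cE.1 cE.2 hc
  refine ⟨m, m • aE.1, (m • aE).2, f, ?_, fun r => ?_⟩
  · exact ((Nat.Prime.coprime_iff_not_dvd Fact.out).2 hm).symm
  · have h1 := congrArg (fun (k : R₁ →ₗ[ℤ] V) => k r) hmf
    have h2 : m • (b r - aE.1 (ι r)) = H20A.normOf (H20A.homRep ρ₁ ρV) f r := h1
    rw [smul_sub] at h2
    rw [AddMonoidHom.smul_apply, ← h2]
    abel

end alpha
end H26NT
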