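/-
W2-C (S55) blocks A/E (helper26): finite-level core of DIM1.

* `H26NT.cyclic_ptorsion` : in a finite cyclic group the `p`-torsion is generated by any nonzero
  `p`-torsion element.
* `H26NT.h26nt_dim1` : for a `p`-class module `(C, γ)` over a finite group `G`, if `x, y ∈ H²(G, C)`
  are killed by `p` and `x ≠ 0` then `y = k • x` (restriction to a Sylow subgroup is injective on
  `p`-primary classes, AR1).
-/
import Mathlib
import Fermat.Agent.CFT2.A.NTAlpha_helper26

set_option autoImplicit false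
set_option linter.style.haveILetI false
set_option linter.unusedSectionVars false
noncomputable section
namespace H26NT
open CategoryTheory Rep groupCohomology

section cyc

/-- in a finite cyclic group the `p`-torsion is generated by any of its nonzero elements -/
theorem cyclic_ptorsion {Z : Type} [AddCommGroup Z] [Finite Z] [IsAddCyclic Z] (p : ℕ)
    [Fact p.Prime] (a b : Z) (ha : p • a = 0) (hb : p • b = 0) (ha0 : a ≠ 0) :
    ∃ k : ℤ, b = k • a := by
  have hord : addOrderOf a = p := by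
    have h1 : addOrderOf a ∣ p := addOrderOf_dvd_of_nsmul_eq_zero ha
    rcases (Nat.dvd_prime Fact.out).1 h1 with h | h
    · exact absurd (AddMonoid.addOrderOf_eq_one_iff.1 h) ha0
    · exact h
  let T : AddSubgroup Z := (nsmulAddMonoidHom p : Z →+ Z).ker
  have hT : Nat.card T = (Nat.card Z).gcd p := IsAddCyclic.card_nsmulAddMonoidHom_ker Z p
  have hle : AddSubgroup.zmultiples a ≤ T := by
    intro z hz
    obtain ⟨k, rfl⟩ := AddSubgroup.mem_zmultiples_iff.1 hz
    exact T.zsmul_mem ha k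
  have hcard : Nat.card T ≤ Nat.card (AddSubgroup.zmultiples a) := by
    rw [Nat.card_zmultiples, hord, hT]
    exact Nat.le_of_dvd (Fact.out : p.Prime).pos (Nat.gcd_dvd_right _ _)
  have heq : AddSubgroup.zmultiples a = T := AddSubgroup.eq_of_le_of_card_ge hle hcard
  have hbT : b ∈ T := hb
  rw [← heq] at hbT
  obtain ⟨k, hk⟩ := AddSubgroup.mem_zmultiples_iff.1 hbT
  exact ⟨k, hk.symm⟩

end cyc

section dim1
variable {G : Type} [Group G] [Finite G]

/-- **DIM1 (finite level)**: for a `p`-class module `(C, γ)` the `p`-torsion of `H²(G, C)` is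
cyclic: a nonzero `p`-torsion class generates it. -/
theorem h26nt_dim1 (p : ℕ) [Fact p.Prime] {V : Type} [AddCommGroup V] (ρV : Representation ℤ G V)
    (γ : groupCohomology (Rep.of ρV) 2) (hcm : H20A.IsPClassModule p (Rep.of ρV) γ)
    (x y : groupCohomology (Rep.of ρV) 2) (hx : p • x = 0) (hy : p • y = 0) (hx0 : x ≠ 0) :
    ∃ k : ℤ, y = k • x := by
  obtain ⟨P⟩ : Nonempty (Sylow p G) := inferInstance
  haveI := finite_target p P ρV γ hcm
  haveI := cyclic_target p P ρV γ hcm
  have hx1 : ∃ k : ℕ, (p ^ k) • x = 0 := ⟨1, by rw [pow_one]; exact hx⟩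
  have hy1 : ∃ k : ℕ, (p ^ k) • y = 0 := ⟨1, by rw [pow_one]; exact hy⟩
  have hrx : H20A.resCoh (Rep.of ρV) (P : Subgroup G) 2 x ≠ 0 := fun h =>
    hx0 (res_injective_pPart p P (Rep.of ρV) 2 x hx1 h)
  have hpx : p • H20A.resCoh (Rep.of ρV) (P : Subgroup G) 2 x = 0 := by
    rw [← map_nsmul, hx, map_zero]
  have hpy : p • H20A.resCoh (Rep.of ρV) (P : Subgroup G) 2 y = 0 := by
    rw [← map_nsmul, hy, map_zero]
  obtain ⟨k, hk⟩ := cyclic_ptorsion p _ _ hpx hpy hrx
  refine ⟨k, ?_⟩
  have h1 : H20A.resCoh (Rep.of ρV) (P : Subgroup G) 2 (y - k • x) = 0 := by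
    rw [map_sub, map_zsmul, hk, sub_self]
  have h2 : ∃ j : ℕ, (p ^ j) • (y - k • x) = 0 := by
    refine ⟨1, ?_⟩
    rw [pow_one, smul_sub, hy, smul_comm, hx, zsmul_zero, sub_zero]
  exact sub_eq_zero.1 (res_injective_pPart p P (Rep.of ρV) 2 _ h2 h1)

end dim1
end H26NT
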