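/-
W2-C (S55) block A (helper20): cohomology and quotients killed by an integer prime to `p`.
For a short exact sequence `0 → B → C → Q → 0` of `G`-modules with `n Q = 0`:
* `n` kills `Hⁱ(G, Q)`;
* if `G` is a `p`-group and `p ∤ n`: `H¹(G, B) → H¹(G, C)` is injective and `H²(G, B) → H²(G, C)`
  is bijective;
* every `n • γ`, `γ ∈ H²(G, C)`, comes from `H²(G, B)`.
-/
import Fermat.Agent.CFT2.A.W320_helper20
import Fermat.Agent.CFT2.A.ATate_helper26
import Fermat.Agent.CFT2.A.W3U_helper22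

set_option autoImplicit false

noncomputable section

open CategoryTheory groupCohomology

namespace H20Q

variable {G : Type} [Group G] [Finite G]

/-- `n` kills `Hⁱ(G, Q)` if `n` kills `Q` -/
theorem h20q_smul_coh (Q : Rep.{0} ℤ G) (n : ℕ) (hn : ∀ c : Q, n • c = 0) (i : ℕ)
    (x : groupCohomology Q i) : n • x = 0 := by
  have h0 : ((n : ℤ) • 𝟙 Q : Q ⟶ Q) = 0 := by
    apply H22W3U.h22w3u_hom_ext
    intro c
    rw [Rep.zsmul_hom, Rep.zero_hom]
    have : ((n : ℤ) • (𝟙 Q : Q ⟶ Q).hom) c = (n : ℤ) • c := rfl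
    rw [this, natCast_zsmul]
    exact hn c
  have h1 := H20W3.h20p_cohMap_zsmul (A := Q) (n : ℤ) i x
  rw [h0] at h1
  have h2 : H20A.cohMap (0 : Q ⟶ Q) i x = 0 := by
    simp only [H20A.cohMap, Functor.map_zero]
    rfl
  rw [← natCast_zsmul, ← h1, h2]

/-- coprime integers killing `x` -/
theorem h20q_eq_zero_of_coprime {M : Type} [AddCommGroup M] (a b : ℕ) (h : a.Coprime b) (x : M)
    (ha : a • x = 0) (hb : b • x = 0) : x = 0 := by
  have hcop : IsCoprime (a : ℤ) (b : ℤ) := Nat.isCoprime_iff_coprime.2 h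
  obtain ⟨u, v, huv⟩ := hcop
  have ha' : (a : ℤ) • x = 0 := by rw [natCast_zsmul]; exact ha
  have hb' : (b : ℤ) • x = 0 := by rw [natCast_zsmul]; exact hb
  calc x = (1 : ℤ) • x := (one_zsmul x).symm
    _ = (u * a + v * b) • x := by rw [huv]
    _ = 0 := by rw [add_zsmul, mul_zsmul, mul_zsmul, ha', hb', zsmul_zero, zsmul_zero, add_zero]

section pgroup

variable (p : ℕ) [Fact p.Prime] {X : ShortComplex (Rep.{0} ℤ G)} (hX : X.ShortExact) (n : ℕ)

omit hX in
/-- for a `p`-group, `Hⁱ⁺¹(G, Q) = 0` if `Q` is killed by `n` prime to `p` -/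
theorem h20q_coh_zero (hG : IsPGroup p G) (hpn : ¬ p ∣ n) (hn : ∀ c : X.X₃, n • c = 0) (i : ℕ)
    (x : groupCohomology X.X₃ (i + 1)) : x = 0 := by
  obtain ⟨b, hb⟩ := hG.exists_card_eq
  have h1 := H26AT.card_nsmul_eq_zero X.X₃ i x
  rw [hb] at h1
  have h2 := h20q_smul_coh X.X₃ n hn (i + 1) x
  exact h20q_eq_zero_of_coprime _ _
    (Nat.Coprime.pow_right b ((Nat.Prime.coprime_iff_not_dvd Fact.out).2 hpn).symm) x h2 h1

include hX in
/-- `H¹(G, B) → H¹(G, C)` is injective -/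
theorem h20q_h1_injective (hG : IsPGroup p G) (hpn : ¬ p ∣ n) (hn : ∀ c : X.X₃, n • c = 0) :
    Function.Injective (H20A.cohMap X.f 1) := by
  rw [injective_iff_map_eq_zero]
  intro x hx
  have hex : ∀ x₂ : groupCohomology X.X₁ 1, H20A.cohMap X.f 1 x₂ = 0 →
      ∃ z : groupCohomology X.X₃ 0, (groupCohomology.δ hX 0 1 rfl).hom z = x₂ :=
    fun x₂ h => (ShortComplex.moduleCat_exact_iff _).1
      (mapShortComplex₁_exact hX (i := 0) (j := 1) rfl) x₂ h
  obtain ⟨z, hz⟩ := hex x hx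
  obtain ⟨b, hb⟩ := hG.exists_card_eq
  have h1 := H26AT.card_nsmul_eq_zero X.X₁ 0 x
  rw [hb] at h1
  have h2 : n • x = 0 := by
    rw [← hz, ← map_nsmul, h20q_smul_coh X.X₃ n hn 0 z, map_zero]
  exact h20q_eq_zero_of_coprime _ _
    (Nat.Coprime.pow_right b ((Nat.Prime.coprime_iff_not_dvd Fact.out).2 hpn).symm) x h2 h1

include hX in
/-- `H²(G, B) → H²(G, C)` is bijective -/
theorem h20q_h2_bijective (hG : IsPGroup p G) (hpn : ¬ p ∣ n) (hn : ∀ c : X.X₃, n • c = 0) :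
    Function.Bijective (H20A.cohMap X.f 2) := by
  constructor
  · rw [injective_iff_map_eq_zero]
    intro x hx
    have hex : ∀ x₂ : groupCohomology X.X₁ 2, H20A.cohMap X.f 2 x₂ = 0 →
        ∃ z : groupCohomology X.X₃ 1, (groupCohomology.δ hX 1 2 rfl).hom z = x₂ :=
      fun x₂ h => (ShortComplex.moduleCat_exact_iff _).1
        (mapShortComplex₁_exact hX (i := 1) (j := 2) rfl) x₂ h
    obtain ⟨z, hz⟩ := hex x hx
    rw [← hz, h20q_coh_zero p n hG hpn hn 0 z, map_zero]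
  · intro y
    have hex : ∀ x₂ : groupCohomology X.X₂ 2, H20A.cohMap X.g 2 x₂ = 0 →
        ∃ z : groupCohomology X.X₁ 2, H20A.cohMap X.f 2 z = x₂ :=
      fun x₂ h => (ShortComplex.moduleCat_exact_iff _).1 (mapShortComplex₂_exact hX 2) x₂ h
    exact hex y (h20q_coh_zero p n hG hpn hn 1 _)

end pgroup

/-- `n • γ` comes from `H²(G, B)` -/
theorem h20q_lift {X : ShortComplex (Rep.{0} ℤ G)} (hX : X.ShortExact) (n : ℕ)
    (hn : ∀ c : X.X₃, n • c = 0) (i : ℕ) (γ : groupCohomology X.X₂ i) :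
    ∃ γ' : groupCohomology X.X₁ i, H20A.cohMap X.f i γ' = n • γ := by
  have hex : ∀ x₂ : groupCohomology X.X₂ i, H20A.cohMap X.g i x₂ = 0 →
      ∃ z : groupCohomology X.X₁ i, H20A.cohMap X.f i z = x₂ :=
    fun x₂ h => (ShortComplex.moduleCat_exact_iff _).1 (mapShortComplex₂_exact hX i) x₂ h
  exact hex (n • γ) (by rw [map_nsmul]; exact h20q_smul_coh X.X₃ n hn i _)

end H20Q

end
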