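/-
W2-C (S55) block A, wave 3, slice W3-Syl (helper25), part 1: the explicit Shapiro map
`sh : Hⁿ(G, Coind_P^G B) ⟶ Hⁿ(P, B)` (induced by `P ≤ G` and evaluation at `1`) is surjective.

Route: dimension shifting along `0 → B → Map(P, B) → Q → 0` (helper26's `embSC`), the coinduction
functor being exact, and the connecting maps commuting with `sh`.
-/
import Mathlib
import Fermat.Agent.CFT2.A.Defs
import Fermat.Agent.CFT2.A.AF2_helper5
import Fermat.Agent.CFT2.A.ARCoh_helper26

set_option autoImplicit false
set_option linter.style.haveILetI false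
set_option linter.unusedSectionVars false
noncomputable section
namespace H25Syl
open CategoryTheory Rep groupCohomology

section general
variable {k : Type} [CommRing k] {G : Type} [Group G] (P : Subgroup G)

/-- evaluation at `1`: `Res_P (Coind_P^G B) ⟶ B` (the counit of the adjunction) -/
def ev1 (B : Rep.{0} k P) : Rep.res P.subtype (Rep.coind P.subtype B) ⟶ B :=
  Rep.ofHom ⟨LinearMap.proj 1 ∘ₗ (B.ρ.coindV P.subtype).subtype, fun g => by
    ext f
    have h1 : f.1 ((g : G) * 1) = B.ρ g (f.1 1) := f.2 g 1
    rw [mul_one] at h1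
    change f.1 (1 * (g : G)) = _
    rw [one_mul]
    exact h1⟩

theorem ev1_apply (B : Rep.{0} k P) (f : (Rep.coind P.subtype B).V) :
    (ev1 P B).hom f = f.1 1 := rfl

/-- the explicit Shapiro map `Hⁿ(G, Coind_P^G B) ⟶ Hⁿ(P, B)` -/
abbrev shap (B : Rep.{0} k P) (n : ℕ) :
    groupCohomology (Rep.coind P.subtype B) n ⟶ groupCohomology B n :=
  groupCohomology.map P.subtype (ev1 P B) n

/-- naturality of `ev1` -/
theorem ev1_naturality {B B' : Rep.{0} k P} (f : B ⟶ B') :
    (resFunctor P.subtype).map ((Rep.coindFunctor k P.subtype).map f) ≫ ev1 P B' =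
      ev1 P B ≫ f := by
  apply Rep.hom_ext
  ext x
  rfl

/-- naturality of the explicit Shapiro map -/
theorem shap_naturality {B B' : Rep.{0} k P} (f : B ⟶ B') (n : ℕ) :
    groupCohomology.map (MonoidHom.id G) ((Rep.coindFunctor k P.subtype).map f) n ≫ shap P B' n =
      shap P B n ≫ groupCohomology.map (MonoidHom.id P) f n := by
  change HomologicalComplex.homologyMap _ n ≫ HomologicalComplex.homologyMap _ n =
    HomologicalComplex.homologyMap _ n ≫ HomologicalComplex.homologyMap _ n
  rw [← HomologicalComplex.homologyMap_comp, ← HomologicalComplex.homologyMap_comp]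
  rfl

/-- the Shapiro map as a morphism of short complexes of cochain complexes -/
def shapShortComplexHom (X : ShortComplex (Rep.{0} k P)) :
    (X.map (Rep.coindFunctor k P.subtype)).map (cochainsFunctor k G) ⟶
      X.map (cochainsFunctor k P) where
  τ₁ := cochainsMap P.subtype (ev1 P X.X₁)
  τ₂ := cochainsMap P.subtype (ev1 P X.X₂)
  τ₃ := cochainsMap P.subtype (ev1 P X.X₃)
  comm₁₂ := rfl
  comm₂₃ := rfl

theorem delta_shap (X : ShortComplex (Rep.{0} k P)) (hX : X.ShortExact)
    (hXc : (X.map (Rep.coindFunctor k P.subtype)).ShortExact)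
    (i j : ℕ) (hij : i + 1 = j) :
    δ hXc i j hij ≫ shap P X.X₁ j = shap P X.X₃ i ≫ δ hX i j hij :=
  HomologicalComplex.HomologySequence.δ_naturality (shapShortComplexHom P X)
    (map_cochainsFunctor_shortExact hXc) (map_cochainsFunctor_shortExact hX) i j hij

/-- the coinduction functor is exact -/
theorem coind_shortExact (X : ShortComplex (Rep.{0} k P)) (hX : X.ShortExact) :
    (X.map (Rep.coindFunctor k P.subtype)).ShortExact := by
  have hinj : Function.Injective X.f.hom := (Rep.mono_iff_injective _).1 hX.mono_f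
  have hex := (H5AF.h5af_exact_iff X).1 hX.exact
  haveI : Epi X.g := hX.epi_g
  refine ShortComplex.ShortExact.mk' ((H5AF.h5af_exact_iff _).2 ?_)
    ((Rep.mono_iff_injective _).2 ?_) ?_
  · -- exactness in the middle
    intro f hf
    have hf' : ∀ x : G, X.g.hom (f.1 x) = 0 := fun x => congrFun (congrArg Subtype.val hf) x
    choose s hs using fun x : G => hex (f.1 x) (hf' x)
    refine ⟨⟨s, fun g x => hinj ?_⟩, Subtype.ext (funext hs)⟩
    rw [hs, Rep.hom_comm_apply X.f g (s x), hs]
    exact f.2 g x
  · -- injectivity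
    intro f f' hff
    apply Subtype.ext
    funext x
    exact hinj (congrFun (congrArg Subtype.val hff) x)
  · exact inferInstanceAs (Epi ((Rep.coindFunctor k P.subtype).map X.g))

/-- the explicit Shapiro map is surjective in degree `0` -/
theorem shap_surjective_zero (B : Rep.{0} k P) : Function.Surjective (shap P B 0) := by
  intro y
  have hb := H26AR.und_inv B y
  obtain ⟨w, hw⟩ := H26AR.exists_und (Rep.coind P.subtype B)
    (⟨fun _ => H26AR.und B y, fun g _ => (hb g).symm⟩ : (Rep.coind P.subtype B).V)
    (fun g => rfl)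
  refine ⟨w, H26AR.und_injective B ?_⟩
  have h1 := H26AR.und_map P.subtype (ev1 P B) w
  rw [hw] at h1
  exact h1

end general

section main
variable {G : Type} [Group G] [Finite G] (P : Subgroup G)

theorem shap_surjective_succ (n : ℕ)
    (ih : ∀ B : Rep.{0} ℤ P, Function.Surjective (shap P B n)) (B : Rep.{0} ℤ P) :
    Function.Surjective (shap P B (n + 1)) := by
  refine H26AR.rep_int_induction (G := P)
    (fun B => Function.Surjective (shap P B (n + 1))) ?_ B
  intro V _ ρ y
  have hX := H26AR.embSC_shortExact ρ
  have hXc := coind_shortExact P _ hX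
  have hepi : Epi (δ hX n (n + 1) rfl) := epi_δ_of_isZero hX n (H26AR.embSC_isZero ρ n)
  obtain ⟨z, rfl⟩ := (ModuleCat.epi_iff_surjective _).1 hepi y
  obtain ⟨w, rfl⟩ := ih (H26AR.embSC ρ).X₃ z
  refine ⟨(δ hXc n (n + 1) rfl).hom w, ?_⟩
  have h1 := congrArg (fun m => m.hom w) (delta_shap P _ hX hXc n (n + 1) rfl)
  exact h1

/-- **explicit Shapiro, surjectivity**: every class of `Hⁿ(P, B)` is the image of a class of
`Hⁿ(G, Coind_P^G B)` under restriction to `P` followed by evaluation at `1`. -/
theorem shap_surjective (B : Rep.{0} ℤ P) (n : ℕ) : Function.Surjective (shap P B n) := by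
  induction n generalizing B with
  | zero => exact shap_surjective_zero P B
  | succ n ih => exact shap_surjective_succ P n ih B

end main

end H25Syl
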