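/-
W2-C (S55) block A, wave 3, slice W3-Syl (helper25), part 2: naturality of the unit `ι`, the trace
`τ` and the explicit Shapiro map; orders; the restriction of a `p`-class module to a Sylow
`p`-subgroup is a class module; the trace `H²(G, Coind_P^G C) → H²(G, C)` is injective.
-/
import Mathlib
import Fermat.Agent.CFT2.A.Defs
import Fermat.Agent.CFT2.A.Defs3
import Fermat.Agent.CFT2.A.W3SylSh_helper25
import Fermat.Agent.CFT2.A.AV1_helper25
import Fermat.Agent.CFT2.A.W320_helper20

set_option autoImplicit false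
set_option linter.style.haveILetI false
set_option linter.unusedSectionVars false
noncomputable section
namespace H25Syl
open CategoryTheory Rep groupCohomology H20A

section order

/-- a homomorphism from a finite group of order `n` is injective as soon as the image of some
element has order divisible by `n` -/
theorem inj_of_order {Z W : Type} [AddCommGroup Z] [AddCommGroup W] (f : Z →+ W) (n : ℕ)
    (hn : 0 < n) (hcard : Nat.card Z = n) (z₀ : Z)
    (h : ∀ k : ℤ, k • f z₀ = 0 → (n : ℤ) ∣ k) : Function.Injective f := by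
  haveI : Finite Z := Nat.finite_of_card_ne_zero (by omega)
  have h1 : n ∣ addOrderOf z₀ := by
    have h2 : ((addOrderOf z₀ : ℕ) : ℤ) • f z₀ = 0 := by
      rw [natCast_zsmul, ← map_nsmul, addOrderOf_nsmul_eq_zero, map_zero]
    exact Int.natCast_dvd_natCast.1 (h _ h2)
  have h3 : addOrderOf z₀ ∣ n := hcard ▸ addOrderOf_dvd_natCard z₀
  have h4 : addOrderOf z₀ = n := Nat.dvd_antisymm h3 h1
  have h5 : AddSubgroup.zmultiples z₀ = ⊤ :=
    AddSubgroup.eq_top_of_card_eq _ (by rw [Nat.card_zmultiples, h4, hcard])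
  rw [injective_iff_map_eq_zero]
  intro z hz
  have h6 : z ∈ AddSubgroup.zmultiples z₀ := by rw [h5]; trivial
  obtain ⟨k, rfl⟩ := AddSubgroup.mem_zmultiples_iff.1 h6
  rw [map_zsmul] at hz
  obtain ⟨j, rfl⟩ := h k hz
  have h7 : (n : ℤ) • z₀ = 0 := by
    rw [natCast_zsmul, ← hcard]
    exact card_nsmul_eq_zero'
  rw [mul_comm, mul_smul, h7, smul_zero]

/-- an element killed by two coprime integers vanishes -/
theorem eq_zero_of_coprime_nsmul {M : Type} [AddCommGroup M] (u : M) (a b : ℕ)
    (hab : a.Coprime b) (ha : a • u = 0) (hb : b • u = 0) : u = 0 := by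
  have h1 : IsCoprime (a : ℤ) (b : ℤ) := Nat.isCoprime_iff_coprime.2 hab
  obtain ⟨x, y, hxy⟩ := h1
  have h2 : ((x * a + y * b : ℤ)) • u = 0 := by
    rw [add_smul, mul_smul, mul_smul, natCast_zsmul, natCast_zsmul, ha, hb, smul_zero, smul_zero,
      add_zero]
  rw [hxy, one_smul] at h2
  exact h2

end order

section natk
variable {k : Type} [CommRing k] {G : Type} [Group G] [Finite G] (P : Subgroup G)

/-- naturality of the trace (generic coefficients) -/
theorem tau_naturality' {A B : Rep.{0} k G} (b : A ⟶ B) :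
    (Rep.coindFunctor k P.subtype).map ((resFunctor P.subtype).map b) ≫ H26AR.tau B P =
      H26AR.tau A P ≫ b := by
  letI : Fintype (G ⧸ P) := Fintype.ofFinite _
  ext f
  change (H26AR.tau B P).hom (((Rep.coindFunctor k P.subtype).map
    ((resFunctor P.subtype).map b)).hom f) = b.hom ((H26AR.tau A P).hom f)
  rw [H26AR.tau_apply, H26AR.tau_apply, map_sum]
  refine Finset.sum_congr rfl (fun c _ => ?_)
  induction c using QuotientGroup.induction_on with
  | H u =>
    rw [H26AR.tauSummand_mk, H26AR.tauSummand_mk]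
    exact (Rep.hom_comm_apply b u _).symm

/-- the explicit Shapiro map after the unit is the restriction (generic coefficients) -/
theorem iota_shap' (A : Rep.{0} k G) (n : ℕ) :
    groupCohomology.map (MonoidHom.id G) (H26AR.iota A P) n ≫ shap P (Rep.res P.subtype A) n =
      groupCohomology.map P.subtype (𝟙 (Rep.res P.subtype A)) n := by
  rw [← groupCohomology.map_comp]
  refine groupCohomology.map_congr rfl (LinearMap.ext fun a => ?_) n
  change A.ρ 1 a = a
  rw [map_one]
  rfl

end natk

section nat
variable {G : Type} [Group G] [Finite G] (P : Subgroup G)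

/-- naturality of the trace -/
theorem tau_naturality {A B : Rep.{0} ℤ G} (b : A ⟶ B) :
    (Rep.coindFunctor ℤ P.subtype).map ((resFunctor P.subtype).map b) ≫ H26AR.tau B P =
      H26AR.tau A P ≫ b := tau_naturality' P b

/-- the explicit Shapiro map after the unit is the restriction -/
theorem shap_iota (A : Rep.{0} ℤ G) (n : ℕ) (x : groupCohomology A n) :
    shap P (resSub A P) n (cohMap (H26AR.iota A P) n x) = resCoh A P n x :=
  congrArg (fun m => m.hom x) (iota_shap' P A n)

/-- naturality of the explicit Shapiro map, elementwise -/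
theorem shap_cohMap {B B' : Rep.{0} ℤ P} (f : B ⟶ B') (n : ℕ)
    (x : groupCohomology (Rep.coind P.subtype B) n) :
    shap P B' n (cohMap ((Rep.coindFunctor ℤ P.subtype).map f) n x) =
      cohMap f n (shap P B n x) :=
  congrArg (fun m => m.hom x) (shap_naturality P f n)

/-- `τ_* ι_* = [G : P]` -/
theorem cohMap_tau_iota (A : Rep.{0} ℤ G) (n : ℕ) (x : groupCohomology A n) :
    cohMap (H26AR.tau A P) n (cohMap (H26AR.iota A P) n x) = (P.index : ℤ) • x := by
  rw [← H20W3.h20p_cohMap_comp, H26AR.iota_tau, ← natCast_zsmul, H20W3.h20p_cohMap_zsmul]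

end nat

section card
variable {G : Type} [Group G] [Finite G] (P : Subgroup G)

/-- `|G|` kills `Hⁿ⁺¹(G, A)` -/
theorem card_nsmul_coh (A : Rep.{0} ℤ G) (n : ℕ) (x : groupCohomology A (n + 1)) :
    Nat.card G • x = 0 := by
  have h1 := H26AR.h26ar_indexKillsCoh G A (⊥ : Subgroup G) (n + 1) x
  rw [Subgroup.index_bot] at h1
  apply h1
  have hz : Limits.IsZero (groupCohomology (resSub A (⊥ : Subgroup G)) (n + 1)) :=
    isZero_groupCohomology_succ_of_subsingleton _ n
  have h2 : groupCohomology.map (⊥ : Subgroup G).subtype (𝟙 (resSub A ⊥)) (n + 1) = 0 :=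
    hz.eq_of_tgt _ _
  change (groupCohomology.map (⊥ : Subgroup G).subtype (𝟙 (resSub A ⊥)) (n + 1)).hom x = 0
  rw [h2]
  rfl

/-- `|Hⁿ(G, Coind_P^G B)| = |Hⁿ(P, B)|` (Shapiro) -/
theorem card_coind (B : Rep.{0} ℤ P) (n : ℕ) :
    Nat.card (groupCohomology (Rep.coind P.subtype B) n) = Nat.card (groupCohomology B n) :=
  Nat.card_congr (groupCohomology.coindIso B n).toLinearEquiv.toEquiv

/-- `|P|` kills `Hⁿ⁺¹(G, Coind_P^G B)` -/
theorem card_nsmul_coind (B : Rep.{0} ℤ P) (n : ℕ)
    (x : groupCohomology (Rep.coind P.subtype B) (n + 1)) : Nat.card P • x = 0 := by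
  have e := (groupCohomology.coindIso B (n + 1)).toLinearEquiv
  apply e.injective
  rw [map_nsmul, map_zero]
  exact card_nsmul_coh (G := P) B n (e x)

end card

section classmod
variable {k : Type} [CommRing k] {G : Type} [Group G]

/-- compatibility of `cohResRes'` with the restrictions (generic coefficients) -/
theorem resRes_res' (A : Rep.{0} k G) (P : Subgroup G) (H' : Subgroup P) (n : ℕ) :
    groupCohomology.map P.subtype (𝟙 (Rep.res P.subtype A)) n ≫
      groupCohomology.map H'.subtype (𝟙 (Rep.res H'.subtype (Rep.res P.subtype A))) n ≫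
        (H25AV.cohResRes' A P H' n).hom =
      groupCohomology.map (H'.map P.subtype).subtype
        (𝟙 (Rep.res (H'.map P.subtype).subtype A)) n := by
  change _ ≫ _ ≫ groupCohomology.map _ _ n = _
  rw [← groupCohomology.map_comp, ← groupCohomology.map_comp]
  refine groupCohomology.map_congr ?_ ?_ n
  · ext x
    obtain ⟨y, rfl⟩ := (H'.equivMapOfInjective P.subtype P.subtype_injective).surjective x
    simp
  · exact LinearMap.ext fun a => rfl

end classmod

section classmodInt
variable {G : Type} [Group G] [Finite G]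

theorem resRes_resCoh (C : Rep.{0} ℤ G) (P : Subgroup G) (H' : Subgroup P) (n : ℕ)
    (γ : groupCohomology C n) :
    (H25AV.cohResRes C P H' n).hom (resCoh (resSub C P) H' n (resCoh C P n γ)) =
      resCoh C (H'.map P.subtype) n γ :=
  congrArg (fun m => m.hom γ) (resRes_res' C P H' n)

/-- the restriction of a `p`-class module to a `p`-subgroup is a class module -/
theorem isClassModule_res (p : ℕ) [Fact p.Prime] (C : Rep.{0} ℤ G) (γ : groupCohomology C 2)
    (hC : IsPClassModule p C γ) (P : Subgroup G) (hP : IsPGroup p P) :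
    IsClassModule (resSub C P) (resCoh C P 2 γ) where
  h1 := fun H' => (hC.h1 (H'.map P.subtype) ((hP.to_subgroup H').map P.subtype)).of_iso
    (H25AV.cohResRes C P H' 1)
  card := fun H' => by
    rw [Nat.card_congr (H25AV.cohResRes C P H' 2).toLinearEquiv.toEquiv,
      hC.card _ ((hP.to_subgroup H').map P.subtype)]
    exact Nat.card_congr (H'.equivMapOfInjective P.subtype P.subtype_injective).symm.toEquiv
  gen := fun H' x => by
    obtain ⟨j, hj⟩ := hC.gen (H'.map P.subtype) ((hP.to_subgroup H').map P.subtype)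
      ((H25AV.cohResRes C P H' 2).hom x)
    refine ⟨j, ?_⟩
    apply (H25AV.cohResRes C P H' 2).toLinearEquiv.injective
    change (H25AV.cohResRes C P H' 2).hom x = (H25AV.cohResRes C P H' 2).hom _
    rw [hj, map_zsmul, resRes_resCoh]

/-- for a `p`-class module `C` and a Sylow `p`-subgroup `P`, the trace
`H²(G, Coind_P^G C) → H²(G, C)` is injective -/
theorem tau_injective (p : ℕ) [hp : Fact p.Prime] (C : Rep.{0} ℤ G) (γ : groupCohomology C 2)
    (hC : IsPClassModule p C γ) (P : Sylow p G) :
    Function.Injective (cohMap (H26AR.tau C (P : Subgroup G)) 2) := by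
  have hP : IsPGroup p (P : Subgroup G) := P.isPGroup'
  have hcardP := hC.card P hP
  have hpos : 0 < Nat.card (P : Subgroup G) := Nat.card_pos
  refine inj_of_order _ (Nat.card (P : Subgroup G)) hpos
    ((card_coind (P : Subgroup G) (resSub C P) 2).trans hcardP)
    (cohMap (H26AR.iota C (P : Subgroup G)) 2 γ) ?_
  intro j hj
  rw [cohMap_tau_iota] at hj
  have h2 : (j * ((P : Subgroup G).index : ℤ)) • resCoh C P 2 γ = 0 := by
    rw [mul_smul, ← map_zsmul, ← map_zsmul, hj, map_zero]
  have h3 := H20W3.h20p_card_dvd_of_zsmul_eq_zero (resCoh C P 2 γ) (hC.gen P hP)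
    (Nat.card (P : Subgroup G)) hcardP _ h2
  obtain ⟨a, ha⟩ := hP.exists_card_eq
  have hnd : ¬ p ∣ (P : Subgroup G).index := P.not_dvd_index
  have hcop : Nat.Coprime (Nat.card (P : Subgroup G)) (P : Subgroup G).index := by
    rw [ha]
    exact Nat.Coprime.pow_left a ((Nat.Prime.coprime_iff_not_dvd hp.out).2 hnd)
  exact (Nat.isCoprime_iff_coprime.2 hcop).dvd_of_dvd_mul_right h3

end classmodInt

end H25Syl
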