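/-
W2-C (S55) block A, wave 3, slice **W3-Syl** (helper25): Sylow reduction of Nakayama–Tate duality.

* `H25Syl.helper25_ntRight_of : (∀ H, NT0RightStatement H) → ∀ G, NTRightStatement G`
* `H25Syl.helper25_ntLeft_of  : (∀ H, NT0LeftStatement H)  → ∀ G, NTLeftStatement G`

For a `p`-class module `(C, γ)` of `G` and a Sylow `p`-subgroup `P`, `(C|P, res γ)` is a class
module of `P`, and the trace `τ : H²(G, Coind_P^G C) → H²(G, C)` is injective.
NT-R: `u ≠ 0` `p`-primary ⇒ `res_P u ≠ 0` (AR1) ⇒ `b'_* res u ≠ 0` for some `b' ∈ Hom_P(R, C)`;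
`b = τ ∘ Coind(b') ∘ ι` works.  NT-L: `b` kills the `p`-primary classes ⇒ `b|P` kills `H²(P, R)`
(explicit Shapiro surjectivity) ⇒ `b|P = N_P f` ⇒ `[G : P] b = N_G f`.
-/
import Mathlib
import Fermat.Agent.CFT2.A.Defs
import Fermat.Agent.CFT2.A.Defs3
import Fermat.Agent.CFT2.A.W3SylSh_helper25
import Fermat.Agent.CFT2.A.W3SylNat_helper25
import Fermat.Agent.CFT2.A.ARLow_helper26

set_option autoImplicit false
set_option linter.style.haveILetI false
set_option linter.unusedSectionVars false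
noncomputable section
namespace H25Syl
open CategoryTheory Rep groupCohomology H20A

variable {G : Type} [Group G] [Finite G]

section NTR
variable {V R : Type} [AddCommGroup V] [AddCommGroup R]
  (ρV : Representation ℤ G V) (ρR : Representation ℤ G R) (P : Subgroup G)

/-- the `G`-morphism `τ ∘ Coind(b') ∘ ι` attached to a `P`-morphism `b'` -/
def trHom (b' : Rep.of (ρR.comp P.subtype) ⟶ Rep.of (ρV.comp P.subtype)) :
    Rep.of ρR ⟶ Rep.of ρV :=
  H26AR.iota (Rep.of ρR) P ≫ (Rep.coindFunctor ℤ P.subtype).map b' ≫ H26AR.tau (Rep.of ρV) P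

theorem cohMap_trHom (b' : Rep.of (ρR.comp P.subtype) ⟶ Rep.of (ρV.comp P.subtype)) (n : ℕ)
    (u : groupCohomology (Rep.of ρR) n) :
    cohMap (trHom ρV ρR P b') n u =
      cohMap (H26AR.tau (Rep.of ρV) P) n
        (cohMap ((Rep.coindFunctor ℤ P.subtype).map b') n
          (cohMap (H26AR.iota (Rep.of ρR) P) n u)) := by
  unfold trHom
  rw [H20W3.h20p_cohMap_comp, H20W3.h20p_cohMap_comp]

end NTR

/-- **W3-Syl, NT-R**: NT-R for `p`-class modules from NT₀-R for the Sylow `p`-subgroups. -/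
theorem helper25_ntRight_of
    (hNT0 : ∀ (H : Type) [Group H] [Finite H], NT0RightStatement H)
    (G : Type) [Group G] [Finite G] : NTRightStatement G := by
  intro p _ V _ ρV γ hC R _ _ _ ρR u hu hk
  obtain ⟨k, hk⟩ := hk
  obtain ⟨P⟩ : Nonempty (Sylow p G) := inferInstance
  have hP : IsPGroup p (P : Subgroup G) := P.isPGroup'
  have hnd : ¬ p ∣ (P : Subgroup G).index := P.not_dvd_index
  -- `res_P u ≠ 0`
  have hres : resCoh (Rep.of ρR) (P : Subgroup G) 2 u ≠ 0 := by
    intro h0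
    have h1 := H26AR.h26ar_indexKillsCoh G (Rep.of ρR) (P : Subgroup G) 2 u h0
    exact hu (eq_zero_of_coprime_nsmul u _ _
      (Nat.Coprime.pow_left k ((Nat.Prime.coprime_iff_not_dvd Fact.out).2 hnd)) hk h1)
  have hCP := isClassModule_res p (Rep.of ρV) γ hC (P : Subgroup G) hP
  obtain ⟨b', hb', hne⟩ := hNT0 (P : Subgroup G) V (ρV.comp (P : Subgroup G).subtype)
    (resCoh (Rep.of ρV) (P : Subgroup G) 2 γ) hCP R (ρR.comp (P : Subgroup G).subtype)
    (resCoh (Rep.of ρR) (P : Subgroup G) 2 u) hres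
  set β := repHom (ρR.comp (P : Subgroup G).subtype) (ρV.comp (P : Subgroup G).subtype) b' hb'
    with hβ
  set bG := trHom ρV ρR (P : Subgroup G) β with hbG
  refine ⟨(bG.hom.toLinearMap : R →ₗ[ℤ] V).toAddMonoidHom,
    fun g r => Rep.hom_comm_apply bG g r, ?_⟩
  have hrep : repHom ρR ρV (bG.hom.toLinearMap : R →ₗ[ℤ] V).toAddMonoidHom
      (fun g r => Rep.hom_comm_apply bG g r) = bG := by
    ext r
    rfl
  rw [hrep, hbG, cohMap_trHom]
  intro h0
  have h1 := tau_injective p (Rep.of ρV) γ hC P (h0.trans (map_zero _).symm)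
  have e1 := shap_cohMap (P : Subgroup G) β 2 (cohMap (H26AR.iota (Rep.of ρR) P) 2 u)
  have e2 := shap_iota (P : Subgroup G) (Rep.of ρR) 2 u
  rw [h1, map_zero] at e1
  exact hne ((congrArg (cohMap β 2) e2).symm.trans e1.symm)

/-- **W3-Syl, NT-L**: NT-L for `p`-class modules from NT₀-L for the Sylow `p`-subgroups. -/
theorem helper25_ntLeft_of
    (hNT0 : ∀ (H : Type) [Group H] [Finite H], NT0LeftStatement H)
    (G : Type) [Group G] [Finite G] : NTLeftStatement G := by
  intro p _ V _ ρV γ hC R _ _ _ ρR b hb hkill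
  obtain ⟨P⟩ : Nonempty (Sylow p G) := inferInstance
  have hP : IsPGroup p (P : Subgroup G) := P.isPGroup'
  have hnd : ¬ p ∣ (P : Subgroup G).index := P.not_dvd_index
  have hCP := isClassModule_res p (Rep.of ρV) γ hC (P : Subgroup G) hP
  have hbP : ∀ (g : (P : Subgroup G)) (r : R),
      b ((ρR.comp (P : Subgroup G).subtype) g r) = (ρV.comp (P : Subgroup G).subtype) g (b r) :=
    fun g r => hb g r
  set β := repHom (ρR.comp (P : Subgroup G).subtype) (ρV.comp (P : Subgroup G).subtype) b hbP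
    with hβ
  set bG := repHom ρR ρV b hb with hbG
  -- `b|P` kills `H²(P, R)`
  have hkey : ∀ y : groupCohomology (Rep.of (ρR.comp (P : Subgroup G).subtype)) 2,
      cohMap β 2 y = 0 := by
    intro y
    obtain ⟨x, rfl⟩ := shap_surjective (P : Subgroup G)
      (Rep.of (ρR.comp (P : Subgroup G).subtype)) 2 y
    obtain ⟨a, ha⟩ := hP.exists_card_eq
    have hx : (p ^ a) • cohMap (H26AR.tau (Rep.of ρR) (P : Subgroup G)) 2 x = 0 := by
      rw [← map_nsmul, ← ha]
      have := card_nsmul_coind (P : Subgroup G) (Rep.of (ρR.comp (P : Subgroup G).subtype)) 1 x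
      rw [this, map_zero]
    have h1 := hkill _ ⟨a, hx⟩
    have hnat : (Rep.coindFunctor ℤ (P : Subgroup G).subtype).map β ≫
        H26AR.tau (Rep.of ρV) (P : Subgroup G) = H26AR.tau (Rep.of ρR) (P : Subgroup G) ≫ bG :=
      tau_naturality (P : Subgroup G) bG
    have h2 : cohMap (H26AR.tau (Rep.of ρV) (P : Subgroup G)) 2
        (cohMap ((Rep.coindFunctor ℤ (P : Subgroup G).subtype).map β) 2 x) = 0 := by
      rw [← H20W3.h20p_cohMap_comp, hnat, H20W3.h20p_cohMap_comp]
      exact h1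
    have h3 := tau_injective p (Rep.of ρV) γ hC P (h2.trans (map_zero _).symm)
    have e1 := shap_cohMap (P : Subgroup G) β 2 x
    rw [h3, map_zero] at e1
    exact e1.symm
  obtain ⟨f, hf⟩ := hNT0 (P : Subgroup G) V (ρV.comp (P : Subgroup G).subtype)
    (resCoh (Rep.of ρV) (P : Subgroup G) 2 γ) hCP R (ρR.comp (P : Subgroup G).subtype) b hbP hkey
  refine ⟨(P : Subgroup G).index, f, hnd, ?_⟩
  have hf' : normOf ((homRep ρR ρV).comp (P : Subgroup G).subtype) f = b.toIntLinearMap :=
    hf.symm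
  have hinv : ∀ g : G, (homRep ρR ρV) g
      (normOf ((homRep ρR ρV).comp (P : Subgroup G).subtype) f) =
      normOf ((homRep ρR ρV).comp (P : Subgroup G).subtype) f := by
    intro g
    rw [hf']
    apply LinearMap.ext
    intro r
    rw [Representation.linHom_apply]
    change ρV g (b (ρR g⁻¹ r)) = b r
    rw [← hb, ← Module.End.mul_apply, ← map_mul, mul_inv_cancel, map_one]
    rfl
  rw [H26AR.normOf_eq_index_nsmul (homRep ρR ρV) (P : Subgroup G) f hinv, hf']

end H25Syl
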