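/-
W2-C (S55) block A, wave 3, slice **W3-Syl** (helper25), FINAL: the `p`-versions of
Nakayama–Tate duality, unconditionally (NT₀ by helper20, `Final_helper20.lean`).

* `H25Syl.helper25_ntRight G : H20A.NTRightStatement G`
* `H25Syl.helper25_ntLeft G  : H20A.NTLeftStatement G`
-/
import Fermat.Agent.CFT2.A.W3Syl_helper25
import Fermat.Agent.CFT2.A.Final_helper20

set_option autoImplicit false

namespace H25Syl

/-- **NT-R** (block E deliverable), unconditional -/
theorem helper25_ntRight (G : Type) [Group G] [Finite G] : H20A.NTRightStatement G :=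
  helper25_ntRight_of (fun H _ _ => H20W3.h20_nt0Right_final H) G

/-- **NT-L** (block E deliverable), unconditional -/
theorem helper25_ntLeft (G : Type) [Group G] [Finite G] : H20A.NTLeftStatement G :=
  helper25_ntLeft_of (fun H _ _ => H20W3.h20_nt0Left_final H) G

end H25Syl
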